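/-
Project M59, Sink B (`m59t_Eq2_stmt`), cell (G2') [DELTA] (helper17; tag `m59dl_`), part 2:
THE ABSTRACT RESIDUE DATUM AND ITS CALCULUS.

`A` a valuation subring of `ℚ̄`, `kA` its residue field, `F̄_N = modularFunctionFieldBar N`,
`FF_M = s44e_FF A M = lg_F kA M` (the Prelude's special-fibre function field of level `M`).

* `m59dl_Res A M N` : a valuation subring `V` of `F̄_N` over `A` with a residue homomorphism
  `res : V →+* FF_M` whose kernel is the maximal ideal, compatible with the constants, and such that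
  every nonzero function has a constant multiple which is a unit of `V` (`nrm`).
  (Instances: the Gauss valuation at `∞` (`A`), its Atkin–Lehner mirror (`B`), the third valuation
  (`C`) of level `N' q q`, with `M = N'`.)
* `m59dl_RedOf R f fb` : `fb` is the `R`-residue of `f`; calculus `_mul`, `_one`, `_inv`, `_pow`,
  `_unique`, `_const`, `m59dl_exists_redOf_of_unit`;
* `m59dl_Fbar R m z fb` : `fb ≠ 0` is the `R`-residue of a representative `f` of `z`
  (`div f = m D`, `[D] = z`);  existence, uniqueness up to `m`-th powers, multiplicativity.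

Twin of the first half of `TW/Easy/Res/Defs.lean` (helper20) with `s44e_RedOf` replaced by the datum.
-/
import Mathlib
import Fermat.Agent.TW.Easy.ResHecke
import Fermat.Agent.TW.Easy.ResHecke.Star

set_option autoImplicit false
set_option linter.unusedSectionVars false
set_option linter.style.haveILetI false

noncomputable section

namespace Fermat.Agent.M59

open ModularCurve AlgebraicCurve IsLocalRing Fermat.Agent.JT3 Fermat.Agent.S35 Fermat.Agent.SS
  Fermat.Agent.S24 Fermat.Agent.SS2 Fermat.Agent.S44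

local notation "Qb" => AlgebraicClosure ℚ

/-- **an abstract residue datum** at level `N` with residue function field of level `M`. -/
structure m59dl_Res (A : ValuationSubring Qb) (M N : ℕ) [NeZero M] [NeZero N] where
  /-- the valuation subring -/
  V : ValuationSubring ↥(modularFunctionFieldBar N)
  /-- the residue homomorphism -/
  res : ↥V →+* ↥(s44e_FF A M)
  ker : ∀ x : ↥V, res x = 0 ↔ (x : ↥(modularFunctionFieldBar N)) ∈ V.nonunits
  const_mem : ∀ c : Qb, algebraMap Qb ↥(modularFunctionFieldBar N) c ∈ V ↔ c ∈ A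
  res_const : ∀ (c : Qb) (hc : c ∈ A) (h : algebraMap Qb ↥(modularFunctionFieldBar N) c ∈ V),
    res ⟨algebraMap Qb ↥(modularFunctionFieldBar N) c, h⟩ =
      algebraMap (s44e_kA A) ↥(s44e_FF A M) (residue ↥A ⟨c, hc⟩)
  nrm : ∀ f : ↥(modularFunctionFieldBar N), f ≠ 0 → ∃ c : Qb, c ≠ 0 ∧
    algebraMap Qb ↥(modularFunctionFieldBar N) c * f ∈ V ∧
    (algebraMap Qb ↥(modularFunctionFieldBar N) c * f)⁻¹ ∈ V

section Calc

variable {A : ValuationSubring Qb} {M N : ℕ} [NeZero M] [NeZero N] (R : m59dl_Res A M N)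

/-- `fb` is the `R`-residue of `f`. -/
def m59dl_RedOf (f : ↥(modularFunctionFieldBar N)) (fb : ↥(s44e_FF A M)) : Prop :=
  ∃ h : f ∈ R.V, R.res ⟨f, h⟩ = fb

theorem m59dl_redOf_mul {f f' : ↥(modularFunctionFieldBar N)} {fb fb' : ↥(s44e_FF A M)}
    (h : m59dl_RedOf R f fb) (h' : m59dl_RedOf R f' fb') : m59dl_RedOf R (f * f') (fb * fb') := by
  obtain ⟨hb, e⟩ := h
  obtain ⟨hb', e'⟩ := h'
  refine ⟨R.V.mul_mem _ _ hb hb', ?_⟩
  have h1 : (⟨f * f', R.V.mul_mem _ _ hb hb'⟩ : ↥R.V) = ⟨f, hb⟩ * ⟨f', hb'⟩ := rfl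
  rw [h1, map_mul, e, e']

theorem m59dl_redOf_one : m59dl_RedOf R (1 : ↥(modularFunctionFieldBar N)) 1 := by
  refine ⟨R.V.one_mem, ?_⟩
  have h1 : (⟨1, R.V.one_mem⟩ : ↥R.V) = 1 := rfl
  rw [h1, map_one]

theorem m59dl_redOf_pow {f : ↥(modularFunctionFieldBar N)} {fb : ↥(s44e_FF A M)}
    (h : m59dl_RedOf R f fb) (n : ℕ) : m59dl_RedOf R (f ^ n) (fb ^ n) := by
  induction n with
  | zero => rw [pow_zero, pow_zero]; exact m59dl_redOf_one R
  | succ n ih => rw [pow_succ, pow_succ]; exact m59dl_redOf_mul R ih h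

theorem m59dl_redOf_unique {f : ↥(modularFunctionFieldBar N)} {fb fb' : ↥(s44e_FF A M)}
    (h : m59dl_RedOf R f fb) (h' : m59dl_RedOf R f fb') : fb = fb' := by
  obtain ⟨hb, e⟩ := h
  obtain ⟨hb', e'⟩ := h'
  exact e.symm.trans e'

/-- a function with nonzero residue is a unit of `V`. -/
theorem m59dl_unit_of_redOf {f : ↥(modularFunctionFieldBar N)} {fb : ↥(s44e_FF A M)}
    (h : m59dl_RedOf R f fb) (hfb : fb ≠ 0) : f ≠ 0 ∧ f⁻¹ ∈ R.V := by
  obtain ⟨hb, e⟩ := h
  have h1 : ¬ f ∈ R.V.nonunits := by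
    intro hn
    exact hfb (e.symm.trans ((R.ker ⟨f, hb⟩).2 hn))
  rw [ValuationSubring.mem_nonunits_iff_or, not_or, not_not] at h1
  exact h1

theorem m59dl_redOf_inv {f : ↥(modularFunctionFieldBar N)} {fb : ↥(s44e_FF A M)}
    (h : m59dl_RedOf R f fb) (hfb : fb ≠ 0) : m59dl_RedOf R f⁻¹ fb⁻¹ := by
  obtain ⟨hf0, hinv⟩ := m59dl_unit_of_redOf R h hfb
  obtain ⟨hb, e⟩ := h
  refine ⟨hinv, ?_⟩
  have hmul : (⟨f, hb⟩ : ↥R.V) * ⟨f⁻¹, hinv⟩ = 1 := Subtype.ext (mul_inv_cancel₀ hf0)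
  have h1 := congrArg R.res hmul
  rw [map_mul, map_one, e] at h1
  exact eq_inv_of_mul_eq_one_right h1

/-- the residue of a constant of `A`. -/
theorem m59dl_redOf_const (c : Qb) (hc : c ∈ A) :
    m59dl_RedOf R (algebraMap Qb ↥(modularFunctionFieldBar N) c)
      (algebraMap (s44e_kA A) ↥(s44e_FF A M) (residue ↥A ⟨c, hc⟩)) :=
  ⟨(R.const_mem c).2 hc, R.res_const c hc _⟩

/-- a constant with a residue lies in `A`. -/
theorem m59dl_const_mem_of_redOf {c : Qb} {fb : ↥(s44e_FF A M)}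
    (h : m59dl_RedOf R (algebraMap Qb ↥(modularFunctionFieldBar N) c) fb) : c ∈ A :=
  (R.const_mem c).1 h.1

/-- a unit of `V` has a nonzero residue. -/
theorem m59dl_exists_redOf_of_unit {f : ↥(modularFunctionFieldBar N)} (h1 : f ∈ R.V)
    (h2 : f⁻¹ ∈ R.V) (hf0 : f ≠ 0) : ∃ fb : ↥(s44e_FF A M), fb ≠ 0 ∧ m59dl_RedOf R f fb := by
  refine ⟨R.res ⟨f, h1⟩, ?_, h1, rfl⟩
  intro h0
  have hn := (R.ker ⟨f, h1⟩).1 h0
  rw [ValuationSubring.mem_nonunits_iff_or] at hn
  rcases hn with hn | hn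
  · exact hf0 hn
  · exact hn h2

end Calc

/-! ### residues of representatives -/

section Fbar

variable {A : ValuationSubring Qb} {M N : ℕ} [NeZero M] [NeZero N] (R : m59dl_Res A M N)

/-- `fb ≠ 0` is the `R`-residue of a representative of `z` for the exponent `m`. -/
def m59dl_Fbar (m : ℕ) (z : JZero N) (fb : ↥(s44e_FF A M)) : Prop :=
  fb ≠ 0 ∧ ∃ f : ↥(modularFunctionFieldBar N), s44f_Rep N m z f ∧ m59dl_RedOf R f fb

/-- **existence.** -/
theorem m59dl_fbar_exists {m : ℕ} {z : JZero N} (hz : m • z = 0) :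
    ∃ fb, m59dl_Fbar R m z fb := by
  obtain ⟨f, hf⟩ := s44b_rep_exists N hz
  obtain ⟨c, hc0, h1, h2⟩ := R.nrm f hf.1
  have hf10 : algebraMap Qb ↥(modularFunctionFieldBar N) c * f ≠ 0 :=
    mul_ne_zero ((_root_.map_ne_zero _).2 hc0) hf.1
  obtain ⟨fb, hfb0, hfb⟩ := m59dl_exists_redOf_of_unit R h1 h2 hf10
  refine ⟨fb, hfb0, _, ?_, hfb⟩
  have := (s44b_rep_pth N (p := m) (z := z) (f := f) (c := c)
    (h := (1 : ↥(modularFunctionFieldBar N))) hc0 one_ne_zero).2 hf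
  rwa [one_pow, mul_one] at this

/-- multiplicativity. -/
theorem m59dl_fbar_mul {m : ℕ} {z z' : JZero N} {fb fb' : ↥(s44e_FF A M)}
    (h : m59dl_Fbar R m z fb) (h' : m59dl_Fbar R m z' fb') :
    m59dl_Fbar R m (z + z') (fb * fb') := by
  obtain ⟨hfb0, f, hf, hred⟩ := h
  obtain ⟨hfb0', f', hf', hred'⟩ := h'
  exact ⟨mul_ne_zero hfb0 hfb0', f * f', s44b_rep_mul N hf hf', m59dl_redOf_mul R hred hred'⟩

/-- the residue `1` for the class `0`. -/
theorem m59dl_fbar_zero (m : ℕ) : m59dl_Fbar R m (0 : JZero N) 1 := by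
  refine ⟨one_ne_zero, 1, ?_, m59dl_redOf_one R⟩
  have := s44b_rep_zero_of N (p := m) (c := (1 : Qb)) (h := (1 : ↥(modularFunctionFieldBar N)))
    one_ne_zero one_ne_zero
  rwa [map_one, one_pow, mul_one] at this

/-- powers. -/
theorem m59dl_fbar_nsmul {m : ℕ} {z : JZero N} {fb : ↥(s44e_FF A M)}
    (h : m59dl_Fbar R m z fb) (k : ℕ) : m59dl_Fbar R m (k • z) (fb ^ k) := by
  induction k with
  | zero => rw [zero_nsmul, pow_zero]; exact m59dl_fbar_zero R m
  | succ k ih => rw [succ_nsmul, pow_succ]; exact m59dl_fbar_mul R ih h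

/-- **uniqueness up to `m`-th powers** (`kA` algebraically closed). -/
theorem m59dl_fbar_unique [IsAlgClosed (s44e_kA A)] {m : ℕ} (hm : 0 < m) {z : JZero N}
    {fb fb' : ↥(s44e_FF A M)} (h : m59dl_Fbar R m z fb) (h' : m59dl_Fbar R m z fb') :
    ∃ g : ↥(s44e_FF A M), g ≠ 0 ∧ fb' = g ^ m * fb := by
  obtain ⟨hfb0, f, hf, hred⟩ := h
  obtain ⟨hfb0', f', hf', hred'⟩ := h'
  obtain ⟨c, u, hc0, hu0, e⟩ := s44b_rep_unique N hf hf'
  obtain ⟨d, hd0, hu1, hu2⟩ := R.nrm u hu0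
  set u1 := algebraMap Qb ↥(modularFunctionFieldBar N) d * u with hu1def
  have hu10 : u1 ≠ 0 := mul_ne_zero ((_root_.map_ne_zero _).2 hd0) hu0
  obtain ⟨ub, hub0, hub⟩ := m59dl_exists_redOf_of_unit R hu1 hu2 hu10
  -- the constant
  set c' : Qb := c / d ^ m with hc'
  have e' : f' = algebraMap Qb ↥(modularFunctionFieldBar N) c' * (f * u1 ^ m) := by
    rw [e, hu1def, hc', map_div₀, map_pow, mul_pow]
    have hd' : algebraMap Qb ↥(modularFunctionFieldBar N) d ≠ 0 :=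
      (_root_.map_ne_zero _).2 hd0
    field_simp
  have hfu : m59dl_RedOf R (f * u1 ^ m) (fb * ub ^ m) :=
    m59dl_redOf_mul R hred (m59dl_redOf_pow R hub m)
  have hfu0 : fb * ub ^ m ≠ 0 := mul_ne_zero hfb0 (pow_ne_zero _ hub0)
  have hinv := m59dl_redOf_inv R hfu hfu0
  have hcW : m59dl_RedOf R (algebraMap Qb ↥(modularFunctionFieldBar N) c')
      (fb' * (fb * ub ^ m)⁻¹) := by
    have h1 := m59dl_redOf_mul R hred' hinv
    have h2 : f' * (f * u1 ^ m)⁻¹ = algebraMap Qb ↥(modularFunctionFieldBar N) c' := by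
      have : f * u1 ^ m ≠ 0 := mul_ne_zero hf.1 (pow_ne_zero _ hu10)
      rw [e', mul_assoc, mul_inv_cancel₀ this, mul_one]
    rwa [h2] at h1
  have hc'A : c' ∈ A := m59dl_const_mem_of_redOf R hcW
  have hcc := m59dl_redOf_const R c' hc'A
  have heq := m59dl_redOf_unique R hcW hcc
  obtain ⟨e0, he0⟩ := IsAlgClosed.exists_pow_nat_eq (residue ↥A ⟨c', hc'A⟩) hm
  refine ⟨algebraMap (s44e_kA A) ↥(s44e_FF A M) e0 * ub, ?_, ?_⟩
  · refine mul_ne_zero ?_ hub0
    rw [Ne, map_eq_zero]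
    rintro rfl
    rw [zero_pow hm.ne'] at he0
    rw [← he0, map_zero] at heq
    have : fb' = 0 := by
      have h3 := congrArg (· * (fb * ub ^ m)) heq
      simp only [zero_mul] at h3
      rwa [inv_mul_cancel_right₀ hfu0] at h3
    exact hfb0' this
  · rw [mul_pow, ← map_pow, he0, ← heq]
    field_simp

end Fbar

end Fermat.Agent.M59
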