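/-
Project M59, Sink B (`m59t_Eq2_stmt`), cell (G2') [DELTA] (helper17; tag `m59dl_`), part 1:
THE W-FREE FORM OF [OLD-k].

`A` a valuation subring of `ℚ̄` over a prime `q ∤ M`, `k_A` its residue field, `p` ANOTHER prime,
`G` a set of primes (none equal to `q`), `a : ℕ → ℤ` a system of eigenvalues.

* `m59dl_char_of_dens`   : the Nakayama glue of `s44c_level_of_dens` (S44/Old0/Dens.lean) with the
  Frey package replaced by `(G, a)`; output = a nonzero eigen-character `v : gh_H M →+ ZMod p`;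
* **`m59dl_char_of_delta`** : a nonzero class `δ ∈ Pic⁰(F̃_M / k_A)[p]` with `T̃_ℓ δ = a_ℓ δ` for the
  primes `ℓ ∈ G`, `ℓ ∤ M`, gives a nonzero character `v : gh_H M →+ ZMod p` with
  `v ∘ T_ℓ = a_ℓ v` for those primes (the input shape of `s44c_lift`);
* `m59dl_form_of_delta`  : the same followed by `s44c_lift`: a normalised eigenform of level `M`.

Twin of `twf_level_of_delta` (TW/Easy/LevelOfDelta.lean); every input is on main.
-/
import Mathlib
import Fermat.Agent.TW.Easy.LevelOfDelta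

set_option autoImplicit false
set_option linter.unusedSectionVars false
set_option linter.style.haveILetI false
set_option synthInstance.maxHeartbeats 400000
set_option maxHeartbeats 1000000

noncomputable section

namespace Fermat.Agent.M59

open CongruenceSubgroup ModularCurve AlgebraicCurve
open Fermat.Agent.JT3 Fermat.Agent.S24 Fermat.Agent.S35 Fermat.Agent.S44 Fermat.Agent.MZ
  Fermat.Agent.TW

local notation "Qb" => AlgebraicClosure ℚ
local notation "GQ" => (AlgebraicClosure ℚ ≃ₐ[ℚ] AlgebraicClosure ℚ)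

/-- **the Nakayama glue, W-free**: `red : J₀(M)(ℚ̄) →+ V` compatible with operators `t ℓ` on `V`
for the primes `ℓ ∈ G`, `ℓ ∤ M`; (DENS-p); `δ = red y ≠ 0`, `p • δ = 0`, `t ℓ δ = a ℓ • δ`.  Then
there is a nonzero eigen-character of `gh_H M` with values in `ZMod p`. -/
theorem m59dl_char_of_dens {p : ℕ} (hp : p.Prime) (M : ℕ) [NeZero M] (G : Set ℕ) (a : ℕ → ℤ)
    {V : Type*} [AddCommGroup V]
    (red : JZero M →+ V) (t : Nat.Primes → V →+ V)
    (hred : ∀ ℓ : Nat.Primes, (ℓ : ℕ) ∈ G → ¬ (ℓ : ℕ) ∣ M →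
      ∀ z : JZero M, red (heckeOperatorBar M ℓ z) = t ℓ (red z))
    (hdens : ∀ (Qe : JZero M →+ JZero M) (Qr : V →+ V),
      (∀ (σ : GQ) (x : JZero M), Qe (σ • x) = σ • Qe x) →
      (∀ x : JZero M, red (Qe x) = Qr (red x)) →
      (∀ x : JZero M, (∃ n : ℕ, p ^ n • x = 0) → Qe x = 0) →
      ∀ y : JZero M, p • red y = 0 → Qr (red y) = 0)
    (δ : V) (hδ0 : δ ≠ 0) (hpδ : p • δ = 0)
    (hδ : ∀ ℓ : Nat.Primes, (ℓ : ℕ) ∈ G → ¬ (ℓ : ℕ) ∣ M → t ℓ δ = (a ℓ) • δ)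
    (y : JZero M) (hy : red y = δ) :
    ∃ v : gh_H M →+ ZMod p, v ≠ 0 ∧
      ∀ ℓ : ℕ, ℓ.Prime → ¬ ℓ ∣ M → ℓ ∈ G →
        v.comp (t2f_TH M ℓ).toAddMonoidHom = ((a ℓ : ℤ) : ZMod p) • v := by
  classical
  haveI : Fact p.Prime := ⟨hp⟩
  -- the index set of primes
  let Λ : Type := {ℓ : Nat.Primes // (ℓ : ℕ) ∈ G ∧ ¬ (ℓ : ℕ) ∣ M}
  let ℓΛ : Λ → Nat.Primes := fun i => i.1
  have hℓM : ∀ i : Λ, ¬ ((ℓΛ i : ℕ) ∣ M) := fun i => i.2.2
  let aΛ : Λ → ℤ := fun i => a (i.1 : ℕ)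
  haveI : Module.Finite ℤ (gh_H M) :=
    Module.Finite.equiv (ghf_basisEquiv M).symm.toIntLinearEquiv
  rcases s44c_nak (fun i : Λ => t2f_TH M (ℓΛ i : ℕ)) (s44c_TH_commute M ℓΛ hℓM) aΛ hp with
    ⟨v, hv0, hv⟩ | ⟨r, hrH, c, hrc⟩
  · exact ⟨v, hv0, fun ℓ hℓ hℓM' hG => hv ⟨⟨ℓ, hℓ⟩, hG, hℓM'⟩⟩
  · -- Nakayama: contradiction with (DENS-p)
    exfalso
    let evJ : FreeAlgebra ℤ Λ →ₐ[ℤ] Module.End ℤ (JZero M) :=
      FreeAlgebra.lift ℤ (fun i => heckeOperatorBar M (ℓΛ i))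
    let evV : FreeAlgebra ℤ Λ →ₐ[ℤ] Module.End ℤ V :=
      FreeAlgebra.lift ℤ (fun i => (t (ℓΛ i)).toIntLinearMap)
    -- (a) Galois equivariance
    have ha : ∀ (x : FreeAlgebra ℤ Λ) (σ : GQ) (z : JZero M), evJ x (σ • z) = σ • evJ x z := by
      intro x
      induction x using FreeAlgebra.induction with
      | grade0 k =>
        intro σ z
        rw [AlgHom.commutes, Module.algebraMap_end_apply, Module.algebraMap_end_apply]
        exact (map_zsmul (DistribSMul.toAddMonoidHom (JZero M) σ) k z).symm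
      | grade1 i =>
        intro σ z
        show FreeAlgebra.lift ℤ (fun i => heckeOperatorBar M (ℓΛ i)) (FreeAlgebra.ι ℤ i) (σ • z) =
          σ • FreeAlgebra.lift ℤ (fun i => heckeOperatorBar M (ℓΛ i)) (FreeAlgebra.ι ℤ i) z
        rw [FreeAlgebra.lift_ι_apply]
        exact (egh_comm M (ℓΛ i) σ z).symm
      | mul x₁ x₂ h₁ h₂ =>
        intro σ z
        rw [map_mul, Module.End.mul_apply, Module.End.mul_apply, h₂, h₁]
      | add x₁ x₂ h₁ h₂ =>
        intro σ z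
        rw [map_add, LinearMap.add_apply, LinearMap.add_apply, h₁, h₂, smul_add]
    -- (b) compatibility with `red`
    have hb : ∀ (x : FreeAlgebra ℤ Λ) (z : JZero M), red (evJ x z) = evV x (red z) := by
      intro x
      induction x using FreeAlgebra.induction with
      | grade0 k =>
        intro z
        rw [AlgHom.commutes, AlgHom.commutes, Module.algebraMap_end_apply,
          Module.algebraMap_end_apply, map_zsmul]
      | grade1 i =>
        intro z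
        show red (FreeAlgebra.lift ℤ (fun i => heckeOperatorBar M (ℓΛ i)) (FreeAlgebra.ι ℤ i) z) =
          FreeAlgebra.lift ℤ (fun i => (t (ℓΛ i)).toIntLinearMap) (FreeAlgebra.ι ℤ i) (red z)
        rw [FreeAlgebra.lift_ι_apply, FreeAlgebra.lift_ι_apply]
        exact hred i.1 i.2.1 i.2.2 z
      | mul x₁ x₂ h₁ h₂ =>
        intro z
        rw [map_mul, map_mul, Module.End.mul_apply, Module.End.mul_apply, h₁, h₂]
      | add x₁ x₂ h₁ h₂ =>
        intro z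
        rw [map_add, map_add, LinearMap.add_apply, LinearMap.add_apply, map_add, h₁, h₂]
    -- eigenvalue of `evV x` on `δ`
    have hev : ∀ x : FreeAlgebra ℤ Λ, evV x δ = (FreeAlgebra.lift ℤ aΛ x) • δ := by
      intro x
      induction x using FreeAlgebra.induction with
      | grade0 k =>
        rw [AlgHom.commutes, AlgHom.commutes, Module.algebraMap_end_apply]
        rfl
      | grade1 i =>
        show FreeAlgebra.lift ℤ (fun i => (t (ℓΛ i)).toIntLinearMap) (FreeAlgebra.ι ℤ i) δ =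
          (FreeAlgebra.lift ℤ aΛ (FreeAlgebra.ι ℤ i)) • δ
        rw [FreeAlgebra.lift_ι_apply, FreeAlgebra.lift_ι_apply]
        exact hδ i.1 i.2.1 i.2.2
      | mul x₁ x₂ h₁ h₂ =>
        rw [map_mul, map_mul, Module.End.mul_apply, h₂, map_zsmul, h₁, smul_smul, mul_comm]
      | add x₁ x₂ h₁ h₂ =>
        rw [map_add, map_add, LinearMap.add_apply, h₁, h₂, add_smul]
    -- (c) `evJ r` kills the `p`-power torsion
    have hc : ∀ x : JZero M, (∃ n : ℕ, p ^ n • x = 0) → evJ r x = 0 := by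
      rintro x ⟨n, hn⟩
      exact s44c_free_kills_tors M p ℓΛ hℓM r hrH x n hn
    have h0 := hdens (evJ r).toAddMonoidHom (evV r).toAddMonoidHom (fun σ x => ha r σ x)
      (fun x => hb r x) hc y (by rw [hy]; exact hpδ)
    rw [hy] at h0
    have h1 : evV r δ = 0 := h0
    rw [hev r, hrc, add_smul, one_smul, mul_comm, mul_smul, natCast_zsmul, hpδ, smul_zero,
      add_zero] at h1
    exact hδ0 h1

/-- **(G2'), the W-free [OLD-k]**: `A` over `q ∤ M`; a nonzero `T̃_ℓ`-eigenclass of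
`Pic⁰(F̃_M / k_A)[p]` with eigenvalues `a ℓ` for the primes `ℓ ∈ G`, `ℓ ∤ M` (`q ∉ G`) gives a nonzero
eigen-character `gh_H M →+ ZMod p` with the same eigenvalues. -/
theorem m59dl_char_of_delta {p : ℕ} (hp : p.Prime) (M q : ℕ) [NeZero M] (hq : q.Prime)
    (hqM : ¬ q ∣ M) (G : Set ℕ) (hqG : q ∉ G) (a : ℕ → ℤ)
    (A : ValuationSubring Qb) (hA : A.LiesOverPrime q)
    (δ : JZeroC (IsLocalRing.ResidueField A) M) (hδ0 : δ ≠ 0) (hpδ : p • δ = 0)
    (hδ : ∀ ℓ : Nat.Primes, (ℓ : ℕ) ∈ G → ¬ (ℓ : ℕ) ∣ M →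
      s44k2_TCp (IsLocalRing.ResidueField A) M ℓ δ = (a ℓ) • δ) :
    ∃ v : gh_H M →+ ZMod p, v ≠ 0 ∧
      ∀ ℓ : ℕ, ℓ.Prime → ¬ ℓ ∣ M → ℓ ∈ G →
        v.comp (t2f_TH M ℓ).toAddMonoidHom = ((a ℓ : ℤ) : ZMod p) • v := by
  obtain ⟨y, hy⟩ := s44k2_red_surj M q hq hqM A hA δ
  refine m59dl_char_of_dens hp M G a (reductionModL A M)
    (fun ℓ => s44k2_TCp (IsLocalRing.ResidueField A) M ℓ) ?_
    (twf_dens M q p hq hp hqM A hA) δ hδ0 hpδ hδ y hy
  intro ℓ hG hℓM z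
  have hℓq : (ℓ : ℕ) ≠ q := by
    rintro h
    exact hqG (h ▸ hG)
  exact s44k2_red_heckep M q hq hqM A hA ℓ hℓM hℓq z

/-- the same, followed by `s44c_lift`: a normalised eigenform of level `M` whose eigenvalues are
congruent to `a ℓ` modulo a maximal ideal over `p`, for the primes `ℓ ∈ G`, `ℓ ∤ M`. -/
theorem m59dl_form_of_delta {p : ℕ} (hp : p.Prime) (M q : ℕ) [NeZero M] (hq : q.Prime)
    (hqM : ¬ q ∣ M) (G : Set ℕ) (hqG : q ∉ G) (a : ℕ → ℤ)
    (A : ValuationSubring Qb) (hA : A.LiesOverPrime q)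
    (δ : JZeroC (IsLocalRing.ResidueField A) M) (hδ0 : δ ≠ 0) (hpδ : p • δ = 0)
    (hδ : ∀ ℓ : Nat.Primes, (ℓ : ℕ) ∈ G → ¬ (ℓ : ℕ) ∣ M →
      s44k2_TCp (IsLocalRing.ResidueField A) M ℓ δ = (a ℓ) • δ) :
    ∃ (g : CuspForm (Gamma0 M) 2) (𝔪' : Ideal (integralClosure ℤ ℂ)),
      g.IsNormalizedEigenform ∧ 𝔪'.IsMaximal ∧ ((p : ℕ) : integralClosure ℤ ℂ) ∈ 𝔪' ∧
      ∀ ℓ : ℕ, ℓ.Prime → ¬ ℓ ∣ M → ℓ ∈ G →
        ∃ b : integralClosure ℤ ℂ, (b : ℂ) = ModularFormClass.qCoeff g ℓ ∧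
          b - ((a ℓ : ℤ) : integralClosure ℤ ℂ) ∈ 𝔪' := by
  obtain ⟨v, hv0, hv⟩ := m59dl_char_of_delta hp M q hq hqM G hqG a A hA δ hδ0 hpδ hδ
  exact s44c_lift hp G a v hv0 hv

end Fermat.Agent.M59
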