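/-
Project M59, Sink B (`m59t_Eq2_stmt`), cell (G2') [DELTA] (helper17; tag `m59dl_`), part 3:
HECKE EQUIVARIANCE OF THE RESIDUE CLASS FOR AN ABSTRACT DATUM, AND THE OUTPUT THEOREM.

`R : m59dl_Res A M N` (level `N`, residue level `M`), `R' : m59dl_Res A (M ℓ) (N ℓ)`.

* `m59dl_Hecke R R' ℓ` : the compatibilities of the two data with the degeneracy maps `α_ℓ`, `β_ℓ`:
  (α) the hypotheses `s44hn_Data` of the abstract norm lemma along `heckeAlphaBar` / `mzrh_alC`,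
  (β) `β_ℓ V ⊆ V'` and `res' ∘ β_ℓ = β̄_ℓ ∘ res`;
* `m59dl_red_norm`   : `res (N_α g) = N_ᾱ (res' g)` for `g ∈ V'` (from `s44hn_norm_red`, the two
  degrees being `ℓ + 1`: `nld_finrankAlong`, `s44hd_finrank_alC`);
* `m59dl_fbar_hecke` : **(★★)**: `fb` an `R`-residue for `z` ⟹ `N_ᾱ (β̄ fb)` an `R`-residue for `T_ℓ z`;
* `m59dl_cls_eigen`  : `T_ℓ z = a • z`, `fb` a `p`-divisible `R`-residue for `z ∈ J₀(N)[p]`
  ⟹ `T̃_ℓ [(1/p) div fb] = a • [(1/p) div fb]`;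
* **`m59dl_main`**   : if moreover `fb` is not a `p`-th power: a nonzero eigen-character of
  `gh_H M` with values in `ZMod p` and eigenvalues `a ℓ` (`ℓ ∈ G`).
Twin of `twfq_fbar_hecke` (helper15) / `twfk_delta_hecke` (helper12) / `twf_level_of_delta`.
-/
import Mathlib
import Fermat.Agent.M59.SinkB.Delta.Abs
import Fermat.Agent.M59.SinkB.Delta.Level

set_option autoImplicit false
set_option linter.unusedSectionVars false
set_option linter.unusedVariables false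
set_option linter.style.haveILetI false
set_option synthInstance.maxHeartbeats 400000
set_option maxHeartbeats 1000000

noncomputable section

namespace Fermat.Agent.M59

open ModularCurve AlgebraicCurve IntermediateField IsLocalRing Module
open Fermat.Agent.JT3 Fermat.Agent.SS Fermat.Agent.S35 Fermat.Agent.S24 Fermat.Agent.S28
open Fermat.Agent.MZ Fermat.Agent.S44 Fermat.Agent.SS2 Fermat.Agent.TW

local notation "Qb" => AlgebraicClosure ℚ

section Hecke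

variable {A : ValuationSubring Qb} {M N : ℕ} [NeZero M] [NeZero N] (ℓ : ℕ) [NeZero ℓ]
  (R : m59dl_Res A M N) (R' : m59dl_Res A (M * ℓ) (N * ℓ))

/-- **the Hecke compatibilities of two residue data** (levels `N`, `N ℓ`). -/
structure m59dl_Hecke : Prop where
  alpha :
    letI := algebraAlong (heckeAlphaBar Qb N ℓ)
    letI := algebraAlong (mzrh_alC (ResidueField ↥A) M ℓ)
    s44hn_Data R.V R'.V R.res R'.res
  surj : Function.Surjective R'.res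
  beta_mem : ∀ x : ↥(modularFunctionFieldBar N), x ∈ R.V → heckeBetaBar Qb N ℓ x ∈ R'.V
  beta_res : ∀ (x : ↥(modularFunctionFieldBar N)) (h : x ∈ R.V)
    (h' : heckeBetaBar Qb N ℓ x ∈ R'.V),
    R'.res ⟨heckeBetaBar Qb N ℓ x, h'⟩ = mzrh_beC (ResidueField ↥A) M ℓ (R.res ⟨x, h⟩)

variable {ℓ R R'}

/-- **the norm commutes with the residue maps**: `res (N_α g) = N_ᾱ (res' g)`. -/
theorem m59dl_red_norm (H : m59dl_Hecke ℓ R R') (hℓ : ℓ.Prime) (hℓN : ¬ ℓ ∣ N)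
    (hdeg : finrankAlong (ResidueField ↥A) (mzrh_alC (ResidueField ↥A) M ℓ) = ℓ + 1)
    (g : ↥R'.V) :
    ∃ h : s35pe_normAlong (heckeAlphaBar Qb N ℓ) (g : Fbar (N * ℓ)) ∈ R.V,
      R.res ⟨_, h⟩ = s35pe_normAlong (mzrh_alC (ResidueField ↥A) M ℓ) (R'.res g) := by
  letI i1 := algebraAlong (heckeAlphaBar Qb N ℓ)
  letI i2 := algebraAlong (mzrh_alC (ResidueField ↥A) M ℓ)
  have hD := H.alpha
  have hdeg0 : finrank (Fbar N) (Fbar (N * ℓ)) = ℓ + 1 := nld_finrankAlong N ℓ hℓ hℓN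
  have hdegp : finrank ↥(modularFunctionFieldFullC (ResidueField ↥A) M)
      ↥(modularFunctionFieldFullC (ResidueField ↥A) (M * ℓ)) = ℓ + 1 := hdeg
  haveI : FiniteDimensional (Fbar N) (Fbar (N * ℓ)) :=
    Module.finite_of_finrank_pos (by rw [hdeg0]; omega)
  haveI : Module.Finite ↥(modularFunctionFieldFullC (ResidueField ↥A) M)
      ↥(modularFunctionFieldFullC (ResidueField ↥A) (M * ℓ)) :=
    Module.finite_of_finrank_pos (by rw [hdegp]; omega)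
  set bb := Module.finBasisOfFinrankEq ↥(modularFunctionFieldFullC (ResidueField ↥A) M)
    ↥(modularFunctionFieldFullC (ResidueField ↥A) (M * ℓ)) hdegp with hbb
  have hcard : Fintype.card (Fin (ℓ + 1)) = finrank (Fbar N) (Fbar (N * ℓ)) := by
    rw [Fintype.card_fin, hdeg0]
  exact s44hn_norm_red hD (fun i => bb i) bb.linearIndependent hcard g

end Hecke

section Star

variable {A : ValuationSubring Qb} {q : ℕ} [hq : Fact q.Prime] (hA : A.LiesOverPrime q)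
  {M N : ℕ} [NeZero M] [NeZero N] (hqM : ¬ q ∣ M)

include hA hqM in
/-- **(★★)** for an abstract datum: `N_ᾱ (β̄ fb)` is an `R`-residue for `T_ℓ z` when `fb` is one
for `z`; every prime `ℓ ∤ N`, `ℓ ≠ q`, every exponent `m`. -/
theorem m59dl_fbar_hecke (ℓ : Nat.Primes) (hℓN : ¬ (ℓ : ℕ) ∣ N) (hℓM : ¬ (ℓ : ℕ) ∣ M)
    (hℓq : (ℓ : ℕ) ≠ q)
    (R : m59dl_Res A M N)
    (R' : haveI : NeZero (ℓ : ℕ) := ⟨ℓ.2.ne_zero⟩; m59dl_Res A (M * (ℓ : ℕ)) (N * (ℓ : ℕ)))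
    (H : haveI : NeZero (ℓ : ℕ) := ⟨ℓ.2.ne_zero⟩; m59dl_Hecke (ℓ : ℕ) R R')
    {m : ℕ} {z : JZero N} {fb : ↥(s44e_FF A M)} (h : m59dl_Fbar R m z fb) :
    m59dl_Fbar R m (heckeOperatorBar N ℓ z)
      (haveI : NeZero (ℓ : ℕ) := ⟨ℓ.2.ne_zero⟩
       s35pe_normAlong (mzrh_alC (s44e_kA A) M ℓ) (mzrh_beC (s44e_kA A) M ℓ fb)) := by
  haveI : NeZero (ℓ : ℕ) := ⟨ℓ.2.ne_zero⟩
  have hqℓ : ¬ q ∣ (ℓ : ℕ) := fun hd =>
    hℓq ((Nat.prime_dvd_prime_iff_eq hq.out ℓ.2).mp hd).symm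
  have hqMℓ : ¬ q ∣ M * (ℓ : ℕ) := mzrh_not_dvd_mul M (ℓ : ℕ) hqM hqℓ
  have hdeg := s44hd_finrank_alC A hA M (ℓ : ℕ) ℓ.2 hℓM hqM hqMℓ
  haveI := jcr_charP A hA
  haveI := jcr_isAlgClosed A
  obtain ⟨hfb0, f, hf, hb, e⟩ := h
  -- `β f ∈ V'` with residue `β̄ fb`
  have hβ1 : heckeBetaBar Qb N ℓ f ∈ R'.V := H.beta_mem f hb
  have hredβ : R'.res ⟨heckeBetaBar Qb N ℓ f, hβ1⟩ = mzrh_beC (ResidueField ↥A) M ℓ fb := by
    rw [H.beta_res f hb hβ1, e]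
  obtain ⟨hn, hnred⟩ := m59dl_red_norm H ℓ.2 hℓN hdeg ⟨heckeBetaBar Qb N ℓ f, hβ1⟩
  rw [hredβ] at hnred
  -- the norm of a nonzero element is nonzero
  have hβfb0 : mzrh_beC (ResidueField ↥A) M ℓ fb ≠ 0 := by
    rw [Ne, map_eq_zero]
    exact hfb0
  haveI := mzrh_hasPrincipalDivisorsC (k := ResidueField ↥A) M (ℓ : ℕ) (jcr_rho A hA) hqM hqℓ
  have hN0 : s35pe_normAlong (mzrh_alC (ResidueField ↥A) M ℓ)
      (mzrh_beC (ResidueField ↥A) M ℓ fb) ≠ 0 :=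
    s44hk_normAlong_ne_zero _ (mzrh_finiteAlong_alC M (ℓ : ℕ) (jcr_rho A hA) hqM hqℓ) hβfb0
  exact ⟨hN0, s44hr_T N ℓ f, s44hr_rep_hecke N m ℓ z f hf, hn, hnred⟩

end Star

end Fermat.Agent.M59
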