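/-
Project M59, Sink B (`m59t_Eq2_stmt`), cell (G2') [DELTA] (helper17; tag `m59dl_`), part 11:
(†) [CROOT-EX], UNRAMIFIED LEVEL: THE NORM OF A UNIT AT `VA`, `VC` IN TERMS OF ITS TWO RESIDUES.

* `m59dl_third_norm` : abstract, vocabulary of S36/Model/ThreeAbs.lean (`s36t3_Third K R q π z VA VC`):
  for `x ∈ VA ∩ VC` there are `rA rC n : R` with `x ≡ rA mod 𝔪(VA)`, `x ≡ rC mod 𝔪(VC)`,
  `n = N_{E/K} x` and `n ≡ rA · rC ^ (q - 1) mod 𝔪_R`   (S36's (nC1) `s36nx_nC_val` + `resA`, `resC`);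
* `m59dl_gauss_third_res` : on a Gauss tower `E1 ≤ E2` (S36/Model/ThreeLegAlt.lean): the same in
  terms of the coefficientwise residues `gq_res`:
  `red x = red rA`, `red (N x) = red rA · (red rC) ^ (q - 1)`.
-/
import Mathlib
import Fermat.Agent.S36.Model.ThreeLegAlt
import Fermat.Agent.S36.NormEltV

set_option autoImplicit false
set_option linter.unusedSectionVars false
set_option linter.unusedVariables false
set_option linter.style.haveILetI false
set_option synthInstance.maxHeartbeats 400000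
set_option maxHeartbeats 1000000

noncomputable section

namespace Fermat.Agent.M59

open ModularCurve IntermediateField IsLocalRing
open Fermat.Agent.JT3 Fermat.Agent.SS Fermat.Agent.S36

section Abs

variable {K E : Type*} [Field K] [Field E] [Algebra K E] [FiniteDimensional K E]
  [Algebra.IsSeparable K E]
  {R : Type*} [CommRing R] [IsDomain R] [IsDiscreteValuationRing R] [Algebra R K]
  [IsFractionRing R K] [Algebra R E] [IsScalarTower R K E]

/-- **the norm of an element of `VA ∩ VC` modulo `𝔪_R`**, from the third-valuation package. -/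
theorem m59dl_third_norm {q : ℕ} {π : R} {z : E} {VA VC : ValuationSubring E}
    (T : s36t3_Third K R q π z VA VC) (hq : 2 ≤ q) (hrank : Module.finrank K E = q)
    (x : E) (hxA : x ∈ VA) (hxC : x ∈ VC) :
    ∃ rA rC n : R, x - algebraMap R E rA ∈ VA.nonunits ∧ x - algebraMap R E rC ∈ VC.nonunits ∧
      algebraMap R K n = Algebra.norm K x ∧ n - rA * rC ^ (q - 1) ∈ maximalIdeal R := by
  obtain ⟨rA, hrA⟩ := T.resA x hxA
  obtain ⟨rC, hrC⟩ := T.resC x hxC
  have key := s36nx_nC_val hq hrank T.overA T.overC T.centre_ne T.map_eq T.fA T.fC x hxA hxC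
    rA hrA
  have hrCmem : algebraMap R E rC ∈ VC := ssm_tw_over_mem T.overC rC
  have hrAmem : algebraMap R E rA ∈ VC := ssm_tw_over_mem T.overC rA
  have hpow := ssm_tw_nonunits_pow_sub VC hxC hrCmem hrC (q - 1)
  have h2 : algebraMap K E (Algebra.norm K x) - algebraMap R E (rA * rC ^ (q - 1)) ∈
      VC.nonunits := by
    have e : algebraMap K E (Algebra.norm K x) - algebraMap R E (rA * rC ^ (q - 1)) =
        (algebraMap K E (Algebra.norm K x) - algebraMap R E rA * x ^ (q - 1)) +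
          algebraMap R E rA * (x ^ (q - 1) - algebraMap R E rC ^ (q - 1)) := by
      rw [map_mul, map_pow]; ring
    rw [e]
    exact ssm_tw_nonunits_add VC key (ssm_tw_nonunits_mul VC hrAmem hpow)
  have hNmem : algebraMap K E (Algebra.norm K x) ∈ VC := by
    have e : algebraMap K E (Algebra.norm K x) =
        (algebraMap K E (Algebra.norm K x) - algebraMap R E (rA * rC ^ (q - 1))) +
          algebraMap R E (rA * rC ^ (q - 1)) := by ring
    rw [e]
    exact VC.add_mem _ _ (ssm_tw_nonunits_le VC h2) (ssm_tw_over_mem T.overC _)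
  obtain ⟨n, hn⟩ := (T.overC (Algebra.norm K x)).1 hNmem
  refine ⟨rA, rC, n, hrA, hrC, hn, ?_⟩
  rw [← hn, ← IsScalarTower.algebraMap_apply R K E, ← map_sub] at h2
  exact (ssm_tw_over_nonunits T.overC _).1 h2

end Abs

section Gauss

variable {L : Type*} [Field L] [CharZero L] (O : ValuationSubring L) [IsDiscreteValuationRing O]
  {π : O} (hπ : Irreducible π)
variable (E1 E2 : IntermediateField L (LaurentSeries L))
variable (h12 : E1 ≤ E2) (hE2 : E2 ≤ gq_quotField O L)

set_option synthInstance.maxHeartbeats 200000 in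
/-- **(†), Gauss tower, residue form**: `red x = red rA`, `x ≡ rC` at `VC`,
`red (N x) = red rA · (red rC) ^ (q - 1)`. -/
theorem m59dl_gauss_third_res {q : ℕ} (hq : 2 ≤ q)
    (hrank : IntermediateField.relfinrank E1 E2 = q)
    {π' : ↥(gq_valSubOf π hπ.ne_zero hπ.maximalIdeal_eq E1 (h12.trans hE2))} {z : ↥E2}
    {VC : ValuationSubring ↥E2}
    (T : letI := ssm_gi_algebra h12
      letI := ssm_gi_algebraV h12 (gq_valSubOf π hπ.ne_zero hπ.maximalIdeal_eq E1 (h12.trans hE2))
      haveI := ssm_gi_isScalarTower h12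
        (gq_valSubOf π hπ.ne_zero hπ.maximalIdeal_eq E1 (h12.trans hE2))
      s36t3_Third ↥E1 ↥(gq_valSubOf π hπ.ne_zero hπ.maximalIdeal_eq E1 (h12.trans hE2)) q π' z
        (gq_valSubOf π hπ.ne_zero hπ.maximalIdeal_eq E2 hE2) VC)
    (x : ↥E2) (hxA : gq_IsBdd O L (x : LaurentSeries L)) (hxC : x ∈ VC) :
    ∃ (rA rC n : ↥E1) (hA : gq_IsBdd O L (rA : LaurentSeries L))
      (hC : gq_IsBdd O L (rC : LaurentSeries L)) (hn : gq_IsBdd O L (n : LaurentSeries L)),
      gq_res O L ⟨(x : LaurentSeries L), hxA⟩ = gq_res O L ⟨(rA : LaurentSeries L), hA⟩ ∧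
      x - IntermediateField.inclusion h12 rC ∈ VC.nonunits ∧
      (letI := ssm_gi_algebra h12; n = Algebra.norm ↥E1 x) ∧
      gq_res O L ⟨(n : LaurentSeries L), hn⟩ =
        gq_res O L ⟨(rA : LaurentSeries L), hA⟩ * gq_res O L ⟨(rC : LaurentSeries L), hC⟩ ^ (q - 1) := by
  letI := ssm_gi_algebra h12
  letI := ssm_gi_algebraV h12 (gq_valSubOf π hπ.ne_zero hπ.maximalIdeal_eq E1 (h12.trans hE2))
  haveI := ssm_gi_isScalarTower h12
    (gq_valSubOf π hπ.ne_zero hπ.maximalIdeal_eq E1 (h12.trans hE2))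
  have hq1 : q - 1 + 1 = q := Nat.sub_add_cancel (le_trans (by norm_num) hq)
  have hrk : Module.finrank ↥E1 ↥E2 = q := (ssm_gt_finrank_eq h12).trans hrank
  haveI : FiniteDimensional ↥E1 ↥E2 :=
    ssm_gi_finiteDimensional (n := q - 1) (by rw [hq1]; exact hrk)
  haveI : Algebra.IsSeparable ↥E1 ↥E2 := ssm_gi_isSeparable
  obtain ⟨rA, rC, n, hrA, hrC, hn, hcong⟩ := m59dl_third_norm T hq hrk x hxA hxC
  have hbA : gq_IsBdd O L (((rA : ↥E1) : ↥E1) : LaurentSeries L) := rA.2
  have hbC : gq_IsBdd O L (((rC : ↥E1) : ↥E1) : LaurentSeries L) := rC.2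
  have hbn : gq_IsBdd O L (((n : ↥E1) : ↥E1) : LaurentSeries L) := n.2
  refine ⟨(rA : ↥E1), (rC : ↥E1), (n : ↥E1), hbA, hbC, hbn, ?_, hrC, hn, ?_⟩
  · -- `red x = red rA`
    have hd : gq_IsBdd O L ((x - IntermediateField.inclusion h12 (rA : ↥E1) : ↥E2) :
        LaurentSeries L) := (gq_bddSubring O L).sub_mem hxA hbA
    have h0 := (gq_mem_nonunits_iff_res π hπ.ne_zero hπ.maximalIdeal_eq E2 hE2 _ hd).1 hrA
    have hsub : gq_res O L ⟨(x : LaurentSeries L), hxA⟩ -
        gq_res O L ⟨((rA : ↥E1) : LaurentSeries L), hbA⟩ = 0 := by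
      rw [← map_sub]
      exact h0
    exact sub_eq_zero.1 hsub
  · -- `red n = red rA · (red rC) ^ (q - 1)`
    have hmem : ((n - rA * rC ^ (q - 1) :
        ↥(gq_valSubOf π hπ.ne_zero hπ.maximalIdeal_eq E1 (h12.trans hE2))) : ↥E1) ∈
        (gq_valSubOf π hπ.ne_zero hπ.maximalIdeal_eq E1 (h12.trans hE2)).nonunits :=
      ValuationSubring.coe_mem_nonunits_iff.2 hcong
    have hd : gq_IsBdd O L ((((n - rA * rC ^ (q - 1) :
        ↥(gq_valSubOf π hπ.ne_zero hπ.maximalIdeal_eq E1 (h12.trans hE2))) : ↥E1)) :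
        LaurentSeries L) := (n - rA * rC ^ (q - 1)).2
    have h0 := (gq_mem_nonunits_iff_res π hπ.ne_zero hπ.maximalIdeal_eq E1 (h12.trans hE2)
      _ hd).1 hmem
    have hsub : gq_res O L ⟨((n : ↥E1) : LaurentSeries L), hbn⟩ -
        gq_res O L ⟨((rA : ↥E1) : LaurentSeries L), hbA⟩ *
          gq_res O L ⟨((rC : ↥E1) : LaurentSeries L), hbC⟩ ^ (q - 1) = 0 := by
      rw [← map_pow, ← map_mul, ← map_sub]
      exact h0
    exact sub_eq_zero.1 hsub

end Gauss

end Fermat.Agent.M59
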