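/-
Project M59, Sink B (`m59t_Eq2_stmt`), cell (G2') [DELTA] (helper17; tag `m59dl_`), part 4:
THE OUTPUT THEOREM FOR AN ABSTRACT RESIDUE DATUM.

`A` over the prime `q ∤ M`, `R : m59dl_Res A M N` with Hecke partners `R' ℓ` (`m59dl_Hecke`) for the
primes `ℓ ∈ G`; `z ∈ J₀(N)[p]` with `T_ℓ z = a ℓ • z` (`ℓ ∈ G`); `fb` an `R`-residue of a
representative of `z` (`m59dl_Fbar R p z fb`) which is `p`-divisible (`s44k2d_PDiv p fb`).

* `m59dl_cls_npow`   : `cls p (f ^ k) = k • cls p f`;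
* `m59dl_cls_eigen`  : `T̃_ℓ (cls p fb) = a ℓ • cls p fb`  (`cls p fb = [(1/p) div fb]`, `s44k2d_cls`);
* `m59dl_cls_ne_zero`: `cls p fb ≠ 0` if `fb` is not a `p`-th power;
* **`m59dl_main`**   : then there is a nonzero character `v : gh_H M →+ ZMod p` with
  `v ∘ T_ℓ = a ℓ • v` for the primes `ℓ ∈ G` (input of `s44c_lift`): THE EIGENSYSTEM OCCURS AT LEVEL `M`.
-/
import Mathlib
import Fermat.Agent.M59.SinkB.Delta.AbsHecke

set_option autoImplicit false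
set_option linter.unusedSectionVars false
set_option linter.unusedVariables false
set_option linter.style.haveILetI false
set_option synthInstance.maxHeartbeats 400000
set_option maxHeartbeats 1000000

noncomputable section

namespace Fermat.Agent.M59

open ModularCurve AlgebraicCurve IntermediateField IsLocalRing Module
open Fermat.Agent.JT3 Fermat.Agent.SS Fermat.Agent.S35 Fermat.Agent.S24 Fermat.Agent.S28
open Fermat.Agent.MZ Fermat.Agent.S44 Fermat.Agent.SS2 Fermat.Agent.TW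

local notation "Qb" => AlgebraicClosure ℚ

section Cls

universe u v
variable {K : Type u} {F : Type v} [Field K] [Field F] [Algebra K F] [HasPrincipalDivisors K F]

/-- `f ^ k` is `p`-divisible when `f` is. -/
theorem m59dl_pdiv_npow {p : ℕ} {f : F} (hf : s44k2d_PDiv (K := K) p f) (k : ℕ) :
    s44k2d_PDiv (K := K) p (f ^ k) := by
  induction k with
  | zero =>
    rw [pow_zero]
    have := s44k2d_pdiv_const (F := F) K p (one_ne_zero : (1 : K) ≠ 0)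
    rwa [map_one] at this
  | succ k ih => rw [pow_succ]; exact s44k2d_pdiv_mul K ih hf

/-- `cls p (f ^ k) = k • cls p f`. -/
theorem m59dl_cls_npow {p : ℕ} (hp : p ≠ 0) {f : F} (hf : s44k2d_PDiv (K := K) p f) (k : ℕ) :
    s44k2d_cls (K := K) p (f ^ k) = k • s44k2d_cls (K := K) p f := by
  induction k with
  | zero =>
    rw [pow_zero, zero_nsmul]
    have := s44k2d_cls_const (F := F) hp (one_ne_zero : (1 : K) ≠ 0)
    rwa [map_one] at this
  | succ k ih =>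
    rw [pow_succ, s44k2d_cls_mul hp (m59dl_pdiv_npow hf k) hf, ih, succ_nsmul]

end Cls

section Eigen

variable {A : ValuationSubring Qb} {q : ℕ} [hq : Fact q.Prime] (hA : A.LiesOverPrime q)
  {M N : ℕ} [NeZero M] [NeZero N] (hqM : ¬ q ∣ M)

include hA hqM in
/-- **Hecke equivariance of the residue class**: `T_ℓ z = a • z` ⟹
`T̃_ℓ (cls p fb) = a • cls p fb` for a `p`-divisible `R`-residue `fb` of `z ∈ J₀(N)[p]`. -/
theorem m59dl_cls_eigen (ℓ : Nat.Primes) (hℓN : ¬ (ℓ : ℕ) ∣ N) (hℓM : ¬ (ℓ : ℕ) ∣ M)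
    (hℓq : (ℓ : ℕ) ≠ q)
    (R : m59dl_Res A M N)
    (R' : haveI : NeZero (ℓ : ℕ) := ⟨ℓ.2.ne_zero⟩; m59dl_Res A (M * (ℓ : ℕ)) (N * (ℓ : ℕ)))
    (H : haveI : NeZero (ℓ : ℕ) := ⟨ℓ.2.ne_zero⟩; m59dl_Hecke (ℓ : ℕ) R R')
    {p : ℕ} (hp0 : p ≠ 0) {z : JZero N} (hz : p • z = 0) (a : ℤ)
    (heig : heckeOperatorBar N ℓ z = a • z) {fb : ↥(s44e_FF A M)}
    (h : m59dl_Fbar R p z fb) (hpd : s44k2d_PDiv (K := s44e_kA A) p fb) :
    haveI : HasPrincipalDivisors (s44e_kA A) ↥(s44e_FF A M) :=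
      (haveI : CharP (s44e_kA A) q := jcr_charP A hA
       haveI : IsAlgClosed (s44e_kA A) := jcr_isAlgClosed A
       rt_hasPrincipalDivisors (jcr_isSepGen (k := s44e_kA A) M hqM (jcr_rho A hA)))
    s44k2_TCp (s44e_kA A) M ℓ (s44k2d_cls (K := s44e_kA A) p fb) =
      a • s44k2d_cls (K := s44e_kA A) p fb := by
  haveI : NeZero (ℓ : ℕ) := ⟨ℓ.2.ne_zero⟩
  haveI : CharP (s44e_kA A) q := jcr_charP A hA
  haveI : IsAlgClosed (s44e_kA A) := jcr_isAlgClosed A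
  haveI hpdv : HasPrincipalDivisors (s44e_kA A) ↥(s44e_FF A M) :=
    rt_hasPrincipalDivisors (jcr_isSepGen (k := s44e_kA A) M hqM (jcr_rho A hA))
  have hqℓ : ¬ q ∣ (ℓ : ℕ) := fun hd =>
    hℓq ((Nat.prime_dvd_prime_iff_eq hq.out ℓ.2).mp hd).symm
  obtain ⟨hαC, hβC, hPC, hfinC, hFIC, hNC⟩ :=
    mzrh_heckeInputsC M ℓ (jcr_rho A hA) hqM hqℓ
  haveI := hPC
  -- a natural representative of `a`
  have hpos : (0 : ℤ) < p := by exact_mod_cast Nat.pos_of_ne_zero hp0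
  set k : ℕ := (a % p).toNat with hk
  have hkz : (k : ℤ) = a % p := Int.toNat_of_nonneg (Int.emod_nonneg a hpos.ne')
  have ha1 : a = (k : ℤ) + (p : ℤ) * (a / p) := by
    rw [hkz]
    exact (Int.emod_add_mul_ediv a p).symm
  have hak : a • z = k • z := by
    conv_lhs => rw [ha1]
    rw [add_zsmul, mul_zsmul, natCast_zsmul, natCast_zsmul, smul_comm, hz, smul_zero, add_zero]
  -- the two residues of the class `k • z`
  have hS := m59dl_fbar_hecke hA hqM ℓ hℓN hℓM hℓq R R' H h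
  rw [heig, hak] at hS
  have hK := m59dl_fbar_nsmul R h k
  obtain ⟨g, hg0, e⟩ := m59dl_fbar_unique R (Nat.pos_of_ne_zero hp0) hK hS
  -- the classes
  have h1 : s44k2d_cls (K := s44e_kA A) p
      (s35pe_normAlong (mzrh_alC (s44e_kA A) M ℓ) (mzrh_beC (s44e_kA A) M ℓ fb)) =
      k • s44k2d_cls (K := s44e_kA A) p fb := by
    rw [e, s44k2d_cls_mul hp0 (s44k2d_pdiv_pow (s44e_kA A) p hg0) (m59dl_pdiv_npow hpd k),
      s44k2d_cls_pow hp0 hg0, zero_add, m59dl_cls_npow hp0 hpd k]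
  have h2 : s44k2_TCp (s44e_kA A) M ℓ (s44k2d_cls (K := s44e_kA A) p fb) =
      s44k2d_cls (K := s44e_kA A) p
        (s35pe_normAlong (mzrh_alC (s44e_kA A) M ℓ) (mzrh_beC (s44e_kA A) M ℓ fb)) := by
    rw [s44k2d_cls_corr (mzrh_beC (s44e_kA A) M ℓ) (mzrh_alC (s44e_kA A) M ℓ) hβC hαC hFIC hfinC
      hNC hp0 hpd, s44k2_TCp_eq, s44k2_TC_eq hαC hβC hFIC hfinC hNC]
  rw [h2, h1]
  conv_rhs => rw [ha1]
  rw [add_zsmul, mul_zsmul, natCast_zsmul, natCast_zsmul, smul_comm, s44k2d_cls_tors, smul_zero,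
    add_zero]

include hA hqM in
/-- the class of a `p`-divisible function which is not a `p`-th power is not zero. -/
theorem m59dl_cls_ne_zero {p : ℕ} (hp0 : p ≠ 0) {fb : ↥(s44e_FF A M)}
    (hpd : s44k2d_PDiv (K := s44e_kA A) p fb) (hnp : ¬ ∃ g : ↥(s44e_FF A M), fb = g ^ p) :
    haveI : HasPrincipalDivisors (s44e_kA A) ↥(s44e_FF A M) :=
      (haveI : CharP (s44e_kA A) q := jcr_charP A hA
       haveI : IsAlgClosed (s44e_kA A) := jcr_isAlgClosed A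
       rt_hasPrincipalDivisors (jcr_isSepGen (k := s44e_kA A) M hqM (jcr_rho A hA)))
    s44k2d_cls (K := s44e_kA A) p fb ≠ 0 := by
  haveI : CharP (s44e_kA A) q := jcr_charP A hA
  haveI : IsAlgClosed (s44e_kA A) := jcr_isAlgClosed A
  have hsep := jcr_isSepGen (k := s44e_kA A) M hqM (jcr_rho A hA)
  haveI hpdv : HasPrincipalDivisors (s44e_kA A) ↥(s44e_FF A M) := rt_hasPrincipalDivisors hsep
  intro h0
  obtain ⟨κ, g, hκ0, hg0, e⟩ := s44k2d_cls_eq_zero hp0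
    (fun u hu0 hu => rt_const_of_forall_mem hsep u
      (fun v => (hw_mem_iff_ord_nonneg v hu0).2 (hu v).ge)) hpd h0
  obtain ⟨e0, he0⟩ := IsAlgClosed.exists_pow_nat_eq κ (Nat.pos_of_ne_zero hp0)
  exact hnp ⟨algebraMap (s44e_kA A) ↥(s44e_FF A M) e0 * g, by rw [mul_pow, ← map_pow, he0, e]⟩

end Eigen

section Main

variable {A : ValuationSubring Qb} {q : ℕ} (hq : q.Prime) (hA : A.LiesOverPrime q)
  {M N : ℕ} [NeZero M] [NeZero N] (hqM : ¬ q ∣ M)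

include hq hA hqM in
/-- **(G2'), abstract form**: a residue datum `R` of level `N` with residue level `M` and Hecke
partners for the primes `ℓ ∈ G`; `z ∈ J₀(N)[p]` with `T_ℓ z = a ℓ • z` (`ℓ ∈ G`); `fb` a `p`-divisible
`R`-residue of `z` which is not a `p`-th power.  Then the eigensystem `a` occurs at level `M`:
there is a nonzero eigen-character `gh_H M →+ ZMod p`. -/
theorem m59dl_main {p : ℕ} (hp : p.Prime) (G : Set ℕ) (hqG : q ∉ G) (hGN : ∀ ℓ ∈ G, ¬ ℓ ∣ N)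
    (a : ℕ → ℤ) (R : m59dl_Res A M N)
    (hH : ∀ ℓ : Nat.Primes, (ℓ : ℕ) ∈ G → ¬ (ℓ : ℕ) ∣ M →
      haveI : NeZero (ℓ : ℕ) := ⟨ℓ.2.ne_zero⟩
      ∃ R' : m59dl_Res A (M * (ℓ : ℕ)) (N * (ℓ : ℕ)), m59dl_Hecke (ℓ : ℕ) R R')
    {z : JZero N} (hz : p • z = 0)
    (heig : ∀ ℓ : Nat.Primes, (ℓ : ℕ) ∈ G → heckeOperatorBar N ℓ z = a ℓ • z)
    {fb : ↥(s44e_FF A M)} (h : m59dl_Fbar R p z fb)
    (hpd : s44k2d_PDiv (K := s44e_kA A) p fb) (hnp : ¬ ∃ g : ↥(s44e_FF A M), fb = g ^ p) :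
    ∃ v : gh_H M →+ ZMod p, v ≠ 0 ∧
      ∀ ℓ : ℕ, ℓ.Prime → ¬ ℓ ∣ M → ℓ ∈ G →
        v.comp (t2f_TH M ℓ).toAddMonoidHom = ((a ℓ : ℤ) : ZMod p) • v := by
  haveI : Fact q.Prime := ⟨hq⟩
  haveI : CharP (s44e_kA A) q := jcr_charP A hA
  haveI : IsAlgClosed (s44e_kA A) := jcr_isAlgClosed A
  haveI hpdv : HasPrincipalDivisors (s44e_kA A) ↥(s44e_FF A M) :=
    rt_hasPrincipalDivisors (jcr_isSepGen (k := s44e_kA A) M hqM (jcr_rho A hA))
  refine m59dl_char_of_delta hp M q hq hqM G hqG a A hA (s44k2d_cls (K := s44e_kA A) p fb)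
    (m59dl_cls_ne_zero hA hqM hp.ne_zero hpd hnp) (s44k2d_cls_tors p fb) ?_
  intro ℓ hG hℓM
  haveI : NeZero (ℓ : ℕ) := ⟨ℓ.2.ne_zero⟩
  obtain ⟨R', H⟩ := hH ℓ hG hℓM
  have hℓq : (ℓ : ℕ) ≠ q := by
    rintro h
    exact hqG (h ▸ hG)
  exact m59dl_cls_eigen hA hqM ℓ (hGN _ hG) hℓM hℓq R R' H hp.ne_zero hz (a ℓ) (heig ℓ hG) h hpd

end Main

end Fermat.Agent.M59
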