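/-
Project M59, Sink B (`m59t_Eq2_stmt`), cell (G2') [DELTA] (helper17; tag `m59dl_`), part 8:
THE `C`-RESIDUE WITHOUT THE THIRD VALUATION (`ℚ̄`-level), AND INSTANCE `C` OF (G2') MODULO ITS
UNRAMIFIED-LEVEL INPUTS.

Over `ℚ̄` the third vertical valuation of level `N' q q` has an Igusa curve as residue field, so there
is no residue datum `m59dl_Res` for `C`.  But S36's norm clause (nC1) says
`res_F (N_α x) = x̄_A · x̄_C ^ (q - 1)`; hence `x̄_C` is determined, up to constants, by the two GAUSS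
residues (levels `M q q` and `M q`, both landed as `m59dl_RA`, `m59dl_RF`), and its Hecke
equivariance is a formal consequence of (★★) for these two data and of the commutation of the norm
with `T_ℓ`.

Abstract setting: `R2 : m59dl_Res A M N2` (upper level), `R1 : m59dl_Res A M N1` (lower level),
`ν : F̄_{N2} →* F̄_{N1}` (the norm) with `ν (C c) = C (c ^ d)`.

* `m59dl_redOf_hecke` : ELEMENT-LEVEL (★★): `RedOf R f fb ⟹ RedOf R (T_ℓ f) (T̄_ℓ fb)`;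
* `m59dl_W R1 R2 ν x w` : `w = res_{R1}(e · ν x) / res_{R2}(c · x)` for normalising constants `c, e`;
  calculus `_mul _inv _pow _one _const _exists _unique` (unique up to `kAˣ`) and `m59dl_W_hecke`;
* `m59dl_CRoot R1 R2 ν n x g` : `g ≠ 0`, `g ^ n = C κ · w`, `W x w` (`n = q - 1`: `g` = "the
  `C`-residue of `x`"); calculus, uniqueness up to `kAˣ`, **`m59dl_CRoot_hecke`**;
* `m59dl_char_of_eigen_fun` : LAYER 1: `g` a `p`-divisible function of `FF_M`, not a constant times a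
  `p`-th power, with `T̄_ℓ g = C κ · g ^ k · h ^ p`, `k ≡ a ℓ (p)`, for all `ℓ ∈ G` ⟹ nonzero
  eigen-character of `gh_H M` (through `m59dl_char_of_delta`);
* **`m59dl_mainC`** : LAYER 2: `z ∈ J₀(N2)[p]` eigen, `f` a representative with `CRoot f g`,
  `g` `p`-divisible and not a constant times a `p`-th power; if for every `ℓ ∈ G` the `p`-th root
  `r` of `T_ℓ f / (c f ^ k)` has a `CRoot` (this is where the unramified level enters), then the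
  eigensystem occurs at level `M`.
-/
import Mathlib
import Fermat.Agent.M59.SinkB.Delta.Main

set_option autoImplicit false
set_option linter.unusedSectionVars false
set_option linter.unusedVariables false
set_option linter.style.haveILetI false
set_option synthInstance.maxHeartbeats 400000
set_option maxHeartbeats 1000000

noncomputable section

namespace Fermat.Agent.M59

open ModularCurve AlgebraicCurve IntermediateField IsLocalRing Module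
open Fermat.Agent.JT3 Fermat.Agent.SS Fermat.Agent.S35 Fermat.Agent.S24 Fermat.Agent.S28
open Fermat.Agent.MZ Fermat.Agent.S44 Fermat.Agent.SS2 Fermat.Agent.TW

local notation "Qb" => AlgebraicClosure ℚ

/-! ### generalities -/

section Gen

/-- a monoid homomorphism between fields commutes with inverses of nonzero elements. -/
theorem m59dl_hom_inv {E E' : Type*} [Field E] [Field E'] (ν : E →* E') {x : E} (hx : x ≠ 0) :
    ν x⁻¹ = (ν x)⁻¹ := by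
  apply eq_inv_of_mul_eq_one_left
  rw [← map_mul, inv_mul_cancel₀ hx, map_one]

theorem m59dl_hom_ne_zero {E E' : Type*} [Field E] [Field E'] (ν : E →* E') {x : E}
    (hx : x ≠ 0) : ν x ≠ 0 :=
  (IsUnit.map ν (isUnit_iff_ne_zero.2 hx)).ne_zero

theorem m59dl_hom_div {E E' : Type*} [Field E] [Field E'] (ν : E →* E') (x : E) {y : E}
    (hy : y ≠ 0) : ν (x / y) = ν x / ν y := by
  rw [div_eq_mul_inv, map_mul, m59dl_hom_inv ν hy, div_eq_mul_inv]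

/-- the norm along `φ` of a constant. -/
theorem m59dl_normAlong_const {K F F' : Type*} [Field K] [Field F] [Field F'] [Algebra K F]
    [Algebra K F'] (φ : F →ₐ[K] F') (c : K) :
    s35pe_normAlong φ (algebraMap K F' c) = algebraMap K F c ^ finrankAlong K φ := by
  letI := algebraAlong φ
  have h : algebraMap K F' c = algebraMap F F' (algebraMap K F c) := (φ.commutes c).symm
  rw [s35pe_normAlong_apply, h, Algebra.norm_algebraMap]
  rfl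

end Gen

/-! ### the Hecke operator on functions of the special fibre, element-level (★★) -/

section Elt

variable (A : ValuationSubring Qb) (M : ℕ) [NeZero M] (ℓ : ℕ) [NeZero ℓ]

/-- `T̄_ℓ = N_ᾱ ∘ β̄` on the functions of the special fibre of level `M`. -/
def m59dl_Tb : ↥(s44e_FF A M) →* ↥(s44e_FF A M) where
  toFun x := s35pe_normAlong (mzrh_alC (s44e_kA A) M ℓ) (mzrh_beC (s44e_kA A) M ℓ x)
  map_one' := by rw [map_one, map_one]
  map_mul' x y := by rw [map_mul, map_mul]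

theorem m59dl_Tb_apply (x : ↥(s44e_FF A M)) :
    m59dl_Tb A M ℓ x =
      s35pe_normAlong (mzrh_alC (s44e_kA A) M ℓ) (mzrh_beC (s44e_kA A) M ℓ x) := rfl

theorem m59dl_Tb_const (κ : s44e_kA A) :
    m59dl_Tb A M ℓ (algebraMap (s44e_kA A) ↥(s44e_FF A M) κ) =
      algebraMap (s44e_kA A) ↥(s44e_FF A M)
        (κ ^ finrankAlong (s44e_kA A) (mzrh_alC (s44e_kA A) M ℓ)) := by
  rw [m59dl_Tb_apply, AlgHom.commutes, m59dl_normAlong_const, map_pow]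

/-- `T_ℓ` on functions, on a constant multiple. -/
theorem m59dl_T_const_mul (N : ℕ) [NeZero N] (c : Qb) (x : Fbar N) :
    s44hr_T N ℓ (algebraMap Qb (Fbar N) c * x) =
      algebraMap Qb (Fbar N) (c ^ finrankAlong Qb (heckeAlphaBar Qb N ℓ)) * s44hr_T N ℓ x := by
  rw [s44hr_T_mul, s44hr_T_apply N ℓ (algebraMap Qb (Fbar N) c), AlgHom.commutes,
    m59dl_normAlong_const, map_pow]

end Elt

section EltHecke

variable {A : ValuationSubring Qb} {q : ℕ} [hq : Fact q.Prime] (hA : A.LiesOverPrime q)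
  {M N : ℕ} [NeZero M] [NeZero N] (hqM : ¬ q ∣ M)

include hA hqM in
/-- **element-level (★★)**: `fb` the `R`-residue of `f` ⟹ `T̄_ℓ fb` the `R`-residue of `T_ℓ f`. -/
theorem m59dl_redOf_hecke (ℓ : Nat.Primes) (hℓN : ¬ (ℓ : ℕ) ∣ N) (hℓM : ¬ (ℓ : ℕ) ∣ M)
    (hℓq : (ℓ : ℕ) ≠ q)
    (R : m59dl_Res A M N)
    (R' : haveI : NeZero (ℓ : ℕ) := ⟨ℓ.2.ne_zero⟩; m59dl_Res A (M * (ℓ : ℕ)) (N * (ℓ : ℕ)))
    (H : haveI : NeZero (ℓ : ℕ) := ⟨ℓ.2.ne_zero⟩; m59dl_Hecke (ℓ : ℕ) R R')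
    {f : Fbar N} {fb : ↥(s44e_FF A M)} (h : m59dl_RedOf R f fb) :
    haveI : NeZero (ℓ : ℕ) := ⟨ℓ.2.ne_zero⟩
    m59dl_RedOf R (s44hr_T N ℓ f) (m59dl_Tb A M ℓ fb) := by
  haveI : NeZero (ℓ : ℕ) := ⟨ℓ.2.ne_zero⟩
  have hqℓ : ¬ q ∣ (ℓ : ℕ) := fun hd =>
    hℓq ((Nat.prime_dvd_prime_iff_eq hq.out ℓ.2).mp hd).symm
  have hqMℓ : ¬ q ∣ M * (ℓ : ℕ) := mzrh_not_dvd_mul M (ℓ : ℕ) hqM hqℓ
  have hdeg := s44hd_finrank_alC A hA M (ℓ : ℕ) ℓ.2 hℓM hqM hqMℓ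
  obtain ⟨hb, e⟩ := h
  have hβ1 : heckeBetaBar Qb N ℓ f ∈ R'.V := H.beta_mem f hb
  have hredβ : R'.res ⟨heckeBetaBar Qb N ℓ f, hβ1⟩ = mzrh_beC (ResidueField ↥A) M ℓ fb := by
    rw [H.beta_res f hb hβ1, e]
  obtain ⟨hn, hnred⟩ := m59dl_red_norm H ℓ.2 hℓN hdeg ⟨heckeBetaBar Qb N ℓ f, hβ1⟩
  rw [hredβ] at hnred
  exact ⟨hn, hnred⟩

end EltHecke

/-! ### the relation `W` -/

section W

variable {A : ValuationSubring Qb} {M N1 N2 : ℕ} [NeZero M] [NeZero N1] [NeZero N2]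

/-- two normalisations of the same function have residues differing by a constant. -/
theorem m59dl_redOf_ratio {N : ℕ} [NeZero N] (R : m59dl_Res A M N) {x : Fbar N} (hx : x ≠ 0)
    {c c' : Qb} (hc : c ≠ 0) {xa xa' : ↥(s44e_FF A M)}
    (h : m59dl_RedOf R (algebraMap Qb (Fbar N) c * x) xa)
    (h' : m59dl_RedOf R (algebraMap Qb (Fbar N) c' * x) xa') (hxa : xa ≠ 0) (hxa' : xa' ≠ 0) :
    ∃ κ : s44e_kA A, κ ≠ 0 ∧ xa' = algebraMap (s44e_kA A) ↥(s44e_FF A M) κ * xa := by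
  have hinv := m59dl_redOf_inv R h hxa
  have hm := m59dl_redOf_mul R h' hinv
  have hc0 : algebraMap Qb (Fbar N) c ≠ 0 := (_root_.map_ne_zero _).2 hc
  have e : algebraMap Qb (Fbar N) c' * x * (algebraMap Qb (Fbar N) c * x)⁻¹ =
      algebraMap Qb (Fbar N) (c' / c) := by
    rw [map_div₀]
    field_simp
  rw [e] at hm
  have hmem := m59dl_const_mem_of_redOf R hm
  have hconst := m59dl_redOf_const R (c' / c) hmem
  have huniq := m59dl_redOf_unique R hm hconst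
  refine ⟨residue ↥A ⟨c' / c, hmem⟩, ?_, ?_⟩
  · intro h0
    rw [h0, map_zero] at huniq
    exact mul_ne_zero hxa' (inv_ne_zero hxa) huniq
  · rw [← huniq, mul_assoc, inv_mul_cancel₀ hxa, mul_one]

variable (R1 : m59dl_Res A M N1) (R2 : m59dl_Res A M N2) (ν : Fbar N2 →* Fbar N1)

/-- `w = res_{R1}(e · ν x) / res_{R2}(c · x)` for some normalising constants `c`, `e`. -/
def m59dl_W (x : Fbar N2) (w : ↥(s44e_FF A M)) : Prop :=
  ∃ (c e : Qb) (xa x1 : ↥(s44e_FF A M)), c ≠ 0 ∧ e ≠ 0 ∧ xa ≠ 0 ∧ x1 ≠ 0 ∧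
    m59dl_RedOf R2 (algebraMap Qb (Fbar N2) c * x) xa ∧
    m59dl_RedOf R1 (algebraMap Qb (Fbar N1) e * ν x) x1 ∧ w = x1 / xa

variable {R1 R2 ν}

theorem m59dl_W_ne_zero {x : Fbar N2} {w : ↥(s44e_FF A M)} (h : m59dl_W R1 R2 ν x w) :
    x ≠ 0 ∧ w ≠ 0 := by
  obtain ⟨c, e, xa, x1, hc, he, hxa, hx1, h2, h1, rfl⟩ := h
  refine ⟨?_, div_ne_zero hx1 hxa⟩
  rintro rfl
  have := (m59dl_unit_of_redOf R2 h2 hxa).1
  rw [mul_zero] at this
  exact this rfl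

theorem m59dl_W_mul {x x' : Fbar N2} {w w' : ↥(s44e_FF A M)} (h : m59dl_W R1 R2 ν x w)
    (h' : m59dl_W R1 R2 ν x' w') : m59dl_W R1 R2 ν (x * x') (w * w') := by
  obtain ⟨c, e, xa, x1, hc, he, hxa, hx1, h2, h1, rfl⟩ := h
  obtain ⟨c', e', xa', x1', hc', he', hxa', hx1', h2', h1', rfl⟩ := h'
  refine ⟨c * c', e * e', xa * xa', x1 * x1', mul_ne_zero hc hc', mul_ne_zero he he',
    mul_ne_zero hxa hxa', mul_ne_zero hx1 hx1', ?_, ?_, ?_⟩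
  · have := m59dl_redOf_mul R2 h2 h2'
    have e1 : algebraMap Qb (Fbar N2) (c * c') * (x * x') =
        algebraMap Qb (Fbar N2) c * x * (algebraMap Qb (Fbar N2) c' * x') := by
      rw [map_mul]; ring
    rw [e1]; exact this
  · have := m59dl_redOf_mul R1 h1 h1'
    have e1 : algebraMap Qb (Fbar N1) (e * e') * ν (x * x') =
        algebraMap Qb (Fbar N1) e * ν x * (algebraMap Qb (Fbar N1) e' * ν x') := by
      rw [map_mul, map_mul]; ring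
    rw [e1]; exact this
  · rw [div_mul_div_comm]

theorem m59dl_W_one : m59dl_W R1 R2 ν (1 : Fbar N2) 1 := by
  refine ⟨1, 1, 1, 1, one_ne_zero, one_ne_zero, one_ne_zero, one_ne_zero, ?_, ?_, ?_⟩
  · rw [map_one, mul_one]; exact m59dl_redOf_one R2
  · rw [map_one, map_one, mul_one]; exact m59dl_redOf_one R1
  · rw [div_one]

theorem m59dl_W_pow {x : Fbar N2} {w : ↥(s44e_FF A M)} (h : m59dl_W R1 R2 ν x w) (k : ℕ) :
    m59dl_W R1 R2 ν (x ^ k) (w ^ k) := by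
  induction k with
  | zero => rw [pow_zero, pow_zero]; exact m59dl_W_one
  | succ k ih => rw [pow_succ, pow_succ]; exact m59dl_W_mul ih h

theorem m59dl_W_inv {x : Fbar N2} {w : ↥(s44e_FF A M)} (h : m59dl_W R1 R2 ν x w) :
    m59dl_W R1 R2 ν x⁻¹ w⁻¹ := by
  have hx0 := (m59dl_W_ne_zero h).1
  obtain ⟨c, e, xa, x1, hc, he, hxa, hx1, h2, h1, rfl⟩ := h
  refine ⟨c⁻¹, e⁻¹, xa⁻¹, x1⁻¹, inv_ne_zero hc, inv_ne_zero he, inv_ne_zero hxa, inv_ne_zero hx1,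
    ?_, ?_, ?_⟩
  · have := m59dl_redOf_inv R2 h2 hxa
    rw [mul_inv, ← map_inv₀] at this
    exact this
  · have := m59dl_redOf_inv R1 h1 hx1
    rw [mul_inv, ← map_inv₀, ← m59dl_hom_inv ν hx0] at this
    exact this
  · rw [inv_div, inv_div_inv]

/-- constants have `W = 1`. -/
theorem m59dl_W_const {d : ℕ}
    (hν : ∀ c : Qb, ν (algebraMap Qb (Fbar N2) c) = algebraMap Qb (Fbar N1) (c ^ d))
    {c : Qb} (hc : c ≠ 0) : m59dl_W R1 R2 ν (algebraMap Qb (Fbar N2) c) 1 := by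
  refine ⟨c⁻¹, (c ^ d)⁻¹, 1, 1, inv_ne_zero hc, inv_ne_zero (pow_ne_zero _ hc), one_ne_zero,
    one_ne_zero, ?_, ?_, ?_⟩
  · rw [← map_mul, inv_mul_cancel₀ hc, map_one]; exact m59dl_redOf_one R2
  · rw [hν, ← map_mul, inv_mul_cancel₀ (pow_ne_zero _ hc), map_one]; exact m59dl_redOf_one R1
  · rw [div_one]

theorem m59dl_W_exists {x : Fbar N2} (hx : x ≠ 0) : ∃ w, m59dl_W R1 R2 ν x w := by
  obtain ⟨c, hc0, h1, h2⟩ := R2.nrm x hx
  have hcx : algebraMap Qb (Fbar N2) c * x ≠ 0 :=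
    mul_ne_zero ((_root_.map_ne_zero _).2 hc0) hx
  obtain ⟨xa, hxa0, hxa⟩ := m59dl_exists_redOf_of_unit R2 h1 h2 hcx
  have hνx : ν x ≠ 0 := m59dl_hom_ne_zero ν hx
  obtain ⟨e, he0, h1', h2'⟩ := R1.nrm (ν x) hνx
  have hex : algebraMap Qb (Fbar N1) e * ν x ≠ 0 :=
    mul_ne_zero ((_root_.map_ne_zero _).2 he0) hνx
  obtain ⟨x1, hx10, hx1⟩ := m59dl_exists_redOf_of_unit R1 h1' h2' hex
  exact ⟨x1 / xa, c, e, xa, x1, hc0, he0, hxa0, hx10, hxa, hx1, rfl⟩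

/-- `W` is unique up to constants. -/
theorem m59dl_W_unique {x : Fbar N2} {w w' : ↥(s44e_FF A M)} (h : m59dl_W R1 R2 ν x w)
    (h' : m59dl_W R1 R2 ν x w') :
    ∃ κ : s44e_kA A, κ ≠ 0 ∧ w' = algebraMap (s44e_kA A) ↥(s44e_FF A M) κ * w := by
  have hx0 := (m59dl_W_ne_zero h).1
  obtain ⟨c, e, xa, x1, hc, he, hxa, hx1, h2, h1, rfl⟩ := h
  obtain ⟨c', e', xa', x1', hc', he', hxa', hx1', h2', h1', rfl⟩ := h'
  obtain ⟨κ2, hκ2, e2⟩ := m59dl_redOf_ratio R2 hx0 hc h2 h2' hxa hxa'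
  obtain ⟨κ1, hκ1, e1⟩ := m59dl_redOf_ratio R1 (m59dl_hom_ne_zero ν hx0) he h1 h1' hx1 hx1'
  refine ⟨κ1 / κ2, div_ne_zero hκ1 hκ2, ?_⟩
  have hκ2' : algebraMap (s44e_kA A) ↥(s44e_FF A M) κ2 ≠ 0 := (_root_.map_ne_zero _).2 hκ2
  rw [e1, e2, map_div₀]
  field_simp

end W

/-! ### Hecke equivariance of `W` -/

section WHecke

variable {A : ValuationSubring Qb} {q : ℕ} [hq : Fact q.Prime] (hA : A.LiesOverPrime q)
  {M N1 N2 : ℕ} [NeZero M] [NeZero N1] [NeZero N2] (hqM : ¬ q ∣ M)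
  {R1 : m59dl_Res A M N1} {R2 : m59dl_Res A M N2} {ν : Fbar N2 →* Fbar N1}

include hA hqM in
/-- **`W` is Hecke equivariant.** -/
theorem m59dl_W_hecke (ℓ : Nat.Primes) (hℓN1 : ¬ (ℓ : ℕ) ∣ N1) (hℓN2 : ¬ (ℓ : ℕ) ∣ N2)
    (hℓM : ¬ (ℓ : ℕ) ∣ M) (hℓq : (ℓ : ℕ) ≠ q)
    (R1' : haveI : NeZero (ℓ : ℕ) := ⟨ℓ.2.ne_zero⟩; m59dl_Res A (M * (ℓ : ℕ)) (N1 * (ℓ : ℕ)))
    (H1 : haveI : NeZero (ℓ : ℕ) := ⟨ℓ.2.ne_zero⟩; m59dl_Hecke (ℓ : ℕ) R1 R1')
    (R2' : haveI : NeZero (ℓ : ℕ) := ⟨ℓ.2.ne_zero⟩; m59dl_Res A (M * (ℓ : ℕ)) (N2 * (ℓ : ℕ)))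
    (H2 : haveI : NeZero (ℓ : ℕ) := ⟨ℓ.2.ne_zero⟩; m59dl_Hecke (ℓ : ℕ) R2 R2')
    (hcomm : haveI : NeZero (ℓ : ℕ) := ⟨ℓ.2.ne_zero⟩
      ∀ x : Fbar N2, ν (s44hr_T N2 ℓ x) = s44hr_T N1 ℓ (ν x))
    {x : Fbar N2} {w : ↥(s44e_FF A M)} (h : m59dl_W R1 R2 ν x w) :
    haveI : NeZero (ℓ : ℕ) := ⟨ℓ.2.ne_zero⟩
    m59dl_W R1 R2 ν (s44hr_T N2 ℓ x) (m59dl_Tb A M ℓ w) := by
  haveI : NeZero (ℓ : ℕ) := ⟨ℓ.2.ne_zero⟩
  obtain ⟨c, e, xa, x1, hc, he, hxa, hx1, h2, h1, rfl⟩ := h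
  have k2 := m59dl_redOf_hecke hA hqM ℓ hℓN2 hℓM hℓq R2 R2' H2 h2
  have k1 := m59dl_redOf_hecke hA hqM ℓ hℓN1 hℓM hℓq R1 R1' H1 h1
  rw [m59dl_T_const_mul] at k2 k1
  rw [← hcomm] at k1
  exact ⟨_, _, _, _, pow_ne_zero _ hc, pow_ne_zero _ he, m59dl_hom_ne_zero _ hxa,
    m59dl_hom_ne_zero _ hx1, k2, k1, m59dl_hom_div _ _ hxa⟩

end WHecke

/-! ### the `C`-root -/

section CRoot

variable {A : ValuationSubring Qb} {M N1 N2 : ℕ} [NeZero M] [NeZero N1] [NeZero N2]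
  (R1 : m59dl_Res A M N1) (R2 : m59dl_Res A M N2) (ν : Fbar N2 →* Fbar N1) (n : ℕ)

/-- `g` is an `n`-th root of `W x`, up to a constant (`n = q - 1`: `g` is "the `C`-residue"
of `x`). -/
def m59dl_CRoot (x : Fbar N2) (g : ↥(s44e_FF A M)) : Prop :=
  g ≠ 0 ∧ ∃ (κ : s44e_kA A) (w : ↥(s44e_FF A M)), κ ≠ 0 ∧ m59dl_W R1 R2 ν x w ∧
    g ^ n = algebraMap (s44e_kA A) ↥(s44e_FF A M) κ * w

variable {R1 R2 ν n}

theorem m59dl_CRoot_mul {x x' : Fbar N2} {g g' : ↥(s44e_FF A M)}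
    (h : m59dl_CRoot R1 R2 ν n x g) (h' : m59dl_CRoot R1 R2 ν n x' g') :
    m59dl_CRoot R1 R2 ν n (x * x') (g * g') := by
  obtain ⟨hg, κ, w, hκ, hw, e⟩ := h
  obtain ⟨hg', κ', w', hκ', hw', e'⟩ := h'
  refine ⟨mul_ne_zero hg hg', κ * κ', w * w', mul_ne_zero hκ hκ', m59dl_W_mul hw hw', ?_⟩
  rw [mul_pow, e, e', map_mul]
  ring

theorem m59dl_CRoot_one : m59dl_CRoot R1 R2 ν n (1 : Fbar N2) 1 :=
  ⟨one_ne_zero, 1, 1, one_ne_zero, m59dl_W_one, by rw [one_pow, map_one, mul_one]⟩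

theorem m59dl_CRoot_pow {x : Fbar N2} {g : ↥(s44e_FF A M)} (h : m59dl_CRoot R1 R2 ν n x g)
    (k : ℕ) : m59dl_CRoot R1 R2 ν n (x ^ k) (g ^ k) := by
  induction k with
  | zero => rw [pow_zero, pow_zero]; exact m59dl_CRoot_one
  | succ k ih => rw [pow_succ, pow_succ]; exact m59dl_CRoot_mul ih h

theorem m59dl_CRoot_inv {x : Fbar N2} {g : ↥(s44e_FF A M)} (h : m59dl_CRoot R1 R2 ν n x g) :
    m59dl_CRoot R1 R2 ν n x⁻¹ g⁻¹ := by
  obtain ⟨hg, κ, w, hκ, hw, e⟩ := h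
  refine ⟨inv_ne_zero hg, κ⁻¹, w⁻¹, inv_ne_zero hκ, m59dl_W_inv hw, ?_⟩
  rw [inv_pow, e, mul_inv, map_inv₀]

theorem m59dl_CRoot_const {d : ℕ}
    (hν : ∀ c : Qb, ν (algebraMap Qb (Fbar N2) c) = algebraMap Qb (Fbar N1) (c ^ d))
    {c : Qb} (hc : c ≠ 0) : m59dl_CRoot R1 R2 ν n (algebraMap Qb (Fbar N2) c) 1 :=
  ⟨one_ne_zero, 1, 1, one_ne_zero, m59dl_W_const hν hc, by rw [one_pow, map_one, mul_one]⟩

end CRoot

end Fermat.Agent.M59
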