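/-
Project M59, Sink B (`m59t_Eq2_stmt`), cell (G2') [DELTA] (helper17; tag `m59dl_`), part 9:
INSTANCE `C` OF (G2'), `ℚ̄`-LEVEL THEOREM.

* `m59dl_const_of_pow`  : `u ^ n` constant, `n ≠ 0` ⟹ `u` constant (functions of `FF_M`);
* `m59dl_CRoot_unique`  : the `C`-root is unique up to `kAˣ`;
* `m59dl_CRoot_hecke`   : `CRoot x g ⟹ CRoot (T_ℓ x) (T̄_ℓ g)`;
* `m59dl_char_of_eigen_fun` : LAYER 1;
* **`m59dl_mainC`**     : LAYER 2 (see `Delta/CRoot.lean`).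
-/
import Mathlib
import Fermat.Agent.M59.SinkB.Delta.CRoot

set_option autoImplicit false
set_option linter.unusedSectionVars false
set_option linter.unusedVariables false
set_option linter.style.haveILetI false
set_option synthInstance.maxHeartbeats 400000
set_option maxHeartbeats 1000000

noncomputable section

namespace Fermat.Agent.M59

open ModularCurve AlgebraicCurve IntermediateField IsLocalRing Module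
open Fermat.Agent.JT3 Fermat.Agent.SS Fermat.Agent.S35 Fermat.Agent.S24 Fermat.Agent.S28
open Fermat.Agent.MZ Fermat.Agent.S44 Fermat.Agent.SS2 Fermat.Agent.TW

local notation "Qb" => AlgebraicClosure ℚ

section Const

variable {A : ValuationSubring Qb} {q : ℕ} [hq : Fact q.Prime] (hA : A.LiesOverPrime q)
  {M : ℕ} [NeZero M] (hqM : ¬ q ∣ M)

include hA hqM in
/-- a function of the special fibre with a constant power is constant. -/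
theorem m59dl_const_of_pow {n : ℕ} (hn : n ≠ 0) {u : ↥(s44e_FF A M)} (hu0 : u ≠ 0)
    {κ : s44e_kA A} (h : u ^ n = algebraMap (s44e_kA A) ↥(s44e_FF A M) κ) :
    ∃ κ' : s44e_kA A, κ' ≠ 0 ∧ u = algebraMap (s44e_kA A) ↥(s44e_FF A M) κ' := by
  haveI : CharP (s44e_kA A) q := jcr_charP A hA
  haveI : IsAlgClosed (s44e_kA A) := jcr_isAlgClosed A
  have hsep := jcr_isSepGen (k := s44e_kA A) M hqM (jcr_rho A hA)
  have hord : ∀ Q : Place (s44e_kA A) ↥(s44e_FF A M), Q.ord u = 0 := by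
    intro Q
    have h1 := Q.ord_zpow u (n : ℤ)
    rw [zpow_natCast, h, hw_ord_algebraMap] at h1
    have hn' : (n : ℤ) ≠ 0 := by exact_mod_cast hn
    rcases mul_eq_zero.1 h1.symm with h2 | h2
    · exact absurd h2 hn'
    · exact h2
  obtain ⟨c, hc⟩ := rt_const_of_forall_mem hsep u
    (fun v => (hw_mem_iff_ord_nonneg v hu0).2 (hord v).ge)
  refine ⟨c, ?_, hc⟩
  rintro rfl
  rw [map_zero] at hc
  exact hu0 hc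

end Const

section CRoot2

variable {A : ValuationSubring Qb} {q : ℕ} [hq : Fact q.Prime] (hA : A.LiesOverPrime q)
  {M N1 N2 : ℕ} [NeZero M] [NeZero N1] [NeZero N2] (hqM : ¬ q ∣ M)
  {R1 : m59dl_Res A M N1} {R2 : m59dl_Res A M N2} {ν : Fbar N2 →* Fbar N1} {n : ℕ}

include hA hqM in
/-- **the `C`-root is unique up to constants.** -/
theorem m59dl_CRoot_unique (hn : n ≠ 0) {x : Fbar N2} {g g' : ↥(s44e_FF A M)}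
    (h : m59dl_CRoot R1 R2 ν n x g) (h' : m59dl_CRoot R1 R2 ν n x g') :
    ∃ κ : s44e_kA A, κ ≠ 0 ∧ g' = algebraMap (s44e_kA A) ↥(s44e_FF A M) κ * g := by
  obtain ⟨hg, κ, w, hκ, hw, e⟩ := h
  obtain ⟨hg', κ', w', hκ', hw', e'⟩ := h'
  obtain ⟨κ0, hκ0, e0⟩ := m59dl_W_unique hw hw'
  have hw0 := (m59dl_W_ne_zero hw).2
  have hκF : algebraMap (s44e_kA A) ↥(s44e_FF A M) κ ≠ 0 := (_root_.map_ne_zero _).2 hκ
  have hpow : (g' / g) ^ n = algebraMap (s44e_kA A) ↥(s44e_FF A M) (κ' * κ0 / κ) := by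
    rw [div_pow, e, e', e0, map_div₀, map_mul]
    field_simp
  obtain ⟨κ1, hκ1, e1⟩ := m59dl_const_of_pow hA hqM hn (div_ne_zero hg' hg) hpow
  refine ⟨κ1, hκ1, ?_⟩
  rw [← e1, div_mul_cancel₀ _ hg]

include hA hqM in
/-- **the `C`-root is Hecke equivariant.** -/
theorem m59dl_CRoot_hecke (ℓ : Nat.Primes) (hℓN1 : ¬ (ℓ : ℕ) ∣ N1) (hℓN2 : ¬ (ℓ : ℕ) ∣ N2)
    (hℓM : ¬ (ℓ : ℕ) ∣ M) (hℓq : (ℓ : ℕ) ≠ q)
    (R1' : haveI : NeZero (ℓ : ℕ) := ⟨ℓ.2.ne_zero⟩; m59dl_Res A (M * (ℓ : ℕ)) (N1 * (ℓ : ℕ)))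
    (H1 : haveI : NeZero (ℓ : ℕ) := ⟨ℓ.2.ne_zero⟩; m59dl_Hecke (ℓ : ℕ) R1 R1')
    (R2' : haveI : NeZero (ℓ : ℕ) := ⟨ℓ.2.ne_zero⟩; m59dl_Res A (M * (ℓ : ℕ)) (N2 * (ℓ : ℕ)))
    (H2 : haveI : NeZero (ℓ : ℕ) := ⟨ℓ.2.ne_zero⟩; m59dl_Hecke (ℓ : ℕ) R2 R2')
    (hcomm : haveI : NeZero (ℓ : ℕ) := ⟨ℓ.2.ne_zero⟩
      ∀ x : Fbar N2, ν (s44hr_T N2 ℓ x) = s44hr_T N1 ℓ (ν x))
    {x : Fbar N2} {g : ↥(s44e_FF A M)} (h : m59dl_CRoot R1 R2 ν n x g) :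
    haveI : NeZero (ℓ : ℕ) := ⟨ℓ.2.ne_zero⟩
    m59dl_CRoot R1 R2 ν n (s44hr_T N2 ℓ x) (m59dl_Tb A M ℓ g) := by
  haveI : NeZero (ℓ : ℕ) := ⟨ℓ.2.ne_zero⟩
  obtain ⟨hg, κ, w, hκ, hw, e⟩ := h
  refine ⟨m59dl_hom_ne_zero _ hg, κ ^ finrankAlong (s44e_kA A) (mzrh_alC (s44e_kA A) M ℓ),
    m59dl_Tb A M ℓ w, pow_ne_zero _ hκ,
    m59dl_W_hecke hA hqM ℓ hℓN1 hℓN2 hℓM hℓq R1' H1 R2' H2 hcomm hw, ?_⟩
  rw [← map_pow, e, map_mul, m59dl_Tb_const]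

end CRoot2

/-! ### LAYER 1: an eigen-function of the special fibre -/

section Layer1

variable {A : ValuationSubring Qb} {q : ℕ} (hq : q.Prime) (hA : A.LiesOverPrime q)
  {M : ℕ} [NeZero M] (hqM : ¬ q ∣ M)

include hq hA hqM in
/-- **LAYER 1**: a `p`-divisible function `g` of `FF_M`, not a constant times a `p`-th power, with
`T̄_ℓ g = C κ · g ^ k · h ^ p`, `k ≡ a ℓ (mod p)`, for every `ℓ ∈ G` ⟹ the eigensystem `a` occurs at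
level `M`. -/
theorem m59dl_char_of_eigen_fun {p : ℕ} (hp : p.Prime) (G : Set ℕ) (hqG : q ∉ G) (a : ℕ → ℤ)
    {g : ↥(s44e_FF A M)} (hpd : s44k2d_PDiv (K := s44e_kA A) p g)
    (hnp : ¬ ∃ (κ : s44e_kA A) (h : ↥(s44e_FF A M)),
      g = algebraMap (s44e_kA A) ↥(s44e_FF A M) κ * h ^ p)
    (heig : ∀ ℓ : Nat.Primes, (ℓ : ℕ) ∈ G → ¬ (ℓ : ℕ) ∣ M →
      haveI : NeZero (ℓ : ℕ) := ⟨ℓ.2.ne_zero⟩
      ∃ (κ : s44e_kA A) (h : ↥(s44e_FF A M)) (k : ℕ), κ ≠ 0 ∧ h ≠ 0 ∧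
        ((k : ℤ) - a ℓ) % (p : ℤ) = 0 ∧
        m59dl_Tb A M ℓ g = algebraMap (s44e_kA A) ↥(s44e_FF A M) κ * g ^ k * h ^ p) :
    ∃ v : gh_H M →+ ZMod p, v ≠ 0 ∧
      ∀ ℓ : ℕ, ℓ.Prime → ¬ ℓ ∣ M → ℓ ∈ G →
        v.comp (t2f_TH M ℓ).toAddMonoidHom = ((a ℓ : ℤ) : ZMod p) • v := by
  haveI : Fact q.Prime := ⟨hq⟩
  haveI : CharP (s44e_kA A) q := jcr_charP A hA
  haveI : IsAlgClosed (s44e_kA A) := jcr_isAlgClosed A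
  haveI hpdv : HasPrincipalDivisors (s44e_kA A) ↥(s44e_FF A M) :=
    rt_hasPrincipalDivisors (jcr_isSepGen (k := s44e_kA A) M hqM (jcr_rho A hA))
  have hp0 : p ≠ 0 := hp.ne_zero
  have hnp' : ¬ ∃ h : ↥(s44e_FF A M), g = h ^ p := by
    rintro ⟨h, rfl⟩
    exact hnp ⟨1, h, by rw [map_one, one_mul]⟩
  refine m59dl_char_of_delta hp M q hq hqM G hqG a A hA (s44k2d_cls (K := s44e_kA A) p g)
    (m59dl_cls_ne_zero hA hqM hp0 hpd hnp') (s44k2d_cls_tors p g) ?_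
  intro ℓ hG hℓM
  haveI : NeZero (ℓ : ℕ) := ⟨ℓ.2.ne_zero⟩
  have hℓq : (ℓ : ℕ) ≠ q := by
    rintro h
    exact hqG (h ▸ hG)
  have hqℓ : ¬ q ∣ (ℓ : ℕ) := fun hd =>
    hℓq ((Nat.prime_dvd_prime_iff_eq hq ℓ.2).mp hd).symm
  obtain ⟨hαC, hβC, hPC, hfinC, hFIC, hNC⟩ :=
    mzrh_heckeInputsC M ℓ (jcr_rho A hA) hqM hqℓ
  haveI := hPC
  obtain ⟨κ, h, k, hκ, hh, hk, e⟩ := heig ℓ hG hℓM
  rw [m59dl_Tb_apply] at e
  -- `T̃_ℓ (cls g) = cls (T̄_ℓ g)`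
  have h2 : s44k2_TCp (s44e_kA A) M ℓ (s44k2d_cls (K := s44e_kA A) p g) =
      s44k2d_cls (K := s44e_kA A) p
        (s35pe_normAlong (mzrh_alC (s44e_kA A) M ℓ) (mzrh_beC (s44e_kA A) M ℓ g)) := by
    rw [s44k2d_cls_corr (mzrh_beC (s44e_kA A) M ℓ) (mzrh_alC (s44e_kA A) M ℓ) hβC hαC hFIC hfinC
      hNC hp0 hpd, s44k2_TCp_eq, s44k2_TC_eq hαC hβC hFIC hfinC hNC]
  -- `cls (T̄_ℓ g) = k • cls g`
  have h1 : s44k2d_cls (K := s44e_kA A) p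
      (s35pe_normAlong (mzrh_alC (s44e_kA A) M ℓ) (mzrh_beC (s44e_kA A) M ℓ g)) =
      k • s44k2d_cls (K := s44e_kA A) p g := by
    rw [s44k2d_cls_congr hp0 (pow_ne_zero k hpd.1) hκ hh e, m59dl_cls_npow hp0 hpd k]
  rw [h2, h1]
  -- `k ≡ a ℓ`
  obtain ⟨t, ht⟩ : ∃ t : ℤ, (k : ℤ) = a ℓ + (p : ℤ) * t := by
    obtain ⟨t, ht⟩ := Int.dvd_of_emod_eq_zero hk
    exact ⟨t, by linarith⟩
  have hkz : (k : ℤ) • s44k2d_cls (K := s44e_kA A) p g = k • s44k2d_cls (K := s44e_kA A) p g :=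
    natCast_zsmul _ _
  rw [← hkz, ht, add_zsmul, mul_zsmul, natCast_zsmul, smul_comm, s44k2d_cls_tors, smul_zero,
    add_zero]

end Layer1

/-! ### LAYER 2: instance `C` of (G2'), `ℚ̄`-level -/

section Layer2

variable {A : ValuationSubring Qb} {q : ℕ} (hq : q.Prime) (hA : A.LiesOverPrime q)
  {M N1 N2 : ℕ} [NeZero M] [NeZero N1] [NeZero N2] (hqM : ¬ q ∣ M)

include hq hA hqM in
/-- **(G2'), instance `C`, `ℚ̄`-level**: `R2` (upper level `N2`), `R1` (lower level `N1`) residue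
data with Hecke partners for `ℓ ∈ G`, `ν` a norm commuting with the `T_ℓ`; `z ∈ J₀(N2)[p]` an
eigenclass, `f` a representative of `z` with `C`-root `g`, `g` `p`-divisible and not a constant times
a `p`-th power.  If for every `ℓ ∈ G` every `p`-th root `r` of `T_ℓ f / (c f ^ k)` has a `C`-root,
the eigensystem occurs at level `M`. -/
theorem m59dl_mainC {p : ℕ} (hp : p.Prime) (G : Set ℕ) (hqG : q ∉ G)
    (hGN1 : ∀ ℓ ∈ G, ¬ ℓ ∣ N1) (hGN2 : ∀ ℓ ∈ G, ¬ ℓ ∣ N2) (a : ℕ → ℤ)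
    (R1 : m59dl_Res A M N1) (R2 : m59dl_Res A M N2) (ν : Fbar N2 →* Fbar N1) {d n : ℕ}
    (hn : n ≠ 0)
    (hν : ∀ c : Qb, ν (algebraMap Qb (Fbar N2) c) = algebraMap Qb (Fbar N1) (c ^ d))
    (hH1 : ∀ ℓ : Nat.Primes, (ℓ : ℕ) ∈ G → ¬ (ℓ : ℕ) ∣ M →
      haveI : NeZero (ℓ : ℕ) := ⟨ℓ.2.ne_zero⟩
      ∃ R' : m59dl_Res A (M * (ℓ : ℕ)) (N1 * (ℓ : ℕ)), m59dl_Hecke (ℓ : ℕ) R1 R')
    (hH2 : ∀ ℓ : Nat.Primes, (ℓ : ℕ) ∈ G → ¬ (ℓ : ℕ) ∣ M →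
      haveI : NeZero (ℓ : ℕ) := ⟨ℓ.2.ne_zero⟩
      ∃ R' : m59dl_Res A (M * (ℓ : ℕ)) (N2 * (ℓ : ℕ)), m59dl_Hecke (ℓ : ℕ) R2 R')
    (hcomm : ∀ ℓ : Nat.Primes, (ℓ : ℕ) ∈ G →
      haveI : NeZero (ℓ : ℕ) := ⟨ℓ.2.ne_zero⟩
      ∀ x : Fbar N2, ν (s44hr_T N2 ℓ x) = s44hr_T N1 ℓ (ν x))
    {z : JZero N2} (hz : p • z = 0)
    (heig : ∀ ℓ : Nat.Primes, (ℓ : ℕ) ∈ G → heckeOperatorBar N2 ℓ z = a ℓ • z)
    {f : Fbar N2} (hf : s44f_Rep N2 p z f) {g : ↥(s44e_FF A M)}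
    (hg : m59dl_CRoot R1 R2 ν n f g)
    (hpd : s44k2d_PDiv (K := s44e_kA A) p g)
    (hnp : ¬ ∃ (κ : s44e_kA A) (h : ↥(s44e_FF A M)),
      g = algebraMap (s44e_kA A) ↥(s44e_FF A M) κ * h ^ p)
    (hroot : ∀ ℓ : Nat.Primes, (ℓ : ℕ) ∈ G → ¬ (ℓ : ℕ) ∣ M →
      haveI : NeZero (ℓ : ℕ) := ⟨ℓ.2.ne_zero⟩
      ∀ (c : Qb) (r : Fbar N2) (k : ℕ), c ≠ 0 → r ≠ 0 →
        s44hr_T N2 ℓ f = algebraMap Qb (Fbar N2) c * f ^ k * r ^ p →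
        ∃ h : ↥(s44e_FF A M), m59dl_CRoot R1 R2 ν n r h) :
    ∃ v : gh_H M →+ ZMod p, v ≠ 0 ∧
      ∀ ℓ : ℕ, ℓ.Prime → ¬ ℓ ∣ M → ℓ ∈ G →
        v.comp (t2f_TH M ℓ).toAddMonoidHom = ((a ℓ : ℤ) : ZMod p) • v := by
  haveI : Fact q.Prime := ⟨hq⟩
  have hp0 : p ≠ 0 := hp.ne_zero
  refine m59dl_char_of_eigen_fun hq hA hqM hp G hqG a hpd hnp ?_
  intro ℓ hG hℓM
  haveI : NeZero (ℓ : ℕ) := ⟨ℓ.2.ne_zero⟩
  have hℓq : (ℓ : ℕ) ≠ q := by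
    rintro h
    exact hqG (h ▸ hG)
  obtain ⟨R1', H1⟩ := hH1 ℓ hG hℓM
  obtain ⟨R2', H2⟩ := hH2 ℓ hG hℓM
  -- a natural representative of `a ℓ`
  have hpos : (0 : ℤ) < p := by exact_mod_cast Nat.pos_of_ne_zero hp0
  set k : ℕ := (a ℓ % p).toNat with hk
  have hkz : (k : ℤ) = a ℓ % p := Int.toNat_of_nonneg (Int.emod_nonneg (a ℓ) hpos.ne')
  have ha1 : a ℓ = (k : ℤ) + (p : ℤ) * (a ℓ / p) := by
    rw [hkz]
    exact (Int.emod_add_mul_ediv (a ℓ) p).symm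
  have hak : a ℓ • z = k • z := by
    conv_lhs => rw [ha1]
    rw [add_zsmul, mul_zsmul, natCast_zsmul, natCast_zsmul, smul_comm, hz, smul_zero, add_zero]
  -- the two representatives of `k • z`
  have hT := s44hr_rep_hecke N2 p ℓ z f hf
  rw [heig ℓ hG, hak] at hT
  have hK := s44b_rep_pow N2 hf k
  obtain ⟨c, r, hc0, hr0, e⟩ := s44b_rep_unique N2 hK hT
  obtain ⟨h, hh⟩ := hroot ℓ hG hℓM c r k hc0 hr0 e
  -- the two `C`-roots of `T_ℓ f`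
  have hC1 := m59dl_CRoot_hecke hA hqM ℓ (hGN1 _ hG) (hGN2 _ hG) hℓM hℓq R1' H1 R2' H2
    (hcomm ℓ hG) hg
  have hC2 : m59dl_CRoot R1 R2 ν n (s44hr_T N2 ℓ f) (1 * g ^ k * h ^ p) := by
    rw [e]
    exact m59dl_CRoot_mul (m59dl_CRoot_mul (m59dl_CRoot_const hν hc0) (m59dl_CRoot_pow hg k))
      (m59dl_CRoot_pow hh p)
  obtain ⟨κ, hκ, eκ⟩ := m59dl_CRoot_unique hA hqM hn hC2 hC1
  refine ⟨κ, h, k, hκ, hh.1, ?_, ?_⟩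
  · rw [hkz, Int.sub_emod, Int.emod_emod_of_dvd _ (dvd_refl _), sub_self, Int.zero_emod]
  · rw [eκ, one_mul, mul_assoc]

end Layer2

end Fermat.Agent.M59
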