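/-
Project M59, Sink B, cell (G2') [DELTA] (helper17; tag `m59dl_`), part 5:
THE RESIDUE FIELD OF THE GAUSS VALUATION `w_∞` OF THE LEVEL-`M q q` FUNCTION FIELD IS THE LEVEL-`M`
FUNCTION FIELD OVER THE RESIDUE FIELD — number-field level, PLAIN tower (no Legendre cover, `q` any
prime not dividing `M`).

`m59dl_res_mem2_nf` : for `a ∈ F_{M q q}(L)` Gauss-bounded, `red a ∈ F_M(k)`.

Proof: helper17's generic `s36cp_ra_gauss` (S36/Model/ResAInst.lean) at the tower
`F_M(L) ≤ F_{M q}(L) ≤ F_{M q q}(L)`, with `D01 = rdn_gf_data` (helper4) and `DA = s36i_gauss_data`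
(helper26) for the coordinate `j` (`rdn_gf_j_frobFixed`, `rdn_gf_j_coeff`, index `-1`; degree
`s36pe_relfinrank_beta_dvd = q`); then `gqm_res_mem_full` at the good level `M`.
Twin of `s44rd_res_mem_nf` (S44/Res/DictNF.lean, helper28).
-/
import Mathlib
import Fermat.Agent.S36.Model.ResAInst
import Fermat.Agent.S44.Res.DictNF

set_option autoImplicit false
set_option linter.unusedSectionVars false
set_option linter.unusedVariables false
set_option linter.style.haveILetI false
set_option synthInstance.maxHeartbeats 400000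
set_option maxHeartbeats 1000000

noncomputable section

namespace Fermat.Agent.M59

open ModularCurve IntermediateField IsLocalRing
open Fermat.Agent.JT3 Fermat.Agent.SS Fermat.Agent.S35 Fermat.Agent.S36 Fermat.Agent.S44

section Tower

variable {L : Type*} [Field L] [CharZero L] [Algebra L (AlgebraicClosure ℚ)]
  (O : ValuationSubring L) [IsDiscreteValuationRing O] {π : O} (hπ : Irreducible π)
variable (M q : ℕ) [NeZero M] [NeZero q] [hq : Fact q.Prime] [CharP (ResidueField O) q]
  (hqM : ¬ q ∣ M)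

/-- `j(X^q)` as an element of `β F_{M q}(L)`. -/
def m59dl_jB0 : ↥((lg_F L (M * q)).map (qExpandAlgHomC L q)) :=
  ⟨qExpand L q (jqModC L), ⟨jqModC L, jqModC_mem_full L (M * q), rfl⟩⟩

theorem m59dl_coe_jB0 :
    ((m59dl_jB0 (L := L) M q : ↥((lg_F L (M * q)).map (qExpandAlgHomC L q))) :
      LaurentSeries L) = qExpand L q (coeffMap (algebraMap O L) (jqModC O)) := by
  rw [coeffMap_jqModC]
  rfl

include hπ in
/-- the one-valuation data of the upper step `β F_{M q} ≤ F_{M q q}` of the plain tower, for the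
Gauss valuations and the coordinate `j`. -/
theorem m59dl_dataA :
    letI := ssm_gi_algebra (full_degeneracyC_map_le L (M * q) q)
    letI := ssm_gi_algebraV (full_degeneracyC_map_le L (M * q) q)
      (gq_valSubOf π hπ.ne_zero hπ.maximalIdeal_eq ((lg_F L (M * q)).map (qExpandAlgHomC L q))
        ((full_degeneracyC_map_le L (M * q) q).trans (rdn_gf_le_quotField O (M * q * q))))
    s36i_Data ↥((lg_F L (M * q)).map (qExpandAlgHomC L q))
      ↥(gq_valSubOf π hπ.ne_zero hπ.maximalIdeal_eq ((lg_F L (M * q)).map (qExpandAlgHomC L q))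
        ((full_degeneracyC_map_le L (M * q) q).trans (rdn_gf_le_quotField O (M * q * q)))) q
      (gq_valSubOf π hπ.ne_zero hπ.maximalIdeal_eq (lg_F L (M * q * q))
        (rdn_gf_le_quotField O (M * q * q)))
      (rdn_gf_j (L := L) (M * q * q))
      (s36i_gauss_r O hπ q ((lg_F L (M * q)).map (qExpandAlgHomC L q)) (lg_F L (M * q * q))
        (full_degeneracyC_map_le L (M * q) q) (rdn_gf_le_quotField O (M * q * q)) (jqModC O)
        (m59dl_jB0 M q) (m59dl_coe_jB0 O M q)) := by
  refine s36i_gauss_data O hπ q ((lg_F L (M * q)).map (qExpandAlgHomC L q)) (lg_F L (M * q * q))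
    (full_degeneracyC_map_le L (M * q) q) (rdn_gf_le_quotField O (M * q * q)) ?_
    (s36pe_relfinrank_beta_dvd L (M * q) q hq.out (Dvd.intro_left M rfl)) (jqModC O)
    (rdn_gf_j_frobFixed O q) (-1) (rdn_gf_not_dvd_neg_one q) (rdn_gf_j_coeff O)
    (rdn_gf_j (L := L) (M * q * q)) (coeffMap_jqModC _).symm (m59dl_jB0 M q)
    (m59dl_coe_jB0 O M q)
  rintro ⟨z, z', hz', rfl⟩
  exact ⟨z', rdn_gf_le_quotField O (M * q) hz', rfl⟩

include hπ hqM in
/-- **`κ(Gauss F_{M q q}) = κ(Gauss F_M)`, element form, plain tower.** -/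
theorem m59dl_ra_plain (a : ↥(lg_F L (M * q * q)))
    (ha : a ∈ gq_valSubOf π hπ.ne_zero hπ.maximalIdeal_eq (lg_F L (M * q * q))
      (rdn_gf_le_quotField O (M * q * q))) :
    ∃ r0 : ↥(gq_valSubOf π hπ.ne_zero hπ.maximalIdeal_eq (lg_F L M)
        ((ssm_al_F_le L M q).trans ((ssm_al_F_le L (M * q) q).trans
          (rdn_gf_le_quotField O (M * q * q))))),
      a - IntermediateField.inclusion ((ssm_al_F_le L M q).trans (ssm_al_F_le L (M * q) q))
          (r0 : ↥(lg_F L M)) ∈
        (gq_valSubOf π hπ.ne_zero hπ.maximalIdeal_eq (lg_F L (M * q * q))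
          (rdn_gf_le_quotField O (M * q * q))).nonunits :=
  s36cp_ra_gauss O hπ q (lg_F L M) (lg_F L (M * q)) (lg_F L (M * q * q))
    (ssm_al_F_le L M q) (ssm_al_F_le L (M * q) q) (rdn_gf_le_quotField O (M * q * q))
    (full_degeneracyC_map_le L M q) (full_degeneracyC_map_le L (M * q) q)
    (rdn_gf_W L M q hqM) (rdn_gf_lam O hπ M q) (rdn_gf_data O hπ M q hqM)
    (m59dl_dataA O hπ M q) ⟨rdn_gf_j (L := L) (M * q), rfl⟩ a ha

include hπ hqM in
/-- **the residue field of `w_∞` at level `M q q` is `F_M(k)`** (number-field level). -/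
theorem m59dl_res_mem2_nf (a : ↥(lg_F L (M * q * q)))
    (h1 : gq_IsBdd O L (a : LaurentSeries L)) :
    gq_res O L ⟨(a : LaurentSeries L), h1⟩ ∈ modularFunctionFieldFullC (ResidueField O) M := by
  obtain ⟨r0, hr0⟩ := m59dl_ra_plain O hπ M q hqM a h1
  have hr0b : gq_IsBdd O L (((r0 : ↥(lg_F L M)) : ↥(lg_F L M)) : LaurentSeries L) := r0.2
  -- the difference has residue zero
  have hd : gq_IsBdd O L ((a - IntermediateField.inclusion
      ((ssm_al_F_le L M q).trans (ssm_al_F_le L (M * q) q)) (r0 : ↥(lg_F L M)) :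
        ↥(lg_F L (M * q * q))) : LaurentSeries L) :=
    (gq_bddSubring O L).sub_mem h1 hr0b
  have h0 := (gq_mem_nonunits_iff_res π hπ.ne_zero hπ.maximalIdeal_eq (lg_F L (M * q * q))
    (rdn_gf_le_quotField O (M * q * q)) _ hd).1 hr0
  have hsub : gq_res O L ⟨(a : LaurentSeries L), h1⟩ -
      gq_res O L ⟨(((r0 : ↥(lg_F L M)) : ↥(lg_F L M)) : LaurentSeries L), hr0b⟩ = 0 := by
    rw [← map_sub]
    exact h0
  rw [sub_eq_zero] at hsub
  rw [hsub]
  have hqO : ((q : ℕ) : ↥O) ∈ maximalIdeal ↥O := by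
    rw [← residue_eq_zero_iff, map_natCast]
    exact CharP.cast_eq_zero (ResidueField ↥O) q
  obtain ⟨ρ⟩ := lgv_exists_rhoO (L := L) (O := ↥O) (IsFractionRing.injective ↥O L) q hqO
  exact gqm_res_mem_full O q M hqM ρ _ (r0 : ↥(lg_F L M)).2 hr0b

end Tower

end Fermat.Agent.M59
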