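/-
Project M59, Sink B, cell (G2') [DELTA] (helper17; tag `m59dl_`), part 6:
THE GAUSS DATUM (instance `A` of `m59dl_Res`) AT A GENERAL LEVEL, AND ITS HECKE COMPATIBILITY.

`A` over `q`, `M ∣ N`, with the hypothesis (D1)
  `hmem : residues of Gauss-bounded elements of F̄_N lie in F_M(kA)`
(true for `N = M q` [`s44rd_res_mem`, helper28] and for `N = M q q` [`m59dl_res_mem2`, below]).

* `m59dl_res_mem2`     : (D1) at level `M q q`, `ℚ̄`-level (descent + `m59dl_res_mem2_nf`);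
* `m59dl_gaussRes`     : the datum `(W∞(N), gq_res)` as an `m59dl_Res A M N`;
* `m59dl_gaussRes_surj`: its residue map is onto (`M ∣ N`);
* `m59dl_gauss_hecke`  : two Gauss data of levels `N`, `N ℓ` (residue levels `M`, `M ℓ`) are
  Hecke-compatible (`m59dl_Hecke`).
Twin of `S44/Res/Dict.lean`, `DictMaps.lean`, `HeckeRes/NormBar.lean` (`s44hb_data`).
-/
import Mathlib
import Fermat.Agent.M59.SinkB.Delta.GaussNF
import Fermat.Agent.M59.SinkB.Delta.AbsHecke

set_option autoImplicit false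
set_option linter.unusedSectionVars false
set_option linter.unusedVariables false
set_option linter.style.haveILetI false
set_option synthInstance.maxHeartbeats 400000
set_option maxHeartbeats 1000000

noncomputable section

namespace Fermat.Agent.M59

open ModularCurve AlgebraicCurve IntermediateField IsLocalRing
open Fermat.Agent.JT3 Fermat.Agent.SS Fermat.Agent.S35 Fermat.Agent.S24 Fermat.Agent.S28
open Fermat.Agent.MZ Fermat.Agent.S44 Fermat.Agent.S36

local notation "Qb" => AlgebraicClosure ℚ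

/-! ### (D1) at level `M q q` -/

section Mem2

variable (A : ValuationSubring Qb) {q : ℕ} [hq : Fact q.Prime] (hA : A.LiesOverPrime q)
  (M : ℕ) [NeZero M] [NeZero q] (hqM : ¬ q ∣ M)

include hA hqM in
/-- **(D1) at level `M q q`**: the residue of a Gauss-bounded element of `F̄_{M q q}` lies in
`F_M(kA)`. -/
theorem m59dl_res_mem2 {b : LaurentSeries Qb} (hb : b ∈ modularFunctionFieldBar (M * q * q))
    (h : gq_IsBdd ↥A Qb b) :
    gq_res ↥A Qb ⟨b, h⟩ ∈ modularFunctionFieldFullC (ResidueField ↥A) M := by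
  obtain ⟨L1, hfin, b1, -, hb1, rfl⟩ := s44pg_descent (M * q * q) hb ∅
  haveI : NumberField L1 := { to_charZero := inferInstance, to_finiteDimensional := hfin }
  haveI : IsDiscreteValuationRing ↥(A.comap (algebraMap L1 Qb)) :=
    dsc_isDVR_comap_numberField A q hA hq.out.ne_zero L1
  haveI : CharP (ResidueField ↥(A.comap (algebraMap L1 Qb))) q :=
    ss_nfl_charP_residue (lg_natCast_mem_maximalIdeal A hA L1)
  obtain ⟨π0, hirr⟩ := IsDiscreteValuationRing.exists_irreducible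
    ↥(A.comap (algebraMap L1 Qb))
  have hq' : gq_IsQuot ↥(A.comap (algebraMap L1 Qb)) L1 b1 :=
    rdn_gf_le_quotField (A.comap (algebraMap L1 Qb)) (M * q * q) hb1
  have h1 : gq_IsBdd ↥(A.comap (algebraMap L1 Qb)) L1 b1 :=
    (ssm_gb_isBdd_iff (algebraMap L1 Qb) (A.comap (algebraMap L1 Qb)) A (fun _ => Iff.rfl)
      π0 hirr.ne_zero hirr.maximalIdeal_eq hq').1 h
  have h2 := m59dl_res_mem2_nf (A.comap (algebraMap L1 Qb)) hirr M q hqM ⟨b1, hb1⟩ h1
  have h3 := ssm_gb_res (algebraMap L1 Qb) (A.comap (algebraMap L1 Qb)) A (fun _ => Iff.rfl)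
    ⟨b1, h1⟩
  have h4 : gq_res ↥A Qb ⟨coeffMap (algebraMap L1 Qb) b1, h⟩ =
      coeffMap (ssm_gb_kappa (algebraMap L1 Qb) (A.comap (algebraMap L1 Qb)) A
        (fun _ => Iff.rfl)) (gq_res ↥(A.comap (algebraMap L1 Qb)) L1 ⟨b1, h1⟩) := h3
  rw [h4]
  exact ssm_al_coeffMap_mem _ M h2

end Mem2

/-! ### the Gauss datum -/

section Datum

variable (A : ValuationSubring Qb) {q : ℕ} [hq : Fact q.Prime] (hA : A.LiesOverPrime q)
  (M N : ℕ) [NeZero M] [NeZero N]
  (hmem : ∀ {b : LaurentSeries Qb}, b ∈ modularFunctionFieldBar N → ∀ h : gq_IsBdd ↥A Qb b,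
    gq_res ↥A Qb ⟨b, h⟩ ∈ modularFunctionFieldFullC (ResidueField ↥A) M)

/-- the residue homomorphism `W∞(N) →+* F_M(kA)`. -/
def m59dl_gaussRed :
    ↥(s44pg_W A hA hq.out.ne_zero N) →+* ↥(modularFunctionFieldFullC (ResidueField ↥A) M) where
  toFun b := ⟨gq_res ↥A Qb ⟨((b : Fbar N) : LaurentSeries Qb), b.2⟩, hmem (b : Fbar N).2 b.2⟩
  map_one' := Subtype.ext (map_one (gq_res ↥A Qb))
  map_mul' a b := Subtype.ext (by
    show gq_res ↥A Qb _ = gq_res ↥A Qb _ * gq_res ↥A Qb _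
    rw [← map_mul]
    rfl)
  map_zero' := Subtype.ext (map_zero (gq_res ↥A Qb))
  map_add' a b := Subtype.ext (by
    show gq_res ↥A Qb _ = gq_res ↥A Qb _ + gq_res ↥A Qb _
    rw [← map_add]
    rfl)

theorem m59dl_coe_gaussRed (b : ↥(s44pg_W A hA hq.out.ne_zero N)) :
    ((m59dl_gaussRed A hA M N hmem b : ↥(modularFunctionFieldFullC (ResidueField ↥A) M)) :
      LaurentSeries (ResidueField ↥A)) =
      gq_res ↥A Qb ⟨((b : Fbar N) : LaurentSeries Qb), b.2⟩ := rfl

/-- the kernel of the residue homomorphism is the maximal ideal of `W∞`. -/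
theorem m59dl_gaussRed_eq_zero_iff (b : ↥(s44pg_W A hA hq.out.ne_zero N)) :
    m59dl_gaussRed A hA M N hmem b = 0 ↔
      (b : Fbar N) ∈ (s44pg_W A hA hq.out.ne_zero N).nonunits := by
  have hcoe : m59dl_gaussRed A hA M N hmem b = 0 ↔
      gq_res ↥A Qb ⟨((b : Fbar N) : LaurentSeries Qb), b.2⟩ = 0 := by
    constructor
    · intro h
      have := congrArg Subtype.val h
      exact this
    · intro h
      exact Subtype.ext h
  rw [hcoe, ValuationSubring.mem_nonunits_iff_or]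
  constructor
  · intro h0
    by_contra hcon
    rw [not_or, not_not] at hcon
    obtain ⟨hb0, hbinv⟩ := hcon
    have h1 : gq_IsBdd ↥A Qb (((b : Fbar N) : LaurentSeries Qb))⁻¹ := by
      have := (s44pg_mem_iff A hA hq.out.ne_zero N _).1 hbinv
      rwa [IntermediateField.coe_inv] at this
    have hb0' : ((⟨((b : Fbar N) : LaurentSeries Qb), b.2⟩ :
        ↥(gq_bddSubring ↥A Qb)) : LaurentSeries Qb) ≠ 0 := by
      intro h2
      apply hb0
      apply Subtype.ext
      exact h2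
    exact gq_res_ne_zero_of_inv ⟨_, b.2⟩ h1 hb0' h0
  · rintro (h0 | hinv)
    · have : (⟨((b : Fbar N) : LaurentSeries Qb), b.2⟩ : ↥(gq_bddSubring ↥A Qb)) = 0 := by
        apply Subtype.ext
        show ((b : Fbar N) : LaurentSeries Qb) = 0
        rw [h0]
        rfl
      rw [this, map_zero]
    · by_contra hne
      apply hinv
      have h1 := gq_isBdd_inv_of_res_ne_zero ⟨_, b.2⟩ hne
      rw [s44pg_mem_iff, IntermediateField.coe_inv]
      exact h1

/-- **the Gauss datum** of level `N` with residue level `M`. -/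
def m59dl_gaussRes : m59dl_Res A M N where
  V := s44pg_W A hA hq.out.ne_zero N
  res := m59dl_gaussRed A hA M N hmem
  ker := m59dl_gaussRed_eq_zero_iff A hA M N hmem
  const_mem := fun c => s44pg_const A hA hq.out.ne_zero N c
  res_const := fun c hc h => Subtype.ext (s44rd_res_const A ⟨c, hc⟩ _)
  nrm := fun f hf => s44pg_nrm A hA hq.out.ne_zero N hf

/-- the residue map of the Gauss datum is onto when `M ∣ N`. -/
theorem m59dl_gaussRes_surj (hMN : M ∣ N) :
    Function.Surjective (m59dl_gaussRes A hA M N hmem).res := by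
  rintro ⟨y, hy⟩
  suffices h : ∃ b : ↥(s44pg_W A hA hq.out.ne_zero N),
      ((m59dl_gaussRed A hA M N hmem b : ↥(modularFunctionFieldFullC (ResidueField ↥A) M)) :
        LaurentSeries (ResidueField ↥A)) = y by
    obtain ⟨b, hb⟩ := h
    exact ⟨b, Subtype.ext hb⟩
  have hy' : y ∈ modularFunctionFieldFullC (ResidueField ↥A) M := hy
  clear hy
  rw [modularFunctionFieldFullC] at hy'
  induction hy' using IntermediateField.adjoin_induction with
  | mem y hy =>
    obtain ⟨d, hd, hdN, rfl⟩ := hy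
    have := hd
    have hmem' : qExpand Qb d (jqModC Qb) ∈ modularFunctionFieldBar N := by
      rw [← lg_F_eq_bar]
      exact jqModCd_mem_full Qb N (hdN.trans hMN)
    refine ⟨⟨⟨qExpand Qb d (jqModC Qb), hmem'⟩, s44rd_isBdd_gen A d⟩, ?_⟩
    rw [m59dl_coe_gaussRed]
    exact s44rd_res_gen A d _
  | algebraMap r =>
    obtain ⟨a, rfl⟩ := residue_surjective r
    refine ⟨⟨algebraMap Qb (Fbar N) (a : Qb),
      (s44pg_const A hA hq.out.ne_zero N (a : Qb)).2 a.2⟩, ?_⟩
    rw [m59dl_coe_gaussRed]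
    exact s44rd_res_const A a _
  | add x y _ _ hx hy =>
    obtain ⟨a, rfl⟩ := hx
    obtain ⟨b, rfl⟩ := hy
    exact ⟨a + b, by rw [map_add]; rfl⟩
  | mul x y _ _ hx hy =>
    obtain ⟨a, rfl⟩ := hx
    obtain ⟨b, rfl⟩ := hy
    exact ⟨a * b, by rw [map_mul]; rfl⟩
  | inv x _ hx =>
    obtain ⟨a, rfl⟩ := hx
    by_cases h0 : m59dl_gaussRed A hA M N hmem a = 0
    · refine ⟨0, ?_⟩
      rw [h0, map_zero]
      simp
    · have hnu := (m59dl_gaussRed_eq_zero_iff A hA M N hmem a).not.1 h0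
      rw [ValuationSubring.mem_nonunits_iff_or, not_or, not_not] at hnu
      obtain ⟨ha0, hainv⟩ := hnu
      have hmul : a * ⟨(a : Fbar N)⁻¹, hainv⟩ = 1 := by
        apply Subtype.ext
        show (a : Fbar N) * (a : Fbar N)⁻¹ = 1
        exact mul_inv_cancel₀ ha0
      have h1 := congrArg (m59dl_gaussRed A hA M N hmem) hmul
      rw [map_mul, map_one] at h1
      refine ⟨⟨(a : Fbar N)⁻¹, hainv⟩, ?_⟩
      rw [eq_inv_of_mul_eq_one_right h1]
      rfl

end Datum

/-! ### Hecke compatibility of two Gauss data -/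

section HeckeG

variable (A : ValuationSubring Qb) {q : ℕ} [hq : Fact q.Prime] (hA : A.LiesOverPrime q)
  (M N : ℕ) [NeZero M] [NeZero N] (ℓ : ℕ) [NeZero ℓ]
  (hmem : ∀ {b : LaurentSeries Qb}, b ∈ modularFunctionFieldBar N → ∀ h : gq_IsBdd ↥A Qb b,
    gq_res ↥A Qb ⟨b, h⟩ ∈ modularFunctionFieldFullC (ResidueField ↥A) M)
  (hmem' : ∀ {b : LaurentSeries Qb}, b ∈ modularFunctionFieldBar (N * ℓ) →
    ∀ h : gq_IsBdd ↥A Qb b,
    gq_res ↥A Qb ⟨b, h⟩ ∈ modularFunctionFieldFullC (ResidueField ↥A) (M * ℓ))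

/-- **two Gauss data of levels `N`, `N ℓ` are Hecke-compatible.** -/
theorem m59dl_gauss_hecke (hMN : M ∣ N) :
    m59dl_Hecke ℓ (m59dl_gaussRes A hA M N hmem) (m59dl_gaussRes A hA (M * ℓ) (N * ℓ) hmem') := by
  refine ⟨?_, m59dl_gaussRes_surj A hA (M * ℓ) (N * ℓ) hmem' (Nat.mul_dvd_mul_right hMN ℓ),
    fun x hx => (s44rd_beta_mem_iff A hA ℓ x).2 hx, ?_⟩
  · letI := algebraAlong (heckeAlphaBar Qb N ℓ)
    letI := algebraAlong (mzrh_alC (ResidueField ↥A) M ℓ)
    refine ⟨fun x => s44rd_alpha_mem_iff A hA ℓ x, fun x h => ?_, fun x hx => ?_,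
      m59dl_gaussRes_surj A hA (M * ℓ) (N * ℓ) hmem' (Nat.mul_dvd_mul_right hMN ℓ)⟩
    · apply Subtype.ext
      show _ = ((mzrh_alC (ResidueField ↥A) M ℓ
        ((m59dl_gaussRes A hA M N hmem).res x) : ↥(modularFunctionFieldFullC (ResidueField ↥A)
          (M * ℓ))) : LaurentSeries (ResidueField ↥A))
      rw [mzrh_coe_alC]
      exact rdn_res_congr _ _ (coe_heckeAlphaBar N ℓ (x : Fbar N))
    · exact (m59dl_gaussRed_eq_zero_iff A hA M N hmem x).2 hx
  · intro x hx hx'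
    apply Subtype.ext
    show _ = ((mzrh_beC (ResidueField ↥A) M ℓ
      ((m59dl_gaussRes A hA M N hmem).res ⟨x, hx⟩) :
        ↥(modularFunctionFieldFullC (ResidueField ↥A) (M * ℓ))) :
        LaurentSeries (ResidueField ↥A))
    rw [mzrh_coe_beC]
    have h := ssm_ga_res_beta ℓ
      (⟨((x : Fbar N) : LaurentSeries Qb), hx⟩ : ↥(gq_bddSubring ↥A Qb))
    show gq_res ↥A Qb _ = qExpand _ ℓ (gq_res ↥A Qb _)
    rw [← h]
    exact rdn_res_congr _ _ (coe_heckeBetaBar N ℓ x)

end HeckeG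

end Fermat.Agent.M59
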