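/-
Project M59, Sink B, cell (G2') [DELTA] (helper17; tag `m59dl_`), part 7:
INSTANCE `A` OF THE ENGINE: THE GAUSS DATA AT THE LEVELS `M q` AND `M q q`, CLOSED.

* `m59dl_RF A hA M hqM : m59dl_Res A M (M q)`    (helper28's dictionary `s44rd_res_mem`);
* `m59dl_RA A hA M hqM : m59dl_Res A M (M q q)`  (`m59dl_res_mem2`);
* `m59dl_RF_hecke`, `m59dl_RA_hecke` : their Hecke partners at the levels `M q ℓ`, `M q q ℓ`
  (`ℓ ≠ q` prime);
* **`m59dl_mainA`** : `m59dl_main` for the datum `m59dl_RA` — NO hypothesis left except those on `z`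
  and on its residue `fb`: a `p`-divisible Gauss residue at `∞` of `z ∈ J₀(M q q)[p]` which is not a
  `p`-th power forces the eigensystem of `z` to occur at level `M`.
-/
import Mathlib
import Fermat.Agent.M59.SinkB.Delta.GaussDatum
import Fermat.Agent.M59.SinkB.Delta.Main

set_option autoImplicit false
set_option linter.unusedSectionVars false
set_option linter.unusedVariables false
set_option linter.style.haveILetI false
set_option synthInstance.maxHeartbeats 400000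
set_option maxHeartbeats 1000000

noncomputable section

namespace Fermat.Agent.M59

open ModularCurve AlgebraicCurve IntermediateField IsLocalRing
open Fermat.Agent.JT3 Fermat.Agent.SS Fermat.Agent.S35 Fermat.Agent.S24 Fermat.Agent.S28
open Fermat.Agent.MZ Fermat.Agent.S44 Fermat.Agent.S36

local notation "Qb" => AlgebraicClosure ℚ

/-- membership in `F̄_n` only depends on the number `n`. -/
theorem m59dl_bar_congr {n n' : ℕ} [NeZero n] [NeZero n'] (h : n = n') {b : LaurentSeries Qb}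
    (hb : b ∈ modularFunctionFieldBar n) : b ∈ modularFunctionFieldBar n' := by
  subst h
  exact hb

section Data

variable (A : ValuationSubring Qb) {q : ℕ} [hq : Fact q.Prime] (hA : A.LiesOverPrime q)
  (M : ℕ) [NeZero M] [NeZero q] (hqM : ¬ q ∣ M)

/-- **the Gauss datum at level `M q`** (residue level `M`). -/
def m59dl_RF : m59dl_Res A M (M * q) :=
  m59dl_gaussRes A hA M (M * q) (fun hb h => s44rd_res_mem A hA M hqM hb h)

/-- **the Gauss datum at level `M q q`** (residue level `M`). -/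
def m59dl_RA : m59dl_Res A M (M * q * q) :=
  m59dl_gaussRes A hA M (M * q * q) (fun hb h => m59dl_res_mem2 A hA M hqM hb h)

variable (ℓ : ℕ) [NeZero ℓ] (hqMℓ : ¬ q ∣ M * ℓ)

/-- the Gauss datum at level `M q ℓ` (residue level `M ℓ`). -/
def m59dl_RFl : m59dl_Res A (M * ℓ) (M * q * ℓ) :=
  m59dl_gaussRes A hA (M * ℓ) (M * q * ℓ) (fun hb h =>
    s44rd_res_mem A hA (M * ℓ) hqMℓ (m59dl_bar_congr (by ring) hb) h)

/-- the Gauss datum at level `M q q ℓ` (residue level `M ℓ`). -/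
def m59dl_RAl : m59dl_Res A (M * ℓ) (M * q * q * ℓ) :=
  m59dl_gaussRes A hA (M * ℓ) (M * q * q * ℓ) (fun hb h =>
    m59dl_res_mem2 A hA (M * ℓ) hqMℓ (m59dl_bar_congr (by ring) hb) h)

theorem m59dl_RF_hecke : m59dl_Hecke ℓ (m59dl_RF A hA M hqM) (m59dl_RFl A hA M ℓ hqMℓ) :=
  m59dl_gauss_hecke A hA M (M * q) ℓ (fun hb h => s44rd_res_mem A hA M hqM hb h)
    (fun hb h => s44rd_res_mem A hA (M * ℓ) hqMℓ (m59dl_bar_congr (by ring) hb) h)
    (Dvd.intro _ rfl)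

theorem m59dl_RA_hecke : m59dl_Hecke ℓ (m59dl_RA A hA M hqM) (m59dl_RAl A hA M ℓ hqMℓ) :=
  m59dl_gauss_hecke A hA M (M * q * q) ℓ (fun hb h => m59dl_res_mem2 A hA M hqM hb h)
    (fun hb h => m59dl_res_mem2 A hA (M * ℓ) hqMℓ (m59dl_bar_congr (by ring) hb) h)
    ⟨q * q, by ring⟩

end Data

section MainA

variable {A : ValuationSubring Qb} {q : ℕ} (hq : q.Prime) (hA : A.LiesOverPrime q)
  {M : ℕ} [NeZero M] [NeZero q] (hqM : ¬ q ∣ M)

include hq hA hqM in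
/-- **instance `A` of (G2'), closed**: `z ∈ J₀(M q q)[p]` with `T_ℓ z = a ℓ • z` (`ℓ ∈ G`); `fb` a
`p`-divisible Gauss residue at `∞` of a representative of `z`, not a `p`-th power.  Then the
eigensystem occurs at level `M`. -/
theorem m59dl_mainA {p : ℕ} (hp : p.Prime) (G : Set ℕ) (hqG : q ∉ G)
    (hGN : ∀ ℓ ∈ G, ¬ ℓ ∣ M * q * q) (a : ℕ → ℤ)
    {z : JZero (M * q * q)} (hz : p • z = 0)
    (heig : ∀ ℓ : Nat.Primes, (ℓ : ℕ) ∈ G → heckeOperatorBar (M * q * q) ℓ z = a ℓ • z)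
    {fb : ↥(s44e_FF A M)}
    (h : haveI : Fact q.Prime := ⟨hq⟩; m59dl_Fbar (m59dl_RA A hA M hqM) p z fb)
    (hpd : s44k2d_PDiv (K := s44e_kA A) p fb) (hnp : ¬ ∃ g : ↥(s44e_FF A M), fb = g ^ p) :
    ∃ v : gh_H M →+ ZMod p, v ≠ 0 ∧
      ∀ ℓ : ℕ, ℓ.Prime → ¬ ℓ ∣ M → ℓ ∈ G →
        v.comp (t2f_TH M ℓ).toAddMonoidHom = ((a ℓ : ℤ) : ZMod p) • v := by
  haveI : Fact q.Prime := ⟨hq⟩
  refine m59dl_main hq hA hqM hp G hqG hGN a (m59dl_RA A hA M hqM) ?_ hz heig h hpd hnp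
  intro ℓ hG hℓM
  haveI : NeZero (ℓ : ℕ) := ⟨ℓ.2.ne_zero⟩
  have hℓq : (ℓ : ℕ) ≠ q := by
    rintro h'
    exact hqG (h' ▸ hG)
  have hqℓ : ¬ q ∣ (ℓ : ℕ) := fun hd =>
    hℓq ((Nat.prime_dvd_prime_iff_eq hq ℓ.2).mp hd).symm
  have hqMℓ : ¬ q ∣ M * (ℓ : ℕ) := mzrh_not_dvd_mul M (ℓ : ℕ) hqM hqℓ
  exact ⟨m59dl_RAl A hA M (ℓ : ℕ) hqMℓ, m59dl_RA_hecke A hA M hqM (ℓ : ℕ) hqMℓ⟩

end MainA

end Fermat.Agent.M59
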