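/-
Project M59, Sink B (`m59t_Eq2_stmt`), cell (G2') [DELTA] (helper17; tag `m59dl_`), part 10:
INSTANCE `C` OF THE ENGINE AT THE LEVELS `M q q ⊃ M q` (residue level `M`), `ℚ̄`-level, CLOSED UP TO
THE `C`-ROOTS.

* `m59dl_nuQ M q`      : the norm `F̄_{M q q} →* F̄_{M q}` along `α_q`;
* `m59dl_CRootQ A hA M hqM x g` : `g` is a `C`-root of `x ∈ F̄_{M q q}`:
  `g ^ (q - 1) = C κ · res_F(e · N_α x) / res_A(c · x)` (Gauss residues `m59dl_RF`, `m59dl_RA`);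
* **`m59dl_mainCQ`** : `m59dl_mainC` for these data: no hypothesis left on the data (Hecke partners
  `m59dl_RF_hecke`, `m59dl_RA_hecke`; norm–Hecke commutation `s36pe_norm_comm_alpha`).
-/
import Mathlib
import Fermat.Agent.M59.SinkB.Delta.CRootMain
import Fermat.Agent.M59.SinkB.Delta.InstA
import Fermat.Agent.S36.PEquiv2.Inst

set_option autoImplicit false
set_option linter.unusedSectionVars false
set_option linter.unusedVariables false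
set_option linter.style.haveILetI false
set_option synthInstance.maxHeartbeats 400000
set_option maxHeartbeats 1000000

noncomputable section

namespace Fermat.Agent.M59

open ModularCurve AlgebraicCurve IntermediateField IsLocalRing
open Fermat.Agent.JT3 Fermat.Agent.SS Fermat.Agent.S35 Fermat.Agent.S24 Fermat.Agent.S28
open Fermat.Agent.MZ Fermat.Agent.S44 Fermat.Agent.S36

local notation "Qb" => AlgebraicClosure ℚ

section Data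

variable (M q : ℕ) [NeZero M] [NeZero q]

/-- the norm `F̄_{M q q} →* F̄_{M q}` along `α_q`. -/
def m59dl_nuQ : Fbar (M * q * q) →* Fbar (M * q) :=
  s35pe_normAlong (heckeAlphaBar Qb (M * q) q)

theorem m59dl_nuQ_const (c : Qb) :
    m59dl_nuQ M q (algebraMap Qb (Fbar (M * q * q)) c) =
      algebraMap Qb (Fbar (M * q)) (c ^ finrankAlong Qb (heckeAlphaBar Qb (M * q) q)) := by
  rw [m59dl_nuQ, m59dl_normAlong_const, map_pow]

/-- the norm along `α_q` commutes with `T_ℓ` (`q ∣ M q`). -/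
theorem m59dl_nuQ_comm (hq : q.Prime) (ℓ : ℕ) [NeZero ℓ] (x : Fbar (M * q * q)) :
    m59dl_nuQ M q (s44hr_T (M * q * q) ℓ x) = s44hr_T (M * q) ℓ (m59dl_nuQ M q x) :=
  s36pe_norm_comm_alpha (M * q) q ℓ hq (Dvd.intro_left M rfl) x

end Data

section CQ

variable (A : ValuationSubring Qb) {q : ℕ} [hq : Fact q.Prime] (hA : A.LiesOverPrime q)
  (M : ℕ) [NeZero M] [NeZero q] (hqM : ¬ q ∣ M)

/-- **`g` is a `C`-root of `x ∈ F̄_{M q q}`.** -/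
def m59dl_CRootQ (x : Fbar (M * q * q)) (g : ↥(s44e_FF A M)) : Prop :=
  m59dl_CRoot (m59dl_RF A hA M hqM) (m59dl_RA A hA M hqM) (m59dl_nuQ M q) (q - 1) x g

end CQ

section MainCQ

variable {A : ValuationSubring Qb} {q : ℕ} (hq : q.Prime) (hA : A.LiesOverPrime q)
  {M : ℕ} [NeZero M] [NeZero q] (hqM : ¬ q ∣ M)

include hq hA hqM in
/-- **(G2'), instance `C`, at the levels `M q q ⊃ M q`**: `z ∈ J₀(M q q)[p]` an eigenclass for the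
`T_ℓ`, `ℓ ∈ G` (`q ∉ G`, `ℓ ∤ M q`), `f` a representative with `C`-root `g`, `g` `p`-divisible and not
a constant times a `p`-th power; if for every `ℓ ∈ G` every `p`-th root `r` of `T_ℓ f / (c f ^ k)`
has a `C`-root, the eigensystem occurs at level `M`. -/
theorem m59dl_mainCQ {p : ℕ} (hp : p.Prime) (G : Set ℕ) (hqG : q ∉ G)
    (hGN : ∀ ℓ ∈ G, ¬ ℓ ∣ M * q * q) (a : ℕ → ℤ)
    {z : JZero (M * q * q)} (hz : p • z = 0)
    (heig : ∀ ℓ : Nat.Primes, (ℓ : ℕ) ∈ G → heckeOperatorBar (M * q * q) ℓ z = a ℓ • z)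
    {f : Fbar (M * q * q)} (hf : s44f_Rep (M * q * q) p z f) {g : ↥(s44e_FF A M)}
    (hg : haveI : Fact q.Prime := ⟨hq⟩; m59dl_CRootQ A hA M hqM f g)
    (hpd : s44k2d_PDiv (K := s44e_kA A) p g)
    (hnp : ¬ ∃ (κ : s44e_kA A) (h : ↥(s44e_FF A M)),
      g = algebraMap (s44e_kA A) ↥(s44e_FF A M) κ * h ^ p)
    (hroot : ∀ ℓ : Nat.Primes, (ℓ : ℕ) ∈ G → ¬ (ℓ : ℕ) ∣ M →
      haveI : NeZero (ℓ : ℕ) := ⟨ℓ.2.ne_zero⟩
      ∀ (c : Qb) (r : Fbar (M * q * q)) (k : ℕ), c ≠ 0 → r ≠ 0 →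
        s44hr_T (M * q * q) ℓ f = algebraMap Qb (Fbar (M * q * q)) c * f ^ k * r ^ p →
        ∃ h : ↥(s44e_FF A M), (haveI : Fact q.Prime := ⟨hq⟩; m59dl_CRootQ A hA M hqM r h)) :
    ∃ v : gh_H M →+ ZMod p, v ≠ 0 ∧
      ∀ ℓ : ℕ, ℓ.Prime → ¬ ℓ ∣ M → ℓ ∈ G →
        v.comp (t2f_TH M ℓ).toAddMonoidHom = ((a ℓ : ℤ) : ZMod p) • v := by
  haveI : Fact q.Prime := ⟨hq⟩
  have hqℓ : ∀ ℓ : Nat.Primes, (ℓ : ℕ) ∈ G → ¬ q ∣ M * (ℓ : ℕ) := by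
    intro ℓ hG
    have hne : (ℓ : ℕ) ≠ q := by
      rintro h
      exact hqG (h ▸ hG)
    have hd : ¬ q ∣ (ℓ : ℕ) := fun hd =>
      hne ((Nat.prime_dvd_prime_iff_eq hq ℓ.2).mp hd).symm
    haveI : NeZero (ℓ : ℕ) := ⟨ℓ.2.ne_zero⟩
    exact mzrh_not_dvd_mul M (ℓ : ℕ) hqM hd
  have hGN1 : ∀ ℓ ∈ G, ¬ ℓ ∣ M * q := fun ℓ hG hd =>
    hGN ℓ hG (dvd_trans hd (Dvd.intro _ rfl))
  have hq1 : q - 1 ≠ 0 := by have := hq.two_le; omega
  refine m59dl_mainC hq hA hqM hp G hqG hGN1 hGN a (m59dl_RF A hA M hqM) (m59dl_RA A hA M hqM)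
    (m59dl_nuQ M q) hq1 (m59dl_nuQ_const M q) ?_ ?_ ?_ hz heig hf hg hpd hnp hroot
  · intro ℓ hG hℓM
    haveI : NeZero (ℓ : ℕ) := ⟨ℓ.2.ne_zero⟩
    exact ⟨m59dl_RFl A hA M (ℓ : ℕ) (hqℓ ℓ hG), m59dl_RF_hecke A hA M hqM (ℓ : ℕ) (hqℓ ℓ hG)⟩
  · intro ℓ hG hℓM
    haveI : NeZero (ℓ : ℕ) := ⟨ℓ.2.ne_zero⟩
    exact ⟨m59dl_RAl A hA M (ℓ : ℕ) (hqℓ ℓ hG), m59dl_RA_hecke A hA M hqM (ℓ : ℕ) (hqℓ ℓ hG)⟩
  · intro ℓ hG
    haveI : NeZero (ℓ : ℕ) := ⟨ℓ.2.ne_zero⟩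
    exact fun x => m59dl_nuQ_comm M q hq (ℓ : ℕ) x

end MainCQ

end Fermat.Agent.M59
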