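/-
Project M59, Sink B (`m59t_Eq2_stmt`), cell (G2') [DELTA] (helper17; tag `m59dl_`), part 12:
(†) [CROOT-EX], `ℚ̄`-LEVEL: A UNIT AT `VA`, `VC` OF THE LEGENDRE TOWER OF BASE `N₀` OVER AN UNRAMIFIED
LEVEL HAS A `C`-ROOT, NAMELY THE GAUSS RESIDUE OF ANY `rC ∈ E₁` WITH `x ≡ rC mod 𝔪(VC)`.

`lg_E L (N₀ q q) = F_{lcm(4, 2 N₀ q q)}(L)` (`ssm_f4'`); with `lcm(4, 2 N₀ q) = M q` and
`lcm(4, 2 N₀ q q) = M q q` the tower `lg_E L (N₀ q) ≤ lg_E L (N₀ q q)` is the plain tower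
`F_{M q}(L) ≤ F_{M q q}(L)`.

* `m59dl_E_eq`        : `lg_E L N = laurentBaseChange L (modularFunctionFieldFull n)`, `n = lcm(4, 2N)`;
* `m59dl_norm_congr`  : the norm along an inclusion only depends on the two subfields;
* `m59dl_redOf_gauss` : `RedOf` for a Gauss datum from the Laurent series;
* **`m59dl_croot_exists`** : (†).
-/
import Mathlib
import Fermat.Agent.M59.SinkB.Delta.CEx
import Fermat.Agent.M59.SinkB.Delta.InstC
import Fermat.Agent.S36.Desc.NormBar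
import Fermat.Agent.S36.Model.AsmLegFinal

set_option autoImplicit false
set_option linter.unusedSectionVars false
set_option linter.unusedVariables false
set_option linter.style.haveILetI false
set_option synthInstance.maxHeartbeats 400000
set_option maxHeartbeats 1000000

noncomputable section

namespace Fermat.Agent.M59

open ModularCurve AlgebraicCurve IntermediateField IsLocalRing
open Fermat.Agent.JT3 Fermat.Agent.SS Fermat.Agent.S35 Fermat.Agent.S24 Fermat.Agent.S28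
open Fermat.Agent.MZ Fermat.Agent.S44 Fermat.Agent.S36

local notation "Qb" => AlgebraicClosure ℚ

section Gen

/-- `lg_E L N` is the plain field of level `lcm(4, 2 N)`. -/
theorem m59dl_E_eq (L : Type*) [Field L] [Algebra ℚ L] [CharZero L] (N n : ℕ) [NeZero N]
    [NeZero n] (h : Nat.lcm 4 (2 * N) = n) :
    lg_E L N = laurentBaseChange L (modularFunctionFieldFull n) := by
  subst h
  rw [ssm_f4' L N, ← lg_F_eq_laurentBaseChange]

/-- the norm along an inclusion only depends on the two subfields. -/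
theorem m59dl_norm_congr {K Ω : Type*} [Field K] [Field Ω] [Algebra K Ω]
    {E1 E2 F1 F2 : IntermediateField K Ω} (h1 : E1 = F1) (h2 : E2 = F2) (hE : E1 ≤ E2)
    (hF : F1 ≤ F2) (x : Ω) (hx : x ∈ E2) (hx' : x ∈ F2) :
    ((s35pe_normAlong (IntermediateField.inclusion hE) ⟨x, hx⟩ : ↥E1) : Ω) =
      ((s35pe_normAlong (IntermediateField.inclusion hF) ⟨x, hx'⟩ : ↥F1) : Ω) := by
  subst h1
  subst h2
  rfl

end Gen

section RedOfGauss

variable (A : ValuationSubring Qb) {q : ℕ} [hq : Fact q.Prime] (hA : A.LiesOverPrime q)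
  (M N : ℕ) [NeZero M] [NeZero N]
  (hmem : ∀ {b : LaurentSeries Qb}, b ∈ modularFunctionFieldBar N → ∀ h : gq_IsBdd ↥A Qb b,
    gq_res ↥A Qb ⟨b, h⟩ ∈ modularFunctionFieldFullC (ResidueField ↥A) M)

/-- `RedOf` for a Gauss datum, from the Laurent series. -/
theorem m59dl_redOf_gauss (f : Fbar N) (hb : gq_IsBdd ↥A Qb ((f : Fbar N) : LaurentSeries Qb))
    (fb : ↥(s44e_FF A M))
    (h : ((fb : ↥(s44e_FF A M)) : LaurentSeries (ResidueField ↥A)) =
      gq_res ↥A Qb ⟨((f : Fbar N) : LaurentSeries Qb), hb⟩) :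
    m59dl_RedOf (m59dl_gaussRes A hA M N hmem) f fb := by
  refine ⟨hb, ?_⟩
  apply Subtype.ext
  rw [h]
  rfl

end RedOfGauss

section Main

variable (A : ValuationSubring Qb) {q : ℕ} [hq : Fact q.Prime] (hA : A.LiesOverPrime q)
  (M : ℕ) [NeZero M] [NeZero q] (hqM : ¬ q ∣ M)
  (L1 : Type) [Field L1] [Algebra ℚ L1] [CharZero L1] [Algebra L1 Qb] [IsScalarTower ℚ L1 Qb]
  [IsDiscreteValuationRing ↥(A.comap (algebraMap L1 Qb))]
  [CharP (ResidueField ↥(A.comap (algebraMap L1 Qb))) q]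
  {π : ↥(A.comap (algebraMap L1 Qb))} (hπ : Irreducible π)
  (N₀ : ℕ) [NeZero N₀] (hq2 : ¬ 2 ∣ q) (hqN₀ : ¬ q ∣ N₀)
  (hlev1 : Nat.lcm 4 (2 * (N₀ * q)) = M * q) (hlev2 : Nat.lcm 4 (2 * (N₀ * q * q)) = M * q * q)

/-- the base change to `ℚ̄` of an element of `lg_E L1 (N₀ q q) = F_{M q q}(L1)`. -/
def m59dl_bc2 (x : ↥(lg_E L1 (N₀ * q * q))) : Fbar (M * q * q) :=
  dsc_bcHom L1 Qb (modularFunctionFieldFull (M * q * q))
    ⟨(x : LaurentSeries L1), (m59dl_E_eq L1 (N₀ * q * q) (M * q * q) hlev2) ▸ x.2⟩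

theorem m59dl_coe_bc2 (x : ↥(lg_E L1 (N₀ * q * q))) :
    ((m59dl_bc2 M L1 N₀ hlev2 x : Fbar (M * q * q)) : LaurentSeries Qb) =
      coeffMap (algebraMap L1 Qb) (x : LaurentSeries L1) := rfl

/-- the base change to `ℚ̄` of an element of `lg_E L1 (N₀ q) = F_{M q}(L1)`. -/
def m59dl_bc1 (y : ↥(lg_E L1 (N₀ * q))) : Fbar (M * q) :=
  dsc_bcHom L1 Qb (modularFunctionFieldFull (M * q))
    ⟨(y : LaurentSeries L1), (m59dl_E_eq L1 (N₀ * q) (M * q) hlev1) ▸ y.2⟩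

theorem m59dl_coe_bc1 (y : ↥(lg_E L1 (N₀ * q))) :
    ((m59dl_bc1 M L1 N₀ hlev1 y : Fbar (M * q)) : LaurentSeries Qb) =
      coeffMap (algebraMap L1 Qb) (y : LaurentSeries L1) := rfl

/-- **the norm commutes with the base change.** -/
theorem m59dl_nuQ_bc (x : ↥(lg_E L1 (N₀ * q * q))) :
    m59dl_nuQ M q (m59dl_bc2 M L1 N₀ hlev2 x) =
      m59dl_bc1 M L1 N₀ hlev1
        (letI := ssm_gi_algebra (ssm_al_E_le L1 (N₀ * q) q)
         Algebra.norm ↥(lg_E L1 (N₀ * q)) x) := by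
  have h1 := m59dl_E_eq L1 (N₀ * q) (M * q) hlev1
  have h2 := m59dl_E_eq L1 (N₀ * q * q) (M * q * q) hlev2
  have hF : laurentBaseChange L1 (modularFunctionFieldFull (M * q)) ≤
      laurentBaseChange L1 (modularFunctionFieldFull (M * q * q)) := by
    rw [← h1, ← h2]
    exact ssm_al_E_le L1 (N₀ * q) q
  rw [m59dl_nuQ, m59dl_bc2, s36d_norm_bc_alpha L1 (M * q) q hq.out (Dvd.intro_left M rfl)]
  apply Subtype.ext
  rw [dsc_bcHom_coe, m59dl_coe_bc1, dsc_cm]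
  congr 1
  rw [heckeAlphaBar_eq_inclusion (M * q) q hF]
  exact (m59dl_norm_congr h1 h2 (ssm_al_E_le L1 (N₀ * q) q) hF (x : LaurentSeries L1) x.2
    (h2 ▸ x.2)).symm

include hA hqM hlev1 in
set_option maxHeartbeats 4000000 in
/-- **(†) [CROOT-EX]**: a unit `x` at `VA` and `VC` has a `C`-root: the Gauss residue of any
`rC ∈ E₁` with `x ≡ rC mod 𝔪(VC)`. -/
theorem m59dl_croot_exists {VC : ValuationSubring ↥(lg_E L1 (N₀ * q * q))}
    (T3 : s36asm_Third (A.comap (algebraMap L1 Qb)) hπ N₀ q hq2 hqN₀ VC)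
    (x : ↥(lg_E L1 (N₀ * q * q)))
    (hxA : (s36i_VA (A.comap (algebraMap L1 Qb)) hπ (N₀ * q) q).valuation x = 1)
    (hxC : VC.valuation x = 1) :
    ∃ (rC : ↥(lg_E L1 (N₀ * q)))
      (hC : gq_IsBdd ↥(A.comap (algebraMap L1 Qb)) L1 (rC : LaurentSeries L1))
      (g : ↥(s44e_FF A M)),
      x - IntermediateField.inclusion (ssm_al_E_le L1 (N₀ * q) q) rC ∈ VC.nonunits ∧
      ((g : ↥(s44e_FF A M)) : LaurentSeries (ResidueField ↥A)) =
        coeffMap (ssm_gb_kappa (algebraMap L1 Qb) (A.comap (algebraMap L1 Qb)) A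
          (fun _ => Iff.rfl))
          (gq_res ↥(A.comap (algebraMap L1 Qb)) L1 ⟨(rC : LaurentSeries L1), hC⟩) ∧
      m59dl_CRootQ A hA M hqM (m59dl_bc2 M L1 N₀ hlev2 x) g := by
  letI := ssm_gi_algebra (ssm_al_E_le L1 (N₀ * q) q)
  letI := ssm_gi_algebraV (ssm_al_E_le L1 (N₀ * q) q)
    (ssm_gl_V1 (A.comap (algebraMap L1 Qb)) hπ N₀ q)
  haveI := ssm_gi_isScalarTower (ssm_al_E_le L1 (N₀ * q) q)
    (ssm_gl_V1 (A.comap (algebraMap L1 Qb)) hπ N₀ q)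
  have hxA' : gq_IsBdd ↥(A.comap (algebraMap L1 Qb)) L1 (x : LaurentSeries L1) :=
    ((s36i_VA (A.comap (algebraMap L1 Qb)) hπ (N₀ * q) q).valuation_le_one_iff x).1 hxA.le
  have hxC' : x ∈ VC := (VC.valuation_le_one_iff x).1 hxC.le
  have T3' : s36t3_Third ↥(lg_E L1 (N₀ * q))
      ↥(ssm_gl_V1 (A.comap (algebraMap L1 Qb)) hπ N₀ q) q
      (s36at_leg_piF (A.comap (algebraMap L1 Qb)) hπ N₀ q) (s36asm_z (L := L1) N₀ q hq2 hqN₀)
      (s36i_VA (A.comap (algebraMap L1 Qb)) hπ (N₀ * q) q) VC := T3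
  obtain ⟨rA, rC, n, hbA, hbC, hbn, e1, e2, e3, e4⟩ :=
    m59dl_gauss_third_res (A.comap (algebraMap L1 Qb)) hπ (lg_E L1 (N₀ * q))
      (lg_E L1 (N₀ * q * q)) (ssm_al_E_le L1 (N₀ * q) q)
      (ssm_ga_E_le_quotField (A.comap (algebraMap L1 Qb)) (N₀ * q * q)) hq.out.two_le
      (s36pe_relfinrank_E L1 (N₀ * q) q hq.out hq2 (Dvd.intro_left N₀ rfl)) T3' x hxA' hxC'
  -- nonvanishing of the residues
  have hx0 : gq_res ↥(A.comap (algebraMap L1 Qb)) L1 ⟨(x : LaurentSeries L1), hxA'⟩ ≠ 0 := by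
    intro h0
    have hn := (gq_mem_nonunits_iff_res π hπ.ne_zero hπ.maximalIdeal_eq (lg_E L1 (N₀ * q * q))
      (ssm_ga_E_le_quotField (A.comap (algebraMap L1 Qb)) (N₀ * q * q)) x hxA').2 h0
    rw [ValuationSubring.mem_nonunits_iff] at hn
    exact absurd hxA hn.ne
  have hC0 : gq_res ↥(A.comap (algebraMap L1 Qb)) L1 ⟨(rC : LaurentSeries L1), hbC⟩ ≠ 0 := by
    intro h0
    have hn := (gq_mem_nonunits_iff_res π hπ.ne_zero hπ.maximalIdeal_eq (lg_E L1 (N₀ * q))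
      (ssm_ga_E_le_quotField (A.comap (algebraMap L1 Qb)) (N₀ * q)) rC hbC).2 h0
    have hn' : (⟨rC, hbC⟩ : ↥(ssm_gl_V1 (A.comap (algebraMap L1 Qb)) hπ N₀ q)) ∈
        maximalIdeal ↥(ssm_gl_V1 (A.comap (algebraMap L1 Qb)) hπ N₀ q) :=
      ValuationSubring.coe_mem_nonunits_iff.1 hn
    have h1 : IntermediateField.inclusion (ssm_al_E_le L1 (N₀ * q) q) rC ∈ VC.nonunits :=
      (ssm_tw_over_nonunits T3'.overC _).2 hn'
    have h2 : (x : ↥(lg_E L1 (N₀ * q * q))) ∈ VC.nonunits := by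
      have := ssm_tw_nonunits_add VC e2 h1
      rwa [sub_add_cancel] at this
    rw [ValuationSubring.mem_nonunits_iff] at h2
    exact absurd hxC h2.ne
  -- the three base changes and their Gauss residues
  have hO : ∀ z : L1, z ∈ A.comap (algebraMap L1 Qb) ↔ algebraMap L1 Qb z ∈ A := fun _ => Iff.rfl
  set X : Fbar (M * q * q) := m59dl_bc2 M L1 N₀ hlev2 x with hX
  set Y : Fbar (M * q) := m59dl_bc1 M L1 N₀ hlev1 n with hY
  set Z : Fbar (M * q) := m59dl_bc1 M L1 N₀ hlev1 rC with hZ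
  have hXb : gq_IsBdd ↥A Qb ((X : Fbar (M * q * q)) : LaurentSeries Qb) :=
    ssm_gb_isBdd (algebraMap L1 Qb) (A.comap (algebraMap L1 Qb)) A hO hxA'
  have hYb : gq_IsBdd ↥A Qb ((Y : Fbar (M * q)) : LaurentSeries Qb) :=
    ssm_gb_isBdd (algebraMap L1 Qb) (A.comap (algebraMap L1 Qb)) A hO hbn
  have hZb : gq_IsBdd ↥A Qb ((Z : Fbar (M * q)) : LaurentSeries Qb) :=
    ssm_gb_isBdd (algebraMap L1 Qb) (A.comap (algebraMap L1 Qb)) A hO hbC
  have rX := ssm_gb_res (algebraMap L1 Qb) (A.comap (algebraMap L1 Qb)) A hO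
    ⟨(x : LaurentSeries L1), hxA'⟩
  have rY := ssm_gb_res (algebraMap L1 Qb) (A.comap (algebraMap L1 Qb)) A hO
    ⟨(n : LaurentSeries L1), hbn⟩
  have rZ := ssm_gb_res (algebraMap L1 Qb) (A.comap (algebraMap L1 Qb)) A hO
    ⟨(rC : LaurentSeries L1), hbC⟩
  set xa : ↥(s44e_FF A M) := (m59dl_RA A hA M hqM).res ⟨X, hXb⟩ with hxa
  set x1 : ↥(s44e_FF A M) := (m59dl_RF A hA M hqM).res ⟨Y, hYb⟩ with hx1
  set g : ↥(s44e_FF A M) := (m59dl_RF A hA M hqM).res ⟨Z, hZb⟩ with hg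
  have cxa : ((xa : ↥(s44e_FF A M)) : LaurentSeries (ResidueField ↥A)) =
      coeffMap (ssm_gb_kappa (algebraMap L1 Qb) (A.comap (algebraMap L1 Qb)) A hO)
        (gq_res ↥(A.comap (algebraMap L1 Qb)) L1 ⟨(x : LaurentSeries L1), hxA'⟩) := rX
  have cx1 : ((x1 : ↥(s44e_FF A M)) : LaurentSeries (ResidueField ↥A)) =
      coeffMap (ssm_gb_kappa (algebraMap L1 Qb) (A.comap (algebraMap L1 Qb)) A hO)
        (gq_res ↥(A.comap (algebraMap L1 Qb)) L1 ⟨(n : LaurentSeries L1), hbn⟩) := rY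
  have cg : ((g : ↥(s44e_FF A M)) : LaurentSeries (ResidueField ↥A)) =
      coeffMap (ssm_gb_kappa (algebraMap L1 Qb) (A.comap (algebraMap L1 Qb)) A hO)
        (gq_res ↥(A.comap (algebraMap L1 Qb)) L1 ⟨(rC : LaurentSeries L1), hbC⟩) := rZ
  -- nonvanishing
  have hxa0 : xa ≠ 0 := by
    intro h0
    have : ((xa : ↥(s44e_FF A M)) : LaurentSeries (ResidueField ↥A)) = 0 := by rw [h0]; rfl
    exact hx0 ((ssm_gb_res_eq_zero_iff (algebraMap L1 Qb) (A.comap (algebraMap L1 Qb)) A hO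
      ⟨(x : LaurentSeries L1), hxA'⟩).1 this)
  have hg0 : g ≠ 0 := by
    intro h0
    have : ((g : ↥(s44e_FF A M)) : LaurentSeries (ResidueField ↥A)) = 0 := by rw [h0]; rfl
    exact hC0 ((ssm_gb_res_eq_zero_iff (algebraMap L1 Qb) (A.comap (algebraMap L1 Qb)) A hO
      ⟨(rC : LaurentSeries L1), hbC⟩).1 this)
  -- the identity `x1 = xa * g ^ (q - 1)`
  have hid : x1 = xa * g ^ (q - 1) := by
    apply Subtype.ext
    rw [cx1, e4, map_mul, map_pow, ← e1, ← cxa, ← cg]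
    rfl
  have hx10 : x1 ≠ 0 := by
    rw [hid]
    exact mul_ne_zero hxa0 (pow_ne_zero _ hg0)
  -- the norm
  have hνX : m59dl_nuQ M q X = Y := by
    rw [hX, m59dl_nuQ_bc M L1 N₀ hlev1 hlev2 x, hY, e3]
  refine ⟨rC, hbC, g, e2, cg, hg0, 1, x1 / xa, one_ne_zero, ?_, ?_⟩
  · refine ⟨1, 1, xa, x1, one_ne_zero, one_ne_zero, hxa0, hx10, ?_, ?_, rfl⟩
    · rw [map_one, one_mul]
      exact ⟨hXb, rfl⟩
    · rw [map_one, one_mul, hνX]
      exact ⟨hYb, rfl⟩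
  · rw [map_one, one_mul, hid, mul_div_cancel_left₀ _ hxa0]

end Main

end Fermat.Agent.M59
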