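/-
Project M59, Sink B (`m59t_Eq2_stmt`), cell (G2') [DELTA] (helper17; tag `m59dl_`), part 13:
THE INNER SEAMS OF `m59sb_DeltaC2_stmt` (instance `C`, `p ∣ q - 1`).

Notation: `O1 := A.comap (algebraMap ↥L1 ℚ̄)` for an unramified level `L1`; a base `N₀` with
`lcm(4, 2 N₀ q) = M q`, `lcm(4, 2 N₀ q q) = M q q` (in the application `N₀ = N'/2`, `M = N'`), so that
`lg_E L1 (N₀ q q) = F_{M q q}(L1)` and `lg_E L1 (N₀ q) = F_{M q}(L1)` are PLAIN fields;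
`VA := s36i_VA O1 hπ (N₀ q) q`, `VB := s36i_VB O1 hπ N₀ q`, `VC` a third valuation of base `N₀`;
`V1 := ssm_gl_V1 O1 hπ N₀ q` the Gauss ring of `lg_E L1 (N₀ q)`.

* `m59dl_Restr_stmt`    = [RESTR] (helper1): a vertical normalisation `(j, h)` of `ι g1` at base `N'`
  restricts to a vertical normalisation `(j, h2)` of `g1` at base `N'' = N'/2`, with transfer back of
  the `C`-residue congruence;
* `m59dl_PDivC_stmt`    = (C3) [PDIV-C] (helper8): the `C`-residue of a unit `x` at `VA, VB, VC` all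
  of whose horizontal orders are divisible by `p` has all its orders divisible by `p`;
* `m59dl_ResDesc_stmt`  = (C5) [RES-DESC]: `red rC = C κ̄ · h̄ ^ p` over `k_A` descends to the residue
  field of `O1`, and lifts;
* `m59dl_HeckeUnit_stmt` = [HECKE-UNIT] (helper17): `T_ℓ` over `L1` preserves the units at `VA`, `VC`.
-/
import Mathlib
import Fermat.Agent.M59.SinkB.Delta.CExQ
import Fermat.Agent.M59.SinkB.G12.Seams

set_option autoImplicit false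
set_option linter.unusedSectionVars false
set_option linter.unusedVariables false
set_option linter.style.haveILetI false
set_option synthInstance.maxHeartbeats 400000
set_option maxHeartbeats 1000000

noncomputable section

namespace Fermat.Agent.M59

open ModularCurve AlgebraicCurve IntermediateField IsLocalRing
open Fermat.Agent.JT3 Fermat.Agent.SS Fermat.Agent.S35 Fermat.Agent.S24 Fermat.Agent.S28
open Fermat.Agent.MZ Fermat.Agent.S44 Fermat.Agent.S36 Fermat.Agent.SS2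

local notation "Qb" => AlgebraicClosure ℚ

/-- **[RESTR]** (helper1). -/
def m59dl_Restr_stmt : Prop :=
  ∀ (A : ValuationSubring Qb) (q : ℕ) [Fact q.Prime] [NeZero q] (L1 : IntermediateField ℚ Qb)
    [IsDiscreteValuationRing ↥(A.comap (algebraMap ↥L1 Qb))]
    [CharP (ResidueField ↥(A.comap (algebraMap ↥L1 Qb))) q]
    (π : ↥(A.comap (algebraMap ↥L1 Qb))) (hπ : Irreducible π)
    (u : ↥(A.comap (algebraMap ↥L1 Qb))), IsUnit u →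
    ((q : ℕ) : ↥(A.comap (algebraMap ↥L1 Qb))) = π * u →
    ∀ (N' N'' : ℕ) [NeZero N'] [NeZero N''], N' = 2 * N'' → 2 ∣ N'' →
    ∀ (hq2 : ¬ 2 ∣ q) (hqN' : ¬ q ∣ N') (hqN'' : ¬ q ∣ N'') (p : ℕ), p.Prime → p ≠ 2 → p ≠ q →
    ∀ (VC : ValuationSubring ↥(lg_E ↥L1 (N' * q * q))),
      s36asm_Third (A.comap (algebraMap ↥L1 Qb)) hπ N' q hq2 hqN' VC →
    ∀ (g1 : ↥(lg_E ↥L1 (N'' * q * q))) (g : ↥(lg_E ↥L1 (N' * q * q))),
      ((g : ↥(lg_E ↥L1 (N' * q * q))) : LaurentSeries ↥L1) =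
        qExpand ↥L1 2 ((g1 : ↥(lg_E ↥L1 (N'' * q * q))) : LaurentSeries ↥L1) →
    ∀ (j : ℤ) (h : ↥(lg_E ↥L1 (N' * q * q))), h ≠ 0 →
      m59sb_Unit3 (A.comap (algebraMap ↥L1 Qb)) hπ N' q hq2 hqN' VC
        (g * algebraMap ↥L1 ↥(lg_E ↥L1 (N' * q * q)) ((π : ↥(A.comap (algebraMap ↥L1 Qb))) : ↥L1) ^ j *
          (h ^ p)⁻¹) →
      ∃ VC2 : ValuationSubring ↥(lg_E ↥L1 (N'' * q * q)),
        s36asm_Third (A.comap (algebraMap ↥L1 Qb)) hπ N'' q hq2 hqN'' VC2 ∧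
        ∃ h2 : ↥(lg_E ↥L1 (N'' * q * q)), h2 ≠ 0 ∧
          m59sb_Unit3 (A.comap (algebraMap ↥L1 Qb)) hπ N'' q hq2 hqN'' VC2
            (g1 * algebraMap ↥L1 ↥(lg_E ↥L1 (N'' * q * q))
              ((π : ↥(A.comap (algebraMap ↥L1 Qb))) : ↥L1) ^ j * (h2 ^ p)⁻¹) ∧
          ∀ (κ : ↥L1) (w2 : ↥(lg_E ↥L1 (N'' * q * q))),
            (A.comap (algebraMap ↥L1 Qb)).valuation κ = 1 → VC2.valuation w2 = 1 →
            g1 * algebraMap ↥L1 ↥(lg_E ↥L1 (N'' * q * q))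
                ((π : ↥(A.comap (algebraMap ↥L1 Qb))) : ↥L1) ^ j * (h2 ^ p)⁻¹ -
              algebraMap ↥L1 ↥(lg_E ↥L1 (N'' * q * q)) κ * w2 ^ p ∈ VC2.nonunits →
            ∃ w : ↥(lg_E ↥L1 (N' * q * q)), VC.valuation w = 1 ∧
              g * algebraMap ↥L1 ↥(lg_E ↥L1 (N' * q * q))
                  ((π : ↥(A.comap (algebraMap ↥L1 Qb))) : ↥L1) ^ j * (h ^ p)⁻¹ -
                algebraMap ↥L1 ↥(lg_E ↥L1 (N' * q * q)) κ * w ^ p ∈ VC.nonunits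

/-- **(C3) [PDIV-C]** (helper8). -/
def m59dl_PDivC_stmt : Prop :=
  ∀ (A : ValuationSubring Qb) (q : ℕ) [Fact q.Prime] [NeZero q], A.LiesOverPrime q →
    ∀ (M : ℕ) [NeZero M], ¬ q ∣ M →
    ∀ (L1 : IntermediateField ℚ Qb)
    [IsDiscreteValuationRing ↥(A.comap (algebraMap ↥L1 Qb))]
    [CharP (ResidueField ↥(A.comap (algebraMap ↥L1 Qb))) q]
    (π : ↥(A.comap (algebraMap ↥L1 Qb))) (hπ : Irreducible π)
    (u : ↥(A.comap (algebraMap ↥L1 Qb))), IsUnit u →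
    ((q : ℕ) : ↥(A.comap (algebraMap ↥L1 Qb))) = π * u →
    ∀ (N₀ : ℕ) [NeZero N₀] (hq2 : ¬ 2 ∣ q) (hqN₀ : ¬ q ∣ N₀),
    Nat.lcm 4 (2 * (N₀ * q)) = M * q → Nat.lcm 4 (2 * (N₀ * q * q)) = M * q * q →
    ∀ (p : ℕ), p.Prime → p ≠ 2 → p ≠ q →
    ∀ (VC : ValuationSubring ↥(lg_E ↥L1 (N₀ * q * q))),
      s36asm_Third (A.comap (algebraMap ↥L1 Qb)) hπ N₀ q hq2 hqN₀ VC →
    ∀ x : ↥(lg_E ↥L1 (N₀ * q * q)),
      m59sb_Unit3 (A.comap (algebraMap ↥L1 Qb)) hπ N₀ q hq2 hqN₀ VC x →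
      (∀ w : Place ↥L1 ↥(lg_E ↥L1 (N₀ * q * q)), (p : ℤ) ∣ w.ord x) →
    ∀ (rC : ↥(lg_E ↥L1 (N₀ * q)))
      (hC : gq_IsBdd ↥(A.comap (algebraMap ↥L1 Qb)) ↥L1 ((rC : ↥(lg_E ↥L1 (N₀ * q))) : LaurentSeries ↥L1))
      (g : ↥(s44e_FF A M)),
      x - IntermediateField.inclusion (ssm_al_E_le ↥L1 (N₀ * q) q) rC ∈ VC.nonunits →
      ((g : ↥(s44e_FF A M)) : LaurentSeries (ResidueField ↥A)) =
        coeffMap (ssm_gb_kappa (algebraMap ↥L1 Qb) (A.comap (algebraMap ↥L1 Qb)) A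
          (fun _ => Iff.rfl))
          (gq_res ↥(A.comap (algebraMap ↥L1 Qb)) ↥L1
            ⟨((rC : ↥(lg_E ↥L1 (N₀ * q))) : LaurentSeries ↥L1), hC⟩) →
      ∀ Q : Place (s44e_kA A) ↥(s44e_FF A M), (p : ℤ) ∣ Q.ord g

/-- **(C5) [RES-DESC]**. -/
def m59dl_ResDesc_stmt : Prop :=
  ∀ (A : ValuationSubring Qb) (q : ℕ) [Fact q.Prime] [NeZero q], A.LiesOverPrime q →
    ∀ (M : ℕ) [NeZero M], ¬ q ∣ M →
    ∀ (L1 : IntermediateField ℚ Qb)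
    [IsDiscreteValuationRing ↥(A.comap (algebraMap ↥L1 Qb))]
    [CharP (ResidueField ↥(A.comap (algebraMap ↥L1 Qb))) q]
    (π : ↥(A.comap (algebraMap ↥L1 Qb))) (hπ : Irreducible π)
    (N₀ : ℕ) [NeZero N₀], Nat.lcm 4 (2 * (N₀ * q)) = M * q →
    ∀ (p : ℕ), p.Prime → p ≠ q →
    ∀ (rC : ↥(lg_E ↥L1 (N₀ * q)))
      (hC : gq_IsBdd ↥(A.comap (algebraMap ↥L1 Qb)) ↥L1 ((rC : ↥(lg_E ↥L1 (N₀ * q))) : LaurentSeries ↥L1))
      (g : ↥(s44e_FF A M)),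
      ((g : ↥(s44e_FF A M)) : LaurentSeries (ResidueField ↥A)) =
        coeffMap (ssm_gb_kappa (algebraMap ↥L1 Qb) (A.comap (algebraMap ↥L1 Qb)) A
          (fun _ => Iff.rfl))
          (gq_res ↥(A.comap (algebraMap ↥L1 Qb)) ↥L1
            ⟨((rC : ↥(lg_E ↥L1 (N₀ * q))) : LaurentSeries ↥L1), hC⟩) →
      g ≠ 0 →
      (∃ (κb : s44e_kA A) (hb : ↥(s44e_FF A M)),
        g = algebraMap (s44e_kA A) ↥(s44e_FF A M) κb * hb ^ p) →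
      ∃ (κ : ↥L1) (w1 : ↥(lg_E ↥L1 (N₀ * q))),
        (A.comap (algebraMap ↥L1 Qb)).valuation κ = 1 ∧
        (ssm_gl_V1 (A.comap (algebraMap ↥L1 Qb)) hπ N₀ q).valuation w1 = 1 ∧
        rC - algebraMap ↥L1 ↥(lg_E ↥L1 (N₀ * q)) κ * w1 ^ p ∈
          (ssm_gl_V1 (A.comap (algebraMap ↥L1 Qb)) hπ N₀ q).nonunits

/-- **[HECKE-UNIT]**: `T_ℓ = N_α ∘ β` over `L1` preserves the units at `VA` and `VC`. -/
def m59dl_HeckeUnit_stmt : Prop :=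
  ∀ (A : ValuationSubring Qb) (q : ℕ) [Fact q.Prime] [NeZero q], A.LiesOverPrime q →
    ∀ (M : ℕ) [NeZero M], ¬ q ∣ M →
    ∀ (L1 : IntermediateField ℚ Qb)
    [IsDiscreteValuationRing ↥(A.comap (algebraMap ↥L1 Qb))]
    [CharP (ResidueField ↥(A.comap (algebraMap ↥L1 Qb))) q]
    (π : ↥(A.comap (algebraMap ↥L1 Qb))) (hπ : Irreducible π)
    (u : ↥(A.comap (algebraMap ↥L1 Qb))), IsUnit u →
    ((q : ℕ) : ↥(A.comap (algebraMap ↥L1 Qb))) = π * u →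
    ∀ (N₀ : ℕ) [NeZero N₀] (hq2 : ¬ 2 ∣ q) (hqN₀ : ¬ q ∣ N₀),
    Nat.lcm 4 (2 * (N₀ * q)) = M * q → Nat.lcm 4 (2 * (N₀ * q * q)) = M * q * q →
    ∀ (VC : ValuationSubring ↥(lg_E ↥L1 (N₀ * q * q))),
      s36asm_Third (A.comap (algebraMap ↥L1 Qb)) hπ N₀ q hq2 hqN₀ VC →
    ∀ (ℓ : ℕ) [NeZero ℓ], ℓ.Prime → ¬ ℓ ∣ M * q * q →
    ∀ (x y : ↥(lg_E ↥L1 (N₀ * q * q)))
      (x' : laurentBaseChange ↥L1 (modularFunctionFieldFull (M * q * q))),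
      ((x : ↥(lg_E ↥L1 (N₀ * q * q))) : LaurentSeries ↥L1) = (x' : LaurentSeries ↥L1) →
      ((y : ↥(lg_E ↥L1 (N₀ * q * q))) : LaurentSeries ↥L1) =
        ((s35pe_normAlong (heckeAlphaBar ↥L1 (M * q * q) ℓ) (heckeBetaBar ↥L1 (M * q * q) ℓ x') :
          laurentBaseChange ↥L1 (modularFunctionFieldFull (M * q * q))) : LaurentSeries ↥L1) →
      (s36i_VA (A.comap (algebraMap ↥L1 Qb)) hπ (N₀ * q) q).valuation x = 1 →
      VC.valuation x = 1 →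
      (s36i_VA (A.comap (algebraMap ↥L1 Qb)) hπ (N₀ * q) q).valuation y = 1 ∧ VC.valuation y = 1

end Fermat.Agent.M59
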