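/-
Project M59, Sink B (`m59t_Eq2_stmt`), cell (G2') [DELTA-C], seam [HECKE-UNIT] (helper18; tag
`m59dlh_`), part 2: **`m59dlh_heckeUnit : m59dl_HeckeUnit_stmt`**.

Context of `Delta/SeamsC.lean`: `O1 = A ∩ L1` a DVR with `q = π u`; base `N₀` with
`lcm(4, 2 N₀ q) = M q`, `lcm(4, 2 N₀ q q) = M q q`, so that `E₂ = lg_E L1 (N₀ q q) = F_{M q q}(L1)` and
`E₁ = lg_E L1 (N₀ q) = F_{M q}(L1)` are plain fields; `VA` the Gauss ring of `E₂`, `VC` a third
valuation; `N1 : E₂ → E₂` the norm to `E₁` followed by the inclusion.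

* `m59dlh_norm_series` : `N1 x` and `N_{α_q} x'` have the same Laurent series (`x ↔ x'`);
* `m59dlh_heckeUnit_gen`: `x ∈ E₂` a unit at `VA` and `VC` ⟹ `T_ℓ x` a unit at `VA` and `VC`
  [(A): RULE A without `ζ_ℓ` (`m59dlh_GU_hecke`); (C): `ord_C = ord_A ∘ N1 - ord_A` (tower rule
  `hN1A` of `m59ei_tower_pack`), `N1 ∘ T_ℓ = T_ℓ ∘ N1` (`m59ei_norm_comm`), RULE A at level `M q`];
* `m59dlh_heckeUnit`    : the seam.
-/
import Mathlib
import Fermat.Agent.M59.SinkB.Delta.HeckeUnitA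
import Fermat.Agent.M59.SinkB.Delta.SeamsC
import Fermat.Agent.M59.SinkB.Eis.Tower
import Fermat.Agent.M59.SinkB.Eis.NormComm

set_option autoImplicit false
set_option linter.unusedSectionVars false
set_option linter.unusedVariables false
set_option linter.style.haveILetI false
set_option synthInstance.maxHeartbeats 400000
set_option maxHeartbeats 1000000

noncomputable section

namespace Fermat.Agent.M59

open ModularCurve AlgebraicCurve IntermediateField IsLocalRing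
open Fermat.Agent.JT3 Fermat.Agent.SS Fermat.Agent.S35 Fermat.Agent.S24 Fermat.Agent.S28
open Fermat.Agent.MZ Fermat.Agent.S44 Fermat.Agent.S36 Fermat.Agent.SS2

local notation "Qb" => AlgebraicClosure ℚ

section Norm

/-- the norm followed by the inclusion only depends on the two subfields. -/
theorem m59dlh_normIncl_congr {L : Type*} [Field L]
    {E1 E2 F1 F2 : IntermediateField L (LaurentSeries L)} (h1 : E1 = F1) (h2 : E2 = F2)
    (hE : E1 ≤ E2) (hF : F1 ≤ F2) (x : ↥E2) (x' : ↥F2)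
    (hx : (x : LaurentSeries L) = (x' : LaurentSeries L)) :
    ((s36c_normIncl hE x : ↥E2) : LaurentSeries L) =
      ((s35pe_normAlong (IntermediateField.inclusion hF) x' : ↥F1) : LaurentSeries L) := by
  subst h1
  subst h2
  have e : x' = x := Subtype.ext hx.symm
  subst e
  rfl

variable (M : ℕ) [NeZero M] {q : ℕ} [NeZero q] [hq : Fact q.Prime]
  (L1 : Type) [Field L1] [Algebra ℚ L1] [CharZero L1] [Algebra L1 Qb] [IsScalarTower ℚ L1 Qb]
  (N₀ : ℕ) [NeZero N₀]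
  (hlev1 : Nat.lcm 4 (2 * (N₀ * q)) = M * q) (hlev2 : Nat.lcm 4 (2 * (N₀ * q * q)) = M * q * q)

include hlev1 hlev2 in
/-- `N1 x` and `N_{α_q} x'` have the same Laurent series. -/
theorem m59dlh_norm_series (x : ↥(lg_E L1 (N₀ * q * q)))
    (x' : laurentBaseChange L1 (modularFunctionFieldFull (M * q * q)))
    (hx : (x : LaurentSeries L1) = (x' : LaurentSeries L1)) :
    ((s36c_normIncl (ssm_al_E_le L1 (N₀ * q) q) x : ↥(lg_E L1 (N₀ * q * q))) :
        LaurentSeries L1) =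
      ((s35pe_normAlong (heckeAlphaBar L1 (M * q) q) x' :
        laurentBaseChange L1 (modularFunctionFieldFull (M * q))) : LaurentSeries L1) := by
  have h1 := m59dl_E_eq L1 (N₀ * q) (M * q) hlev1
  have h2 := m59dl_E_eq L1 (N₀ * q * q) (M * q * q) hlev2
  have hF : laurentBaseChange L1 (modularFunctionFieldFull (M * q)) ≤
      laurentBaseChange L1 (modularFunctionFieldFull (M * q * q)) := by
    rw [← h1, ← h2]
    exact ssm_al_E_le L1 (N₀ * q) q
  rw [heckeAlphaBar_eq_inclusion (M * q) q hF]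
  exact m59dlh_normIncl_congr h1 h2 (ssm_al_E_le L1 (N₀ * q) q) hF x x' hx

end Norm

section Main

variable (A : ValuationSubring Qb) {q : ℕ} [hq : Fact q.Prime]
  (M : ℕ) [NeZero M] [NeZero q]
  (L1 : Type) [Field L1] [Algebra ℚ L1] [CharZero L1] [Algebra L1 Qb] [IsScalarTower ℚ L1 Qb]
  [IsDiscreteValuationRing ↥(A.comap (algebraMap L1 Qb))]
  [CharP (ResidueField ↥(A.comap (algebraMap L1 Qb))) q]
  {π : ↥(A.comap (algebraMap L1 Qb))} (hπ : Irreducible π)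
  (N₀ : ℕ) [NeZero N₀] (hq2 : ¬ 2 ∣ q) (hqN₀ : ¬ q ∣ N₀)
  (hlev1 : Nat.lcm 4 (2 * (N₀ * q)) = M * q) (hlev2 : Nat.lcm 4 (2 * (N₀ * q * q)) = M * q * q)

include hlev1 hlev2 in
/-- **[HECKE-UNIT]**, over any field `L1 ⊆ ℚ̄` with `A ∩ L1` a DVR, `q = π u`. -/
theorem m59dlh_heckeUnit_gen (u : ↥(A.comap (algebraMap L1 Qb))) (hu : IsUnit u)
    (hqu : ((q : ℕ) : ↥(A.comap (algebraMap L1 Qb))) = π * u)
    {VC : ValuationSubring ↥(lg_E L1 (N₀ * q * q))}
    (T3 : s36asm_Third (A.comap (algebraMap L1 Qb)) hπ N₀ q hq2 hqN₀ VC)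
    (ℓ : ℕ) [NeZero ℓ] (hℓ : ℓ.Prime) (hℓN : ¬ ℓ ∣ M * q * q)
    (x y : ↥(lg_E L1 (N₀ * q * q)))
    (x' : laurentBaseChange L1 (modularFunctionFieldFull (M * q * q)))
    (hx : (x : LaurentSeries L1) = (x' : LaurentSeries L1))
    (hy : (y : LaurentSeries L1) =
      ((m59ei_T L1 (M * q * q) ℓ x' : laurentBaseChange L1 (modularFunctionFieldFull (M * q * q))) :
        LaurentSeries L1))
    (hxA : (s36i_VA (A.comap (algebraMap L1 Qb)) hπ (N₀ * q) q).valuation x = 1)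
    (hxC : VC.valuation x = 1) :
    (s36i_VA (A.comap (algebraMap L1 Qb)) hπ (N₀ * q) q).valuation y = 1 ∧
      VC.valuation y = 1 := by
  obtain ⟨ordA, ordB, ordC, zC, hoA, hoB, hoC, hVA, hVB, hVC, hϖ0, hϖA, hϖB, hϖC, hzC0, hzC, hϖO,
    hN1A, hN1B, hWAv⟩ := m59ei_tower_pack (A.comap (algebraMap L1 Qb)) hπ N₀ q hq2 hqN₀ u hu hqu T3
  set O1 := A.comap (algebraMap L1 Qb) with hO1
  set N1 := s36c_normIncl (ssm_al_E_le L1 (N₀ * q) q) with hN1
  have hqA : q ∣ M * q := Dvd.intro_left M rfl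
  have hℓN1 : ¬ ℓ ∣ M * q := fun h => hℓN (h.mul_right q)
  -- nonvanishing
  have hx0 : x ≠ 0 := by
    rintro rfl
    rw [map_zero] at hxA
    exact zero_ne_one hxA
  have hx'0 : x' ≠ 0 := by
    rintro rfl
    apply hx0
    apply Subtype.ext
    rw [hx]
    rfl
  set y' := m59ei_T L1 (M * q * q) ℓ x' with hy'
  have hy'0 : y' ≠ 0 := m59ei_T_ne_zero L1 (M * q * q) ℓ hℓ hℓN hx'0
  have hy0 : y ≠ 0 := by
    rintro rfl
    apply hy'0
    apply Subtype.ext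
    rw [← hy]
    rfl
  -- (A)
  have hGx : m59ei_GU ↥O1 L1 (x' : LaurentSeries L1) := by
    rw [← hx]
    exact (m59ei_VA_unit_iff O1 hπ q (N₀ * q) hx0).1 hxA
  have hGy : m59ei_GU ↥O1 L1 (y' : LaurentSeries L1) :=
    m59dlh_GU_hecke A L1 hπ (M * q * q) ℓ hℓ hℓN x' hx'0 hGx
  have hyA : (s36i_VA O1 hπ (N₀ * q) q).valuation y = 1 := by
    rw [m59ei_VA_unit_iff O1 hπ q (N₀ * q) hy0, hy]
    exact hGy
  refine ⟨hyA, ?_⟩
  -- (C)
  have hoAx : ordA x = 0 := (hoA.unit x hx0).2 hxA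
  have hoCx : ordC x = 0 := (hoC.unit x hx0).2 hxC
  have hoAy : ordA y = 0 := (hoA.unit y hy0).2 hyA
  set n' := s35pe_normAlong (heckeAlphaBar L1 (M * q) q) x' with hn'
  have hn'0 : n' ≠ 0 := by
    rw [hn']
    refine s36d_normAlong_ne_zero _ ?_ hx'0
    rw [s36d_finrankAlong_alpha L1 (M * q) q hq.out hqA]
    exact hq.out.pos
  have hN1x0 : N1 x ≠ 0 := s36a_map_ne_zero N1 hx0
  have hN1y0 : N1 y ≠ 0 := s36a_map_ne_zero N1 hy0
  have hN1x : ((N1 x : ↥(lg_E L1 (N₀ * q * q))) : LaurentSeries L1) = (n' : LaurentSeries L1) :=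
    m59dlh_norm_series M L1 N₀ hlev1 hlev2 x x' hx
  have hN1y : ((N1 y : ↥(lg_E L1 (N₀ * q * q))) : LaurentSeries L1) =
      ((m59ei_T L1 (M * q) ℓ n' : laurentBaseChange L1 (modularFunctionFieldFull (M * q))) :
        LaurentSeries L1) := by
    rw [hn', ← m59ei_norm_comm L1 (M * q) q ℓ hq.out hqA hℓ hℓN x']
    exact m59dlh_norm_series M L1 N₀ hlev1 hlev2 y y' hy
  have hGn : m59ei_GU ↥O1 L1 (n' : LaurentSeries L1) := by
    rw [← hN1x]
    refine (m59ei_VA_unit_iff O1 hπ q (N₀ * q) hN1x0).1 ?_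
    rw [← hoA.unit _ hN1x0, hN1A x hx0, hoAx, hoCx, add_zero]
  have hGTn : m59ei_GU ↥O1 L1
      ((m59ei_T L1 (M * q) ℓ n' : laurentBaseChange L1 (modularFunctionFieldFull (M * q))) :
        LaurentSeries L1) :=
    m59dlh_GU_hecke A L1 hπ (M * q) ℓ hℓ hℓN1 n' hn'0 hGn
  have hN1yA : ordA (N1 y) = 0 := by
    rw [hoA.unit _ hN1y0, m59ei_VA_unit_iff O1 hπ q (N₀ * q) hN1y0, hN1y]
    exact hGTn
  have hoCy : ordC y = 0 := by
    have e := hN1A y hy0
    rw [hN1yA, hoAy] at e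
    linarith
  exact (hoC.unit y hy0).1 hoCy

end Main

/-- **[HECKE-UNIT]** of `Delta/SeamsC.lean`. -/
theorem m59dlh_heckeUnit : m59dl_HeckeUnit_stmt := by
  intro A q _ _ hA M _ hqM L1 _ _ π hπ u hu hqu N₀ _ hq2 hqN₀ hlev1 hlev2 VC T3 ℓ _ hℓ hℓN x y x'
    hx hy hxA hxC
  exact m59dlh_heckeUnit_gen A M ↥L1 hπ N₀ hq2 hqN₀ hlev1 hlev2 u hu hqu T3 ℓ hℓ hℓN x y x' hx hy
    hxA hxC

end Fermat.Agent.M59
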