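/-
Project M59, Sink B (`m59t_Eq2_stmt`), cell (G2') [DELTA-C] (helper18; tag `m59dlh_`), part 3:
[HROOT] = THE `hroot` HYPOTHESIS OF `m59dl_mainCQ` (Delta/InstC.lean).

Context of `Delta/CExQ.lean` (`O1 = A ∩ L1` a DVR, `q = π u`, base `N₀`, `E₂ = lg_E L1 (N₀ q q) =
F_{M q q}(L1)`), `VC` a third valuation.

* `m59dlh_root_const` : in `F̄_N`: `r^p = C d · w^p` ⟹ `r = C c₂ · w` (`ℚ̄` is algebraically closed in
  `ℚ̄((X))`, `kd_const_of_isAlgebraic`);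
* `m59dlh_phi`        : the identification `F_{M q q}(L1) ≃ₐ lg_E L1 (N₀ q q)` (`m59dl_E_eq`), with
  `m59dlh_phi_coe`, `m59dlh_phi_symm_coe`, `m59dlh_bc2_eq`;
* **`m59dlh_hroot`**  : `x ∈ E₂` a unit at `VA` and `VC`, `ℓ ∤ M q q`; if over `ℚ̄`
  `T_ℓ (bc2 x) = C c · (bc2 x)^k · r^p` (`c ≠ 0`, `r ≠ 0`, `p ≠ 0`), then `r` has a `C`-root
  (`m59dl_CRootQ A hA M hqM r h`).
  [descend `r^p` to `L1`: `T_ℓ x' / x'^k = C a · s^p` over `L1` (`ss2_dp_root_descent`), so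
  `r = C c₂ · bc s`; `T_ℓ x` is a unit at `VA`, `VC` (`m59dlh_heckeUnit_gen`), hence
  `ord_A a = -p · ord_A s`, `ord_C a = (q-1) ord_A a = -p · ord_C s`, and `s₁ = s · π^(-ord_A s)` is a
  unit at `VA`, `VC`; `m59dl_croot_exists` for `s₁` and the `CRoot` calculus for the constant.]
-/
import Mathlib
import Fermat.Agent.M59.SinkB.Delta.HeckeUnit
import Fermat.Agent.M59.SinkB.Delta.InstC

set_option autoImplicit false
set_option linter.unusedSectionVars false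
set_option linter.unusedVariables false
set_option linter.style.haveILetI false
set_option synthInstance.maxHeartbeats 400000
set_option maxHeartbeats 1000000

noncomputable section

namespace Fermat.Agent.M59

open ModularCurve AlgebraicCurve IntermediateField IsLocalRing
open Fermat.Agent.JT3 Fermat.Agent.SS Fermat.Agent.S35 Fermat.Agent.S24 Fermat.Agent.S28
open Fermat.Agent.MZ Fermat.Agent.S44 Fermat.Agent.S36 Fermat.Agent.SS2

local notation "Qb" => AlgebraicClosure ℚ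

section RootConst

variable (N : ℕ) [NeZero N]

/-- two `p`-th roots of the same function (up to a constant) differ by a constant. -/
theorem m59dlh_root_const {p : ℕ} (hp : p ≠ 0) {r w : Fbar N} (hr : r ≠ 0) (hw : w ≠ 0) (d : Qb)
    (h : r ^ p = algebraMap Qb (Fbar N) d * w ^ p) :
    ∃ c2 : Qb, c2 ≠ 0 ∧ r = algebraMap Qb (Fbar N) c2 * w := by
  set z : Fbar N := r / w with hz
  have hz0 : z ≠ 0 := div_ne_zero hr hw
  have hzp : z ^ p = algebraMap Qb (Fbar N) d := by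
    rw [hz, div_pow, h, mul_div_assoc, div_self (pow_ne_zero p hw), mul_one]
  have hzL : ((z : Fbar N) : LaurentSeries Qb) ^ p = algebraMap Qb (LaurentSeries Qb) d := by
    have := congrArg (fun t : Fbar N => (t : LaurentSeries Qb)) hzp
    simpa using this
  have hint : IsIntegral Qb ((z : Fbar N) : LaurentSeries Qb) := by
    refine ⟨Polynomial.X ^ p - Polynomial.C d, Polynomial.monic_X_pow_sub_C d hp, ?_⟩
    simp [hzL]
  obtain ⟨c2, hc2⟩ := kd_const_of_isAlgebraic hint.isAlgebraic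
  have hzc : z = algebraMap Qb (Fbar N) c2 := by
    apply Subtype.ext
    rw [hc2, HahnSeries.C_apply, ← algebraMap_laurentSeries_eq_single]
    rfl
  refine ⟨c2, ?_, ?_⟩
  · rintro rfl
    rw [map_zero] at hzc
    exact hz0 hzc
  · rw [← hzc, hz, div_mul_cancel₀ _ hw]

end RootConst

section Phi

theorem m59dlh_equivOfEq_coe {K Ω : Type*} [Field K] [Field Ω] [Algebra K Ω]
    {S T : IntermediateField K Ω} (h : S = T) (x : ↥S) :
    ((IntermediateField.equivOfEq h x : ↥T) : Ω) = (x : Ω) := by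
  subst h
  rfl

theorem m59dlh_equivOfEq_symm_coe {K Ω : Type*} [Field K] [Field Ω] [Algebra K Ω]
    {S T : IntermediateField K Ω} (h : S = T) (y : ↥T) :
    (((IntermediateField.equivOfEq h).symm y : ↥S) : Ω) = (y : Ω) := by
  subst h
  rfl

end Phi

section HRoot

variable (A : ValuationSubring Qb) {q : ℕ} [hq : Fact q.Prime] (hA : A.LiesOverPrime q)
  (M : ℕ) [NeZero M] [NeZero q] (hqM : ¬ q ∣ M)
  (L1 : Type) [Field L1] [Algebra ℚ L1] [CharZero L1] [Algebra L1 Qb] [IsScalarTower ℚ L1 Qb]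
  [IsDiscreteValuationRing ↥(A.comap (algebraMap L1 Qb))]
  [CharP (ResidueField ↥(A.comap (algebraMap L1 Qb))) q]
  {π : ↥(A.comap (algebraMap L1 Qb))} (hπ : Irreducible π)
  (N₀ : ℕ) [NeZero N₀] (hq2 : ¬ 2 ∣ q) (hqN₀ : ¬ q ∣ N₀)
  (hlev1 : Nat.lcm 4 (2 * (N₀ * q)) = M * q) (hlev2 : Nat.lcm 4 (2 * (N₀ * q * q)) = M * q * q)

/-- the identification `F_{M q q}(L1) ≃ lg_E L1 (N₀ q q)`. -/
def m59dlh_phi : ↥(laurentBaseChange L1 (modularFunctionFieldFull (M * q * q))) ≃ₐ[L1]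
    ↥(lg_E L1 (N₀ * q * q)) :=
  IntermediateField.equivOfEq (m59dl_E_eq L1 (N₀ * q * q) (M * q * q) hlev2).symm

theorem m59dlh_phi_coe (t : ↥(laurentBaseChange L1 (modularFunctionFieldFull (M * q * q)))) :
    ((m59dlh_phi M L1 N₀ hlev2 t : ↥(lg_E L1 (N₀ * q * q))) : LaurentSeries L1) =
      (t : LaurentSeries L1) :=
  m59dlh_equivOfEq_coe _ t

theorem m59dlh_phi_symm_coe (x : ↥(lg_E L1 (N₀ * q * q))) :
    (((m59dlh_phi M L1 N₀ hlev2).symm x :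
      ↥(laurentBaseChange L1 (modularFunctionFieldFull (M * q * q)))) : LaurentSeries L1) =
      (x : LaurentSeries L1) :=
  m59dlh_equivOfEq_symm_coe _ x

theorem m59dlh_bc2_eq (x : ↥(lg_E L1 (N₀ * q * q)))
    (t : ↥(laurentBaseChange L1 (modularFunctionFieldFull (M * q * q))))
    (h : (x : LaurentSeries L1) = (t : LaurentSeries L1)) :
    m59dl_bc2 M L1 N₀ hlev2 x = dsc_bcHom L1 Qb (modularFunctionFieldFull (M * q * q)) t := by
  unfold m59dl_bc2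
  exact congrArg _ (Subtype.ext h)

include hlev1 in
set_option maxHeartbeats 4000000 in
/-- **[HROOT]**: the `hroot` hypothesis of `m59dl_mainCQ` for `f = bc2 x`, `x` a unit at `VA`, `VC`. -/
theorem m59dlh_hroot (u : ↥(A.comap (algebraMap L1 Qb))) (hu : IsUnit u)
    (hqu : ((q : ℕ) : ↥(A.comap (algebraMap L1 Qb))) = π * u)
    {VC : ValuationSubring ↥(lg_E L1 (N₀ * q * q))}
    (T3 : s36asm_Third (A.comap (algebraMap L1 Qb)) hπ N₀ q hq2 hqN₀ VC)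
    {p : ℕ} (hp : p ≠ 0) (x : ↥(lg_E L1 (N₀ * q * q)))
    (hxA : (s36i_VA (A.comap (algebraMap L1 Qb)) hπ (N₀ * q) q).valuation x = 1)
    (hxC : VC.valuation x = 1)
    (ℓ : ℕ) [NeZero ℓ] (hℓ : ℓ.Prime) (hℓN : ¬ ℓ ∣ M * q * q)
    (c : Qb) (r : Fbar (M * q * q)) (k : ℕ) (hc : c ≠ 0) (hr : r ≠ 0)
    (e : s44hr_T (M * q * q) ℓ (m59dl_bc2 M L1 N₀ hlev2 x) =
      algebraMap Qb (Fbar (M * q * q)) c * (m59dl_bc2 M L1 N₀ hlev2 x) ^ k * r ^ p) :
    ∃ h : ↥(s44e_FF A M), m59dl_CRootQ A hA M hqM r h := by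
  classical
  set φ := m59dlh_phi M L1 N₀ hlev2 with hφ
  set B := dsc_bcHom L1 Qb (modularFunctionFieldFull (M * q * q)) with hB
  set x' := φ.symm x with hx'
  have hxx' : (x : LaurentSeries L1) = (x' : LaurentSeries L1) :=
    (m59dlh_phi_symm_coe M L1 N₀ hlev2 x).symm
  have hbx : m59dl_bc2 M L1 N₀ hlev2 x = B x' := m59dlh_bc2_eq M L1 N₀ hlev2 x x' hxx'
  have hx0 : x ≠ 0 := by
    rintro rfl
    rw [map_zero] at hxA
    exact zero_ne_one hxA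
  have hx'0 : x' ≠ 0 := by
    rw [hx']
    exact (EmbeddingLike.map_ne_zero_iff).2 hx0
  set y' := m59ei_T L1 (M * q * q) ℓ x' with hy'
  have hy'0 : y' ≠ 0 := m59ei_T_ne_zero L1 (M * q * q) ℓ hℓ hℓN hx'0
  have hTB : s44hr_T (M * q * q) ℓ (B x') = B y' := m59ei_T_bc (M * q * q) ℓ L1 hℓ hℓN x'
  rw [hbx, hTB] at e
  -- root descent
  have hBx0 : B x' ≠ 0 := (map_ne_zero _).2 hx'0
  have hBxk : B x' ^ k ≠ 0 := pow_ne_zero k hBx0
  have hroot : B (y' * (x' ^ k)⁻¹) = algebraMap Qb (Fbar (M * q * q)) c * r ^ p := by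
    rw [map_mul, map_inv₀, map_pow, e,
      mul_right_comm (algebraMap Qb (Fbar (M * q * q)) c) (B x' ^ k) (r ^ p),
      mul_inv_cancel_right₀ hBxk]
  obtain ⟨a, s, has⟩ := ss2_dp_root_descent L1 (rt_isSepGen_jBar (M * q * q)) hp _ c r hroot
  have ht0 : y' * (x' ^ k)⁻¹ ≠ 0 := mul_ne_zero hy'0 (inv_ne_zero (pow_ne_zero k hx'0))
  have ha : a ≠ 0 := by
    rintro rfl
    rw [map_zero, zero_mul] at has
    exact ht0 has
  have hs : s ≠ 0 := by
    rintro rfl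
    rw [zero_pow hp, mul_zero] at has
    exact ht0 has
  have hy's : y' = algebraMap L1 ↥(laurentBaseChange L1 (modularFunctionFieldFull (M * q * q))) a *
      s ^ p * x' ^ k := by
    rw [← has, inv_mul_cancel_right₀ (pow_ne_zero k hx'0)]
  -- `r = const * B s`
  have hBs0 : B s ≠ 0 := (map_ne_zero _).2 hs
  have hca : algebraMap Qb (Fbar (M * q * q)) c ≠ 0 := (map_ne_zero _).2 hc
  have hrs : r ^ p = algebraMap Qb (Fbar (M * q * q)) (algebraMap L1 Qb a / c) * (B s) ^ p := by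
    have h1 : B (y' * (x' ^ k)⁻¹) =
        algebraMap Qb (Fbar (M * q * q)) (algebraMap L1 Qb a) * (B s) ^ p := by
      rw [has, map_mul, map_pow, dsc_bcHom_algebraMap]
    rw [hroot] at h1
    rw [map_div₀, div_mul_eq_mul_div, eq_div_iff hca, ← h1]
    exact mul_comm _ _
  obtain ⟨c2, hc2, hrc2⟩ := m59dlh_root_const (M * q * q) hp hr hBs0 _ hrs
  -- the `E`-side
  set sE := φ s with hsE
  set yE := φ y' with hyE
  have hxφ : φ x' = x := φ.apply_symm_apply x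
  have hsE0 : sE ≠ 0 := (EmbeddingLike.map_ne_zero_iff).2 hs
  have hyE0 : yE ≠ 0 := (EmbeddingLike.map_ne_zero_iff).2 hy'0
  have haE : algebraMap L1 ↥(lg_E L1 (N₀ * q * q)) a ≠ 0 := (map_ne_zero _).2 ha
  have hyEs : yE = algebraMap L1 ↥(lg_E L1 (N₀ * q * q)) a * sE ^ p * x ^ k := by
    rw [hyE, hy's, map_mul, map_mul, map_pow, map_pow, AlgEquiv.commutes, hxφ]
  obtain ⟨hyA, hyC⟩ := m59dlh_heckeUnit_gen A M L1 hπ N₀ hq2 hqN₀ hlev1 hlev2 u hu hqu T3 ℓ hℓ hℓN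
    x yE x' hxx' (m59dlh_phi_coe M L1 N₀ hlev2 y') hxA hxC
  -- the tower
  obtain ⟨ordA, ordB, ordC, zC, hoA, hoB, hoC, hVA, hVB, hVC, hϖ0, hϖA, hϖB, hϖC, hzC0, hzC, hϖO,
    hN1A, hN1B, hWAv⟩ := m59ei_tower_pack (A.comap (algebraMap L1 Qb)) hπ N₀ q hq2 hqN₀ u hu hqu T3
  have hϖE : algebraMap L1 ↥(lg_E L1 (N₀ * q * q)) ((π : ↥(A.comap (algebraMap L1 Qb))) : L1) ≠ 0 :=
    (map_ne_zero _).2 hϖ0
  -- orders of the constant `a`
  obtain ⟨j, u1, hu1, hau⟩ := hϖO a ha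
  have hu10 : u1 ≠ 0 := by
    rintro rfl
    rw [map_zero] at hu1
    exact zero_ne_one hu1
  have hu1E : algebraMap L1 ↥(lg_E L1 (N₀ * q * q)) u1 ≠ 0 := (map_ne_zero _).2 hu10
  have hzj : algebraMap L1 ↥(lg_E L1 (N₀ * q * q))
      ((π : ↥(A.comap (algebraMap L1 Qb))) : L1) ^ j ≠ 0 := zpow_ne_zero _ hϖE
  have haA : ordA (algebraMap L1 ↥(lg_E L1 (N₀ * q * q)) a) = j := by
    rw [hau, map_mul, map_zpow₀, hoA.mul _ _ hzj hu1E, hoA.zpow hϖE, hϖA,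
      (hoA.unit _ hu1E).2 (s36a_const_unit _ _ hVA hu1)]
    ring
  have haC : ordC (algebraMap L1 ↥(lg_E L1 (N₀ * q * q)) a) = ((q : ℤ) - 1) * j := by
    rw [hau, map_mul, map_zpow₀, hoC.mul _ _ hzj hu1E, hoC.zpow hϖE, hϖC,
      (hoC.unit _ hu1E).2 (s36a_const_unit _ _ hVC hu1)]
    ring
  -- orders of `sE`
  have hoAx : ordA x = 0 := (hoA.unit x hx0).2 hxA
  have hoCx : ordC x = 0 := (hoC.unit x hx0).2 hxC
  have hoAy : ordA yE = 0 := (hoA.unit yE hyE0).2 hyA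
  have hoCy : ordC yE = 0 := (hoC.unit yE hyE0).2 hyC
  have hsEp : sE ^ p ≠ 0 := pow_ne_zero p hsE0
  have hxk : x ^ k ≠ 0 := pow_ne_zero k hx0
  have eA : (0 : ℤ) = j + p * ordA sE := by
    have e1 := hoAy
    rw [hyEs, hoA.mul _ _ (mul_ne_zero haE hsEp) hxk, hoA.mul _ _ haE hsEp, hoA.pow hsE0,
      hoA.pow hx0, haA, hoAx] at e1
    linarith
  have eC : (0 : ℤ) = ((q : ℤ) - 1) * j + p * ordC sE := by
    have e1 := hoCy
    rw [hyEs, hoC.mul _ _ (mul_ne_zero haE hsEp) hxk, hoC.mul _ _ haE hsEp, hoC.pow hsE0,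
      hoC.pow hx0, haC, hoCx] at e1
    linarith
  set i : ℤ := ordA sE with hi
  have hp' : (p : ℤ) ≠ 0 := by exact_mod_cast hp
  have hCi : ordC sE = ((q : ℤ) - 1) * i := by
    have h1 : (p : ℤ) * ordC sE = (p : ℤ) * (((q : ℤ) - 1) * i) := by
      have hj : j = -((p : ℤ) * i) := by linarith
      rw [hj] at eC
      linarith
    exact mul_left_cancel₀ hp' h1
  -- the normalised root
  set ϖ : L1 := ((π : ↥(A.comap (algebraMap L1 Qb))) : L1) with hϖ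
  set s₁' : ↥(laurentBaseChange L1 (modularFunctionFieldFull (M * q * q))) :=
    s * algebraMap L1 ↥(laurentBaseChange L1 (modularFunctionFieldFull (M * q * q))) (ϖ ^ (-i))
    with hs₁'
  set s₁ := φ s₁' with hs₁
  have hs₁E : s₁ = sE * algebraMap L1 ↥(lg_E L1 (N₀ * q * q)) ϖ ^ (-i) := by
    rw [hs₁, hs₁', map_mul, AlgEquiv.commutes, map_zpow₀]
  have hzi : algebraMap L1 ↥(lg_E L1 (N₀ * q * q)) ϖ ^ (-i) ≠ 0 := zpow_ne_zero _ hϖE
  have hs₁0 : s₁ ≠ 0 := by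
    rw [hs₁E]
    exact mul_ne_zero hsE0 hzi
  have hs₁A : (s36i_VA (A.comap (algebraMap L1 Qb)) hπ (N₀ * q) q).valuation s₁ = 1 := by
    rw [← hoA.unit _ hs₁0, hs₁E, hoA.mul _ _ hsE0 hzi, hoA.zpow hϖE, hϖA]
    ring
  have hs₁C : VC.valuation s₁ = 1 := by
    rw [← hoC.unit _ hs₁0, hs₁E, hoC.mul _ _ hsE0 hzi, hoC.zpow hϖE, hϖC, hCi]
    ring
  obtain ⟨rC, hC, g, -, -, hg⟩ := m59dl_croot_exists A hA M hqM L1 hπ N₀ hq2 hqN₀ hlev1 hlev2 T3
    s₁ hs₁A hs₁C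
  have hb1 : m59dl_bc2 M L1 N₀ hlev2 s₁ = B s₁' :=
    m59dlh_bc2_eq M L1 N₀ hlev2 s₁ s₁' (m59dlh_phi_coe M L1 N₀ hlev2 s₁')
  have hϖQ : algebraMap L1 Qb ϖ ≠ 0 := (map_ne_zero _).2 hϖ0
  have hcc : c2 * algebraMap L1 Qb ϖ ^ i ≠ 0 := mul_ne_zero hc2 (zpow_ne_zero _ hϖQ)
  have hr' : r = algebraMap Qb (Fbar (M * q * q)) (c2 * algebraMap L1 Qb ϖ ^ i) *
      m59dl_bc2 M L1 N₀ hlev2 s₁ := by
    have hz : algebraMap Qb (Fbar (M * q * q)) (algebraMap L1 Qb ϖ) ≠ 0 := (map_ne_zero _).2 hϖQ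
    have hBs₁ : B s₁' = B s * algebraMap Qb (Fbar (M * q * q)) (algebraMap L1 Qb ϖ) ^ (-i) := by
      rw [hs₁', map_mul, dsc_bcHom_algebraMap, map_zpow₀, map_zpow₀]
    rw [hb1, hBs₁, map_mul, map_zpow₀, hrc2, zpow_neg]
    field_simp
  refine ⟨1 * g, ?_⟩
  rw [hr']
  exact m59dl_CRoot_mul (m59dl_CRoot_const (m59dl_nuQ_const M q) hcc) hg

end HRoot

end Fermat.Agent.M59
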