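/-
Project M59, Sink B (`m59t_Eq2_stmt`), cell (G2') [DELTA-C], seam [HECKE-UNIT] (helper18; tag
`m59dlh_`), part 1: RULE A WITHOUT ROOTS OF UNITY IN THE BASE.

`O1 = A ∩ L1` a discrete valuation ring (`A` a valuation subring of `ℚ̄`, `L1` any field inside `ℚ̄`).

* `m59dlh_GU_hecke_q` : over ANY valuation subring `O` of a field `L ∋ ζ_ℓ`: `y ∈ F_N(L)` a Gauss unit
  ⟹ `(T_ℓ y)(X^ℓ)` is a Gauss unit (product formula `m59ei_hecke_prod`; no discreteness needed);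
* `m59dlh_GU_bc`, `m59dlh_GU_of_bc` : Gauss units of `L1((X))` and of `ℚ̄((X))` correspond under the
  extension of constants (`ssm_gb_isBdd_iff`);
* `m59dlh_GU_hecke`   : **RULE A over `(L1, O1)`, no `ζ_ℓ ∈ L1` needed**: `y ∈ F_N(L1)` a Gauss unit ⟹
  `T_ℓ y` a Gauss unit.  [go up to `(ℚ̄, A)`, apply the `q`-expanded form there, come back to `O1`
  (discrete), and remove `X ↦ X^ℓ` there by `m59ei_GU_qExpand_iff`.]
-/
import Mathlib
import Fermat.Agent.M59.SinkB.Eis.RuleA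
import Fermat.Agent.M59.SinkB.Eis.EigenRel
import Fermat.Agent.SS.Model.GaussBC

set_option autoImplicit false
set_option linter.unusedSectionVars false
set_option linter.unusedVariables false
set_option linter.style.haveILetI false
set_option synthInstance.maxHeartbeats 400000
set_option maxHeartbeats 1000000

noncomputable section

namespace Fermat.Agent.M59

open ModularCurve AlgebraicCurve IntermediateField IsLocalRing
open Fermat.Agent.JT3 Fermat.Agent.SS Fermat.Agent.S28 Fermat.Agent.S35 Fermat.Agent.S36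
  Fermat.Agent.DS

local notation "Qb" => AlgebraicClosure ℚ

section QForm

variable {L : Type*} [Field L] [Algebra ℚ L] [Algebra L Qb]
  (O : ValuationSubring L) (N ℓ : ℕ) [NeZero N] [NeZero ℓ] (hℓ : ℓ.Prime) (hℓN : ¬ ℓ ∣ N)

include hℓ hℓN in
/-- RULE A, `q`-expanded form, over ANY valuation subring of the constants (`ζ_ℓ ∈ L`). -/
theorem m59dlh_GU_hecke_q (ζ : Lˣ) (hζ : IsPrimitiveRoot ζ ℓ)
    (y : laurentBaseChange L (modularFunctionFieldFull N))
    (hy : m59ei_GU ↥O L (y : LaurentSeries L)) :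
    m59ei_GU ↥O L (qExpand L ℓ
      ((m59ei_T L N ℓ y : laurentBaseChange L (modularFunctionFieldFull N)) :
        LaurentSeries L)) := by
  have hζpow : ζ ^ ℓ = 1 := hζ.pow_eq_one
  set ζA : (↥O)ˣ := dsh_nl_unit O (NeZero.ne ℓ) ζ hζpow with hζA
  rw [m59ei_hecke_prod L N ℓ hℓ hℓN ζ hζ y]
  refine m59ei_GU_mul (m59ei_GU_qExpand (ℓ ^ 2) hy) (m59ei_GU_prod _ _ fun b _ => ?_)
  have e : ζ ^ b = Units.map (algebraMap ↥O L : ↥O →* L) (ζA ^ b) := by
    rw [map_pow]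
    congr 1
  rw [e]
  exact m59ei_GU_twist (ζA ^ b) hy

end QForm

section BC

variable {L0 L : Type*} [Field L0] [Field L] (f : L0 →+* L)
  (O0 : ValuationSubring L0) (O : ValuationSubring L) (hO : ∀ x : L0, x ∈ O0 ↔ f x ∈ O)

include hO in
/-- Gauss units go up along an extension of constants. -/
theorem m59dlh_GU_bc {z : LaurentSeries L0} (hz : m59ei_GU ↥O0 L0 z) :
    m59ei_GU ↥O L (coeffMap f z) :=
  ⟨ssm_gb_isBdd f O0 O hO hz.1, by rw [← map_inv₀]; exact ssm_gb_isBdd f O0 O hO hz.2⟩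

variable [WfDvdMonoid O0]

include hO in
/-- Gauss units come down along an extension of constants (discrete base). -/
theorem m59dlh_GU_of_bc (π0 : O0) (hπ0 : π0 ≠ 0) (hπ : maximalIdeal O0 = Ideal.span {π0})
    {z : LaurentSeries L0} (hq : gq_IsQuot ↥O0 L0 z) (hz : m59ei_GU ↥O L (coeffMap f z)) :
    m59ei_GU ↥O0 L0 z := by
  refine ⟨(ssm_gb_isBdd_iff f O0 O hO π0 hπ0 hπ hq).1 hz.1, ?_⟩
  have hq' : gq_IsQuot ↥O0 L0 z⁻¹ := (gq_quotField ↥O0 L0).inv_mem hq
  refine (ssm_gb_isBdd_iff f O0 O hO π0 hπ0 hπ hq').1 ?_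
  rw [map_inv₀]
  exact hz.2

end BC

section RuleA

variable (A : ValuationSubring Qb) (L1 : Type) [Field L1] [Algebra ℚ L1] [Algebra L1 Qb]
  [IsScalarTower ℚ L1 Qb]
  [IsDiscreteValuationRing ↥(A.comap (algebraMap L1 Qb))]
  {π : ↥(A.comap (algebraMap L1 Qb))} (hπ : Irreducible π)
  (N ℓ : ℕ) [NeZero N] [NeZero ℓ] (hℓ : ℓ.Prime) (hℓN : ¬ ℓ ∣ N)

include hπ hℓ hℓN in
/-- **RULE A over `(L1, A ∩ L1)`, no root of unity needed in `L1`.** -/
theorem m59dlh_GU_hecke (y : laurentBaseChange L1 (modularFunctionFieldFull N)) (hy0 : y ≠ 0)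
    (hy : m59ei_GU ↥(A.comap (algebraMap L1 Qb)) L1 (y : LaurentSeries L1)) :
    m59ei_GU ↥(A.comap (algebraMap L1 Qb)) L1
      ((m59ei_T L1 N ℓ y : laurentBaseChange L1 (modularFunctionFieldFull N)) :
        LaurentSeries L1) := by
  obtain ⟨ζ0, hζ0⟩ := HasEnoughRootsOfUnity.exists_primitiveRoot Qb ℓ
  have hu0 : IsUnit ζ0 := hζ0.isUnit (NeZero.ne ℓ)
  have hζ : IsPrimitiveRoot hu0.unit ℓ := by
    rw [← IsPrimitiveRoot.coe_units_iff]
    exact hζ0
  have hO : ∀ x : L1, x ∈ A.comap (algebraMap L1 Qb) ↔ algebraMap L1 Qb x ∈ A := fun _ => Iff.rfl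
  have h1 : m59ei_GU ↥A Qb
      ((dsc_bcHom L1 Qb (modularFunctionFieldFull N) y :
        laurentBaseChange Qb (modularFunctionFieldFull N)) : LaurentSeries Qb) :=
    m59dlh_GU_bc (algebraMap L1 Qb) (A.comap (algebraMap L1 Qb)) A hO hy
  have h2 := m59dlh_GU_hecke_q A N ℓ hℓ hℓN hu0.unit hζ
    (dsc_bcHom L1 Qb (modularFunctionFieldFull N) y) h1
  rw [m59ei_T_bc N ℓ L1 hℓ hℓN y] at h2
  have h3 : m59ei_GU ↥A Qb (coeffMap (algebraMap L1 Qb) (qExpand L1 ℓ
      ((m59ei_T L1 N ℓ y : laurentBaseChange L1 (modularFunctionFieldFull N)) :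
        LaurentSeries L1))) := by
    rw [fs_coeffMap_qExpand]
    exact h2
  have hT0 : m59ei_T L1 N ℓ y ≠ 0 := m59ei_T_ne_zero L1 N ℓ hℓ hℓN hy0
  have hT0' : ((m59ei_T L1 N ℓ y : laurentBaseChange L1 (modularFunctionFieldFull N)) :
      LaurentSeries L1) ≠ 0 := fun h => hT0 (Subtype.ext h)
  have hquot : gq_IsQuot ↥(A.comap (algebraMap L1 Qb)) L1
      ((m59ei_T L1 N ℓ y : laurentBaseChange L1 (modularFunctionFieldFull N)) :
        LaurentSeries L1) := m59ei_isQuot (A.comap (algebraMap L1 Qb)) N _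
  have hquot' : gq_IsQuot ↥(A.comap (algebraMap L1 Qb)) L1 (qExpand L1 ℓ
      ((m59ei_T L1 N ℓ y : laurentBaseChange L1 (modularFunctionFieldFull N)) :
        LaurentSeries L1)) := by
    rw [← coe_heckeBetaBar N ℓ (m59ei_T L1 N ℓ y)]
    exact m59ei_isQuot (A.comap (algebraMap L1 Qb)) (N * ℓ) _
  have h4 := m59dlh_GU_of_bc (algebraMap L1 Qb) (A.comap (algebraMap L1 Qb)) A hO π hπ.ne_zero
    hπ.maximalIdeal_eq hquot' h3
  exact (m59ei_GU_qExpand_iff π hπ.ne_zero hπ.maximalIdeal_eq ℓ hquot hT0').1 h4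

end RuleA

end Fermat.Agent.M59
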