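/-
Project M59, Sink B (`m59t_Eq2_stmt`), cell (G2') [DELTA] (helper17; tag `m59dl_`), part 14:
A VARIANT OF LAYER 2 (`m59dl_mainC`, `m59dl_mainCQ`) WHERE THE CONSUMER SUPPLIES, FOR EVERY `ℓ ∈ G`,
ONE EIGEN-RELATION `T_ℓ f = C c · f ^ k · r ^ p` (`k ≡ a ℓ mod p`) WHOSE ROOT `r` HAS A `C`-ROOT.
No class `z` is needed any more: the eigen-relations are hypotheses on the function `f` itself.

* `m59dl_mainC2`, `m59dl_mainCQ2`.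
-/
import Mathlib
import Fermat.Agent.M59.SinkB.Delta.InstC

set_option autoImplicit false
set_option linter.unusedSectionVars false
set_option linter.unusedVariables false
set_option linter.style.haveILetI false
set_option synthInstance.maxHeartbeats 400000
set_option maxHeartbeats 1000000

noncomputable section

namespace Fermat.Agent.M59

open ModularCurve AlgebraicCurve IntermediateField IsLocalRing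
open Fermat.Agent.JT3 Fermat.Agent.SS Fermat.Agent.S35 Fermat.Agent.S24 Fermat.Agent.S28
open Fermat.Agent.MZ Fermat.Agent.S44 Fermat.Agent.S36

local notation "Qb" => AlgebraicClosure ℚ

section Layer2

variable {A : ValuationSubring Qb} {q : ℕ} (hq : q.Prime) (hA : A.LiesOverPrime q)
  {M N1 N2 : ℕ} [NeZero M] [NeZero N1] [NeZero N2] (hqM : ¬ q ∣ M)

include hq hA hqM in
/-- **(G2'), instance `C`, `ℚ̄`-level, relation form.** -/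
theorem m59dl_mainC2 {p : ℕ} (hp : p.Prime) (G : Set ℕ) (hqG : q ∉ G)
    (hGN1 : ∀ ℓ ∈ G, ¬ ℓ ∣ N1) (hGN2 : ∀ ℓ ∈ G, ¬ ℓ ∣ N2) (a : ℕ → ℤ)
    (R1 : m59dl_Res A M N1) (R2 : m59dl_Res A M N2) (ν : Fbar N2 →* Fbar N1) {d n : ℕ}
    (hn : n ≠ 0)
    (hν : ∀ c : Qb, ν (algebraMap Qb (Fbar N2) c) = algebraMap Qb (Fbar N1) (c ^ d))
    (hH1 : ∀ ℓ : Nat.Primes, (ℓ : ℕ) ∈ G → ¬ (ℓ : ℕ) ∣ M →
      haveI : NeZero (ℓ : ℕ) := ⟨ℓ.2.ne_zero⟩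
      ∃ R' : m59dl_Res A (M * (ℓ : ℕ)) (N1 * (ℓ : ℕ)), m59dl_Hecke (ℓ : ℕ) R1 R')
    (hH2 : ∀ ℓ : Nat.Primes, (ℓ : ℕ) ∈ G → ¬ (ℓ : ℕ) ∣ M →
      haveI : NeZero (ℓ : ℕ) := ⟨ℓ.2.ne_zero⟩
      ∃ R' : m59dl_Res A (M * (ℓ : ℕ)) (N2 * (ℓ : ℕ)), m59dl_Hecke (ℓ : ℕ) R2 R')
    (hcomm : ∀ ℓ : Nat.Primes, (ℓ : ℕ) ∈ G →
      haveI : NeZero (ℓ : ℕ) := ⟨ℓ.2.ne_zero⟩
      ∀ x : Fbar N2, ν (s44hr_T N2 ℓ x) = s44hr_T N1 ℓ (ν x))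
    {f : Fbar N2} {g : ↥(s44e_FF A M)}
    (hg : m59dl_CRoot R1 R2 ν n f g)
    (hpd : s44k2d_PDiv (K := s44e_kA A) p g)
    (hnp : ¬ ∃ (κ : s44e_kA A) (h : ↥(s44e_FF A M)),
      g = algebraMap (s44e_kA A) ↥(s44e_FF A M) κ * h ^ p)
    (hrel : ∀ ℓ : Nat.Primes, (ℓ : ℕ) ∈ G → ¬ (ℓ : ℕ) ∣ M →
      haveI : NeZero (ℓ : ℕ) := ⟨ℓ.2.ne_zero⟩
      ∃ (c : Qb) (r : Fbar N2) (k : ℕ) (h : ↥(s44e_FF A M)), c ≠ 0 ∧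
        ((k : ℤ) - a ℓ) % (p : ℤ) = 0 ∧
        s44hr_T N2 ℓ f = algebraMap Qb (Fbar N2) c * f ^ k * r ^ p ∧
        m59dl_CRoot R1 R2 ν n r h) :
    ∃ v : gh_H M →+ ZMod p, v ≠ 0 ∧
      ∀ ℓ : ℕ, ℓ.Prime → ¬ ℓ ∣ M → ℓ ∈ G →
        v.comp (t2f_TH M ℓ).toAddMonoidHom = ((a ℓ : ℤ) : ZMod p) • v := by
  haveI : Fact q.Prime := ⟨hq⟩
  have hp0 : p ≠ 0 := hp.ne_zero
  refine m59dl_char_of_eigen_fun hq hA hqM hp G hqG a hpd hnp ?_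
  intro ℓ hG hℓM
  haveI : NeZero (ℓ : ℕ) := ⟨ℓ.2.ne_zero⟩
  have hℓq : (ℓ : ℕ) ≠ q := by
    rintro h
    exact hqG (h ▸ hG)
  obtain ⟨R1', H1⟩ := hH1 ℓ hG hℓM
  obtain ⟨R2', H2⟩ := hH2 ℓ hG hℓM
  obtain ⟨c, r, k, h, hc0, hk, e, hh⟩ := hrel ℓ hG hℓM
  -- the two `C`-roots of `T_ℓ f`
  have hC1 := m59dl_CRoot_hecke hA hqM ℓ (hGN1 _ hG) (hGN2 _ hG) hℓM hℓq R1' H1 R2' H2
    (hcomm ℓ hG) hg
  have hC2 : m59dl_CRoot R1 R2 ν n (s44hr_T N2 ℓ f) (1 * g ^ k * h ^ p) := by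
    rw [e]
    exact m59dl_CRoot_mul (m59dl_CRoot_mul (m59dl_CRoot_const hν hc0) (m59dl_CRoot_pow hg k))
      (m59dl_CRoot_pow hh p)
  obtain ⟨κ, hκ, eκ⟩ := m59dl_CRoot_unique hA hqM hn hC2 hC1
  refine ⟨κ, h, k, hκ, hh.1, hk, ?_⟩
  rw [eκ, one_mul, mul_assoc]

end Layer2

section MainCQ

variable {A : ValuationSubring Qb} {q : ℕ} (hq : q.Prime) (hA : A.LiesOverPrime q)
  {M : ℕ} [NeZero M] [NeZero q] (hqM : ¬ q ∣ M)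

include hq hA hqM in
/-- **(G2'), instance `C`, at the levels `M q q ⊃ M q`, relation form**: `f ∈ F̄_{M q q}` with
`C`-root `g`, `g` `p`-divisible and not a constant times a `p`-th power; if for every `ℓ ∈ G` there is
an eigen-relation `T_ℓ f = C c · f ^ k · r ^ p`, `k ≡ a ℓ (mod p)`, whose root `r` has a `C`-root,
the eigensystem `a` occurs at level `M`. -/
theorem m59dl_mainCQ2 {p : ℕ} (hp : p.Prime) (G : Set ℕ) (hqG : q ∉ G)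
    (hGN : ∀ ℓ ∈ G, ¬ ℓ ∣ M * q * q) (a : ℕ → ℤ)
    {f : Fbar (M * q * q)} {g : ↥(s44e_FF A M)}
    (hg : haveI : Fact q.Prime := ⟨hq⟩; m59dl_CRootQ A hA M hqM f g)
    (hpd : s44k2d_PDiv (K := s44e_kA A) p g)
    (hnp : ¬ ∃ (κ : s44e_kA A) (h : ↥(s44e_FF A M)),
      g = algebraMap (s44e_kA A) ↥(s44e_FF A M) κ * h ^ p)
    (hrel : ∀ ℓ : Nat.Primes, (ℓ : ℕ) ∈ G → ¬ (ℓ : ℕ) ∣ M →
      haveI : NeZero (ℓ : ℕ) := ⟨ℓ.2.ne_zero⟩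
      ∃ (c : Qb) (r : Fbar (M * q * q)) (k : ℕ) (h : ↥(s44e_FF A M)), c ≠ 0 ∧
        ((k : ℤ) - a ℓ) % (p : ℤ) = 0 ∧
        s44hr_T (M * q * q) ℓ f = algebraMap Qb (Fbar (M * q * q)) c * f ^ k * r ^ p ∧
        (haveI : Fact q.Prime := ⟨hq⟩; m59dl_CRootQ A hA M hqM r h)) :
    ∃ v : gh_H M →+ ZMod p, v ≠ 0 ∧
      ∀ ℓ : ℕ, ℓ.Prime → ¬ ℓ ∣ M → ℓ ∈ G →
        v.comp (t2f_TH M ℓ).toAddMonoidHom = ((a ℓ : ℤ) : ZMod p) • v := by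
  haveI : Fact q.Prime := ⟨hq⟩
  have hqℓ : ∀ ℓ : Nat.Primes, (ℓ : ℕ) ∈ G → ¬ q ∣ M * (ℓ : ℕ) := by
    intro ℓ hG
    have hne : (ℓ : ℕ) ≠ q := by
      rintro h
      exact hqG (h ▸ hG)
    have hd : ¬ q ∣ (ℓ : ℕ) := fun hd =>
      hne ((Nat.prime_dvd_prime_iff_eq hq ℓ.2).mp hd).symm
    haveI : NeZero (ℓ : ℕ) := ⟨ℓ.2.ne_zero⟩
    exact mzrh_not_dvd_mul M (ℓ : ℕ) hqM hd
  have hGN1 : ∀ ℓ ∈ G, ¬ ℓ ∣ M * q := fun ℓ hG hd =>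
    hGN ℓ hG (dvd_trans hd (Dvd.intro _ rfl))
  have hq1 : q - 1 ≠ 0 := by have := hq.two_le; omega
  refine m59dl_mainC2 hq hA hqM hp G hqG hGN1 hGN a (m59dl_RF A hA M hqM) (m59dl_RA A hA M hqM)
    (m59dl_nuQ M q) hq1 (m59dl_nuQ_const M q) ?_ ?_ ?_ hg hpd hnp hrel
  · intro ℓ hG hℓM
    haveI : NeZero (ℓ : ℕ) := ⟨ℓ.2.ne_zero⟩
    exact ⟨m59dl_RFl A hA M (ℓ : ℕ) (hqℓ ℓ hG), m59dl_RF_hecke A hA M hqM (ℓ : ℕ) (hqℓ ℓ hG)⟩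
  · intro ℓ hG hℓM
    haveI : NeZero (ℓ : ℕ) := ⟨ℓ.2.ne_zero⟩
    exact ⟨m59dl_RAl A hA M (ℓ : ℕ) (hqℓ ℓ hG), m59dl_RA_hecke A hA M hqM (ℓ : ℕ) (hqℓ ℓ hG)⟩
  · intro ℓ hG
    haveI : NeZero (ℓ : ℕ) := ⟨ℓ.2.ne_zero⟩
    exact fun x => m59dl_nuQ_comm M q hq (ℓ : ℕ) x

end MainCQ

end Fermat.Agent.M59
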