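/-
M59 / Sink B, cell (C3) [PDIV-C] of [DELTA-C] (helper8), HALF 1, part 2: THE CENTRE OF A VALUATION
OF THE RESIDUE FIELD ON A CHART.  Prefix `m59dlp_`.

`B ⊆ F0` a subalgebra contained in the valuation subring `V`, `θ : V →+* K'` a ring homomorphism
into a field killing `𝔪(V)` (e.g. the residue map), `W` a valuation subring of `K'` containing
`θ(B)`.  The CENTRE of `W` on `B` is the prime `m59dlp_ctr = {b ∈ B | θ b ∈ 𝔪(W)}`; it contains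
`𝔪(V) ∩ B`, every element of `B_𝔫` (and of `B_𝔪` for any prime `𝔪 ⊇ 𝔫`) lies in `V` with `θ`-image
in `W`, and units go to units of `W` (`m59dlp_ctr_mem`, `m59dlp_ctr_unit`).

`m59dlp_chart_le` : if `θ` maps `A0` and the coordinate `y` into `W`, then `θ(fc_chart A0 {y}) ⊆ W`
(integrality; `W` is integrally closed).
-/
import Mathlib
import Fermat.Agent.S36.Glue.Main

set_option autoImplicit false
set_option linter.unusedSectionVars false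
set_option linter.unusedVariables false
set_option linter.style.haveILetI false

namespace Fermat.Agent.M59

open Fermat.Agent.SS Fermat.Agent.JT3 Fermat.Agent.S35 Fermat.Agent.S36

universe v

section Centre

variable {A0 : Type*} [CommRing A0] {F0 : Type v} [Field F0] [Algebra A0 F0]
variable {B : Subalgebra A0 F0} {V : ValuationSubring F0} {K' : Type*} [Field K']

/-- the inclusion `B → V`. -/
def m59dlp_incl (hBV : ∀ b : B, (b : F0) ∈ V) : B →+* ↥V :=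
  (B.val : B →+* F0).codRestrict V (fun b => hBV b)

theorem m59dlp_incl_apply (hBV : ∀ b : B, (b : F0) ∈ V) (b : B) :
    m59dlp_incl hBV b = ⟨(b : F0), hBV b⟩ := rfl

/-- `B → W`, `b ↦ θ b`. -/
def m59dlp_toW (hBV : ∀ b : B, (b : F0) ∈ V) (θ : ↥V →+* K') (W : ValuationSubring K')
    (hBW : ∀ b : B, θ ⟨(b : F0), hBV b⟩ ∈ W) : B →+* ↥W :=
  (θ.comp (m59dlp_incl hBV)).codRestrict W (fun b => hBW b)

/-- **the centre of `W` on `B`.** -/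
def m59dlp_ctr (hBV : ∀ b : B, (b : F0) ∈ V) (θ : ↥V →+* K') (W : ValuationSubring K')
    (hBW : ∀ b : B, θ ⟨(b : F0), hBV b⟩ ∈ W) : Ideal B :=
  Ideal.comap (m59dlp_toW hBV θ W hBW) (IsLocalRing.maximalIdeal ↥W)

instance m59dlp_ctr_isPrime (hBV : ∀ b : B, (b : F0) ∈ V) (θ : ↥V →+* K')
    (W : ValuationSubring K') (hBW : ∀ b : B, θ ⟨(b : F0), hBV b⟩ ∈ W) :
    (m59dlp_ctr hBV θ W hBW).IsPrime :=
  Ideal.comap_isPrime _ _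

theorem m59dlp_mem_ctr (hBV : ∀ b : B, (b : F0) ∈ V) (θ : ↥V →+* K') (W : ValuationSubring K')
    (hBW : ∀ b : B, θ ⟨(b : F0), hBV b⟩ ∈ W) (b : B) :
    b ∈ m59dlp_ctr hBV θ W hBW ↔ W.valuation (θ ⟨(b : F0), hBV b⟩) < 1 := by
  rw [m59dlp_ctr, Ideal.mem_comap, ValuationSubring.valuation_lt_one_iff]
  rfl

/-- `𝔪(V) ∩ B ⊆ 𝔫`. -/
theorem m59dlp_nonunits_le_ctr (hBV : ∀ b : B, (b : F0) ∈ V) (θ : ↥V →+* K')
    (hθ : ∀ z : ↥V, (z : F0) ∈ V.nonunits → θ z = 0) (W : ValuationSubring K')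
    (hBW : ∀ b : B, θ ⟨(b : F0), hBV b⟩ ∈ W) {b : B} (hb : (b : F0) ∈ V.nonunits) :
    b ∈ m59dlp_ctr hBV θ W hBW := by
  rw [m59dlp_mem_ctr, hθ _ hb, map_zero]
  exact zero_lt_one

section Loc

variable [IsFractionRing B F0] [IsNoetherianRing B] [IsIntegrallyClosed B]

/-- **elements of `B_𝔪`, `𝔪 ⊇ 𝔫` a prime, lie in `V` and have `θ`-image in `W`.** -/
theorem m59dlp_ctr_mem (hBV : ∀ b : B, (b : F0) ∈ V) (θ : ↥V →+* K')
    (hθ : ∀ z : ↥V, (z : F0) ∈ V.nonunits → θ z = 0) (W : ValuationSubring K')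
    (hBW : ∀ b : B, θ ⟨(b : F0), hBV b⟩ ∈ W) (𝔪 : Ideal B) [𝔪.IsPrime]
    (h𝔪 : m59dlp_ctr hBV θ W hBW ≤ 𝔪) {z : F0} (hz : z ∈ ssl_locSub F0 𝔪) :
    ∃ hzV : z ∈ V, W.valuation (θ ⟨z, hzV⟩) ≤ 1 := by
  obtain ⟨a, s, hs, has⟩ := (ssl_mem_loc 𝔪).1 hz
  have hs𝔫 : s ∉ m59dlp_ctr hBV θ W hBW := fun h => hs (h𝔪 h)
  rw [m59dlp_mem_ctr, not_lt] at hs𝔫
  have hs1 : W.valuation (θ ⟨(s : F0), hBV s⟩) = 1 :=
    le_antisymm ((W.valuation_le_one_iff _).2 (hBW s)) hs𝔫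
  have hθs : θ ⟨(s : F0), hBV s⟩ ≠ 0 := by
    intro h0
    rw [h0, map_zero] at hs1
    exact zero_ne_one hs1
  have hsn : (s : F0) ∉ V.nonunits := fun h => hθs (hθ _ h)
  rw [ValuationSubring.mem_nonunits_iff_or] at hsn
  push Not at hsn
  obtain ⟨hs0, hsinv⟩ := hsn
  have hzeq : z = (a : F0) * ((s : F0))⁻¹ := by
    rw [← has, mul_assoc, mul_inv_cancel₀ hs0, mul_one]
  have hzV : z ∈ V := by
    rw [hzeq]
    exact V.mul_mem _ _ (hBV a) hsinv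
  refine ⟨hzV, ?_⟩
  have hmul : (⟨z, hzV⟩ : ↥V) * ⟨(s : F0), hBV s⟩ = ⟨(a : F0), hBV a⟩ := Subtype.ext has
  have h1 : W.valuation (θ ⟨z, hzV⟩) * W.valuation (θ ⟨(s : F0), hBV s⟩) =
      W.valuation (θ ⟨(a : F0), hBV a⟩) := by
    rw [← map_mul, ← map_mul, hmul]
  rw [hs1, mul_one] at h1
  rw [h1]
  exact (W.valuation_le_one_iff _).2 (hBW a)

/-- **units of `B_𝔪`, `𝔪 ⊇ 𝔫` a prime, are units of `V` with `θ`-image a unit of `W`.** -/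
theorem m59dlp_ctr_unit (hBV : ∀ b : B, (b : F0) ∈ V) (θ : ↥V →+* K')
    (hθ : ∀ z : ↥V, (z : F0) ∈ V.nonunits → θ z = 0) (W : ValuationSubring K')
    (hBW : ∀ b : B, θ ⟨(b : F0), hBV b⟩ ∈ W) (𝔪 : Ideal B) [𝔪.IsPrime]
    (h𝔪 : m59dlp_ctr hBV θ W hBW ≤ 𝔪) (ω : (ssl_locSub F0 𝔪)ˣ) :
    ∃ hωV : ((ω : ssl_locSub F0 𝔪) : F0) ∈ V,
      W.valuation (θ ⟨((ω : ssl_locSub F0 𝔪) : F0), hωV⟩) = 1 := by
  obtain ⟨h1V, h1⟩ := m59dlp_ctr_mem hBV θ hθ W hBW 𝔪 h𝔪 (ω : ssl_locSub F0 𝔪).2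
  obtain ⟨h2V, h2⟩ := m59dlp_ctr_mem hBV θ hθ W hBW 𝔪 h𝔪 ((ω⁻¹ : (ssl_locSub F0 𝔪)ˣ) :
    ssl_locSub F0 𝔪).2
  refine ⟨h1V, le_antisymm h1 ?_⟩
  have hmul : (⟨((ω : ssl_locSub F0 𝔪) : F0), h1V⟩ : ↥V) *
      ⟨(((ω⁻¹ : (ssl_locSub F0 𝔪)ˣ) : ssl_locSub F0 𝔪) : F0), h2V⟩ = 1 := by
    apply Subtype.ext
    have h3 : ((ω : ssl_locSub F0 𝔪) * ((ω⁻¹ : (ssl_locSub F0 𝔪)ˣ) : ssl_locSub F0 𝔪) :
        ssl_locSub F0 𝔪) = 1 := ω.mul_inv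
    exact congrArg (fun x : ssl_locSub F0 𝔪 => (x : F0)) h3
  have h4 : W.valuation (θ ⟨((ω : ssl_locSub F0 𝔪) : F0), h1V⟩) *
      W.valuation (θ ⟨(((ω⁻¹ : (ssl_locSub F0 𝔪)ˣ) : ssl_locSub F0 𝔪) : F0), h2V⟩) = 1 := by
    rw [← map_mul, ← map_mul, hmul, map_one, map_one]
  calc (1 : _) = W.valuation (θ ⟨((ω : ssl_locSub F0 𝔪) : F0), h1V⟩) *
        W.valuation (θ ⟨(((ω⁻¹ : (ssl_locSub F0 𝔪)ˣ) : ssl_locSub F0 𝔪) : F0), h2V⟩) := h4.symm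
    _ ≤ W.valuation (θ ⟨((ω : ssl_locSub F0 𝔪) : F0), h1V⟩) * 1 := mul_le_mul_right h2 _
    _ = W.valuation (θ ⟨((ω : ssl_locSub F0 𝔪) : F0), h1V⟩) := mul_one _

end Loc

section ChartLe

/-- **`θ(fc_chart A0 {y}) ⊆ W`** as soon as `θ(A0) ⊆ W` and `θ y ∈ W`. -/
theorem m59dlp_chart_le {y : F0} (hBV : ∀ b : fc_chart A0 ({y} : Set F0), (b : F0) ∈ V)
    (θ : ↥V →+* K') (W : ValuationSubring K')
    (hA : ∀ (a : A0) (h : algebraMap A0 F0 a ∈ V), θ ⟨algebraMap A0 F0 a, h⟩ ∈ W)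
    (hy : ∀ h : y ∈ V, θ ⟨y, h⟩ ∈ W) (b : fc_chart A0 ({y} : Set F0)) :
    θ ⟨(b : F0), hBV b⟩ ∈ W := by
  -- step 1: the subalgebra `A0[y]`
  have hS : ∀ s : F0, s ∈ Algebra.adjoin A0 ({y} : Set F0) → ∃ h : s ∈ V, θ ⟨s, h⟩ ∈ W := by
    intro s hs
    induction hs using Algebra.adjoin_induction with
    | mem x hx =>
      rw [Set.mem_singleton_iff] at hx
      subst hx
      have hV : x ∈ V := hBV ⟨x, fc_x_mem_chart x⟩
      exact ⟨hV, hy hV⟩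
    | algebraMap a =>
      have hV : algebraMap A0 F0 a ∈ V := hBV (algebraMap A0 _ a)
      exact ⟨hV, hA a hV⟩
    | add s t _ _ h1 h2 =>
      obtain ⟨h1V, h1⟩ := h1
      obtain ⟨h2V, h2⟩ := h2
      refine ⟨V.add_mem _ _ h1V h2V, ?_⟩
      have e : (⟨s + t, V.add_mem _ _ h1V h2V⟩ : ↥V) = ⟨s, h1V⟩ + ⟨t, h2V⟩ := rfl
      rw [e, map_add]
      exact W.add_mem _ _ h1 h2
    | mul s t _ _ h1 h2 =>
      obtain ⟨h1V, h1⟩ := h1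
      obtain ⟨h2V, h2⟩ := h2
      refine ⟨V.mul_mem _ _ h1V h2V, ?_⟩
      have e : (⟨s * t, V.mul_mem _ _ h1V h2V⟩ : ↥V) = ⟨s, h1V⟩ * ⟨t, h2V⟩ := rfl
      rw [e, map_mul]
      exact W.mul_mem _ _ h1 h2
  set inclSV : Algebra.adjoin A0 ({y} : Set F0) →+* ↥V :=
    ((Algebra.adjoin A0 ({y} : Set F0)).val : Algebra.adjoin A0 ({y} : Set F0) →+* F0).codRestrict V
      (fun s => (hS s s.2).1) with hincl
  set ρS : Algebra.adjoin A0 ({y} : Set F0) →+* ↥W :=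
    (θ.comp inclSV).codRestrict W (fun s => (hS s s.2).2) with hρS
  obtain ⟨f, hf, hfb⟩ := (fc_mem_chart (A0 := A0)).1 b.2
  have h1 : Polynomial.eval₂ inclSV (⟨(b : F0), hBV b⟩ : ↥V) f = 0 := by
    apply Subtype.ext
    have h2 := Polynomial.hom_eval₂ f inclSV V.subtype (⟨(b : F0), hBV b⟩ : ↥V)
    have h3 : V.subtype.comp inclSV = algebraMap (Algebra.adjoin A0 ({y} : Set F0)) F0 :=
      RingHom.ext fun s => rfl
    rw [h3] at h2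
    exact h2.trans hfb
  have h4 : Polynomial.eval₂ (θ.comp inclSV) (θ ⟨(b : F0), hBV b⟩) f = 0 := by
    rw [← Polynomial.hom_eval₂, h1, map_zero]
  have h5 : θ.comp inclSV = (algebraMap ↥W K').comp ρS := RingHom.ext fun s => rfl
  have hint : IsIntegral ↥W (θ ⟨(b : F0), hBV b⟩) := by
    refine ⟨f.map ρS, hf.map ρS, ?_⟩
    rw [Polynomial.eval₂_map, ← h5]
    exact h4
  obtain ⟨w, hw⟩ := IsIntegrallyClosed.isIntegral_iff.1 hint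
  rw [← hw]
  exact w.2

end ChartLe

end Centre

end Fermat.Agent.M59
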