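/-
M59 / Sink B, cell (C3) [PDIV-C] of [DELTA-C] (helper8), HALF 1, part 1: THE FACTORISATION AT ONE
POINT.  Prefix `m59dlp_`.

`A0` a discrete valuation ring with uniformiser `π`, `L = Frac A0`, `F0 / L(y)` a function field,
`V : Fin 3 → ValuationSubring F0` the vertical valuations (`s36tp_Hyp`), `B = fc_chart A0 {y}`.
Let `u ∈ F0ˣ` be a unit at every `V i` whose orders at all places of `F0 / L` are divisible by `m`.
At a prime `𝔪` of `B` containing the vertical prime `P i₀ = 𝔪(V i₀) ∩ B` with `B_𝔪` FACTORIAL: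

  `u = ω · d ^ m`,  `ω ∈ (B_𝔪)ˣ`,  `d` a unit of `V i₀`

(`m59dlp_fact`).  Proof: `tori_sfd_local` (helper19) with `hdiv` from the places
(`ssl_hdiv_of_places`) and `hvert` from the links `(p) ∩ B = P i`, `B_(p) = V i` of the prime
factors `p` of `π` in `B_𝔪` (`s36g_exists_link`, `s36g_link_of_comap`).
-/
import Mathlib
import Fermat.Agent.S36.Glue.Main
import Fermat.Agent.S35.Toric.SFDLocal

set_option autoImplicit false
set_option linter.unusedSectionVars false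
set_option linter.unusedVariables false
set_option linter.style.haveILetI false

namespace Fermat.Agent.M59

open Fermat.Agent.SS Fermat.Agent.JT3 Fermat.Agent.S35 Fermat.Agent.S36 AlgebraicCurve

universe v

section LinkUnit

variable {R : Type*} [CommRing R] [IsDomain R] {F : Type*} [Field F] [Algebra R F]
  [IsFractionRing R F]

/-- a unit of `V = R_(p)` is a unit at `(p)`. -/
theorem m59dlp_unitAt_of_link {p : R} {V : ValuationSubring F} (h : s36g_Link p V) {z : F}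
    (hz : z ∈ V) (hz' : z⁻¹ ∈ V) (hz0 : z ≠ 0) : ssl_UnitAt F (Ideal.span {p}) z := by
  obtain ⟨r, s, hs, hrs⟩ := h.loc z hz
  refine ⟨r, s, ?_, hs, hrs⟩
  intro hr
  have h1 : algebraMap R F r ∈ V.nonunits := (h.mem r).1 hr
  have hs0 := h.ne_zero_of_not_mem hs
  -- `1 = r · s⁻¹ · z⁻¹ ∈ 𝔪(V)`
  have h2 : (1 : F) = algebraMap R F r * ((algebraMap R F s)⁻¹ * z⁻¹) := by
    rw [← hrs]
    field_simp
  have h3 : (1 : F) ∈ V.nonunits := by
    rw [h2]
    exact s36g_nonunits_mul_mem V h1 (V.mul_mem _ _ (h.unit_of_not_mem hs) hz')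
  rw [ValuationSubring.mem_nonunits_iff, map_one] at h3
  exact lt_irrefl _ h3

end LinkUnit

section Fact

open IntermediateField

variable {A0 L : Type*} {F0 : Type v} [CommRing A0] [IsDomain A0] [IsDiscreteValuationRing A0]
  [Field L] [Field F0] [Algebra A0 L] [IsFractionRing A0 L] [CharZero L] [Algebra L F0]
  [Algebra A0 F0] [IsScalarTower A0 L F0]

set_option synthInstance.maxHeartbeats 200000 in
set_option maxHeartbeats 1600000 in
/-- **THE FACTORISATION `u = ω · d ^ m` AT A FACTORIAL POINT** of the component `V i₀`. -/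
theorem m59dlp_fact {π : A0} (hπ : Irreducible π) {y : F0} (hy : Transcendental L y)
    [FiniteDimensional L⟮y⟯ F0] [IsFractionRing ↥(fc_chart A0 ({y} : Set F0)) F0]
    {V : Fin 3 → ValuationSubring F0} {e : Fin 3 → ℕ}
    (H : s36tp_Hyp (algebraMap A0 (Algebra.adjoin A0 ({y} : Set F0)) π) V e)
    {m : ℕ} {u : F0} (hu0 : u ≠ 0) (huV : ∀ i, u ∈ V i ∧ u⁻¹ ∈ V i)
    (hord : ∀ P : Place L F0, (m : ℤ) ∣ P.ord u) (i₀ : Fin 3)
    (𝔪 : Ideal (fc_chart A0 ({y} : Set F0))) [h𝔪 : 𝔪.IsPrime]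
    (hP𝔪 : ssm_tp_P (fc_chart A0 ({y} : Set F0)) (V i₀) ≤ 𝔪)
    [hufd : UniqueFactorizationMonoid (ssl_locSub F0 𝔪)] :
    ∃ (d : F0) (ω : (ssl_locSub F0 𝔪)ˣ), d ≠ 0 ∧ d ∈ V i₀ ∧ d⁻¹ ∈ V i₀ ∧
      u = ((ω : ssl_locSub F0 𝔪) : F0) * d ^ m := by
  haveI hno := ssm_ths_chart_isNoetherianRing (A0 := A0) (L := L) hy
  haveI hic := ssm_ths_chart_isIntegrallyClosed (A0 := A0) (L := L) y
  have hyA : Transcendental A0 y := fc_ff_transcendental (L := L) hy
  haveI : IsIntegrallyClosed (Algebra.adjoin A0 ({y} : Set F0)) := fc_ff_isIntegrallyClosed hyA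
  haveI : FaithfulSMul (Algebra.adjoin A0 ({y} : Set F0)) F0 :=
    (faithfulSMul_iff_algebraMap_injective _ _).2 Subtype.val_injective
  have hC : ssm_tp_Chart (algebraMap A0 (Algebra.adjoin A0 ({y} : Set F0)) π)
      (fc_chart A0 ({y} : Set F0)) := ssm_tp_ff_chart (L := L) hπ hy
  have hϖ0 : algebraMap A0 F0 π ≠ 0 := H.algebraMap_ne_zero
  set P : Fin 3 → Ideal (fc_chart A0 ({y} : Set F0)) :=
    fun i => ssm_tp_P (fc_chart A0 ({y} : Set F0)) (V i) with hPdef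
  have hPp : ∀ i, (P i).IsPrime := fun i => H.P_isPrime hC i
  have hϖP : ∀ i, algebraMap A0 (fc_chart A0 ({y} : Set F0)) π ∈ P i :=
    fun i => H.pi_mem_P hC _ rfl i
  have hPle : ∀ Q : Ideal (fc_chart A0 ({y} : Set F0)), Q.IsPrime →
      algebraMap A0 (fc_chart A0 ({y} : Set F0)) π ∈ Q → ∃ i, P i ≤ Q :=
    fun Q hQ hϖQ => by
      haveI := hQ
      exact H.P_le_of_mem hC _ rfl Q hϖQ
  have hPinj : ∀ i j, P i ≤ P j → i = j := fun i j h => H.P_not_le hC h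
  have hBV : ∀ i (b : fc_chart A0 ({y} : Set F0)), (b : F0) ∈ V i :=
    fun i b => H.chart_le hC i b.2
  have hP : ∀ i (b : fc_chart A0 ({y} : Set F0)), b ∈ P i ↔ (b : F0) ∈ (V i).nonunits :=
    fun i b => H.mem_P hC i
  have hV : ∀ i, ∀ z ∈ V i, ∃ t : fc_chart A0 ({y} : Set F0), t ∉ P i ∧
      (t : F0) * z ∈ fc_chart A0 ({y} : Set F0) := fun i z hz => (H.mem_V_iff hC i).1 hz
  haveI := ssl_loc_isNoetherianRing (F0 := F0) 𝔪
  haveI := ssl_loc_isIntegrallyClosed (F0 := F0) 𝔪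
  set ϖB : fc_chart A0 ({y} : Set F0) := algebraMap A0 (fc_chart A0 ({y} : Set F0)) π with hϖB
  set ϖR : ssl_locSub F0 𝔪 := algebraMap (fc_chart A0 ({y} : Set F0)) (ssl_locSub F0 𝔪) ϖB
    with hϖR
  have hϖB0 : ϖB ≠ 0 := by
    intro h0
    apply hϖ0
    have : ((ϖB : fc_chart A0 ({y} : Set F0)) : F0) = 0 := by rw [h0]; rfl
    exact this
  have hϖR0 : ϖR ≠ 0 := by
    intro h0
    apply hϖ0
    have : ((ϖR : ssl_locSub F0 𝔪) : F0) = 0 := by rw [h0]; rfl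
    exact this
  have hdiv : ∀ 𝔮 : Ideal (ssl_locSub F0 𝔪), ssl_Horiz ϖR 𝔮 →
        ∃ G : F0, G ≠ 0 ∧ ssl_UnitAt F0 𝔮 (u / G ^ m) :=
    fun 𝔮 h𝔮 => ssl_hdiv_of_places (K := L) (R := ssl_locSub F0 𝔪) hπ hu0 m hord 𝔮 h𝔮
  -- the links of the prime factors of `ϖ`
  have hlink : ∀ p : ssl_locSub F0 𝔪, Prime p → p ∣ ϖR → ∃ i, s36g_Link (F := F0) p (V i) ∧
      (Ideal.span {p}).comap (algebraMap (fc_chart A0 ({y} : Set F0)) (ssl_locSub F0 𝔪)) = P i := by
    intro p hp hdvd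
    obtain ⟨i, hi⟩ := s36g_exists_link 𝔪 P hPp ϖB hϖB0 hϖP hPle p hp hdvd
    exact ⟨i, s36g_link_of_comap 𝔪 (V i) (P i) (hBV i) (hP i) (hV i) p hp hi, hi⟩
  have hvert : ∀ p : ssl_locSub F0 𝔪, Prime p → p ∣ ϖR → ssl_UnitAt F0 (Ideal.span {p}) u := by
    intro p hp hdvd
    obtain ⟨i, hl, -⟩ := hlink p hp hdvd
    exact m59dlp_unitAt_of_link hl (huV i).1 (huV i).2 hu0
  obtain ⟨e₀, he₀0, he₀v, ω, hω⟩ := tori_sfd_local (F := F0) ϖR m hu0 hdiv hvert
  refine ⟨e₀, ω, he₀0, ?_, ?_, hω⟩ <;>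
  · -- a prime factor of `ϖ` inside `P i₀ · B_𝔪`
    have hdisj : Disjoint (𝔪.primeCompl : Set (fc_chart A0 ({y} : Set F0)))
        (P i₀ : Set (fc_chart A0 ({y} : Set F0))) := by
      rw [Set.disjoint_left]
      intro b hb hbP
      exact hb (hP𝔪 hbP)
    have hmapp : ((P i₀).map
        (algebraMap (fc_chart A0 ({y} : Set F0)) (ssl_locSub F0 𝔪))).IsPrime :=
      IsLocalization.isPrime_of_isPrime_disjoint 𝔪.primeCompl (ssl_locSub F0 𝔪) (P i₀) (hPp i₀)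
        hdisj
    have hϖmem : ϖR ∈ (P i₀).map
        (algebraMap (fc_chart A0 ({y} : Set F0)) (ssl_locSub F0 𝔪)) :=
      Ideal.mem_map_of_mem _ (hϖP i₀)
    obtain ⟨p, hp, hpdvd, hpmem⟩ : ∃ p : ssl_locSub F0 𝔪, Prime p ∧ p ∣ ϖR ∧
        p ∈ (P i₀).map (algebraMap (fc_chart A0 ({y} : Set F0)) (ssl_locSub F0 𝔪)) := by
      obtain ⟨f, hf, hassoc⟩ := UniqueFactorizationMonoid.exists_prime_factors ϖR hϖR0
      obtain ⟨w, hw⟩ := hassoc
      have hprod : f.prod ∈ (P i₀).map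
          (algebraMap (fc_chart A0 ({y} : Set F0)) (ssl_locSub F0 𝔪)) := by
        have h1 : f.prod * (w : ssl_locSub F0 𝔪) ∈ (P i₀).map
            (algebraMap (fc_chart A0 ({y} : Set F0)) (ssl_locSub F0 𝔪)) := by
          rw [hw]; exact hϖmem
        exact (Ideal.mul_unit_mem_iff_mem _ w.isUnit).1 h1
      obtain ⟨p, hpf, hpm⟩ := (hmapp.multiset_prod_mem_iff_exists_mem f).1 hprod
      refine ⟨p, hf p hpf, ?_, hpm⟩
      exact (Multiset.dvd_prod hpf).trans ⟨(w : ssl_locSub F0 𝔪), hw.symm⟩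
    obtain ⟨i, hl, hi⟩ := hlink p hp hpdvd
    have hii : i = i₀ := by
      apply hPinj
      rw [← hi]
      intro b hb
      have h1 : algebraMap (fc_chart A0 ({y} : Set F0)) (ssl_locSub F0 𝔪) b ∈
          (P i₀).map (algebraMap (fc_chart A0 ({y} : Set F0)) (ssl_locSub F0 𝔪)) := by
        have h2 : algebraMap (fc_chart A0 ({y} : Set F0)) (ssl_locSub F0 𝔪) b ∈
            Ideal.span {p} := hb
        obtain ⟨c, hc⟩ := Ideal.mem_span_singleton.1 h2
        rw [hc]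
        exact Ideal.mul_mem_right _ _ hpmem
      have h3 : ((P i₀).map (algebraMap (fc_chart A0 ({y} : Set F0)) (ssl_locSub F0 𝔪))).comap
          (algebraMap (fc_chart A0 ({y} : Set F0)) (ssl_locSub F0 𝔪)) = P i₀ :=
        IsLocalization.under_map_of_isPrime_disjoint 𝔪.primeCompl (ssl_locSub F0 𝔪)
          (hPp i₀) hdisj
      rw [← h3]
      exact h1
    subst hii
    first
      | exact (hl.mem_of_unitAt (he₀v p hp hpdvd)).1
      | exact (hl.mem_of_unitAt (he₀v p hp hpdvd)).2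

end Fact

end Fermat.Agent.M59
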