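/-
M59 / Sink B, cell (C3) [PDIV-C] of [DELTA-C] (helper8), HALF 1, part 3: THE GENERIC THEOREM.
Prefix `m59dlp_`.

`A0` a discrete valuation ring with uniformiser `π`, `L = Frac A0`, `F0 / L(x)` a function field,
`V : Fin 3 → ValuationSubring F0` the vertical valuations (`s36tp_Hyp`), `u ∈ F0ˣ` a unit at every
`V i` whose orders at all places of `F0 / L` are divisible by `m`.  Fix a component `i₀` and assume
that the local rings of the two charts `fc_chart A0 {x}`, `fc_chart A0 {x⁻¹}` are FACTORIAL at the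
closed points of the component `V i₀` (on the second chart: at the points with `x⁻¹ = 0`).

Then for every ring homomorphism `θ : V i₀ →+* K'` into a field killing `𝔪(V i₀)` (e.g. the residue
map) and every valuation subring `W` of `K'` containing `θ(A0)`:

  `W.valuation (θ u) = W.valuation (θ d) ^ m`   for some unit `d` of `V i₀`

(`m59dlp_generic`): the "divisor" of the residue of `u` on the component `V i₀` is divisible by `m`.
Proof: `W` has a centre `𝔫` on one of the two charts (`m59dlp_ctr`, valuative criterion); at a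
closed point `𝔪 ⊇ 𝔫`, `u = ω · d ^ m` with `ω ∈ (B_𝔪)ˣ` (`m59dlp_fact`), and `θ ω ∈ Wˣ`
(`m59dlp_ctr_unit`).
-/
import Mathlib
import Fermat.Agent.M59.SinkB.Delta.PDivCFact
import Fermat.Agent.M59.SinkB.Delta.PDivCCentre

set_option autoImplicit false
set_option linter.unusedSectionVars false
set_option linter.unusedVariables false
set_option linter.style.haveILetI false

namespace Fermat.Agent.M59

open Fermat.Agent.SS Fermat.Agent.JT3 Fermat.Agent.S35 Fermat.Agent.S36 AlgebraicCurve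

universe v

section Gen

open IntermediateField

variable {A0 L : Type*} {F0 : Type v} [CommRing A0] [IsDomain A0] [IsDiscreteValuationRing A0]
  [Field L] [Field F0] [Algebra A0 L] [IsFractionRing A0 L] [CharZero L] [Algebra L F0]
  [Algebra A0 F0] [IsScalarTower A0 L F0]

set_option synthInstance.maxHeartbeats 200000 in
set_option maxHeartbeats 1600000 in
/-- **one chart**: `θ y ∈ W`. -/
theorem m59dlp_gen_chart {π : A0} (hπ : Irreducible π) {y : F0} (hy : Transcendental L y)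
    [FiniteDimensional L⟮y⟯ F0] [IsFractionRing ↥(fc_chart A0 ({y} : Set F0)) F0]
    {V : Fin 3 → ValuationSubring F0} {e : Fin 3 → ℕ}
    (H : s36tp_Hyp (algebraMap A0 (Algebra.adjoin A0 ({y} : Set F0)) π) V e)
    {m : ℕ} {u : F0} (hu0 : u ≠ 0) (huV : ∀ i, u ∈ V i ∧ u⁻¹ ∈ V i)
    (hord : ∀ P : Place L F0, (m : ℤ) ∣ P.ord u) (i₀ : Fin 3)
    {K' : Type*} [Field K'] (θ : ↥(V i₀) →+* K')
    (hθ : ∀ z : ↥(V i₀), (z : F0) ∈ (V i₀).nonunits → θ z = 0)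
    (W : ValuationSubring K')
    (hA : ∀ (a : A0) (h : algebraMap A0 F0 a ∈ V i₀), θ ⟨algebraMap A0 F0 a, h⟩ ∈ W)
    (hyW : ∀ h : y ∈ V i₀, θ ⟨y, h⟩ ∈ W)
    (hufd : ∀ (𝔫 : Ideal (fc_chart A0 ({y} : Set F0))) (h𝔫 : 𝔫.IsMaximal),
      algebraMap A0 (fc_chart A0 ({y} : Set F0)) π ∈ 𝔫 →
      ssm_tp_P (fc_chart A0 ({y} : Set F0)) (V i₀) ≤ 𝔫 →
      (∀ (b : fc_chart A0 ({y} : Set F0)) (h : (b : F0) ∈ V i₀),
        W.valuation (θ ⟨(b : F0), h⟩) < 1 → b ∈ 𝔫) →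
      (haveI := h𝔫.isPrime; UniqueFactorizationMonoid (ssl_locSub F0 𝔫))) :
    ∃ (d : F0) (hd : d ∈ V i₀), d⁻¹ ∈ V i₀ ∧ d ≠ 0 ∧
      W.valuation (θ ⟨u, (huV i₀).1⟩) = W.valuation (θ ⟨d, hd⟩) ^ m := by
  haveI hno := ssm_ths_chart_isNoetherianRing (A0 := A0) (L := L) hy
  haveI hic := ssm_ths_chart_isIntegrallyClosed (A0 := A0) (L := L) y
  have hyA : Transcendental A0 y := fc_ff_transcendental (L := L) hy
  haveI : IsIntegrallyClosed (Algebra.adjoin A0 ({y} : Set F0)) := fc_ff_isIntegrallyClosed hyA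
  haveI : FaithfulSMul (Algebra.adjoin A0 ({y} : Set F0)) F0 :=
    (faithfulSMul_iff_algebraMap_injective _ _).2 Subtype.val_injective
  have hC : ssm_tp_Chart (algebraMap A0 (Algebra.adjoin A0 ({y} : Set F0)) π)
      (fc_chart A0 ({y} : Set F0)) := ssm_tp_ff_chart (L := L) hπ hy
  have hBV : ∀ b : fc_chart A0 ({y} : Set F0), (b : F0) ∈ V i₀ :=
    fun b => H.chart_le hC i₀ b.2
  have hP : ∀ b : fc_chart A0 ({y} : Set F0),
      b ∈ ssm_tp_P (fc_chart A0 ({y} : Set F0)) (V i₀) ↔ (b : F0) ∈ (V i₀).nonunits :=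
    fun b => H.mem_P hC i₀
  have hϖP : algebraMap A0 (fc_chart A0 ({y} : Set F0)) π ∈
      ssm_tp_P (fc_chart A0 ({y} : Set F0)) (V i₀) := H.pi_mem_P hC _ rfl i₀
  have hBW : ∀ b : fc_chart A0 ({y} : Set F0), θ ⟨(b : F0), hBV b⟩ ∈ W :=
    m59dlp_chart_le hBV θ W hA hyW
  set 𝔫 : Ideal (fc_chart A0 ({y} : Set F0)) := m59dlp_ctr hBV θ W hBW with h𝔫def
  have h𝔫p : 𝔫.IsPrime := m59dlp_ctr_isPrime hBV θ W hBW
  have hP𝔫 : ssm_tp_P (fc_chart A0 ({y} : Set F0)) (V i₀) ≤ 𝔫 := fun b hb =>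
    m59dlp_nonunits_le_ctr hBV θ hθ W hBW ((hP b).1 hb)
  obtain ⟨𝔪, h𝔪, h𝔫𝔪⟩ := Ideal.exists_le_maximal 𝔫 h𝔫p.ne_top
  haveI h𝔪p : 𝔪.IsPrime := h𝔪.isPrime
  haveI : UniqueFactorizationMonoid (ssl_locSub F0 𝔪) :=
    hufd 𝔪 h𝔪 (h𝔫𝔪 (hP𝔫 hϖP)) (hP𝔫.trans h𝔫𝔪) fun b h hb =>
      h𝔫𝔪 ((m59dlp_mem_ctr hBV θ W hBW b).2 hb)
  obtain ⟨d, ω, hd0, hdV, hdV', hud⟩ :=
    m59dlp_fact (L := L) hπ hy H hu0 huV hord i₀ 𝔪 (hP𝔫.trans h𝔫𝔪)
  obtain ⟨hωV, hω1⟩ := m59dlp_ctr_unit hBV θ hθ W hBW 𝔪 h𝔫𝔪 ω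
  refine ⟨d, hdV, hdV', hd0, ?_⟩
  have hmul : (⟨u, (huV i₀).1⟩ : ↥(V i₀)) =
      ⟨((ω : ssl_locSub F0 𝔪) : F0), hωV⟩ * ⟨d, hdV⟩ ^ m := Subtype.ext hud
  rw [hmul, map_mul, map_mul, map_pow, map_pow, hω1, one_mul]

set_option synthInstance.maxHeartbeats 200000 in
set_option maxHeartbeats 1600000 in
/-- **THE GENERIC THEOREM [PDIV-C]**: the divisor of the residue of `u` on the component `V i₀` is
divisible by `m`, provided the two charts are factorial at the closed points of this component. -/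
theorem m59dlp_generic {π : A0} (hπ : Irreducible π) {x : F0} (hx : Transcendental L x)
    [FiniteDimensional L⟮x⟯ F0] [IsFractionRing ↥(fc_chart A0 ({x} : Set F0)) F0]
    [IsFractionRing ↥(fc_chart A0 ({x⁻¹} : Set F0)) F0]
    {V : Fin 3 → ValuationSubring F0} {e : Fin 3 → ℕ}
    (H : s36tp_Hyp (algebraMap A0 (Algebra.adjoin A0 ({x} : Set F0)) π) V e)
    {m : ℕ} {u : F0} (hu0 : u ≠ 0) (huV : ∀ i, u ∈ V i ∧ u⁻¹ ∈ V i)
    (hord : ∀ P : Place L F0, (m : ℤ) ∣ P.ord u) (i₀ : Fin 3)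
    (hufd1 : ∀ (𝔫 : Ideal (fc_chart A0 ({x} : Set F0))) (h𝔫 : 𝔫.IsMaximal),
      algebraMap A0 (fc_chart A0 ({x} : Set F0)) π ∈ 𝔫 →
      ssm_tp_P (fc_chart A0 ({x} : Set F0)) (V i₀) ≤ 𝔫 →
      (haveI := h𝔫.isPrime; UniqueFactorizationMonoid (ssl_locSub F0 𝔫)))
    (hufd2 : ∀ (𝔫 : Ideal (fc_chart A0 ({x⁻¹} : Set F0))) (h𝔫 : 𝔫.IsMaximal),
      algebraMap A0 (fc_chart A0 ({x⁻¹} : Set F0)) π ∈ 𝔫 →
      ssm_tp_P (fc_chart A0 ({x⁻¹} : Set F0)) (V i₀) ≤ 𝔫 →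
      (⟨x⁻¹, fc_x_mem_chart x⁻¹⟩ : fc_chart A0 ({x⁻¹} : Set F0)) ∈ 𝔫 →
      (haveI := h𝔫.isPrime; UniqueFactorizationMonoid (ssl_locSub F0 𝔫)))
    {K' : Type*} [Field K'] (θ : ↥(V i₀) →+* K')
    (hθ : ∀ z : ↥(V i₀), (z : F0) ∈ (V i₀).nonunits → θ z = 0)
    (W : ValuationSubring K')
    (hA : ∀ (a : A0) (h : algebraMap A0 F0 a ∈ V i₀), θ ⟨algebraMap A0 F0 a, h⟩ ∈ W) :
    ∃ (d : F0) (hd : d ∈ V i₀), d⁻¹ ∈ V i₀ ∧ d ≠ 0 ∧
      W.valuation (θ ⟨u, (huV i₀).1⟩) = W.valuation (θ ⟨d, hd⟩) ^ m := by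
  have hx0 : x ≠ 0 := by
    rintro rfl
    exact hx isAlgebraic_zero
  have hxi : Transcendental L x⁻¹ := fun h => hx (IsAlgebraic.inv_iff.mp h)
  haveI hfd2 : FiniteDimensional L⟮x⁻¹⟯ F0 := by
    rw [rt_adjoin_inv]; infer_instance
  have H' := s36tp_ff_hyp_inv (L := L) hπ hx H
  have hxA : Transcendental A0 x := fc_ff_transcendental (L := L) hx
  have hxiA : Transcendental A0 x⁻¹ := fc_ff_transcendental (L := L) hxi
  haveI : IsIntegrallyClosed (Algebra.adjoin A0 ({x} : Set F0)) := fc_ff_isIntegrallyClosed hxA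
  haveI : IsIntegrallyClosed (Algebra.adjoin A0 ({x⁻¹} : Set F0)) :=
    fc_ff_isIntegrallyClosed hxiA
  haveI : FaithfulSMul (Algebra.adjoin A0 ({x} : Set F0)) F0 :=
    (faithfulSMul_iff_algebraMap_injective _ _).2 Subtype.val_injective
  haveI : FaithfulSMul (Algebra.adjoin A0 ({x⁻¹} : Set F0)) F0 :=
    (faithfulSMul_iff_algebraMap_injective _ _).2 Subtype.val_injective
  have hC : ssm_tp_Chart (algebraMap A0 (Algebra.adjoin A0 ({x} : Set F0)) π)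
      (fc_chart A0 ({x} : Set F0)) := ssm_tp_ff_chart (L := L) hπ hx
  have hC' : ssm_tp_Chart (algebraMap A0 (Algebra.adjoin A0 ({x⁻¹} : Set F0)) π)
      (fc_chart A0 ({x⁻¹} : Set F0)) := ssm_tp_ff_chart (L := L) hπ hxi
  have hxV : x ∈ V i₀ := H.chart_le hC i₀ (fc_x_mem_chart x)
  have hxiV : x⁻¹ ∈ V i₀ := H'.chart_le hC' i₀ (fc_x_mem_chart x⁻¹)
  by_cases hxW : θ ⟨x, hxV⟩ ∈ W
  · exact m59dlp_gen_chart (L := L) hπ hx H hu0 huV hord i₀ θ hθ W hA (fun _ => hxW)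
      (fun 𝔫 h𝔫 h1 h2 _ => hufd1 𝔫 h𝔫 h1 h2)
  · have hlt : W.valuation (θ ⟨x⁻¹, hxiV⟩) < 1 := by
      have hmul : (⟨x, hxV⟩ : ↥(V i₀)) * ⟨x⁻¹, hxiV⟩ = 1 :=
        Subtype.ext (mul_inv_cancel₀ hx0)
      have h1 : W.valuation (θ ⟨x, hxV⟩) * W.valuation (θ ⟨x⁻¹, hxiV⟩) = 1 := by
        rw [← map_mul, ← map_mul, hmul, map_one, map_one]
      have h2 : 1 < W.valuation (θ ⟨x, hxV⟩) := by
        rw [← not_le, W.valuation_le_one_iff]
        exact hxW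
      by_contra hge
      rw [not_lt] at hge
      have h3 : W.valuation (θ ⟨x, hxV⟩) ≤ 1 := by
        calc W.valuation (θ ⟨x, hxV⟩) = W.valuation (θ ⟨x, hxV⟩) * 1 := (mul_one _).symm
          _ ≤ W.valuation (θ ⟨x, hxV⟩) * W.valuation (θ ⟨x⁻¹, hxiV⟩) := mul_le_mul_right hge _
          _ = 1 := h1
      exact absurd h2 (not_lt.2 h3)
    exact m59dlp_gen_chart (L := L) hπ hxi H' hu0 huV hord i₀ θ hθ W hA
      (fun _ => (W.valuation_le_one_iff _).1 hlt.le)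
      (fun 𝔫 h𝔫 h1 h2 h3 => hufd2 𝔫 h𝔫 h1 h2 (h3 ⟨x⁻¹, fc_x_mem_chart x⁻¹⟩ hxiV hlt))

end Gen

end Fermat.Agent.M59
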