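/-
M59 / Sink B, cell (C3) [PDIV-C] of [DELTA-C] (helper8), HALF 1, part 4: RESIDUE MAPS OF THE THIRD
VALUATION.  Prefix `m59dlp_`.

`R` a discrete valuation ring of `K`, `K ⊆ E`, `VC` a valuation subring of `E` over `R` with the
same residue field (`hres`, the clause `resC` of `s36t3_Third`).  Every ring homomorphism
`θ₁ : R →+* K'` into a field killing `𝔪_R` extends uniquely to `θ : VC →+* K'` killing `𝔪(VC)`
(`m59dlp_resExt`).
-/
import Mathlib
import Fermat.Agent.SS.Model.TwoValW

set_option autoImplicit false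
set_option linter.unusedSectionVars false
set_option linter.unusedVariables false
set_option linter.style.haveILetI false

namespace Fermat.Agent.M59

open Fermat.Agent.SS IsLocalRing

section ResExt

variable (K : Type*) {E : Type*} [Field K] [Field E] [Algebra K E]
  (R : Type*) [CommRing R] [IsDomain R] [IsDiscreteValuationRing R] [Algebra R K]
  [IsFractionRing R K] [Algebra R E] [IsScalarTower R K E]

/-- **the residue map of `R` extends to `VC`.** -/
theorem m59dlp_resExt {VC : ValuationSubring E} (hO : ssm_tw_Over K R VC)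
    (hres : ∀ a ∈ VC, ∃ r : R, a - algebraMap R E r ∈ VC.nonunits)
    {K' : Type*} [Field K'] (θ₁ : R →+* K') (hθ₁ : ∀ r ∈ maximalIdeal R, θ₁ r = 0) :
    ∃ θ : ↥VC →+* K', (∀ z : ↥VC, (z : E) ∈ VC.nonunits → θ z = 0) ∧
      ∀ (r : R) (h : algebraMap R E r ∈ VC), θ ⟨algebraMap R E r, h⟩ = θ₁ r := by
  set φ : R →+* ↥VC := (algebraMap R E).codRestrict VC (ssm_tw_over_mem hO) with hφ
  set f : R →+* ResidueField ↥VC := (residue ↥VC).comp φ with hf
  have hsurj : Function.Surjective f := by
    intro y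
    obtain ⟨a, rfl⟩ := residue_surjective y
    obtain ⟨r, hr⟩ := hres a a.2
    refine ⟨r, ?_⟩
    symm
    rw [hf, RingHom.comp_apply, ← sub_eq_zero, ← map_sub, residue_eq_zero_iff]
    exact ValuationSubring.coe_mem_nonunits_iff.1 hr
  have hker : ∀ r : R, r ∈ RingHom.ker f ↔ r ∈ maximalIdeal R := by
    intro r
    rw [RingHom.mem_ker, hf, RingHom.comp_apply, residue_eq_zero_iff,
      ← ssm_tw_over_nonunits hO r]
    exact ValuationSubring.coe_mem_nonunits_iff.symm
  set θ' : R ⧸ RingHom.ker f →+* K' :=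
    Ideal.Quotient.lift (RingHom.ker f) θ₁ (fun r hr => hθ₁ r ((hker r).1 hr)) with hθ'
  refine ⟨(θ'.comp (RingHom.quotientKerEquivOfSurjective hsurj).symm.toRingHom).comp
    (residue ↥VC), ?_, ?_⟩
  · intro z hz
    have h0 : residue ↥VC z = 0 :=
      (residue_eq_zero_iff z).2 (ValuationSubring.coe_mem_nonunits_iff.1 hz)
    rw [RingHom.comp_apply, h0, map_zero]
  · intro r h
    have h1 : residue ↥VC ⟨algebraMap R E r, h⟩ = f r := rfl
    rw [RingHom.comp_apply, h1, RingHom.comp_apply]
    have h2 : (RingHom.quotientKerEquivOfSurjective hsurj).symm.toRingHom (f r) =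
        Ideal.Quotient.mk _ r := RingHom.quotientKerEquivOfSurjective_symm_apply hsurj r
    rw [h2, hθ', Ideal.Quotient.lift_mk]

end ResExt

end Fermat.Agent.M59
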