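/-
M59 / Sink B, cell (C3) [PDIV-C] of [DELTA-C] (helper8), HALF 1, part 5: THE NUMBER-FIELD LEVEL.
Prefix `m59dlp_`.

[NF2-CTX] `(L, O)`, base `N'`, `π := q`, `VC` a third valuation of base `N'` (`s36asm_Third`),
`V1 := ssm_gl_V1 O hπ N' q` the Gauss ring of `lg_E L (N' q)`.  Let `x ∈ lg_E L (N' q q)` be a unit
at `VA`, `VB`, `VC` all of whose orders at the places over `L` are divisible by `m`, and `rC ∈ V1`
with `x ≡ rC mod 𝔪(VC)`.  If the local rings of the two `λ`-charts are FACTORIAL at the closed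
points of the component `C` (helper3's (U1), (U2)), then for every ring homomorphism
`θ₁ : V1 →+* K'` into a field killing `𝔪(V1)` and every valuation subring `W` of `K'` containing the
image of the constants `O`:

  `W.valuation (θ₁ rC) = W.valuation (θ₁ rd) ^ m`  for some unit `rd` of `V1`

(`m59dlp_nf`).  Instance of `m59dlp_generic` at `V = ![VA, VB, VC]`, `i₀ = 2`, through
`m59dlp_resExt`.
-/
import Mathlib
import Fermat.Agent.M59.SinkB.Delta.PDivCGen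
import Fermat.Agent.M59.SinkB.Delta.PDivCRes
import Fermat.Agent.M59.SinkB.G12.Seams
import Fermat.Agent.S36.Model.AsmLegClosed

set_option autoImplicit false
set_option linter.unusedSectionVars false
set_option linter.unusedVariables false
set_option linter.style.haveILetI false

noncomputable section

open ModularCurve AlgebraicCurve IntermediateField IsLocalRing Polynomial
open Fermat.Agent.JT3 Fermat.Agent.SS Fermat.Agent.S35 Fermat.Agent.S36

namespace Fermat.Agent.M59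

section NFq

variable (L : Type) [Field L] [NumberField L] [Algebra L (AlgebraicClosure ℚ)]
  (O : ValuationSubring L) [IsDiscreteValuationRing O]
variable (N' q : ℕ) [NeZero N'] [NeZero q] [hq : Fact q.Prime] [CharP (ResidueField O) q]
  (hq2 : ¬ 2 ∣ q) (hqN' : ¬ q ∣ N') (hπ : Irreducible ((q : ℕ) : ↥O)) (ζ : L)
  (hζ : IsPrimitiveRoot ζ N')

include hζ in
set_option synthInstance.maxHeartbeats 400000 in
set_option maxHeartbeats 3200000 in
/-- **[PDIV-C], number-field level.** -/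
theorem m59dlp_nf {VC : ValuationSubring ↥(lg_E L (N' * q * q))}
    (T3 : s36asm_Third O hπ N' q hq2 hqN' VC)
    (hufd1 : ∀ (𝔫 : Ideal (fc_chart ↥O ({lg_lamE (N' * q * q)} : Set ↥(lg_E L (N' * q * q)))))
      (h𝔫 : 𝔫.IsMaximal),
      algebraMap ↥O (fc_chart ↥O ({lg_lamE (N' * q * q)} : Set ↥(lg_E L (N' * q * q))))
        ((q : ℕ) : ↥O) ∈ 𝔫 →
      ssm_tp_P (fc_chart ↥O ({lg_lamE (N' * q * q)} : Set ↥(lg_E L (N' * q * q)))) VC ≤ 𝔫 →
      (haveI := s36cp_chart_isFractionRing O (N' * q * q)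
       haveI := h𝔫.isPrime
       UniqueFactorizationMonoid (ssl_locSub ↥(lg_E L (N' * q * q)) 𝔫)))
    (hufd2 : ∀ (𝔫 : Ideal (fc_chart ↥O ({(lg_lamE (N' * q * q))⁻¹} :
        Set ↥(lg_E L (N' * q * q))))) (h𝔫 : 𝔫.IsMaximal),
      algebraMap ↥O (fc_chart ↥O ({(lg_lamE (N' * q * q))⁻¹} : Set ↥(lg_E L (N' * q * q))))
        ((q : ℕ) : ↥O) ∈ 𝔫 →
      ssm_tp_P (fc_chart ↥O ({(lg_lamE (N' * q * q))⁻¹} : Set ↥(lg_E L (N' * q * q)))) VC ≤ 𝔫 →
      (⟨(lg_lamE (N' * q * q))⁻¹, fc_x_mem_chart (lg_lamE (N' * q * q))⁻¹⟩ :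
        fc_chart ↥O ({(lg_lamE (N' * q * q))⁻¹} : Set ↥(lg_E L (N' * q * q)))) ∈ 𝔫 →
      (haveI := s36cp_chart_inv_isFractionRing O (N' * q * q)
       haveI := h𝔫.isPrime
       UniqueFactorizationMonoid (ssl_locSub ↥(lg_E L (N' * q * q)) 𝔫)))
    {m : ℕ} {x : ↥(lg_E L (N' * q * q))} (hx : m59sb_Unit3 O hπ N' q hq2 hqN' VC x)
    (hord : ∀ w : Place L ↥(lg_E L (N' * q * q)), (m : ℤ) ∣ w.ord x)
    (rC : ↥(ssm_gl_V1 O hπ N' q))
    (hrC : x - IntermediateField.inclusion (ssm_al_E_le L (N' * q) q)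
      (rC : ↥(lg_E L (N' * q))) ∈ VC.nonunits)
    {K' : Type*} [Field K'] (θ₁ : ↥(ssm_gl_V1 O hπ N' q) →+* K')
    (hθ₁ : ∀ r ∈ maximalIdeal ↥(ssm_gl_V1 O hπ N' q), θ₁ r = 0)
    (W : ValuationSubring K')
    (hW : ∀ (a : ↥O) (h : algebraMap ↥O ↥(lg_E L (N' * q)) a ∈ ssm_gl_V1 O hπ N' q),
      θ₁ ⟨algebraMap ↥O ↥(lg_E L (N' * q)) a, h⟩ ∈ W) :
    ∃ rd : ↥(ssm_gl_V1 O hπ N' q), IsUnit rd ∧
      W.valuation (θ₁ rC) = W.valuation (θ₁ rd) ^ m := by
  have hqO := ssm_fln_q_mem L O q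
  have hq2' : q ≠ 2 := ssm_fl_ne_two q hq2
  have hp := ssm_ll_prime L N' hπ q hqO hq2' hqN' ζ hζ
  obtain ⟨H3, -, -, -, -, -⟩ := s36t3_leg_all_of O hπ N' q hq2 hqN' hp.1
    (s36t3_leg_third_conv O hπ N' q hq2 hqN' T3)
  -- the third-valuation package
  letI a12 := ssm_gi_algebra (ssm_al_E_le L (N' * q) q)
  letI aF := ssm_gi_algebraV (ssm_al_E_le L (N' * q) q) (ssm_gl_V1 O hπ N' q)
  haveI tF := ssm_gi_isScalarTower (ssm_al_E_le L (N' * q) q) (ssm_gl_V1 O hπ N' q)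
  have T : s36t3_Third ↥(lg_E L (N' * q)) ↥(ssm_gl_V1 O hπ N' q) q (s36at_leg_piF O hπ N' q)
      (s36asm_z (L := L) N' q hq2 hqN') (s36i_VA O hπ (N' * q) q) VC := T3
  obtain ⟨θ, hθ0, hθ1⟩ := m59dlp_resExt ↥(lg_E L (N' * q)) ↥(ssm_gl_V1 O hπ N' q) T.overC T.resC
    θ₁ hθ₁
  -- the function-field context
  haveI := ssm_go_isScalarTower O (lg_E L (N' * q * q))
  have hlam : Transcendental L (lg_lamE (L := L) (N' * q * q)) :=
    lgf_lam_transcendental L (N' * q * q) two_ne_zero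
  haveI : FiniteDimensional L⟮lg_lamE (L := L) (N' * q * q)⟯ ↥(lg_E L (N' * q * q)) :=
    lgf_finite L (N' * q * q)
  haveI := s36cp_chart_isFractionRing O (L := L) (N' * q * q)
  haveI := s36cp_chart_inv_isFractionRing O (L := L) (N' * q * q)
  obtain ⟨hxA, hxB, hxC⟩ := hx
  have hx0 : x ≠ 0 := by
    rintro rfl
    rw [map_zero] at hxC
    exact zero_ne_one hxC
  have hunit : ∀ (V : ValuationSubring ↥(lg_E L (N' * q * q))), V.valuation x = 1 →
      x ∈ V ∧ x⁻¹ ∈ V := by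
    intro V hV
    refine ⟨(V.valuation_le_one_iff x).1 hV.le, (V.valuation_le_one_iff x⁻¹).1 ?_⟩
    rw [map_inv₀, hV, inv_one]
  have huV : ∀ i : Fin 3, x ∈ (![s36i_VA O hπ (N' * q) q, s36i_VB O hπ N' q hq2 hqN', VC] :
      Fin 3 → ValuationSubring ↥(lg_E L (N' * q * q))) i ∧
      x⁻¹ ∈ (![s36i_VA O hπ (N' * q) q, s36i_VB O hπ N' q hq2 hqN', VC] :
      Fin 3 → ValuationSubring ↥(lg_E L (N' * q * q))) i := by
    intro i
    fin_cases i
    · exact hunit _ hxA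
    · exact hunit _ hxB
    · exact hunit _ hxC
  -- `θ` on an element congruent to an element of `V1`
  have key : ∀ (z : ↥(lg_E L (N' * q * q))) (hz : z ∈ VC) (r : ↥(ssm_gl_V1 O hπ N' q)),
      z - algebraMap ↥(ssm_gl_V1 O hπ N' q) ↥(lg_E L (N' * q * q)) r ∈ VC.nonunits →
      θ ⟨z, hz⟩ = θ₁ r := by
    intro z hz r h
    have hr : algebraMap ↥(ssm_gl_V1 O hπ N' q) ↥(lg_E L (N' * q * q)) r ∈ VC :=
      ssm_tw_over_mem T.overC r
    have e : (⟨z, hz⟩ : ↥VC) =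
        ⟨algebraMap ↥(ssm_gl_V1 O hπ N' q) ↥(lg_E L (N' * q * q)) r, hr⟩ +
          ⟨z - algebraMap ↥(ssm_gl_V1 O hπ N' q) ↥(lg_E L (N' * q * q)) r,
            VC.nonunits_subset h⟩ := by
      apply Subtype.ext
      show z = algebraMap ↥(ssm_gl_V1 O hπ N' q) ↥(lg_E L (N' * q * q)) r +
        (z - algebraMap ↥(ssm_gl_V1 O hπ N' q) ↥(lg_E L (N' * q * q)) r)
      ring
    rw [e, map_add, hθ1 r hr, hθ0 _ h, add_zero]
  have hAW : ∀ (a : ↥O) (h : algebraMap ↥O ↥(lg_E L (N' * q * q)) a ∈ VC),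
      θ ⟨algebraMap ↥O ↥(lg_E L (N' * q * q)) a, h⟩ ∈ W := by
    intro a h
    have h1 : algebraMap ↥(lg_E L (N' * q)) ↥(lg_E L (N' * q * q))
        (algebraMap ↥O ↥(lg_E L (N' * q)) a) ∈ VC := h
    obtain ⟨r, hr⟩ := (T.overC _).1 h1
    have hr' : algebraMap ↥O ↥(lg_E L (N' * q)) a ∈ ssm_gl_V1 O hπ N' q := by
      rw [← hr]
      exact r.2
    have hreq : r = ⟨algebraMap ↥O ↥(lg_E L (N' * q)) a, hr'⟩ := Subtype.ext hr
    have h2 : algebraMap ↥O ↥(lg_E L (N' * q * q)) a -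
        algebraMap ↥(ssm_gl_V1 O hπ N' q) ↥(lg_E L (N' * q * q)) r ∈ VC.nonunits := by
      have e : algebraMap ↥O ↥(lg_E L (N' * q * q)) a -
          algebraMap ↥(ssm_gl_V1 O hπ N' q) ↥(lg_E L (N' * q * q)) r = 0 := by
        rw [sub_eq_zero, hreq]
        rfl
      rw [e]
      exact VC.nonunits.zero_mem
    rw [key _ h r h2, hreq]
    exact hW a hr'
  obtain ⟨d, hd, hd', hd0, hval⟩ := m59dlp_generic (L := L) hπ hlam H3 hx0 huV hord 2 hufd1 hufd2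
    (K' := K') θ hθ0 W hAW
  have hdC : d ∈ VC := hd
  have hdC' : d⁻¹ ∈ VC := hd'
  obtain ⟨rd, hrd⟩ := T.resC d hdC
  refine ⟨rd, ?_, ?_⟩
  · by_contra hnu
    have h1 : rd ∈ maximalIdeal ↥(ssm_gl_V1 O hπ N' q) := (mem_maximalIdeal rd).2 hnu
    have h2 : algebraMap ↥(ssm_gl_V1 O hπ N' q) ↥(lg_E L (N' * q * q)) rd ∈ VC.nonunits :=
      (ssm_tw_over_nonunits T.overC rd).2 h1
    have h3 : d ∈ VC.nonunits := by
      have := ssm_tw_nonunits_add VC hrd h2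
      rwa [sub_add_cancel] at this
    rw [ValuationSubring.mem_nonunits_iff_or] at h3
    rcases h3 with h3 | h3
    · exact hd0 h3
    · exact h3 hdC'
  · have e1 : θ ⟨x, (huV 2).1⟩ = θ₁ rC := key x (hunit VC hxC).1 rC hrC
    have e2 : θ ⟨d, hd⟩ = θ₁ rd := key d hdC rd hrd
    rw [← e1, ← e2]
    exact hval

end NFq

end Fermat.Agent.M59
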