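/-
M59 / Sink B, cell (C3) [PDIV-C] of [DELTA-C] (helper8), part 6: THE `ℚ̄`-LEVEL.  Prefix `m59dlp_`.

`O1 := A.comap (algebraMap L1 ℚ̄)`, `V1 := ssm_gl_V1 O1 hπ N₀ q` the Gauss ring of
`lg_E L1 (N₀ q) = F_{M q}(L1)`.

* `m59dlp_bcHom`  : the base change `lg_E L1 (N₀ q) →+* F̄_{M q}` as a ring homomorphism
  (`= m59dl_bc1` of helper17);
* `m59dlp_theta`  : `θ₁ : V1 →+* F_M(k_A)`, the Gauss residue followed by the coefficient map
  `k(O1) → k_A` (`= (m59dl_RF A hA M hqM).res ∘ bc`); `m59dlp_coe_theta`, `m59dlp_theta_max`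
  (it kills `𝔪(V1)`), `m59dlp_theta_const` (constants go to `k_A`);
* `m59dlp_ord_of_val` : `W.valuation a = W.valuation b ^ m` for the valuation ring `W` of a place `Q`
  gives `ord_Q a = m · ord_Q b`.
-/
import Mathlib
import Fermat.Agent.M59.SinkB.Delta.CExQ

set_option autoImplicit false
set_option linter.unusedSectionVars false
set_option linter.unusedVariables false
set_option linter.style.haveILetI false
set_option synthInstance.maxHeartbeats 400000
set_option maxHeartbeats 1000000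

noncomputable section

namespace Fermat.Agent.M59

open ModularCurve AlgebraicCurve IntermediateField IsLocalRing
open Fermat.Agent.JT3 Fermat.Agent.SS Fermat.Agent.S35 Fermat.Agent.S24 Fermat.Agent.S28
open Fermat.Agent.MZ Fermat.Agent.S44 Fermat.Agent.S36

local notation "Qb" => AlgebraicClosure ℚ

section OrdVal

variable {K F : Type*} [Field K] [Field F] [Algebra K F]

/-- `W.valuation a = W.valuation b ^ m` gives `ord_Q a = m · ord_Q b`. -/
theorem m59dlp_ord_of_val (Q : Place K F) {a b : F} (hb : b ≠ 0) (m : ℕ)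
    (h : Q.toValuationSubring.valuation a = Q.toValuationSubring.valuation b ^ m) :
    Q.ord a = (m : ℤ) * Q.ord b := by
  rw [← map_pow, ValuationSubring.valuation_eq_iff] at h
  obtain ⟨c, hc⟩ := h
  have hc0 : ((c : Q.toValuationSubring) : F) ≠ 0 := by
    intro h0
    exact c.ne_zero (Subtype.ext h0)
  rw [← hc, Q.ord_mul hc0 (pow_ne_zero m hb), Q.ord_coe_unit, zero_add, ← zpow_natCast,
    Q.ord_zpow]

end OrdVal

section Theta

variable (A : ValuationSubring Qb) {q : ℕ} [hq : Fact q.Prime] (hA : A.LiesOverPrime q)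
  (M : ℕ) [NeZero M] [NeZero q] (hqM : ¬ q ∣ M)
  (L1 : Type) [Field L1] [Algebra ℚ L1] [CharZero L1] [Algebra L1 Qb] [IsScalarTower ℚ L1 Qb]
  [IsDiscreteValuationRing ↥(A.comap (algebraMap L1 Qb))]
  [CharP (ResidueField ↥(A.comap (algebraMap L1 Qb))) q]
  {π : ↥(A.comap (algebraMap L1 Qb))} (hπ : Irreducible π)
  (N₀ : ℕ) [NeZero N₀]
  (hlev1 : Nat.lcm 4 (2 * (N₀ * q)) = M * q)

/-- the base change `lg_E L1 (N₀ q) → F̄_{M q}` as a ring homomorphism. -/
def m59dlp_bcHom : ↥(lg_E L1 (N₀ * q)) →+* Fbar (M * q) where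
  toFun y := m59dl_bc1 M L1 N₀ hlev1 y
  map_one' := Subtype.ext (by rw [m59dl_coe_bc1]; exact map_one (coeffMap (algebraMap L1 Qb)))
  map_mul' a b := Subtype.ext (by
    rw [m59dl_coe_bc1]
    exact map_mul (coeffMap (algebraMap L1 Qb)) _ _)
  map_zero' := Subtype.ext (by rw [m59dl_coe_bc1]; exact map_zero (coeffMap (algebraMap L1 Qb)))
  map_add' a b := Subtype.ext (by
    rw [m59dl_coe_bc1]
    exact map_add (coeffMap (algebraMap L1 Qb)) _ _)

theorem m59dlp_bcHom_apply (y : ↥(lg_E L1 (N₀ * q))) :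
    m59dlp_bcHom M L1 N₀ hlev1 y = m59dl_bc1 M L1 N₀ hlev1 y := rfl

/-- **`θ₁ : V1 →+* F_M(k_A)`**: the Gauss residue followed by the coefficient map. -/
def m59dlp_theta : ↥(ssm_gl_V1 (A.comap (algebraMap L1 Qb)) hπ N₀ q) →+* ↥(s44e_FF A M) :=
  (m59dl_RF A hA M hqM).res.comp
    (((m59dlp_bcHom M L1 N₀ hlev1).comp
        (ssm_gl_V1 (A.comap (algebraMap L1 Qb)) hπ N₀ q).subtype).codRestrict
      (m59dl_RF A hA M hqM).V
      (fun r => ssm_gb_isBdd (algebraMap L1 Qb) (A.comap (algebraMap L1 Qb)) A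
        (fun _ => Iff.rfl) r.2))

theorem m59dlp_coe_theta (r : ↥(ssm_gl_V1 (A.comap (algebraMap L1 Qb)) hπ N₀ q)) :
    ((m59dlp_theta A hA M hqM L1 hπ N₀ hlev1 r : ↥(s44e_FF A M)) :
      LaurentSeries (ResidueField ↥A)) =
      coeffMap (ssm_gb_kappa (algebraMap L1 Qb) (A.comap (algebraMap L1 Qb)) A
        (fun _ => Iff.rfl))
        (gq_res ↥(A.comap (algebraMap L1 Qb)) L1
          ⟨((r : ↥(lg_E L1 (N₀ * q))) : LaurentSeries L1), r.2⟩) :=
  ssm_gb_res (algebraMap L1 Qb) (A.comap (algebraMap L1 Qb)) A (fun _ => Iff.rfl)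
    ⟨((r : ↥(lg_E L1 (N₀ * q))) : LaurentSeries L1), r.2⟩

/-- `θ₁` kills `𝔪(V1)`. -/
theorem m59dlp_theta_max (r : ↥(ssm_gl_V1 (A.comap (algebraMap L1 Qb)) hπ N₀ q))
    (hr : r ∈ maximalIdeal ↥(ssm_gl_V1 (A.comap (algebraMap L1 Qb)) hπ N₀ q)) :
    m59dlp_theta A hA M hqM L1 hπ N₀ hlev1 r = 0 := by
  apply Subtype.ext
  rw [m59dlp_coe_theta]
  have hn : (r : ↥(lg_E L1 (N₀ * q))) ∈
      (ssm_gl_V1 (A.comap (algebraMap L1 Qb)) hπ N₀ q).nonunits :=
    ValuationSubring.coe_mem_nonunits_iff.2 hr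
  have h0 := (gq_mem_nonunits_iff_res π hπ.ne_zero hπ.maximalIdeal_eq (lg_E L1 (N₀ * q))
    (ssm_ga_E_le_quotField (A.comap (algebraMap L1 Qb)) (N₀ * q))
    (r : ↥(lg_E L1 (N₀ * q))) r.2).1 hn
  rw [h0, map_zero]
  rfl

/-- `θ₁` maps the constants of `O1` to constants of `k_A`. -/
theorem m59dlp_theta_const (a : ↥(A.comap (algebraMap L1 Qb)))
    (h : algebraMap ↥(A.comap (algebraMap L1 Qb)) ↥(lg_E L1 (N₀ * q)) a ∈
      ssm_gl_V1 (A.comap (algebraMap L1 Qb)) hπ N₀ q) :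
    m59dlp_theta A hA M hqM L1 hπ N₀ hlev1
        ⟨algebraMap ↥(A.comap (algebraMap L1 Qb)) ↥(lg_E L1 (N₀ * q)) a, h⟩ =
      algebraMap (s44e_kA A) ↥(s44e_FF A M)
        (residue ↥A ⟨algebraMap L1 Qb (a : L1), a.2⟩) := by
  have hc : algebraMap L1 Qb (a : L1) ∈ A := a.2
  have h' : algebraMap Qb ↥(modularFunctionFieldBar (M * q)) (algebraMap L1 Qb (a : L1)) ∈
      (m59dl_RF A hA M hqM).V := ((m59dl_RF A hA M hqM).const_mem _).2 hc
  have e : (((m59dlp_bcHom M L1 N₀ hlev1).comp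
        (ssm_gl_V1 (A.comap (algebraMap L1 Qb)) hπ N₀ q).subtype).codRestrict
      (m59dl_RF A hA M hqM).V
      (fun r => ssm_gb_isBdd (algebraMap L1 Qb) (A.comap (algebraMap L1 Qb)) A
        (fun _ => Iff.rfl) r.2))
      ⟨algebraMap ↥(A.comap (algebraMap L1 Qb)) ↥(lg_E L1 (N₀ * q)) a, h⟩ =
      ⟨algebraMap Qb ↥(modularFunctionFieldBar (M * q)) (algebraMap L1 Qb (a : L1)), h'⟩ := by
    apply Subtype.ext
    apply Subtype.ext
    show coeffMap (algebraMap L1 Qb) (algebraMap L1 (LaurentSeries L1) (a : L1)) =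
      algebraMap Qb (LaurentSeries Qb) (algebraMap L1 Qb (a : L1))
    exact dsc_cm_algebraMap L1 Qb (a : L1)
  show (m59dl_RF A hA M hqM).res _ = _
  rw [e]
  exact (m59dl_RF A hA M hqM).res_const _ hc h'

end Theta

end Fermat.Agent.M59
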