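/-
# M59 / SinkB / Delta / PDivCUfdCusp  (helper3, tag `m59dlu_`)

HALF 2 of (C3) [PDIV-C], part 2: THE THREE CUSPS OF THE COMPONENT `C` ARE ONE-BRANCH POINTS, with
conclusion `s36g_PtOne` (not the disjunction `PtOne ∨ PtWeak` of `s36asm_cCusp0/1/Inf`).

Twins of helper15's `s36cfl_cusp0_of`, `s36cfl_cusp1_of` (S36/CReg/CuspEisLeg2.lean), `s36cfl_cusp0`,
`s36cfl_cusp1`, `_q` (CuspEisLegNF.lean), `s36cfl_cuspInf_of`, `s36cfl_cuspInf`, `_q`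
(CuspEisLegInfNF.lean): same proofs with `left` removed (the cores `s36cfl_cusp_core`,
`s36cfl_leg_point_inf` already conclude `s36g_PtOne`).
-/
import Mathlib
import Fermat.Agent.S36.CReg.CuspEisLegNF
import Fermat.Agent.S36.CReg.CuspEisLegInfNF

set_option autoImplicit false
set_option linter.unusedSectionVars false
set_option linter.unusedVariables false
set_option linter.style.haveILetI false

noncomputable section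

open ModularCurve IntermediateField IsLocalRing Polynomial
open Fermat.Agent.JT3 Fermat.Agent.SS Fermat.Agent.S36

namespace Fermat.Agent.M59

section Leg

variable {L : Type*} [Field L] [CharZero L] [Algebra L (AlgebraicClosure ℚ)]
  (O : ValuationSubring L) [IsDiscreteValuationRing O] {π : O} (hπ : Irreducible π)
variable (N' q : ℕ) [NeZero N'] [NeZero q] [hq : Fact q.Prime] [CharP (ResidueField O) q]
  (hq2 : ¬ 2 ∣ q) (hqN' : ¬ q ∣ N')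

/-- the PtOne-form of `s36asm_cCusp0`. -/
def m59dlu_CCusp0 (VC : ValuationSubring ↥(lg_E L (N' * q * q))) : Prop :=
  ∀ (𝔫 : Ideal (fc_chart ↥O ({lg_lamE (N' * q * q)} : Set ↥(lg_E L (N' * q * q))))) (h𝔫 : 𝔫.IsMaximal),
    algebraMap ↥O (fc_chart ↥O ({lg_lamE (N' * q * q)} : Set ↥(lg_E L (N' * q * q)))) π ∈ 𝔫 →
    ssm_tp_P (fc_chart ↥O ({lg_lamE (N' * q * q)} : Set ↥(lg_E L (N' * q * q)))) VC ≤ 𝔫 →
    ¬ ssm_tp_P (fc_chart ↥O ({lg_lamE (N' * q * q)} : Set ↥(lg_E L (N' * q * q)))) (s36i_VA O hπ (N' * q) q) ≤ 𝔫 →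
    ¬ ssm_tp_P (fc_chart ↥O ({lg_lamE (N' * q * q)} : Set ↥(lg_E L (N' * q * q)))) (s36i_VB O hπ N' q hq2 hqN') ≤ 𝔫 →
    (⟨lg_lamE (N' * q * q), fc_x_mem_chart (lg_lamE (N' * q * q))⟩ :
      fc_chart ↥O ({lg_lamE (N' * q * q)} : Set ↥(lg_E L (N' * q * q)))) ∈ 𝔫 →
    (haveI := s36cp_chart_isFractionRing O (N' * q * q)
     haveI := h𝔫.isPrime
     s36g_PtOne π q (fc_chart ↥O ({lg_lamE (N' * q * q)} : Set ↥(lg_E L (N' * q * q)))) 𝔫)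

/-- the PtOne-form of `s36asm_cCusp1`. -/
def m59dlu_CCusp1 (VC : ValuationSubring ↥(lg_E L (N' * q * q))) : Prop :=
  ∀ (𝔫 : Ideal (fc_chart ↥O ({lg_lamE (N' * q * q)} : Set ↥(lg_E L (N' * q * q))))) (h𝔫 : 𝔫.IsMaximal),
    algebraMap ↥O (fc_chart ↥O ({lg_lamE (N' * q * q)} : Set ↥(lg_E L (N' * q * q)))) π ∈ 𝔫 →
    ssm_tp_P (fc_chart ↥O ({lg_lamE (N' * q * q)} : Set ↥(lg_E L (N' * q * q)))) VC ≤ 𝔫 →
    ¬ ssm_tp_P (fc_chart ↥O ({lg_lamE (N' * q * q)} : Set ↥(lg_E L (N' * q * q)))) (s36i_VA O hπ (N' * q) q) ≤ 𝔫 →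
    ¬ ssm_tp_P (fc_chart ↥O ({lg_lamE (N' * q * q)} : Set ↥(lg_E L (N' * q * q)))) (s36i_VB O hπ N' q hq2 hqN') ≤ 𝔫 →
    (⟨lg_lamE (N' * q * q), fc_x_mem_chart (lg_lamE (N' * q * q))⟩ :
      fc_chart ↥O ({lg_lamE (N' * q * q)} : Set ↥(lg_E L (N' * q * q)))) - 1 ∈ 𝔫 →
    (haveI := s36cp_chart_isFractionRing O (N' * q * q)
     haveI := h𝔫.isPrime
     s36g_PtOne π q (fc_chart ↥O ({lg_lamE (N' * q * q)} : Set ↥(lg_E L (N' * q * q)))) 𝔫)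

/-- the PtOne-form of `s36asm_cCuspInf`. -/
def m59dlu_CCuspInf (VC : ValuationSubring ↥(lg_E L (N' * q * q))) : Prop :=
  ∀ (𝔫 : Ideal (fc_chart ↥O ({(lg_lamE (N' * q * q))⁻¹} : Set ↥(lg_E L (N' * q * q))))) (h𝔫 : 𝔫.IsMaximal),
    algebraMap ↥O (fc_chart ↥O ({(lg_lamE (N' * q * q))⁻¹} : Set ↥(lg_E L (N' * q * q)))) π ∈ 𝔫 →
    (⟨(lg_lamE (N' * q * q))⁻¹, fc_x_mem_chart (lg_lamE (N' * q * q))⁻¹⟩ :
      fc_chart ↥O ({(lg_lamE (N' * q * q))⁻¹} : Set ↥(lg_E L (N' * q * q)))) ∈ 𝔫 →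
    ssm_tp_P (fc_chart ↥O ({(lg_lamE (N' * q * q))⁻¹} : Set ↥(lg_E L (N' * q * q)))) VC ≤ 𝔫 →
    ¬ ssm_tp_P (fc_chart ↥O ({(lg_lamE (N' * q * q))⁻¹} : Set ↥(lg_E L (N' * q * q)))) (s36i_VA O hπ (N' * q) q) ≤ 𝔫 →
    ¬ ssm_tp_P (fc_chart ↥O ({(lg_lamE (N' * q * q))⁻¹} : Set ↥(lg_E L (N' * q * q)))) (s36i_VB O hπ N' q hq2 hqN') ≤ 𝔫 →
    (haveI := s36cp_chart_inv_isFractionRing O (N' * q * q)
     haveI := h𝔫.isPrime
     s36g_PtOne π q (fc_chart ↥O ({(lg_lamE (N' * q * q))⁻¹} : Set ↥(lg_E L (N' * q * q)))) 𝔫)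

set_option synthInstance.maxHeartbeats 200000 in
set_option maxHeartbeats 800000 in
/-- **[L3c] at the cusp `λ = 0` of the component `C`**, modulo the cusp data. -/
theorem m59dlu_cusp0_of (u0 : ↥O) (hu0 : IsUnit u0) (hqu : ((q : ℕ) : ↥O) = π * u0)
    (hprime : Prime (algebraMap ↥O (fc_chart ↥O ({lg_lamE N'} : Set ↥(lg_E L N'))) π))
    (hic : IsIntegrallyClosed (fc_chart ↥O ({lg_lamE N'} : Set ↥(lg_E L N')) ⧸
      (Ideal.span {algebraMap ↥O (fc_chart ↥O ({lg_lamE N'} : Set ↥(lg_E L N'))) π} :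
        Ideal (fc_chart ↥O ({lg_lamE N'} : Set ↥(lg_E L N'))))))
    {VC : ValuationSubring ↥(lg_E L (N' * q * q))}
    (T3 : s36asm_Third O hπ N' q hq2 hqN' VC)
    (hR : ∀ 𝔫1 : Ideal (fc_chart ↥O ({lg_lamE (N' * q)} : Set ↥(lg_E L (N' * q)))),
      𝔫1.IsMaximal →
      algebraMap ↥O (fc_chart ↥O ({lg_lamE (N' * q)} : Set ↥(lg_E L (N' * q)))) π ∈ 𝔫1 →
      ssm_tp_P (fc_chart ↥O ({lg_lamE (N' * q)} : Set ↥(lg_E L (N' * q))))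
        (ssm_gl_V1 O hπ N' q) ≤ 𝔫1 →
      ¬ ssm_tp_P (fc_chart ↥O ({lg_lamE (N' * q)} : Set ↥(lg_E L (N' * q))))
        (ssm_gl_V2 O hπ N' q hq2 hqN') ≤ 𝔫1 →
      (⟨lg_lamE (N' * q), fc_x_mem_chart _⟩ :
        fc_chart ↥O ({lg_lamE (N' * q)} : Set ↥(lg_E L (N' * q)))) ∈ 𝔫1 →
      s36cfl_R12 π q (s36cb_phiA O N' q) (s36cb_phiB O hπ N' q hq2 hqN' hprime) 𝔫1
        (⟨lg_lamE N', fc_x_mem_chart _⟩ : fc_chart ↥O ({lg_lamE N'} : Set ↥(lg_E L N')))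
        (⟨lg_lamE N', fc_x_mem_chart _⟩ : fc_chart ↥O ({lg_lamE N'} : Set ↥(lg_E L N')))) :
    m59dlu_CCusp0 O hπ N' q hq2 hqN' VC := by
  intro 𝔫 h𝔫 hπ𝔫 hC hA hB hμ
  have hover :
      letI := ssm_gi_algebra (ssm_al_E_le L (N' * q) q)
      letI := ssm_gi_algebraV (ssm_al_E_le L (N' * q) q) (ssm_gl_V1 O hπ N' q)
      ssm_tw_Over ↥(lg_E L (N' * q)) ↥(ssm_gl_V1 O hπ N' q) VC := by
    letI := ssm_gi_algebra (ssm_al_E_le L (N' * q) q)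
    letI := ssm_gi_algebraV (ssm_al_E_le L (N' * q) q) (ssm_gl_V1 O hπ N' q)
    haveI := ssm_gi_isScalarTower (ssm_al_E_le L (N' * q) q) (ssm_gl_V1 O hπ N' q)
    have T' : s36t3_Third ↥(lg_E L (N' * q)) ↥(ssm_gl_V1 O hπ N' q) q
        (s36at_leg_piF O hπ N' q) (s36asm_z (L := L) N' q hq2 hqN')
        (s36i_VA O hπ (N' * q) q) VC := T3
    exact T'.overC
  obtain ⟨hmax1, hF1, hV1, hμ1⟩ := s36cel_yF0 O hπ N' q hq2 hqN' hprime VC hover 𝔫 h𝔫 hC hμ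
  obtain ⟨x1, e', hx1, hrel, he'1, -, he'n⟩ := s36cel_e0 O hπ N' q hq2 hqN' hprime
  have hφA : s36cb_phiA O N' q
      (⟨lg_lamE N', fc_x_mem_chart _⟩ : fc_chart ↥O ({lg_lamE N'} : Set ↥(lg_E L N'))) =
      ⟨lg_lamE (N' * q), fc_x_mem_chart _⟩ := s36cb_phiA_lam O N' q
  have hφB : s36cb_phiB O hπ N' q hq2 hqN' hprime
      (⟨lg_lamE N', fc_x_mem_chart _⟩ : fc_chart ↥O ({lg_lamE N'} : Set ↥(lg_E L N'))) = x1 :=
    Subtype.ext ((s36cb_phiB_lam O hπ N' q hq2 hqN' hprime).trans hx1.symm)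
  have hπ1 : algebraMap ↥O (fc_chart ↥O ({lg_lamE (N' * q)} : Set ↥(lg_E L (N' * q)))) π ∈
      𝔫.comap (s36tn_leg_iota O N' q) := by
    rw [Ideal.mem_comap, s36tn_leg_iota_algebraMap]
    exact hπ𝔫
  exact s36cfl_cusp_core O hπ N' q hq2 hqN' u0 hu0 hqu hprime hic T3
    (⟨lg_lamE N', fc_x_mem_chart _⟩ : fc_chart ↥O ({lg_lamE N'} : Set ↥(lg_E L N'))) e'
    (by rw [hφA, hφB]; exact hrel) he'1 (by rw [hφA]; exact he'n)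
    (by rw [hφA]; exact (s36cfl_lam_not_mem O hπ N' q hq2 hqN' hprime).1) 𝔫 h𝔫 hπ𝔫 hC hA hB hF1
    (by rw [hφA]; exact hμ1) (hR _ hmax1 hπ1 hF1 hV1 hμ1)

set_option synthInstance.maxHeartbeats 200000 in
set_option maxHeartbeats 800000 in
/-- **[L3c] at the cusp `λ = 1` of the component `C`**, modulo the cusp data. -/
theorem m59dlu_cusp1_of (u0 : ↥O) (hu0 : IsUnit u0) (hqu : ((q : ℕ) : ↥O) = π * u0)
    (hprime : Prime (algebraMap ↥O (fc_chart ↥O ({lg_lamE N'} : Set ↥(lg_E L N'))) π))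
    (hic : IsIntegrallyClosed (fc_chart ↥O ({lg_lamE N'} : Set ↥(lg_E L N')) ⧸
      (Ideal.span {algebraMap ↥O (fc_chart ↥O ({lg_lamE N'} : Set ↥(lg_E L N'))) π} :
        Ideal (fc_chart ↥O ({lg_lamE N'} : Set ↥(lg_E L N'))))))
    {VC : ValuationSubring ↥(lg_E L (N' * q * q))}
    (T3 : s36asm_Third O hπ N' q hq2 hqN' VC)
    (hR : ∀ 𝔫1 : Ideal (fc_chart ↥O ({lg_lamE (N' * q)} : Set ↥(lg_E L (N' * q)))),
      𝔫1.IsMaximal →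
      algebraMap ↥O (fc_chart ↥O ({lg_lamE (N' * q)} : Set ↥(lg_E L (N' * q)))) π ∈ 𝔫1 →
      ssm_tp_P (fc_chart ↥O ({lg_lamE (N' * q)} : Set ↥(lg_E L (N' * q))))
        (ssm_gl_V1 O hπ N' q) ≤ 𝔫1 →
      ¬ ssm_tp_P (fc_chart ↥O ({lg_lamE (N' * q)} : Set ↥(lg_E L (N' * q))))
        (ssm_gl_V2 O hπ N' q hq2 hqN') ≤ 𝔫1 →
      (⟨lg_lamE (N' * q), fc_x_mem_chart _⟩ :
        fc_chart ↥O ({lg_lamE (N' * q)} : Set ↥(lg_E L (N' * q)))) - 1 ∈ 𝔫1 →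
      s36cfl_R12 π q (s36cb_phiA O N' q) (s36cb_phiB O hπ N' q hq2 hqN' hprime) 𝔫1
        ((⟨lg_lamE N', fc_x_mem_chart _⟩ : fc_chart ↥O ({lg_lamE N'} : Set ↥(lg_E L N'))) - 1)
        ((⟨lg_lamE N', fc_x_mem_chart _⟩ : fc_chart ↥O ({lg_lamE N'} : Set ↥(lg_E L N'))) - 1)) :
    m59dlu_CCusp1 O hπ N' q hq2 hqN' VC := by
  intro 𝔫 h𝔫 hπ𝔫 hC hA hB hμ
  have hover :
      letI := ssm_gi_algebra (ssm_al_E_le L (N' * q) q)
      letI := ssm_gi_algebraV (ssm_al_E_le L (N' * q) q) (ssm_gl_V1 O hπ N' q)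
      ssm_tw_Over ↥(lg_E L (N' * q)) ↥(ssm_gl_V1 O hπ N' q) VC := by
    letI := ssm_gi_algebra (ssm_al_E_le L (N' * q) q)
    letI := ssm_gi_algebraV (ssm_al_E_le L (N' * q) q) (ssm_gl_V1 O hπ N' q)
    haveI := ssm_gi_isScalarTower (ssm_al_E_le L (N' * q) q) (ssm_gl_V1 O hπ N' q)
    have T' : s36t3_Third ↥(lg_E L (N' * q)) ↥(ssm_gl_V1 O hπ N' q) q
        (s36at_leg_piF O hπ N' q) (s36asm_z (L := L) N' q hq2 hqN')
        (s36i_VA O hπ (N' * q) q) VC := T3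
    exact T'.overC
  obtain ⟨hmax1, hF1, hV1, hμ1⟩ := s36cel_yF1 O hπ N' q hq2 hqN' hprime VC hover 𝔫 h𝔫 hC hμ
  obtain ⟨x1, e', hx1, hrel, he'1, -, he'n⟩ := s36cel_e1 O hπ N' q hq2 hqN' hprime
  have hφA : s36cb_phiA O N' q
      ((⟨lg_lamE N', fc_x_mem_chart _⟩ : fc_chart ↥O ({lg_lamE N'} : Set ↥(lg_E L N'))) - 1) =
      ⟨lg_lamE (N' * q), fc_x_mem_chart _⟩ - 1 := by
    rw [map_sub, map_one, s36cb_phiA_lam]
  have hφB : s36cb_phiB O hπ N' q hq2 hqN' hprime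
      ((⟨lg_lamE N', fc_x_mem_chart _⟩ : fc_chart ↥O ({lg_lamE N'} : Set ↥(lg_E L N'))) - 1) =
      x1 := by
    apply Subtype.ext
    rw [map_sub, map_one, hx1, ← s36cb_phiB_lam O hπ N' q hq2 hqN' hprime]
    rfl
  have hπ1 : algebraMap ↥O (fc_chart ↥O ({lg_lamE (N' * q)} : Set ↥(lg_E L (N' * q)))) π ∈
      𝔫.comap (s36tn_leg_iota O N' q) := by
    rw [Ideal.mem_comap, s36tn_leg_iota_algebraMap]
    exact hπ𝔫
  exact s36cfl_cusp_core O hπ N' q hq2 hqN' u0 hu0 hqu hprime hic T3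
    ((⟨lg_lamE N', fc_x_mem_chart _⟩ : fc_chart ↥O ({lg_lamE N'} : Set ↥(lg_E L N'))) - 1) e'
    (by rw [hφA, hφB]; exact hrel) he'1 (by rw [hφA]; exact he'n)
    (by rw [hφA]; exact (s36cfl_lam_not_mem O hπ N' q hq2 hqN' hprime).2) 𝔫 h𝔫 hπ𝔫 hC hA hB hF1
    (by rw [hφA]; exact hμ1) (hR _ hmax1 hπ1 hF1 hV1 hμ1)

set_option synthInstance.maxHeartbeats 200000 in
set_option maxHeartbeats 1600000 in
/-- **[L3c] at the cusp `λ = ∞` of the component `C`**, modulo the cusp data. -/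
theorem m59dlu_cuspInf_of (u0 : ↥O) (hu0 : IsUnit u0) (hqu : ((q : ℕ) : ↥O) = π * u0)
    (hprime : Prime (algebraMap ↥O (fc_chart ↥O ({lg_lamE N'} : Set ↥(lg_E L N'))) π))
    (hprime2 : Prime (algebraMap ↥O (fc_chart ↥O ({(lg_lamE N')⁻¹} : Set ↥(lg_E L N'))) π))
    (hic2 : IsIntegrallyClosed (fc_chart ↥O ({(lg_lamE N')⁻¹} : Set ↥(lg_E L N')) ⧸
      (Ideal.span {algebraMap ↥O (fc_chart ↥O ({(lg_lamE N')⁻¹} : Set ↥(lg_E L N'))) π} :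
        Ideal (fc_chart ↥O ({(lg_lamE N')⁻¹} : Set ↥(lg_E L N'))))))
    {VC : ValuationSubring ↥(lg_E L (N' * q * q))}
    (T3 : s36asm_Third O hπ N' q hq2 hqN' VC)
    (hR : ∀ 𝔫1 : Ideal (fc_chart ↥O ({(lg_lamE (N' * q))⁻¹} : Set ↥(lg_E L (N' * q)))),
      𝔫1.IsMaximal →
      algebraMap ↥O (fc_chart ↥O ({(lg_lamE (N' * q))⁻¹} : Set ↥(lg_E L (N' * q)))) π ∈ 𝔫1 →
      ssm_tp_P (fc_chart ↥O ({(lg_lamE (N' * q))⁻¹} : Set ↥(lg_E L (N' * q))))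
        (ssm_gl_V1 O hπ N' q) ≤ 𝔫1 →
      ¬ ssm_tp_P (fc_chart ↥O ({(lg_lamE (N' * q))⁻¹} : Set ↥(lg_E L (N' * q))))
        (ssm_gl_V2 O hπ N' q hq2 hqN') ≤ 𝔫1 →
      (⟨(lg_lamE (N' * q))⁻¹, fc_x_mem_chart _⟩ :
        fc_chart ↥O ({(lg_lamE (N' * q))⁻¹} : Set ↥(lg_E L (N' * q)))) ∈ 𝔫1 →
      s36cfl_R12 π q (s36cb_phiAInv O N' q) (s36cb_phiBInv O hπ N' q hq2 hqN' hprime) 𝔫1
        (⟨(lg_lamE N')⁻¹, fc_x_mem_chart _⟩ :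
          fc_chart ↥O ({(lg_lamE N')⁻¹} : Set ↥(lg_E L N')))
        (⟨(lg_lamE N')⁻¹, fc_x_mem_chart _⟩ :
          fc_chart ↥O ({(lg_lamE N')⁻¹} : Set ↥(lg_E L N')))) :
    m59dlu_CCuspInf O hπ N' q hq2 hqN' VC := by
  intro 𝔫 h𝔫 hπ𝔫 hμ hC hA hB
  haveI := h𝔫.isPrime
  have hover :
      letI := ssm_gi_algebra (ssm_al_E_le L (N' * q) q)
      letI := ssm_gi_algebraV (ssm_al_E_le L (N' * q) q) (ssm_gl_V1 O hπ N' q)
      ssm_tw_Over ↥(lg_E L (N' * q)) ↥(ssm_gl_V1 O hπ N' q) VC := by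
    letI := ssm_gi_algebra (ssm_al_E_le L (N' * q) q)
    letI := ssm_gi_algebraV (ssm_al_E_le L (N' * q) q) (ssm_gl_V1 O hπ N' q)
    haveI := ssm_gi_isScalarTower (ssm_al_E_le L (N' * q) q) (ssm_gl_V1 O hπ N' q)
    have T' : s36t3_Third ↥(lg_E L (N' * q)) ↥(ssm_gl_V1 O hπ N' q) q
        (s36at_leg_piF O hπ N' q) (s36asm_z (L := L) N' q hq2 hqN')
        (s36i_VA O hπ (N' * q) q) VC := T3
    exact T'.overC
  obtain ⟨hmax1, hF1, hV1, hμ1⟩ := s36cel_yFInf O hπ N' q hq2 hqN' hprime VC hover 𝔫 h𝔫 hC hμ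
  have hy0 : (((⟨(lg_lamE N')⁻¹, fc_x_mem_chart _⟩ :
      fc_chart ↥O ({(lg_lamE N')⁻¹} : Set ↥(lg_E L N'))) :
      fc_chart ↥O ({(lg_lamE N')⁻¹} : Set ↥(lg_E L N'))) : ↥(lg_E L N')) = (lg_lamE N')⁻¹ := rfl
  obtain ⟨e', hrel, he'1, he'n, hxcP2⟩ := s36cel_ephiInf O hπ N' q hq2 hqN' hprime
    (⟨(lg_lamE N')⁻¹, fc_x_mem_chart _⟩ : fc_chart ↥O ({(lg_lamE N')⁻¹} : Set ↥(lg_E L N')))
    hy0
  have hy𝔫 : s36cb_phiAInv O N' q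
      (⟨(lg_lamE N')⁻¹, fc_x_mem_chart _⟩ : fc_chart ↥O ({(lg_lamE N')⁻¹} : Set ↥(lg_E L N'))) ∈
      𝔫.comap (s36cel_iotaInv O N' q) :=
    (s36cel_phiA_y0_memInf O N' q _ hy0 _).2 hμ1
  have hπ1 : algebraMap ↥O (fc_chart ↥O ({(lg_lamE (N' * q))⁻¹} : Set ↥(lg_E L (N' * q)))) π ∈
      𝔫.comap (s36cel_iotaInv O N' q) := by
    rw [Ideal.mem_comap, s36cel_iotaInv_algebraMap]
    exact hπ𝔫
  obtain ⟨t0, t1, -, -, -, g1, dπ, du, r1, g2, -, ⟨e2, s2, w2, -, hs2, hw2, h2⟩, t2⟩ :=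
    hR _ hmax1 hπ1 hF1 hV1 hμ1
  obtain ⟨-, H3, -⟩ := s36t3_leg_all_of O hπ N' q hq2 hqN' hprime
    (s36t3_leg_third_conv O hπ N' q hq2 hqN' T3)
  obtain ⟨hpow, -, -, -⟩ := s36cpw_legInv O hπ N' q hq2 hqN' hprime hprime2 hic2
    (s36cb_phiBInv O hπ N' q hq2 hqN' hprime) (s36cb_phiBInv_coe O hπ N' q hq2 hqN' hprime)
  have hmax0 : ((𝔫.comap (s36cel_iotaInv O N' q)).comap
      (s36cb_phiBInv O hπ N' q hq2 hqN' hprime)).IsMaximal :=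
    ssm_cp_comap_isMaximal _ (s36cb_phiBInv_isIntegral O hπ N' q hq2 hqN' hprime) _ hmax1
  haveI := hmax0.isPrime
  have hπy0 : algebraMap ↥O (fc_chart ↥O ({(lg_lamE N')⁻¹} : Set ↥(lg_E L N'))) π ∈
      (𝔫.comap (s36cel_iotaInv O N' q)).comap (s36cb_phiBInv O hπ N' q hq2 hqN' hprime) := by
    rw [Ideal.mem_comap, s36cb_phiBInv_algebraMap]
    exact hπ1
  exact s36cfl_leg_point_inf O hπ N' q hq2 hqN' u0 hu0 hqu hprime hprime2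
    (s36cb_phiBInv O hπ N' q hq2 hqN' hprime) (s36cb_phiBInv_beta O hπ N' q hq2 hqN' hprime)
    (s36cb_phiBInv_algebraMap O hπ N' q hq2 hqN' hprime π)
    (s36cb_phiBInv_isIntegral O hπ N' q hq2 hqN' hprime) hmax0 hπy0 hpow g2 T3 H3 𝔫 rfl hC hA hB
    g1 dπ du (s36cb_phiAInv O N' q ⟨(lg_lamE N')⁻¹, fc_x_mem_chart _⟩) e'
    ⟨(lg_lamE N')⁻¹, fc_x_mem_chart _⟩ hrel he'1 (he'n _ hF1 hy𝔫) hxcP2 r1
    ⟨e2, s2, w2, hs2, hw2, h2⟩ t2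

end Leg

section NF

variable (L : Type) [Field L] [NumberField L] [Algebra L (AlgebraicClosure ℚ)]
  (O : ValuationSubring L) [IsDiscreteValuationRing O] {π : O} (hπ : Irreducible π)
variable (N' q : ℕ) [NeZero N'] [NeZero q] [hq : Fact q.Prime] [CharP (ResidueField O) q]
  (hq2 : ¬ 2 ∣ q) (hqN' : ¬ q ∣ N') (ζ : L) (hζ : IsPrimitiveRoot ζ N')

include hζ in
set_option synthInstance.maxHeartbeats 200000 in
set_option maxHeartbeats 800000 in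
/-- **[L3c] at the cusp `λ = 0` of the component `C`, CLOSED** ([NF2-CTX], general `π`). -/
theorem m59dlu_cusp0 (u0 : ↥O) (hu0 : IsUnit u0) (hqu : ((q : ℕ) : ↥O) = π * u0)
    {VC : ValuationSubring ↥(lg_E L (N' * q * q))}
    (T3 : s36asm_Third O hπ N' q hq2 hqN' VC) :
    m59dlu_CCusp0 O hπ N' q hq2 hqN' VC := by
  have hprime := (ssm_ll_prime L N' hπ q (ssm_fln_q_mem L O q) (ssm_fl_ne_two q hq2) hqN' ζ hζ).1
  have hic := ssm_ll_ic1 L N' hπ q (ssm_fln_q_mem L O q) (ssm_fl_ne_two q hq2) hqN' ζ hζ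
  refine m59dlu_cusp0_of O hπ N' q hq2 hqN' u0 hu0 hqu hprime hic T3 ?_
  intro 𝔫1 hmax1 hπ1 hF1 hV1 hμ1
  haveI := hmax1
  exact s36ct_leg_r2 L O hπ N' q hq2 hqN' ζ hζ 0 (Or.inl rfl) (s36cb_phiA O N' q)
    (s36cb_phiB O hπ N' q hq2 hqN' hprime) (s36cb_phiA_coe O N' q)
    (s36cb_phiB_coe O hπ N' q hq2 hqN' hprime) 𝔫1 hπ1 hV1
    (⟨lg_lamE N', fc_x_mem_chart _⟩ : fc_chart ↥O ({lg_lamE N'} : Set ↥(lg_E L N')))
    (by rw [map_zero, sub_zero]) (by rw [s36cb_phiA_lam]; exact hμ1)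

include hζ in
set_option synthInstance.maxHeartbeats 200000 in
set_option maxHeartbeats 800000 in
/-- **[L3c] at the cusp `λ = 1` of the component `C`, CLOSED** ([NF2-CTX], general `π`). -/
theorem m59dlu_cusp1 (u0 : ↥O) (hu0 : IsUnit u0) (hqu : ((q : ℕ) : ↥O) = π * u0)
    {VC : ValuationSubring ↥(lg_E L (N' * q * q))}
    (T3 : s36asm_Third O hπ N' q hq2 hqN' VC) :
    m59dlu_CCusp1 O hπ N' q hq2 hqN' VC := by
  have hprime := (ssm_ll_prime L N' hπ q (ssm_fln_q_mem L O q) (ssm_fl_ne_two q hq2) hqN' ζ hζ).1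
  have hic := ssm_ll_ic1 L N' hπ q (ssm_fln_q_mem L O q) (ssm_fl_ne_two q hq2) hqN' ζ hζ
  refine m59dlu_cusp1_of O hπ N' q hq2 hqN' u0 hu0 hqu hprime hic T3 ?_
  intro 𝔫1 hmax1 hπ1 hF1 hV1 hμ1
  haveI := hmax1
  exact s36ct_leg_r2 L O hπ N' q hq2 hqN' ζ hζ 1 (Or.inr rfl) (s36cb_phiA O N' q)
    (s36cb_phiB O hπ N' q hq2 hqN' hprime) (s36cb_phiA_coe O N' q)
    (s36cb_phiB_coe O hπ N' q hq2 hqN' hprime) 𝔫1 hπ1 hV1
    ((⟨lg_lamE N', fc_x_mem_chart _⟩ : fc_chart ↥O ({lg_lamE N'} : Set ↥(lg_E L N'))) - 1)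
    (by rw [map_one]; rfl) (by rw [map_sub, map_one, s36cb_phiA_lam]; exact hμ1)

include hζ in
set_option synthInstance.maxHeartbeats 200000 in
set_option maxHeartbeats 800000 in
/-- **[L3c] at the cusp `λ = ∞` of the component `C`, CLOSED** ([NF2-CTX], general `π`). -/
theorem m59dlu_cuspInf (u0 : ↥O) (hu0 : IsUnit u0) (hqu : ((q : ℕ) : ↥O) = π * u0)
    {VC : ValuationSubring ↥(lg_E L (N' * q * q))}
    (T3 : s36asm_Third O hπ N' q hq2 hqN' VC) :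
    m59dlu_CCuspInf O hπ N' q hq2 hqN' VC := by
  have hp := ssm_ll_prime L N' hπ q (ssm_fln_q_mem L O q) (ssm_fl_ne_two q hq2) hqN' ζ hζ
  have hic2 := ssm_ll_ic2 L N' hπ q (ssm_fln_q_mem L O q) (ssm_fl_ne_two q hq2) hqN' ζ hζ
  refine m59dlu_cuspInf_of O hπ N' q hq2 hqN' u0 hu0 hqu hp.1 hp.2.1 hic2 T3 ?_
  intro 𝔫1 hmax1 hπ1 hF1 hV1 hμ1
  haveI := hmax1
  exact s36ct_leg_r2_inf L O hπ N' q hq2 hqN' ζ hζ (s36cb_phiAInv O N' q)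
    (s36cb_phiBInv O hπ N' q hq2 hqN' hp.1) (s36cb_phiAInv_coe O N' q)
    (s36cb_phiBInv_coe O hπ N' q hq2 hqN' hp.1) 𝔫1 hπ1 hV1
    (⟨(lg_lamE N')⁻¹, fc_x_mem_chart _⟩ : fc_chart ↥O ({(lg_lamE N')⁻¹} : Set ↥(lg_E L N')))
    rfl (by rw [s36cb_phiAInv_lam]; exact hμ1)

end NF

section NFq

variable (L : Type) [Field L] [NumberField L] [Algebra L (AlgebraicClosure ℚ)]
  (O : ValuationSubring L) [IsDiscreteValuationRing O]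
variable (N' q : ℕ) [NeZero N'] [NeZero q] [hq : Fact q.Prime] [CharP (ResidueField O) q]
  (hq2 : ¬ 2 ∣ q) (hqN' : ¬ q ∣ N') (hπ : Irreducible ((q : ℕ) : ↥O))
  (ζ : L) (hζ : IsPrimitiveRoot ζ N')

include hζ in
/-- **[L3c] at the cusp `λ = 0`**, binders of helper1's `s36asm_Leaves4` VERBATIM. -/
theorem m59dlu_cusp0_q {VC : ValuationSubring ↥(lg_E L (N' * q * q))}
    (T3 : s36asm_Third O hπ N' q hq2 hqN' VC) : m59dlu_CCusp0 O hπ N' q hq2 hqN' VC :=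
  m59dlu_cusp0 L O hπ N' q hq2 hqN' ζ hζ 1 isUnit_one (mul_one _).symm T3

include hζ in
/-- **[L3c] at the cusp `λ = 1`**, binders of helper1's `s36asm_Leaves4` VERBATIM. -/
theorem m59dlu_cusp1_q {VC : ValuationSubring ↥(lg_E L (N' * q * q))}
    (T3 : s36asm_Third O hπ N' q hq2 hqN' VC) : m59dlu_CCusp1 O hπ N' q hq2 hqN' VC :=
  m59dlu_cusp1 L O hπ N' q hq2 hqN' ζ hζ 1 isUnit_one (mul_one _).symm T3

include hζ in
/-- **[L3c] at the cusp `λ = ∞`**, binders of helper1's `s36asm_Leaves4/5` VERBATIM. -/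
theorem m59dlu_cuspInf_q {VC : ValuationSubring ↥(lg_E L (N' * q * q))}
    (T3 : s36asm_Third O hπ N' q hq2 hqN' VC) : m59dlu_CCuspInf O hπ N' q hq2 hqN' VC :=
  m59dlu_cuspInf L O hπ N' q hq2 hqN' ζ hζ 1 isUnit_one (mul_one _).symm T3

end NFq

end Fermat.Agent.M59
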