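/-
# M59 / SinkB / Delta / PDivCUfdOrd  (helper3, tag `m59dlu_`)

HALF 2 of (C3) [PDIV-C], part 1: THE NON-CUSP `C`-ONLY POINTS ARE ONE-BRANCH POINTS, with conclusion
`s36g_PtOne` (not the disjunction `PtOne ∨ PtWeak` of `s36asm_cOrd`).

Main's closed term `s36cn_cOrd` (S36/CReg/PointNFClosed.lean, helper2) proves `s36asm_cOrd … VC 1`, a
DISJUNCTION whose proof starts with `left`.  For the factoriality of the local rings at the points of
the component `C` (helper8's generic [PDIV-C] theorem) one needs the left disjunct itself.  Here: the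
PtOne-form `m59dlu_COrd1` and the twins `m59dlu_cOrd_of`, `m59dlu_cOrd_of_hord`, `m59dlu_cOrd` of
`s36cn_cOrd_of`, `s36cn_cOrd_of_hord`, `s36cn_cOrd` (same proofs, `left` removed).
-/
import Mathlib
import Fermat.Agent.S36.CReg.PointNFClosed

set_option autoImplicit false
set_option linter.unusedSectionVars false
set_option linter.unusedVariables false
set_option linter.style.haveILetI false

noncomputable section

open ModularCurve AlgebraicCurve IntermediateField IsLocalRing Polynomial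
open Fermat.Agent.JT3 Fermat.Agent.SS Fermat.Agent.S35 Fermat.Agent.S36

namespace Fermat.Agent.M59

section Defs

variable {L : Type*} [Field L] [CharZero L] [Algebra L (AlgebraicClosure ℚ)]
  (O : ValuationSubring L) [IsDiscreteValuationRing O] {π : O} (hπ : Irreducible π)
variable (N' q : ℕ) [NeZero N'] [NeZero q] [hq : Fact q.Prime] [CharP (ResidueField O) q]
  (hq2 : ¬ 2 ∣ q) (hqN' : ¬ q ∣ N')

/-- the PtOne-form of `s36asm_cOrd`: the NON-CUSP C-only points of the chart `{λ}` are one-branch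
points. -/
def m59dlu_COrd1 (VC : ValuationSubring ↥(lg_E L (N' * q * q))) : Prop :=
  ∀ (𝔫 : Ideal (fc_chart ↥O ({lg_lamE (N' * q * q)} : Set ↥(lg_E L (N' * q * q))))) (h𝔫 : 𝔫.IsMaximal),
    algebraMap ↥O (fc_chart ↥O ({lg_lamE (N' * q * q)} : Set ↥(lg_E L (N' * q * q)))) π ∈ 𝔫 →
    ssm_tp_P (fc_chart ↥O ({lg_lamE (N' * q * q)} : Set ↥(lg_E L (N' * q * q)))) VC ≤ 𝔫 →
    ¬ ssm_tp_P (fc_chart ↥O ({lg_lamE (N' * q * q)} : Set ↥(lg_E L (N' * q * q)))) (s36i_VA O hπ (N' * q) q) ≤ 𝔫 →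
    ¬ ssm_tp_P (fc_chart ↥O ({lg_lamE (N' * q * q)} : Set ↥(lg_E L (N' * q * q)))) (s36i_VB O hπ N' q hq2 hqN') ≤ 𝔫 →
    (⟨lg_lamE (N' * q * q), fc_x_mem_chart (lg_lamE (N' * q * q))⟩ :
      fc_chart ↥O ({lg_lamE (N' * q * q)} : Set ↥(lg_E L (N' * q * q)))) ∉ 𝔫 →
    (⟨lg_lamE (N' * q * q), fc_x_mem_chart (lg_lamE (N' * q * q))⟩ :
      fc_chart ↥O ({lg_lamE (N' * q * q)} : Set ↥(lg_E L (N' * q * q)))) - 1 ∉ 𝔫 →
    (haveI := s36cp_chart_isFractionRing O (N' * q * q)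
     haveI := h𝔫.isPrime
     s36g_PtOne π q (fc_chart ↥O ({lg_lamE (N' * q * q)} : Set ↥(lg_E L (N' * q * q)))) 𝔫)

end Defs

section NFq

variable (L : Type) [Field L] [NumberField L] [Algebra L (AlgebraicClosure ℚ)]
  (O : ValuationSubring L) [IsDiscreteValuationRing O]
variable (N' q : ℕ) [NeZero N'] [NeZero q] [hq : Fact q.Prime] [CharP (ResidueField O) q]
  (hq2 : ¬ 2 ∣ q) (hqN' : ¬ q ∣ N') (hπ : Irreducible ((q : ℕ) : ↥O)) (ζ : L)
  (hζ : IsPrimitiveRoot ζ N')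

include hζ in
set_option synthInstance.maxHeartbeats 400000 in
set_option maxHeartbeats 3200000 in
/-- **[L3b], Legendre tower, closed modulo the [ORD-G] export**: the NON-CUSP `C`-only points of the
chart `B_x` of level `N' q q` are one-branch points. -/
theorem m59dlu_cOrd_of
    (φ1 : fc_chart ↥O ({lg_lamE N'} : Set ↥(lg_E L N')) →+*
      fc_chart ↥O ({lg_lamE (N' * q)} : Set ↥(lg_E L (N' * q))))
    (hφ1 : letI := s36ch_algBeta L N' q hq2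
      ∀ b' : fc_chart ↥O ({lg_lamE N'} : Set ↥(lg_E L N')),
        ((φ1 b' : fc_chart ↥O ({lg_lamE (N' * q)} : Set ↥(lg_E L (N' * q)))) :
          ↥(lg_E L (N' * q))) = algebraMap ↥(lg_E L N') ↥(lg_E L (N' * q)) (b' : ↥(lg_E L N')))
    (hint1 : φ1.IsIntegral)
    (hpow : ∀ b : fc_chart ↥O ({lg_lamE (N' * q)} : Set ↥(lg_E L (N' * q))),
      ∃ b' : fc_chart ↥O ({lg_lamE N'} : Set ↥(lg_E L N')),
        b ^ q - φ1 b' ∈ ssm_tp_P (fc_chart ↥O ({lg_lamE (N' * q)} : Set ↥(lg_E L (N' * q))))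
          (ssm_gl_V1 O hπ N' q))
    (h0 : ∀ (y0 : Ideal (fc_chart ↥O ({lg_lamE N'} : Set ↥(lg_E L N')))) [y0.IsPrime],
      ((q : ℕ) : fc_chart ↥O ({lg_lamE N'} : Set ↥(lg_E L N'))) ∈ y0 →
      haveI := s36cp_chart_isFractionRing O (L := L) N'
      ssm_tp_Over (algebraMap (fc_chart ↥O ({lg_lamE N'} : Set ↥(lg_E L N')))
          ↥(fc_locAt ↥(lg_E L N') y0)
          ((q : ℕ) : fc_chart ↥O ({lg_lamE N'} : Set ↥(lg_E L N'))))
        (gq_valSubOf ((q : ℕ) : ↥O) hπ.ne_zero hπ.maximalIdeal_eq (lg_E L N')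
          ((ssm_al_E_le L N' q).trans (ssm_ga_E_le_quotField O (N' * q)))))
    (HORD : ∀ (y0 : Ideal (fc_chart ↥O ({lg_lamE N'} : Set ↥(lg_E L N')))) [y0.IsPrime],
      y0.IsMaximal → ((q : ℕ) : fc_chart ↥O ({lg_lamE N'} : Set ↥(lg_E L N'))) ∈ y0 →
      ∀ (lam' : fc_chart ↥O ({lg_lamE N'} : Set ↥(lg_E L N'))),
      (lam' : ↥(lg_E L N')) = lg_lamE N' → lam' ∉ y0 → lam' - 1 ∉ y0 →
      (∀ 𝔫' : Ideal (fc_chart ↥O ({lg_lamE (N' * q)} : Set ↥(lg_E L (N' * q)))), 𝔫'.IsPrime →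
        𝔫'.comap φ1 = y0 →
        ¬ (ssm_tp_P (fc_chart ↥O ({lg_lamE (N' * q)} : Set ↥(lg_E L (N' * q))))
            (ssm_gl_V2 O hπ N' q hq2 hqN') ≤ 𝔫' ∧
          ssm_tp_P (fc_chart ↥O ({lg_lamE (N' * q)} : Set ↥(lg_E L (N' * q))))
            (ssm_gl_V1 O hπ N' q) ≤ 𝔫')) →
      ∀ {S : Type} [CommRing S] [IsDomain S] [IsLocalRing S] [IsNoetherianRing S]
        [IsIntegrallyClosed S] [Algebra (fc_chart ↥O ({lg_lamE N'} : Set ↥(lg_E L N'))) S]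
        [IsLocalization.AtPrime S y0] [Algebra S ↥(lg_E L N')]
        [IsScalarTower (fc_chart ↥O ({lg_lamE N'} : Set ↥(lg_E L N'))) S ↥(lg_E L N')]
        [IsFractionRing S ↥(lg_E L N')],
      letI := s36ch_algBeta L N' q hq2
      ∀ [Algebra S ↥(lg_E L (N' * q))] [IsScalarTower S ↥(lg_E L N') ↥(lg_E L (N' * q))],
      ∃ (t' : fc_chart ↥O ({lg_lamE N'} : Set ↥(lg_E L N')))
        (u : fc_chart ↥O ({lg_lamE (N' * q)} : Set ↥(lg_E L (N' * q)))) (Gp : (↥O)[X]),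
        s36oc_Hyp φ1 y0 S q
          (ssm_tp_P (fc_chart ↥O ({lg_lamE (N' * q)} : Set ↥(lg_E L (N' * q))))
            (ssm_gl_V2 O hπ N' q hq2 hqN'))
          (ssm_tp_P (fc_chart ↥O ({lg_lamE (N' * q)} : Set ↥(lg_E L (N' * q))))
            (ssm_gl_V1 O hπ N' q))
          ((q : ℕ) : fc_chart ↥O ({lg_lamE N'} : Set ↥(lg_E L N'))) t' u ∧
        (u : ↥(lg_E L (N' * q))) = aeval (lg_lamE (N' * q)) Gp ∧
        aeval (lg_lamE (N' * q)) (derivative Gp) ∉ (ssm_gl_V1 O hπ N' q).nonunits)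
    {VC : ValuationSubring ↥(lg_E L (N' * q * q))}
    (T3 : s36asm_Third O hπ N' q hq2 hqN' VC) :
    m59dlu_COrd1 O hπ N' q hq2 hqN' VC := by
  intro 𝔫 h𝔫 hπ𝔫 hC hA hB hx0 hx1
  haveI h𝔫p : 𝔫.IsPrime := h𝔫.isPrime
  have hqO := ssm_fln_q_mem L O q
  have hq2' : q ≠ 2 := ssm_fl_ne_two q hq2
  have hp := ssm_ll_prime L N' hπ q hqO hq2' hqN' ζ hζ
  obtain ⟨H3, -, -, hWC, hWB1, hWB2⟩ := s36t3_leg_all_of O hπ N' q hq2 hqN' hp.1
    (s36t3_leg_third_conv O hπ N' q hq2 hqN' T3)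
  have D := s36tri_legData_of_third' L O hπ N' q hq2 hqN' ζ hζ T3 hWB1 hWB2
  -- the third-valuation package
  letI a12 := ssm_gi_algebra (ssm_al_E_le L (N' * q) q)
  letI aF := ssm_gi_algebraV (ssm_al_E_le L (N' * q) q) (ssm_gl_V1 O hπ N' q)
  haveI tF := ssm_gi_isScalarTower (ssm_al_E_le L (N' * q) q) (ssm_gl_V1 O hπ N' q)
  haveI fd2 : FiniteDimensional ↥(lg_E L (N' * q)) ↥(lg_E L (N' * q * q)) :=
    s36at_leg_fin1 (L := L) N' q hq2
  haveI sep2 : Algebra.IsSeparable ↥(lg_E L (N' * q)) ↥(lg_E L (N' * q * q)) := ssm_gi_isSeparable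
  have T : s36t3_Third ↥(lg_E L (N' * q)) ↥(ssm_gl_V1 O hπ N' q) q (s36at_leg_piF O hπ N' q)
      (s36asm_z (L := L) N' q hq2 hqN') (s36i_VA O hπ (N' * q) q) VC := T3
  -- the point below
  have hq𝔫 : ((q : ℕ) :
      fc_chart ↥O ({lg_lamE (N' * q * q)} : Set ↥(lg_E L (N' * q * q)))) ∈ 𝔫 := by
    have h := hπ𝔫
    rwa [map_natCast] at h
  obtain ⟨hmax, hqy0, hy0, hy1, hord⟩ := s36cn_below L O hπ N' q hq2 hqN' ζ hζ φ1 hφ1 hint1 hpow
    H3 T.overC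
    (fun 𝔪 𝔪' h h' h1 h2 hc => s36tri_leg_unique L O N' q hq2 hqN' hπ ζ hζ D 𝔪 𝔪' h h' h1 h2 hc)
    𝔫 h𝔫 hq𝔫 hC hB ⟨lg_lamE N', fc_x_mem_chart _⟩ rfl hx0 hx1
  -- the point `y0` of the level-`N'` chart and its local ring `S`
  haveI hy0p : ((𝔫.comap (s36tn_leg_iota O N' q)).comap φ1).IsPrime := hmax.isPrime
  haveI hfr0 : IsFractionRing ↥(fc_chart ↥O ({lg_lamE N'} : Set ↥(lg_E L N'))) ↥(lg_E L N') :=
    s36cp_chart_isFractionRing O (L := L) N'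
  haveI := ssm_go_isScalarTower O (lg_E L N')
  have hx0' : Transcendental L (lg_lamE (L := L) N') := lgf_lam_transcendental L N' two_ne_zero
  haveI : FiniteDimensional L⟮(lg_lamE (L := L) N')⟯ ↥(lg_E L N') := lgf_finite L N'
  haveI hno0 : IsNoetherianRing ↥(fc_chart ↥O ({lg_lamE N'} : Set ↥(lg_E L N'))) :=
    ssm_ths_chart_isNoetherianRing (A0 := ↥O) (L := L) hx0'
  haveI hic0 : IsIntegrallyClosed ↥(fc_chart ↥O ({lg_lamE N'} : Set ↥(lg_E L N'))) :=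
    ssm_ths_chart_isIntegrallyClosed (A0 := ↥O) (L := L) _
  haveI hnoS := ssm_ths_isNoetherianRing ↥(lg_E L N') ((𝔫.comap (s36tn_leg_iota O N' q)).comap φ1)
  haveI hicS := ssm_ths_isIntegrallyClosed ↥(lg_E L N') ((𝔫.comap (s36tn_leg_iota O N' q)).comap φ1)
  haveI hfrS := ssm_ths_isFractionRing ↥(lg_E L N') ((𝔫.comap (s36tn_leg_iota O N' q)).comap φ1)
  letI aβ := s36ch_algBeta L N' q hq2
  obtain ⟨t', u, Gp, H, huG, hGp'⟩ := HORD ((𝔫.comap (s36tn_leg_iota O N' q)).comap φ1) hmax hqy0 ⟨lg_lamE N', fc_x_mem_chart _⟩ rfl hy0 hy1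
    hord (S := ↥(fc_locAt ↥(lg_E L N') ((𝔫.comap (s36tn_leg_iota O N' q)).comap φ1)))
  have hπF : (((s36at_leg_piF O hπ N' q : ↥(ssm_gl_V1 O hπ N' q)) : ↥(lg_E L (N' * q))) :
      LaurentSeries L) = ((q : ℕ) : LaurentSeries L) := by
    show ((algebraMap L ↥(lg_E L (N' * q)) (algebraMap ↥O L ((q : ℕ) : ↥O)) :
      ↥(lg_E L (N' * q))) : LaurentSeries L) = _
    rw [map_natCast, map_natCast]
    rfl
  have hzl : ((s36asm_z (L := L) N' q hq2 hqN' : ↥(lg_E L (N' * q * q))) : LaurentSeries L) =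
      qExpand L q (qExpand L q (lg_lam L)) - lg_lam L := by
    unfold s36asm_z
    rw [AddSubgroupClass.coe_sub]
    rfl
  have key := s36cy_leg_point O N' q hq2 hqN' hπ (lgr_hram (N' * q) L).1 hp.1 φ1
    (S := ↥(fc_locAt ↥(lg_E L N') ((𝔫.comap (s36tn_leg_iota O N' q)).comap φ1))) ⟨lg_lamE N', fc_x_mem_chart _⟩ rfl hy0 hy1 (h0 ((𝔫.comap (s36tn_leg_iota O N' q)).comap φ1) hqy0) Gp H huG hGp'
    (πF := s36at_leg_piF O hπ N' q) (zl := s36asm_z (L := L) N' q hq2 hqN') hπF hzl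
    T 𝔫 (Ideal.comap_comap φ1 (s36tn_leg_iota O N' q)).symm hC
  exact key

include hζ in
set_option synthInstance.maxHeartbeats 400000 in
set_option maxHeartbeats 1600000 in
/-- **[L3b], Legendre tower**: `φ1 := s36cb_phiB` (helper27), `hpow` (helper8), `h0` (helper29) plugged;
the ONLY remaining input is the [ORD-G] export `HORD`. -/
theorem m59dlu_cOrd_of_hord
    (HORD : ∀ (y0 : Ideal (fc_chart ↥O ({lg_lamE N'} : Set ↥(lg_E L N')))) [y0.IsPrime],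
      y0.IsMaximal → ((q : ℕ) : fc_chart ↥O ({lg_lamE N'} : Set ↥(lg_E L N'))) ∈ y0 →
      ∀ (lam' : fc_chart ↥O ({lg_lamE N'} : Set ↥(lg_E L N'))),
      (lam' : ↥(lg_E L N')) = lg_lamE N' → lam' ∉ y0 → lam' - 1 ∉ y0 →
      (∀ 𝔫' : Ideal (fc_chart ↥O ({lg_lamE (N' * q)} : Set ↥(lg_E L (N' * q)))), 𝔫'.IsPrime →
        𝔫'.comap (s36cb_phiB O hπ N' q hq2 hqN' (s36cn_hprime L O N' q hq2 hqN' hπ ζ hζ)) = y0 →
        ¬ (ssm_tp_P (fc_chart ↥O ({lg_lamE (N' * q)} : Set ↥(lg_E L (N' * q))))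
            (ssm_gl_V2 O hπ N' q hq2 hqN') ≤ 𝔫' ∧
          ssm_tp_P (fc_chart ↥O ({lg_lamE (N' * q)} : Set ↥(lg_E L (N' * q))))
            (ssm_gl_V1 O hπ N' q) ≤ 𝔫')) →
      ∀ {S : Type} [CommRing S] [IsDomain S] [IsLocalRing S] [IsNoetherianRing S]
        [IsIntegrallyClosed S] [Algebra (fc_chart ↥O ({lg_lamE N'} : Set ↥(lg_E L N'))) S]
        [IsLocalization.AtPrime S y0] [Algebra S ↥(lg_E L N')]
        [IsScalarTower (fc_chart ↥O ({lg_lamE N'} : Set ↥(lg_E L N'))) S ↥(lg_E L N')]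
        [IsFractionRing S ↥(lg_E L N')],
      letI := s36ch_algBeta L N' q hq2
      ∀ [Algebra S ↥(lg_E L (N' * q))] [IsScalarTower S ↥(lg_E L N') ↥(lg_E L (N' * q))],
      ∃ (t' : fc_chart ↥O ({lg_lamE N'} : Set ↥(lg_E L N')))
        (u : fc_chart ↥O ({lg_lamE (N' * q)} : Set ↥(lg_E L (N' * q)))) (Gp : (↥O)[X]),
        s36oc_Hyp (s36cb_phiB O hπ N' q hq2 hqN' (s36cn_hprime L O N' q hq2 hqN' hπ ζ hζ)) y0 S q
          (ssm_tp_P (fc_chart ↥O ({lg_lamE (N' * q)} : Set ↥(lg_E L (N' * q))))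
            (ssm_gl_V2 O hπ N' q hq2 hqN'))
          (ssm_tp_P (fc_chart ↥O ({lg_lamE (N' * q)} : Set ↥(lg_E L (N' * q))))
            (ssm_gl_V1 O hπ N' q))
          ((q : ℕ) : fc_chart ↥O ({lg_lamE N'} : Set ↥(lg_E L N'))) t' u ∧
        (u : ↥(lg_E L (N' * q))) = aeval (lg_lamE (N' * q)) Gp ∧
        aeval (lg_lamE (N' * q)) (derivative Gp) ∉ (ssm_gl_V1 O hπ N' q).nonunits)
    {VC : ValuationSubring ↥(lg_E L (N' * q * q))}
    (T3 : s36asm_Third O hπ N' q hq2 hqN' VC) :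
    m59dlu_COrd1 O hπ N' q hq2 hqN' VC := by
  have hp1 := s36cn_hprime L O N' q hq2 hqN' hπ ζ hζ
  have hφ1 : letI := s36ch_algBeta L N' q hq2
      ∀ b' : fc_chart ↥O ({lg_lamE N'} : Set ↥(lg_E L N')),
        ((s36cb_phiB O hπ N' q hq2 hqN' hp1 b' :
          fc_chart ↥O ({lg_lamE (N' * q)} : Set ↥(lg_E L (N' * q)))) : ↥(lg_E L (N' * q))) =
        algebraMap ↥(lg_E L N') ↥(lg_E L (N' * q)) (b' : ↥(lg_E L N')) :=
    fun b' => s36cb_phiB_algBeta O hπ N' q hq2 hqN' hp1 b'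
  exact m59dlu_cOrd_of L O N' q hq2 hqN' hπ ζ hζ (s36cb_phiB O hπ N' q hq2 hqN' hp1) hφ1
    (s36cb_phiB_isIntegral O hπ N' q hq2 hqN' hp1)
    (s36cpw_nf_beta L O hπ N' q hq2 hqN' ζ hζ _ hφ1).1
    (fun y0 _ hqy0 => s36czs_h0 L O N' q hq2 hqN' hπ ζ hζ y0 hqy0) HORD T3

include hζ in
set_option synthInstance.maxHeartbeats 400000 in
set_option maxHeartbeats 1600000 in
/-- **[L3b], Legendre tower, CLOSED**: the non-cusp `C`-only points are one-branch points. -/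
theorem m59dlu_cOrd {VC : ValuationSubring ↥(lg_E L (N' * q * q))}
    (T3 : s36asm_Third O hπ N' q hq2 hqN' VC) :
    m59dlu_COrd1 O hπ N' q hq2 hqN' VC := by
  refine m59dlu_cOrd_of_hord L O N' q hq2 hqN' hπ ζ hζ ?_ T3
  intro y0 _ hmax hqy lam' hlam h0 h1 hord S _ _ _ _ _ _ _ _ _ _ _ _
  haveI := hmax
  exact s36ol_hyp_of L O N' q hq2 hqN' hπ ζ hζ _
    (fun b' => s36cb_phiB_beta O hπ N' q hq2 hqN' (s36cn_hprime L O N' q hq2 hqN' hπ ζ hζ) b')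
    y0 hqy lam' hlam h0 h1 hord S

end NFq

end Fermat.Agent.M59
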