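/-
# M59 / SinkB / Delta / PDivCUfd  (helper3, tag `m59dlu_`)

HALF 2 of (C3) [PDIV-C]: THE LOCAL RINGS OF THE LEGENDRE MODEL OF LEVEL `N' q q` AT THE CLOSED POINTS
OF THE COMPONENT `C` ARE FACTORIAL.  [NF2-CTX] at `π := q` (binders of `s36cn_cOrd`), with
`T3 : s36asm_Third O hπ N' q hq2 hqN' VC`:

* `m59dlu_ufd1` : every maximal `𝔫 ∋ q` of `fc_chart O {λ}` with `P_C ≤ 𝔫`;
* `m59dlu_ufd2` : every maximal `𝔫 ∋ q, λ⁻¹` of `fc_chart O {λ⁻¹}` with `P_C ≤ 𝔫`.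

Both are the first component of `s36g_PtTri` (points on two components: helper20's `s36tpl_hT1` in
the closed form `s36asm_ptsT1_leg`; nothing at infinity) resp. of `s36g_PtOne` (C-only points: the
PtOne-twins `m59dlu_cOrd`, `m59dlu_cusp0_q`, `m59dlu_cusp1_q`, `m59dlu_cuspInf_q` of main's closed
terms).
-/
import Mathlib
import Fermat.Agent.M59.SinkB.Delta.PDivCUfdOrd
import Fermat.Agent.M59.SinkB.Delta.PDivCUfdCusp
import Fermat.Agent.S36.Model.AsmLegLastT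

set_option autoImplicit false
set_option linter.unusedSectionVars false
set_option linter.unusedVariables false
set_option linter.style.haveILetI false
set_option maxHeartbeats 1000000

noncomputable section

open ModularCurve AlgebraicCurve IntermediateField IsLocalRing Polynomial
open Fermat.Agent.JT3 Fermat.Agent.SS Fermat.Agent.S35 Fermat.Agent.S36

namespace Fermat.Agent.M59

section NFq

variable (L : Type) [Field L] [NumberField L] [Algebra L (AlgebraicClosure ℚ)]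
  (O : ValuationSubring L) [IsDiscreteValuationRing O]
variable (N' q : ℕ) [NeZero N'] [NeZero q] [hq : Fact q.Prime] [CharP (ResidueField O) q]
  (hq2 : ¬ 2 ∣ q) (hqN' : ¬ q ∣ N') (hπ : Irreducible ((q : ℕ) : ↥O))
  (ζ : L) (hζ : IsPrimitiveRoot ζ N')

include hζ in
set_option synthInstance.maxHeartbeats 400000 in
/-- **(U1)**: the local ring at a closed point of the component `C` on the chart `{λ}` is
factorial. -/
theorem m59dlu_ufd1 {VC : ValuationSubring ↥(lg_E L (N' * q * q))}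
    (T3 : s36asm_Third O hπ N' q hq2 hqN' VC)
    (𝔫 : Ideal (fc_chart ↥O ({lg_lamE (N' * q * q)} : Set ↥(lg_E L (N' * q * q)))))
    (h𝔫 : 𝔫.IsMaximal)
    (hπ𝔫 : algebraMap ↥O (fc_chart ↥O ({lg_lamE (N' * q * q)} : Set ↥(lg_E L (N' * q * q))))
      ((q : ℕ) : ↥O) ∈ 𝔫)
    (hC : ssm_tp_P (fc_chart ↥O ({lg_lamE (N' * q * q)} : Set ↥(lg_E L (N' * q * q)))) VC ≤ 𝔫) :
    (haveI := s36cp_chart_isFractionRing O (N' * q * q)
     haveI := h𝔫.isPrime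
     UniqueFactorizationMonoid (ssl_locSub ↥(lg_E L (N' * q * q)) 𝔫)) := by
  haveI := s36cp_chart_isFractionRing O (L := L) (N' * q * q)
  haveI := h𝔫.isPrime
  by_cases hA : ssm_tp_P (fc_chart ↥O ({lg_lamE (N' * q * q)} : Set ↥(lg_E L (N' * q * q))))
      (s36i_VA O hπ (N' * q) q) ≤ 𝔫
  · exact (s36asm_ptsT1_leg L O N' q hq2 hqN' hπ ζ hζ T3 𝔫 h𝔫 hπ𝔫 (Or.inr (Or.inl ⟨hA, hC⟩))).1
  by_cases hB : ssm_tp_P (fc_chart ↥O ({lg_lamE (N' * q * q)} : Set ↥(lg_E L (N' * q * q))))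
      (s36i_VB O hπ N' q hq2 hqN') ≤ 𝔫
  · exact (s36asm_ptsT1_leg L O N' q hq2 hqN' hπ ζ hζ T3 𝔫 h𝔫 hπ𝔫 (Or.inr (Or.inr ⟨hB, hC⟩))).1
  by_cases hx0 : (⟨lg_lamE (N' * q * q), fc_x_mem_chart (lg_lamE (N' * q * q))⟩ :
      fc_chart ↥O ({lg_lamE (N' * q * q)} : Set ↥(lg_E L (N' * q * q)))) ∈ 𝔫
  · exact (m59dlu_cusp0_q L O N' q hq2 hqN' hπ ζ hζ T3 𝔫 h𝔫 hπ𝔫 hC hA hB hx0).1
  by_cases hx1 : (⟨lg_lamE (N' * q * q), fc_x_mem_chart (lg_lamE (N' * q * q))⟩ :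
      fc_chart ↥O ({lg_lamE (N' * q * q)} : Set ↥(lg_E L (N' * q * q)))) - 1 ∈ 𝔫
  · exact (m59dlu_cusp1_q L O N' q hq2 hqN' hπ ζ hζ T3 𝔫 h𝔫 hπ𝔫 hC hA hB hx1).1
  exact (m59dlu_cOrd L O N' q hq2 hqN' hπ ζ hζ T3 𝔫 h𝔫 hπ𝔫 hC hA hB hx0 hx1).1

include hζ in
set_option synthInstance.maxHeartbeats 400000 in
/-- **(U2)**: the local ring at a closed point at infinity of the component `C` (chart `{λ⁻¹}`) is
factorial. -/
theorem m59dlu_ufd2 {VC : ValuationSubring ↥(lg_E L (N' * q * q))}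
    (T3 : s36asm_Third O hπ N' q hq2 hqN' VC)
    (𝔫 : Ideal (fc_chart ↥O ({(lg_lamE (N' * q * q))⁻¹} : Set ↥(lg_E L (N' * q * q)))))
    (h𝔫 : 𝔫.IsMaximal)
    (hπ𝔫 : algebraMap ↥O (fc_chart ↥O ({(lg_lamE (N' * q * q))⁻¹} : Set ↥(lg_E L (N' * q * q))))
      ((q : ℕ) : ↥O) ∈ 𝔫)
    (hx𝔫 : (⟨(lg_lamE (N' * q * q))⁻¹, fc_x_mem_chart (lg_lamE (N' * q * q))⁻¹⟩ :
      fc_chart ↥O ({(lg_lamE (N' * q * q))⁻¹} : Set ↥(lg_E L (N' * q * q)))) ∈ 𝔫)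
    (hC : ssm_tp_P (fc_chart ↥O ({(lg_lamE (N' * q * q))⁻¹} : Set ↥(lg_E L (N' * q * q)))) VC ≤ 𝔫) :
    (haveI := s36cp_chart_inv_isFractionRing O (N' * q * q)
     haveI := h𝔫.isPrime
     UniqueFactorizationMonoid (ssl_locSub ↥(lg_E L (N' * q * q)) 𝔫)) := by
  haveI := s36cp_chart_inv_isFractionRing O (L := L) (N' * q * q)
  haveI := h𝔫.isPrime
  have hp := ssm_ll_prime L N' hπ q (ssm_fln_q_mem L O q) (ssm_fl_ne_two q hq2) hqN' ζ hζ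
  obtain ⟨-, -, hT⟩ := s36asm_all_of_third O hπ N' q hq2 hqN' hp.1 T3
  have PT := hT (s36asm_ptsT1_leg L O N' q hq2 hqN' hπ ζ hζ T3)
  by_cases hA : ssm_tp_P (fc_chart ↥O ({(lg_lamE (N' * q * q))⁻¹} : Set ↥(lg_E L (N' * q * q))))
      (s36i_VA O hπ (N' * q) q) ≤ 𝔫
  · exact (PT.2 𝔫 h𝔫 hπ𝔫 hx𝔫 (Or.inr (Or.inl ⟨hA, hC⟩))).1
  by_cases hB : ssm_tp_P (fc_chart ↥O ({(lg_lamE (N' * q * q))⁻¹} : Set ↥(lg_E L (N' * q * q))))
      (s36i_VB O hπ N' q hq2 hqN') ≤ 𝔫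
  · exact (PT.2 𝔫 h𝔫 hπ𝔫 hx𝔫 (Or.inr (Or.inr ⟨hB, hC⟩))).1
  exact (m59dlu_cuspInf_q L O N' q hq2 hqN' hπ ζ hζ T3 𝔫 h𝔫 hπ𝔫 hx𝔫 hC hA hB).1

end NFq

end Fermat.Agent.M59
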