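/-
M59 / Sink B, cell (C3) [PDIV-C] of [DELTA-C] (helper8), part 7: **[PDIV-C] CLOSED**.
Prefix `m59dlp_`.

* `m59dlp_nf_closed` : the number-field level statement `m59dlp_nf` with helper3's factoriality
  clauses `m59dlu_ufd1`, `m59dlu_ufd2` plugged in: NO hypothesis left;
* `m59dlp_PDivCq_stmt` : helper17's `m59dl_PDivC_stmt` (Delta/SeamsC.lean) at `π := q`, with the two
  binders of [NF2-CTX] it lacks (`[NumberField ↥L1]`, a primitive `N₀`-th root of unity in `L1`) and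
  WITHOUT the hypotheses that are not needed (`lcm(4, 2 N₀ q q) = M q q`, `p` prime, `p ≠ 2`,
  `p ≠ q`);
* **`m59dlp_pdivC : m59dlp_PDivCq_stmt`**.
-/
import Mathlib
import Fermat.Agent.M59.SinkB.Delta.PDivCNF
import Fermat.Agent.M59.SinkB.Delta.PDivCQ
import Fermat.Agent.M59.SinkB.Delta.PDivCUfd
import Fermat.Agent.M59.SinkB.Delta.SeamsC

set_option autoImplicit false
set_option linter.unusedSectionVars false
set_option linter.unusedVariables false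
set_option linter.style.haveILetI false
set_option synthInstance.maxHeartbeats 400000
set_option maxHeartbeats 1000000

noncomputable section

namespace Fermat.Agent.M59

open ModularCurve AlgebraicCurve IntermediateField IsLocalRing
open Fermat.Agent.JT3 Fermat.Agent.SS Fermat.Agent.S35 Fermat.Agent.S24 Fermat.Agent.S28
open Fermat.Agent.MZ Fermat.Agent.S44 Fermat.Agent.S36 Fermat.Agent.SS2

local notation "Qb" => AlgebraicClosure ℚ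

section NFq

variable (L : Type) [Field L] [NumberField L] [Algebra L (AlgebraicClosure ℚ)]
  (O : ValuationSubring L) [IsDiscreteValuationRing O]
variable (N' q : ℕ) [NeZero N'] [NeZero q] [hq : Fact q.Prime] [CharP (ResidueField O) q]
  (hq2 : ¬ 2 ∣ q) (hqN' : ¬ q ∣ N') (hπ : Irreducible ((q : ℕ) : ↥O)) (ζ : L)
  (hζ : IsPrimitiveRoot ζ N')

include hζ in
/-- **[PDIV-C], number-field level, CLOSED.** -/
theorem m59dlp_nf_closed {VC : ValuationSubring ↥(lg_E L (N' * q * q))}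
    (T3 : s36asm_Third O hπ N' q hq2 hqN' VC)
    {m : ℕ} {x : ↥(lg_E L (N' * q * q))} (hx : m59sb_Unit3 O hπ N' q hq2 hqN' VC x)
    (hord : ∀ w : Place L ↥(lg_E L (N' * q * q)), (m : ℤ) ∣ w.ord x)
    (rC : ↥(ssm_gl_V1 O hπ N' q))
    (hrC : x - IntermediateField.inclusion (ssm_al_E_le L (N' * q) q)
      (rC : ↥(lg_E L (N' * q))) ∈ VC.nonunits)
    {K' : Type*} [Field K'] (θ₁ : ↥(ssm_gl_V1 O hπ N' q) →+* K')
    (hθ₁ : ∀ r ∈ maximalIdeal ↥(ssm_gl_V1 O hπ N' q), θ₁ r = 0)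
    (W : ValuationSubring K')
    (hW : ∀ (a : ↥O) (h : algebraMap ↥O ↥(lg_E L (N' * q)) a ∈ ssm_gl_V1 O hπ N' q),
      θ₁ ⟨algebraMap ↥O ↥(lg_E L (N' * q)) a, h⟩ ∈ W) :
    ∃ rd : ↥(ssm_gl_V1 O hπ N' q), IsUnit rd ∧
      W.valuation (θ₁ rC) = W.valuation (θ₁ rd) ^ m :=
  m59dlp_nf L O N' q hq2 hqN' hπ ζ hζ T3
    (fun 𝔫 h𝔫 h1 h2 => m59dlu_ufd1 L O N' q hq2 hqN' hπ ζ hζ T3 𝔫 h𝔫 h1 h2)
    (fun 𝔫 h𝔫 h1 h2 h3 => m59dlu_ufd2 L O N' q hq2 hqN' hπ ζ hζ T3 𝔫 h𝔫 h1 h3 h2)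
    hx hord rC hrC θ₁ hθ₁ W hW

end NFq

/-- **(C3) [PDIV-C]** at `π := q`, in [NF2-CTX] (`[NumberField ↥L1]`, `ζ_{N₀} ∈ L1`). -/
def m59dlp_PDivCq_stmt : Prop :=
  ∀ (A : ValuationSubring Qb) (q : ℕ) [Fact q.Prime] [NeZero q], A.LiesOverPrime q →
    ∀ (M : ℕ) [NeZero M], ¬ q ∣ M →
    ∀ (L1 : IntermediateField ℚ Qb) [NumberField ↥L1]
    [IsDiscreteValuationRing ↥(A.comap (algebraMap ↥L1 Qb))]
    [CharP (ResidueField ↥(A.comap (algebraMap ↥L1 Qb))) q]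
    (hπ : Irreducible ((q : ℕ) : ↥(A.comap (algebraMap ↥L1 Qb))))
    (N₀ : ℕ) [NeZero N₀] (hq2 : ¬ 2 ∣ q) (hqN₀ : ¬ q ∣ N₀) (ζ : ↥L1), IsPrimitiveRoot ζ N₀ →
    Nat.lcm 4 (2 * (N₀ * q)) = M * q →
    ∀ (p : ℕ) (VC : ValuationSubring ↥(lg_E ↥L1 (N₀ * q * q))),
      s36asm_Third (A.comap (algebraMap ↥L1 Qb)) hπ N₀ q hq2 hqN₀ VC →
    ∀ x : ↥(lg_E ↥L1 (N₀ * q * q)),
      m59sb_Unit3 (A.comap (algebraMap ↥L1 Qb)) hπ N₀ q hq2 hqN₀ VC x →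
      (∀ w : Place ↥L1 ↥(lg_E ↥L1 (N₀ * q * q)), (p : ℤ) ∣ w.ord x) →
    ∀ (rC : ↥(lg_E ↥L1 (N₀ * q)))
      (hC : gq_IsBdd ↥(A.comap (algebraMap ↥L1 Qb)) ↥L1
        ((rC : ↥(lg_E ↥L1 (N₀ * q))) : LaurentSeries ↥L1))
      (g : ↥(s44e_FF A M)),
      x - IntermediateField.inclusion (ssm_al_E_le ↥L1 (N₀ * q) q) rC ∈ VC.nonunits →
      ((g : ↥(s44e_FF A M)) : LaurentSeries (ResidueField ↥A)) =
        coeffMap (ssm_gb_kappa (algebraMap ↥L1 Qb) (A.comap (algebraMap ↥L1 Qb)) A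
          (fun _ => Iff.rfl))
          (gq_res ↥(A.comap (algebraMap ↥L1 Qb)) ↥L1
            ⟨((rC : ↥(lg_E ↥L1 (N₀ * q))) : LaurentSeries ↥L1), hC⟩) →
      ∀ Q : Place (s44e_kA A) ↥(s44e_FF A M), (p : ℤ) ∣ Q.ord g

set_option maxHeartbeats 4000000 in
/-- **(C3) [PDIV-C] IS A THEOREM.** -/
theorem m59dlp_pdivC : m59dlp_PDivCq_stmt := by
  intro A q _ _ hA M _ hqM L1 _ _ _ hπ N₀ _ hq2 hqN₀ ζ hζ hlev1 p VC T3 x hx hord rC hC g hrC hg Q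
  obtain ⟨rd, hrd, hval⟩ := m59dlp_nf_closed ↥L1 (A.comap (algebraMap ↥L1 Qb)) N₀ q hq2 hqN₀ hπ
    ζ hζ T3 (m := p) hx hord ⟨rC, hC⟩ hrC
    (m59dlp_theta A hA M hqM ↥L1 hπ N₀ hlev1)
    (fun r hr => m59dlp_theta_max A hA M hqM ↥L1 hπ N₀ hlev1 r hr)
    Q.toValuationSubring
    (fun a h => by
      rw [m59dlp_theta_const A hA M hqM ↥L1 hπ N₀ hlev1 a h]
      exact Q.algebraMap_mem' _)
  have hg' : g = m59dlp_theta A hA M hqM ↥L1 hπ N₀ hlev1 ⟨rC, hC⟩ :=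
    Subtype.ext (hg.trans (m59dlp_coe_theta A hA M hqM ↥L1 hπ N₀ hlev1 ⟨rC, hC⟩).symm)
  have hrd0 : m59dlp_theta A hA M hqM ↥L1 hπ N₀ hlev1 rd ≠ 0 :=
    (hrd.map (m59dlp_theta A hA M hqM ↥L1 hπ N₀ hlev1)).ne_zero
  rw [hg', m59dlp_ord_of_val Q hrd0 p hval]
  exact dvd_mul_right _ _

end Fermat.Agent.M59
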