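/-
Project M59, Sink B, cell (G2') [DELTA-C], (C5) [RES-DESC] (helper22; tag `m59dlr_`), part 1:
THE ABSTRACT DESCENT `k → k1` OF A `p`-TH POWER DECOMPOSITION OF A LAURENT SERIES.

`κ : k1 →+* k` fields, `p ≠ 0` in `k`.

* `m59dlr_ps_root`      : (R1, power series) `U ∈ k[[t]]`, `U₀ ≠ 0`, `U₀ ∈ S`, all coefficients of
  `U ^ p` in the subfield `S ⊆ k`  ⟹  all coefficients of `U` in `S` (coefficient recursion through
  `Polynomial.powAddExpansion`);
* `m59dlr_laurent_root` : (R1, Laurent series) `X` with leading coefficient `1`, all coefficients of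
  `e · X ^ p` in `S`  ⟹  `e ∈ S` and all coefficients of `X` in `S`;
* `m59dlr_cw`, `m59dlr_cw_mul` : the coefficientwise map of a `k1`-linear functional `k → k1` is
  `k1((t))`-linear;
* `m59dlr_descend`      : (R2, linear disjointness, element form) `F1 ⊆ k1((t))` a subfield containing
  `k1` and `G1`; `x ∈ k1((t))` with `coeffMap κ x ∈ k(coeffMap κ '' G1)`  ⟹  `x ∈ F1`;
* `m59dlr_resDesc_abs`  : `coeffMap κ r = b · H ^ p`, `H ∈ k(coeffMap κ '' G1)`, `r ≠ 0`  ⟹
  `r = c · h1 ^ p` with `c ∈ k1ˣ`, `h1 ∈ F1`, `h1 ≠ 0`.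
-/
import Mathlib
import Fermat.Prelude.Def_ModularCurve_LaurentCoeff
import Fermat.Agent.JT3.Descent.FieldOfDef

set_option autoImplicit false
set_option linter.style.haveILetI false
set_option linter.unusedSectionVars false
set_option linter.unusedVariables false

noncomputable section

namespace Fermat.Agent.M59

open ModularCurve Fermat.Agent.JT3

section PS

variable {k : Type*} [Field k]

/-- power series all of whose coefficients lie in a subfield. -/
def m59dlr_psSub (S : Subfield k) : Subring (PowerSeries k) where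
  carrier := {f | ∀ n, PowerSeries.coeff n f ∈ S}
  zero_mem' := fun n => by rw [map_zero]; exact S.zero_mem
  one_mem' := fun n => by
    rw [PowerSeries.coeff_one]
    split_ifs
    · exact S.one_mem
    · exact S.zero_mem
  add_mem' := fun {a b} ha hb n => by rw [map_add]; exact S.add_mem (ha n) (hb n)
  mul_mem' := fun {a b} ha hb n => by
    rw [PowerSeries.coeff_mul]
    exact S.sum_mem fun i _ => S.mul_mem (ha _) (hb _)
  neg_mem' := fun {a} ha n => by rw [map_neg]; exact S.neg_mem (ha n)

theorem m59dlr_mem_psSub {S : Subfield k} {f : PowerSeries k} :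
    f ∈ m59dlr_psSub S ↔ ∀ n, PowerSeries.coeff n f ∈ S := Iff.rfl

/-- **`p`-th roots descend (power series).** If `U ∈ k[[t]]` has `U₀ ≠ 0`, `U₀ ∈ S`, `p ≠ 0` in `k`
and all coefficients of `U ^ p` lie in the subfield `S`, then so do those of `U`. -/
theorem m59dlr_ps_root (S : Subfield k) (p : ℕ) (hp : (p : k) ≠ 0) (U : PowerSeries k)
    (hU0 : PowerSeries.coeff 0 U ≠ 0) (hU0S : PowerSeries.coeff 0 U ∈ S)
    (hUp : U ^ p ∈ m59dlr_psSub S) : U ∈ m59dlr_psSub S := by
  intro n
  induction n using Nat.strong_induction_on with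
  | _ n ih =>
    rcases Nat.eq_zero_or_pos n with rfl | hn
    · exact hU0S
    set A : PowerSeries k := ((PowerSeries.trunc n U : Polynomial k) : PowerSeries k) with hA
    set B : PowerSeries k := PowerSeries.mk fun i => PowerSeries.coeff (i + n) U with hB
    have hdec : U = A + PowerSeries.X ^ n * B := by
      have h := PowerSeries.eq_X_pow_mul_shift_add_trunc n U
      rw [add_comm]
      exact h
    have hAS : A ∈ m59dlr_psSub S := by
      intro i
      rw [hA, Polynomial.coeff_coe, PowerSeries.coeff_trunc]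
      split_ifs with h
      · exact ih i h
      · exact S.zero_mem
    have hA0 : PowerSeries.coeff 0 A = PowerSeries.coeff 0 U := by
      rw [hA, Polynomial.coeff_coe, PowerSeries.coeff_trunc, if_pos hn]
    have hB0 : PowerSeries.coeff 0 B = PowerSeries.coeff n U := by
      rw [hB, PowerSeries.coeff_mk, zero_add]
    obtain ⟨c, hc⟩ := Polynomial.powAddExpansion A (PowerSeries.X ^ n * B) p
    have h1 : PowerSeries.coeff n (U ^ p) =
        PowerSeries.coeff n (A ^ p) +
          (p : k) * PowerSeries.coeff 0 U ^ (p - 1) * PowerSeries.coeff n U := by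
      have e1 : (p : PowerSeries k) * A ^ (p - 1) * (PowerSeries.X ^ n * B) =
          PowerSeries.X ^ n * ((p : PowerSeries k) * A ^ (p - 1) * B) := by ring
      have e2 : c * (PowerSeries.X ^ n * B) ^ 2 =
          PowerSeries.X ^ (n + n) * (c * B ^ 2) := by ring
      have e3 : PowerSeries.coeff n (PowerSeries.X ^ n * ((p : PowerSeries k) * A ^ (p - 1) * B)) =
          (p : k) * PowerSeries.coeff 0 U ^ (p - 1) * PowerSeries.coeff n U := by
        have := PowerSeries.coeff_X_pow_mul ((p : PowerSeries k) * A ^ (p - 1) * B) n 0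
        rw [zero_add] at this
        rw [this, PowerSeries.coeff_zero_eq_constantCoeff, map_mul, map_mul, map_pow,
          map_natCast, ← PowerSeries.coeff_zero_eq_constantCoeff_apply,
          ← PowerSeries.coeff_zero_eq_constantCoeff_apply, hA0, hB0]
        try rw [PowerSeries.coeff_zero_eq_constantCoeff_apply]
      have e4 : PowerSeries.coeff n (PowerSeries.X ^ (n + n) * (c * B ^ 2)) = 0 := by
        rw [PowerSeries.coeff_X_pow_mul', if_neg (by omega)]
      rw [hdec, hc, map_add, map_add, e1, e2, e3, e4, add_zero, ← hdec]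
    have hne : (p : k) * PowerSeries.coeff 0 U ^ (p - 1) ≠ 0 :=
      mul_ne_zero hp (pow_ne_zero _ hU0)
    have hmem : (p : k) * PowerSeries.coeff 0 U ^ (p - 1) ∈ S :=
      S.mul_mem (natCast_mem S p) (S.pow_mem hU0S _)
    have h2 : PowerSeries.coeff n U =
        ((p : k) * PowerSeries.coeff 0 U ^ (p - 1))⁻¹ *
          (PowerSeries.coeff n (U ^ p) - PowerSeries.coeff n (A ^ p)) := by
      rw [h1]
      field_simp
      ring
    rw [h2]
    exact S.mul_mem (S.inv_mem hmem)
      (S.sub_mem (hUp n) ((m59dlr_psSub S).pow_mem hAS p n))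

end PS

section Laurent

variable {k : Type*} [Field k]

theorem m59dlr_coeff_const_mul (e : k) (Z : LaurentSeries k) (n : ℤ) :
    (algebraMap k (LaurentSeries k) e * Z).coeff n = e * Z.coeff n := by
  rw [algebraMap_laurentSeries_eq_single]
  have h := HahnSeries.coeff_single_mul_add (r := e) (x := Z) (a := n) (b := (0 : ℤ))
  rwa [add_zero] at h

/-- **`p`-th roots descend (Laurent series).** If `X` has leading coefficient `1`, `p ≠ 0` in `k`
and all coefficients of `e · X ^ p` lie in the subfield `S`, then `e ∈ S` and all coefficients of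
`X` lie in `S`. -/
theorem m59dlr_laurent_root (S : Subfield k) (p : ℕ) (hp : (p : k) ≠ 0) (X : LaurentSeries k)
    (e : k) (he : e ≠ 0) (hX1 : X.coeff X.order = 1)
    (h : ∀ n, (algebraMap k (LaurentSeries k) e * X ^ p).coeff n ∈ S) :
    e ∈ S ∧ ∀ n, X.coeff n ∈ S := by
  set m : ℤ := X.order with hm
  set U : PowerSeries k := X.powerSeriesPart with hU
  have hXU : X = HahnSeries.single m (1 : k) * HahnSeries.ofPowerSeries ℤ k U :=
    (LaurentSeries.single_order_mul_powerSeriesPart X).symm
  have hU0 : PowerSeries.coeff 0 U = 1 := by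
    rw [hU, LaurentSeries.powerSeriesPart_coeff, Nat.cast_zero, add_zero]
    exact hX1
  have hXp : X ^ p = HahnSeries.single (p • m) (1 : k) * HahnSeries.ofPowerSeries ℤ k (U ^ p) := by
    conv_lhs => rw [hXU]
    rw [mul_pow, HahnSeries.single_pow, one_pow, map_pow]
  have key : ∀ n : ℕ, (algebraMap k (LaurentSeries k) e * X ^ p).coeff ((n : ℤ) + p • m) =
      e * PowerSeries.coeff n (U ^ p) := by
    intro n
    rw [m59dlr_coeff_const_mul, hXp, HahnSeries.coeff_single_mul_add, one_mul,
      HahnSeries.ofPowerSeries_apply_coeff]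
  have hUp0 : PowerSeries.coeff 0 (U ^ p) = 1 := by
    rw [PowerSeries.coeff_zero_eq_constantCoeff_apply, map_pow,
      ← PowerSeries.coeff_zero_eq_constantCoeff_apply, hU0, one_pow]
  have heS : e ∈ S := by
    have h0 := h (((0 : ℕ) : ℤ) + p • m)
    rw [key 0, hUp0, mul_one] at h0
    exact h0
  have hUpS : U ^ p ∈ m59dlr_psSub S := by
    intro n
    have hn := h ((n : ℤ) + p • m)
    rw [key n] at hn
    have : PowerSeries.coeff n (U ^ p) = e⁻¹ * (e * PowerSeries.coeff n (U ^ p)) := by
      rw [← mul_assoc, inv_mul_cancel₀ he, one_mul]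
    rw [this]
    exact S.mul_mem (S.inv_mem heS) hn
  have hUS : U ∈ m59dlr_psSub S :=
    m59dlr_ps_root S p hp U (by rw [hU0]; exact one_ne_zero) (by rw [hU0]; exact S.one_mem) hUpS
  refine ⟨heS, fun l => ?_⟩
  by_cases hl : l < m
  · rw [HahnSeries.coeff_eq_zero_of_lt_order hl]
    exact S.zero_mem
  · have hl' : 0 ≤ l - m := by omega
    obtain ⟨n, hn⟩ := Int.eq_ofNat_of_zero_le hl'
    have : l = m + n := by omega
    rw [this, hm, ← LaurentSeries.powerSeriesPart_coeff]
    exact hUS n

end Laurent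

section Desc

variable {k1 k : Type*} [Field k1] [Field k] (κ : k1 →+* k)

/-- coefficientwise application of an additive map. -/
def m59dlr_cw (φ : k →+ k1) (Y : LaurentSeries k) : LaurentSeries k1 := Y.map φ

theorem m59dlr_cw_coeff (φ : k →+ k1) (Y : LaurentSeries k) (n : ℤ) :
    (m59dlr_cw φ Y).coeff n = φ (Y.coeff n) := rfl

theorem m59dlr_cw_zero (φ : k →+ k1) : m59dlr_cw φ (0 : LaurentSeries k) = 0 := by
  ext n
  rw [m59dlr_cw_coeff, HahnSeries.coeff_zero, map_zero, HahnSeries.coeff_zero]

theorem m59dlr_cw_add (φ : k →+ k1) (Y Z : LaurentSeries k) :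
    m59dlr_cw φ (Y + Z) = m59dlr_cw φ Y + m59dlr_cw φ Z := by
  ext n
  rw [m59dlr_cw_coeff, HahnSeries.coeff_add, map_add, HahnSeries.coeff_add, m59dlr_cw_coeff,
    m59dlr_cw_coeff]

theorem m59dlr_cw_neg (φ : k →+ k1) (Y : LaurentSeries k) :
    m59dlr_cw φ (-Y) = -m59dlr_cw φ Y := by
  ext n
  rw [m59dlr_cw_coeff, HahnSeries.coeff_neg, map_neg, HahnSeries.coeff_neg, m59dlr_cw_coeff]

/-- `cw φ` is `k1((t))`-linear when `φ` is `k1`-linear. -/
theorem m59dlr_cw_mul (φ : k →+ k1) (hφ : ∀ c a, φ (κ c * a) = c * φ a) (x : LaurentSeries k1)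
    (Y : LaurentSeries k) : m59dlr_cw φ (coeffMap κ x * Y) = x * m59dlr_cw φ Y := by
  ext a
  rw [m59dlr_cw_coeff]
  have hs1 : (coeffMap κ x).support ⊆ x.support := by
    intro i hi
    rw [HahnSeries.mem_support] at hi ⊢
    intro h0
    apply hi
    rw [coeffMap_coeff, h0, map_zero]
  have hs2 : (m59dlr_cw φ Y).support ⊆ Y.support := by
    intro i hi
    rw [HahnSeries.mem_support] at hi ⊢
    intro h0
    apply hi
    rw [m59dlr_cw_coeff, h0, map_zero]
  rw [HahnSeries.coeff_mul_left' x.isPWO_support hs1,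
    HahnSeries.coeff_mul_right' Y.isPWO_support hs2, map_sum]
  refine Finset.sum_congr rfl fun ij _ => ?_
  rw [coeffMap_coeff, hφ, m59dlr_cw_coeff]

theorem m59dlr_coeffMap_algebraMap (c : k1) :
    coeffMap κ (algebraMap k1 (LaurentSeries k1) c) = algebraMap k (LaurentSeries k) (κ c) := by
  rw [algebraMap_laurentSeries_eq_single, algebraMap_laurentSeries_eq_single, coeffMap_single]

/-- **Linear disjointness, element form.** Let `F1` be a subfield of `k1((t))` containing `k1` and
a set `G1`; let `F := k(coeffMap κ '' G1) ⊆ k((t))`. A series `x ∈ k1((t))` whose image lies in `F`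
lies in `F1`. -/
theorem m59dlr_descend (F1 : IntermediateField k1 (LaurentSeries k1))
    (G1 : Set (LaurentSeries k1)) (hG : G1 ⊆ F1) (x : LaurentSeries k1)
    (hx : coeffMap κ x ∈ IntermediateField.adjoin k (⇑(coeffMap κ) '' G1)) : x ∈ F1 := by
  classical
  set T : AddSubgroup (LaurentSeries k) :=
    AddSubgroup.closure {z | ∃ (b : k) (m : LaurentSeries k1), m ∈ F1 ∧
      z = algebraMap k (LaurentSeries k) b * coeffMap κ m} with hT
  have hgen : ∀ (b : k) (m : LaurentSeries k1), m ∈ F1 →
      algebraMap k (LaurentSeries k) b * coeffMap κ m ∈ T := fun b m hm =>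
    AddSubgroup.subset_closure ⟨b, m, hm, rfl⟩
  have hTmul1 : ∀ (b : k) (m : LaurentSeries k1), m ∈ F1 → ∀ z ∈ T,
      algebraMap k (LaurentSeries k) b * coeffMap κ m * z ∈ T := by
    intro b m hm z hz
    induction hz using AddSubgroup.closure_induction with
    | mem z hz =>
      obtain ⟨b', m', hm', rfl⟩ := hz
      have : algebraMap k (LaurentSeries k) b * coeffMap κ m *
          (algebraMap k (LaurentSeries k) b' * coeffMap κ m') =
          algebraMap k (LaurentSeries k) (b * b') * coeffMap κ (m * m') := by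
        rw [map_mul, map_mul]
        ring
      rw [this]
      exact hgen _ _ (F1.mul_mem hm hm')
    | zero =>
      rw [mul_zero]
      exact T.zero_mem
    | add x y _ _ hx hy =>
      rw [mul_add]
      exact T.add_mem hx hy
    | neg x _ hx =>
      rw [mul_neg]
      exact T.neg_mem hx
  have hTmul : ∀ a ∈ T, ∀ z ∈ T, a * z ∈ T := by
    intro a ha z hz
    induction ha using AddSubgroup.closure_induction with
    | mem a ha =>
      obtain ⟨b, m, hm, rfl⟩ := ha
      exact hTmul1 b m hm z hz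
    | zero =>
      rw [zero_mul]
      exact T.zero_mem
    | add x y _ _ hx hy =>
      rw [add_mul]
      exact T.add_mem hx hy
    | neg x _ hx =>
      rw [neg_mul]
      exact T.neg_mem hx
  have hAdj : ∀ z ∈ Algebra.adjoin k (⇑(coeffMap κ) '' G1), z ∈ T := by
    intro z hz
    induction hz using Algebra.adjoin_induction with
    | mem z hz =>
      obtain ⟨g, hg, rfl⟩ := hz
      have := hgen 1 g (hG hg)
      rwa [map_one, one_mul] at this
    | algebraMap r =>
      have := hgen r 1 F1.one_mem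
      rwa [map_one, mul_one] at this
    | add a b _ _ ha hb => exact T.add_mem ha hb
    | mul a b _ _ ha hb => exact hTmul a ha b hb
  have hcwT : ∀ z ∈ T, ∀ (φ : k →+ k1), (∀ c a, φ (κ c * a) = c * φ a) →
      m59dlr_cw φ z ∈ F1 := by
    intro z hz φ hφ
    induction hz using AddSubgroup.closure_induction with
    | mem z hz =>
      obtain ⟨b, m, hm, rfl⟩ := hz
      have : m59dlr_cw φ (algebraMap k (LaurentSeries k) b * coeffMap κ m) =
          algebraMap k1 (LaurentSeries k1) (φ b) * m := by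
        ext n
        rw [m59dlr_cw_coeff, m59dlr_coeff_const_mul, coeffMap_coeff, m59dlr_coeff_const_mul,
          mul_comm b, hφ, mul_comm]
      rw [this]
      exact F1.mul_mem (F1.algebraMap_mem _) hm
    | zero =>
      rw [m59dlr_cw_zero]
      exact F1.zero_mem
    | add a b _ _ ha hb =>
      rw [m59dlr_cw_add]
      exact F1.add_mem ha hb
    | neg a _ ha =>
      rw [m59dlr_cw_neg]
      exact F1.neg_mem ha
  obtain ⟨r, hr, s, hs, hxrs⟩ := IntermediateField.mem_adjoin_iff_div.1 hx
  have hinj := dsc_coeffMap_injective κ.injective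
  by_cases hs0 : s = 0
  · have : x = 0 := by
      apply hinj
      rw [hxrs, hs0, div_zero, map_zero]
    rw [this]
    exact F1.zero_mem
  · have hmul : coeffMap κ x * s = r := by
      rw [hxrs]
      field_simp
    obtain ⟨n, hn⟩ : ∃ n, s.coeff n ≠ 0 := by
      by_contra hcon
      apply hs0
      ext n
      rw [HahnSeries.coeff_zero]
      by_contra hne
      exact hcon ⟨n, hne⟩
    letI : Algebra k1 k := κ.toAlgebra
    obtain ⟨ψ, hψ⟩ : ∃ ψ : Module.Dual k1 k, ψ (s.coeff n) ≠ 0 := by
      by_contra hcon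
      refine hn ((Module.forall_dual_apply_eq_zero_iff k1 _).1 fun ψ => ?_)
      by_contra hne
      exact hcon ⟨ψ, hne⟩
    let φ : k →+ k1 := ψ.toAddMonoidHom
    have hφ : ∀ c a, φ (κ c * a) = c * φ a := fun c a => by
      show ψ (κ c * a) = c * ψ a
      have : κ c * a = c • a := (Algebra.smul_def c a).symm
      rw [this, map_smul, smul_eq_mul]
    have h1 := m59dlr_cw_mul κ φ hφ x s
    rw [hmul] at h1
    have hs' : m59dlr_cw φ s ≠ 0 := by
      intro h0
      apply hψ
      have h2 : (m59dlr_cw φ s).coeff n = (0 : LaurentSeries k1).coeff n := by rw [h0]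
      rw [m59dlr_cw_coeff, HahnSeries.coeff_zero] at h2
      exact h2
    have hx' : x = m59dlr_cw φ r / m59dlr_cw φ s := by
      rw [h1]
      field_simp
    rw [hx']
    exact F1.div_mem (hcwT r (hAdj r hr) φ hφ) (hcwT s (hAdj s hs) φ hφ)

/-- **[RES-DESC], abstract form.** `k1 → k` fields, `p ≠ 0` in `k`, `F1 ⊆ k1((t))` a subfield
containing `k1` and `G1`, `F = k(coeffMap κ '' G1)`. If `coeffMap κ r = b · H ^ p` with `H ∈ F` and
`r ≠ 0`, then `r = c · h1 ^ p` with `c ∈ k1ˣ` and `h1 ∈ F1`. -/
theorem m59dlr_resDesc_abs (F1 : IntermediateField k1 (LaurentSeries k1))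
    (G1 : Set (LaurentSeries k1)) (hG : G1 ⊆ F1) (p : ℕ) (hp : (p : k) ≠ 0)
    (r : LaurentSeries k1) (hr0 : r ≠ 0) (b : k) (H : LaurentSeries k)
    (hH : H ∈ IntermediateField.adjoin k (⇑(coeffMap κ) '' G1))
    (h : coeffMap κ r = algebraMap k (LaurentSeries k) b * H ^ p) :
    ∃ (c : k1) (h1 : LaurentSeries k1), c ≠ 0 ∧ h1 ∈ F1 ∧ h1 ≠ 0 ∧
      r = algebraMap k1 (LaurentSeries k1) c * h1 ^ p := by
  have hinj := dsc_coeffMap_injective κ.injective
  have hp0 : p ≠ 0 := by
    rintro rfl
    exact hp (by simp)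
  have hcr0 : coeffMap κ r ≠ 0 := fun h0 => hr0 (hinj (by rw [h0, map_zero]))
  have hb0 : b ≠ 0 := by
    rintro rfl
    rw [map_zero, zero_mul] at h
    exact hcr0 h
  have hH0 : H ≠ 0 := by
    rintro rfl
    rw [zero_pow hp0, mul_zero] at h
    exact hcr0 h
  set a : k := H.coeff H.order with ha
  have ha0 : a ≠ 0 := fun h0 => hH0 (HahnSeries.coeff_order_eq_zero.1 h0)
  set X : LaurentSeries k := algebraMap k (LaurentSeries k) a⁻¹ * H with hX
  have hXord : X.order = H.order := by
    rw [hX, algebraMap_laurentSeries_eq_single,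
      HahnSeries.order_single_mul_of_isRegular (isUnit_iff_ne_zero.2 (inv_ne_zero ha0)).isRegular hH0,
      zero_add]
  have hX1 : X.coeff X.order = 1 := by
    rw [hXord, hX, m59dlr_coeff_const_mul, ← ha, inv_mul_cancel₀ ha0]
  set e : k := b * a ^ p with he
  have he0 : e ≠ 0 := mul_ne_zero hb0 (pow_ne_zero _ ha0)
  have hh : coeffMap κ r = algebraMap k (LaurentSeries k) e * X ^ p := by
    rw [h, hX, mul_pow, ← map_pow, ← mul_assoc, ← map_mul]
    congr 2
    rw [he, inv_pow, mul_assoc, mul_inv_cancel₀ (pow_ne_zero _ ha0), mul_one]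
  obtain ⟨heS, hXS⟩ := m59dlr_laurent_root κ.fieldRange p hp X e he0 hX1 (fun n => by
    rw [← hh, coeffMap_coeff]
    exact ⟨_, rfl⟩)
  obtain ⟨c, hc⟩ := heS
  obtain ⟨H1, hH1⟩ := dsc_exists_coeffMap_eq κ X (fun n => by
    obtain ⟨y, hy⟩ := hXS n
    exact ⟨y, hy⟩)
  have hH1F : H1 ∈ F1 := by
    apply m59dlr_descend κ F1 G1 hG
    rw [hH1, hX]
    exact mul_mem (IntermediateField.algebraMap_mem _ _) hH
  have hr : r = algebraMap k1 (LaurentSeries k1) c * H1 ^ p := by
    apply hinj
    rw [map_mul, map_pow, hH1, m59dlr_coeffMap_algebraMap, hc, hh]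
  refine ⟨c, H1, ?_, hH1F, ?_, hr⟩
  · rintro rfl
    rw [map_zero, zero_mul] at hr
    exact hr0 hr
  · rintro rfl
    rw [zero_pow hp0, mul_zero] at hr
    exact hr0 hr

end Desc

end Fermat.Agent.M59
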