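/-
Project M59, Sink B, cell (G2') [DELTA-C], (C5) [RES-DESC] (helper22; tag `m59dlr_`), part 2:
THE INSTANCE — `m59dlr_resDesc : m59dl_ResDesc_stmt` (the literal Prop of `Delta/SeamsC.lean`).

`O1 := A ∩ L1`, `k1 := κ(O1)`, `kA := κ(A)`, `κ : k1 → kA`; `E1 := lg_E L1 (N₀ q) = F_{M q}(L1)`.

* `m59dlr_resField E` : the residues of the Gauss-bounded elements of a subfield `E ⊆ K((t))`, as an
  intermediate field of `κ(O)((t)) / κ(O)`;
* `m59dlr_resDesc`    : from `red rC = C κ̄ · h̄ ^ p` over `kA` (`h̄ ∈ F_M(kA)`), by the abstract descent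
  `m59dlr_resDesc_abs` with `F1 := m59dlr_resField E1`, `G1 := {j̄(q^d) : d ∣ M}`
  (`coeffMap κ '' G1` generates `F_M(kA)`), `red rC = C c · h1 ^ p` with `c ∈ k1ˣ`, `h1 = red w1`,
  `w1 ∈ E1`; any unit lift `κ` of `c` does it.
-/
import Mathlib
import Fermat.Agent.M59.SinkB.Delta.SeamsC
import Fermat.Agent.M59.SinkB.Delta.ResDescAbs

set_option autoImplicit false
set_option linter.unusedSectionVars false
set_option linter.unusedVariables false
set_option linter.style.haveILetI false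
set_option synthInstance.maxHeartbeats 400000
set_option maxHeartbeats 1000000

noncomputable section

namespace Fermat.Agent.M59

open ModularCurve AlgebraicCurve IntermediateField IsLocalRing
open Fermat.Agent.JT3 Fermat.Agent.SS Fermat.Agent.S35 Fermat.Agent.S24 Fermat.Agent.S28
open Fermat.Agent.MZ Fermat.Agent.S44 Fermat.Agent.S36 Fermat.Agent.SS2

local notation "Qb" => AlgebraicClosure ℚ

section ResField

variable {O : Type*} [CommRing O] [IsDomain O] [IsLocalRing O]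
variable {K : Type*} [Field K] [Algebra O K] [IsFractionRing O K]

/-- the residues of the Gauss-bounded elements of a subfield `E ⊆ K((t))`, as a set. -/
def m59dlr_resSet (E : IntermediateField K (LaurentSeries K)) :
    Set (LaurentSeries (ResidueField O)) :=
  {z | ∃ (w : LaurentSeries K) (hw : gq_IsBdd O K w), w ∈ E ∧ gq_res O K ⟨w, hw⟩ = z}

variable (E : IntermediateField K (LaurentSeries K))

theorem m59dlr_resSet_mul {x y : LaurentSeries (ResidueField O)}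
    (hx : x ∈ m59dlr_resSet (O := O) E) (hy : y ∈ m59dlr_resSet (O := O) E) :
    x * y ∈ m59dlr_resSet (O := O) E := by
  obtain ⟨a, ha, haE, rfl⟩ := hx
  obtain ⟨b, hb, hbE, rfl⟩ := hy
  refine ⟨a * b, (gq_bddSubring O K).mul_mem ha hb, E.mul_mem haE hbE, ?_⟩
  rw [← map_mul]
  rfl

theorem m59dlr_resSet_add {x y : LaurentSeries (ResidueField O)}
    (hx : x ∈ m59dlr_resSet (O := O) E) (hy : y ∈ m59dlr_resSet (O := O) E) :
    x + y ∈ m59dlr_resSet (O := O) E := by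
  obtain ⟨a, ha, haE, rfl⟩ := hx
  obtain ⟨b, hb, hbE, rfl⟩ := hy
  refine ⟨a + b, (gq_bddSubring O K).add_mem ha hb, E.add_mem haE hbE, ?_⟩
  rw [← map_add]
  rfl

theorem m59dlr_resSet_zero : (0 : LaurentSeries (ResidueField O)) ∈ m59dlr_resSet (O := O) E := by
  refine ⟨0, (gq_bddSubring O K).zero_mem, E.zero_mem, ?_⟩
  rw [← map_zero (gq_res O K)]
  rfl

theorem m59dlr_resSet_one : (1 : LaurentSeries (ResidueField O)) ∈ m59dlr_resSet (O := O) E := by
  refine ⟨1, (gq_bddSubring O K).one_mem, E.one_mem, ?_⟩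
  rw [← map_one (gq_res O K)]
  rfl

theorem m59dlr_resSet_algebraMap (c : ResidueField O) :
    algebraMap (ResidueField O) (LaurentSeries (ResidueField O)) c ∈
      m59dlr_resSet (O := O) E := by
  obtain ⟨a, rfl⟩ := residue_surjective c
  refine ⟨((gq_constHom O K a : ↥(gq_bddSubring O K)) : LaurentSeries K), (gq_constHom O K a).2,
    E.algebraMap_mem _, ?_⟩
  rw [← gq_res_constHom (K := K) a]

theorem m59dlr_resSet_inv {x : LaurentSeries (ResidueField O)}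
    (hx : x ∈ m59dlr_resSet (O := O) E) : x⁻¹ ∈ m59dlr_resSet (O := O) E := by
  obtain ⟨a, ha, haE, rfl⟩ := hx
  by_cases h0 : gq_res O K ⟨a, ha⟩ = 0
  · rw [h0, inv_zero]
    exact m59dlr_resSet_zero E
  · have hinv : gq_IsBdd O K a⁻¹ := gq_isBdd_inv_of_res_ne_zero ⟨a, ha⟩ h0
    refine ⟨a⁻¹, hinv, E.inv_mem haE, ?_⟩
    have ha0 : a ≠ 0 := by
      rintro rfl
      apply h0
      rw [← map_zero (gq_res O K)]
      rfl
    have hmul : (⟨a, ha⟩ : ↥(gq_bddSubring O K)) * ⟨a⁻¹, hinv⟩ = 1 :=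
      Subtype.ext (mul_inv_cancel₀ ha0)
    have h1 := congrArg (gq_res O K) hmul
    rw [map_mul, map_one] at h1
    exact eq_inv_of_mul_eq_one_right h1

/-- the residues of the Gauss-bounded elements of a subfield `E ⊆ K((t))`. -/
def m59dlr_resField : IntermediateField (ResidueField O) (LaurentSeries (ResidueField O)) where
  carrier := m59dlr_resSet (O := O) E
  mul_mem' := fun hx hy => m59dlr_resSet_mul E hx hy
  one_mem' := m59dlr_resSet_one E
  add_mem' := fun hx hy => m59dlr_resSet_add E hx hy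
  zero_mem' := m59dlr_resSet_zero E
  algebraMap_mem' := fun c => m59dlr_resSet_algebraMap E c
  inv_mem' := fun _ hx => m59dlr_resSet_inv E hx

theorem m59dlr_mem_resField {z : LaurentSeries (ResidueField O)} :
    z ∈ m59dlr_resField (O := O) E ↔
      ∃ (w : LaurentSeries K) (hw : gq_IsBdd O K w), w ∈ E ∧ gq_res O K ⟨w, hw⟩ = z := Iff.rfl

end ResField

/-- **(C5) [RES-DESC]**: the literal Prop `m59dl_ResDesc_stmt` of `Delta/SeamsC.lean`. -/
theorem m59dlr_resDesc : m59dl_ResDesc_stmt := by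
  intro A q _ _ hA M _ hqM L1 _ _ π hπ N₀ _ hlev p hp hpq rC hC g hg hg0 hex
  obtain ⟨κb, hb, hgb⟩ := hex
  -- the residue field `F1` of the Gauss ring of `E1`, and the generators of level `M`
  have hG : divisorExpansionsC (ResidueField ↥(A.comap (algebraMap ↥L1 Qb))) M ⊆
      ((m59dlr_resField (O := ↥(A.comap (algebraMap ↥L1 Qb))) (lg_E ↥L1 (N₀ * q)) :
        IntermediateField _ _) : Set (LaurentSeries _)) := by
    rintro _ ⟨d, hd, hdM, rfl⟩
    haveI := hd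
    have e : qExpand ↥L1 d (jqModC ↥L1) =
        coeffMap (algebraMap ↥(A.comap (algebraMap ↥L1 Qb)) ↥L1)
          (qExpand ↥(A.comap (algebraMap ↥L1 Qb)) d (jqModC ↥(A.comap (algebraMap ↥L1 Qb)))) := by
      rw [coeffMap_qExpand, coeffMap_jqModC]
    have hbd : gq_IsBdd ↥(A.comap (algebraMap ↥L1 Qb)) ↥L1 (qExpand ↥L1 d (jqModC ↥L1)) := by
      rw [e]
      exact gq_isBdd_iota _
    refine ⟨qExpand ↥L1 d (jqModC ↥L1), hbd, ?_, ?_⟩
    · rw [m59dl_E_eq ↥L1 (N₀ * q) (M * q) hlev, ← lg_F_eq_laurentBaseChange]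
      exact jqModCd_mem_full ↥L1 (M * q) (hdM.mul_right q)
    · rw [rdn_res_congr hbd (gq_isBdd_iota _) e, gq_res_iota, coeffMap_qExpand, coeffMap_jqModC]
  have himg : ⇑(coeffMap (ssm_gb_kappa (algebraMap ↥L1 Qb) (A.comap (algebraMap ↥L1 Qb)) A
      (fun _ => Iff.rfl))) '' divisorExpansionsC (ResidueField ↥(A.comap (algebraMap ↥L1 Qb))) M =
      divisorExpansionsC (ResidueField ↥A) M := by
    ext z
    constructor
    · rintro ⟨_, ⟨d, hd, hdM, rfl⟩, rfl⟩
      haveI := hd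
      exact ⟨d, hd, hdM, by rw [coeffMap_qExpand, coeffMap_jqModC]⟩
    · rintro ⟨d, hd, hdM, rfl⟩
      haveI := hd
      exact ⟨_, ⟨d, hd, hdM, rfl⟩, by rw [coeffMap_qExpand, coeffMap_jqModC]⟩
  -- `p ≠ 0` in `kA`
  have hpk : ((p : ℕ) : ResidueField ↥A) ≠ 0 := by
    have h1 : ((p : ℕ) : ResidueField ↥(A.comap (algebraMap ↥L1 Qb))) ≠ 0 := by
      intro h0
      rw [CharP.cast_eq_zero_iff (ResidueField ↥(A.comap (algebraMap ↥L1 Qb))) q] at h0
      exact hpq ((Nat.prime_dvd_prime_iff_eq (Fact.out : q.Prime) hp).1 h0).symm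
    intro h0
    apply h1
    apply (ssm_gb_kappa (algebraMap ↥L1 Qb) (A.comap (algebraMap ↥L1 Qb)) A
      (fun _ => Iff.rfl)).injective
    rw [map_natCast, h0, map_zero]
  -- the residue of `rC`
  have hr0 : gq_res ↥(A.comap (algebraMap ↥L1 Qb)) ↥L1
      ⟨((rC : ↥(lg_E ↥L1 (N₀ * q))) : LaurentSeries ↥L1), hC⟩ ≠ 0 := by
    intro h0
    apply hg0
    apply Subtype.ext
    rw [hg, h0, map_zero]
    rfl
  have hH : ((hb : ↥(s44e_FF A M)) : LaurentSeries (ResidueField ↥A)) ∈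
      IntermediateField.adjoin (ResidueField ↥A)
        (⇑(coeffMap (ssm_gb_kappa (algebraMap ↥L1 Qb) (A.comap (algebraMap ↥L1 Qb)) A
          (fun _ => Iff.rfl))) ''
            divisorExpansionsC (ResidueField ↥(A.comap (algebraMap ↥L1 Qb))) M) := by
    rw [himg]
    exact hb.2
  have hdec : coeffMap (ssm_gb_kappa (algebraMap ↥L1 Qb) (A.comap (algebraMap ↥L1 Qb)) A
      (fun _ => Iff.rfl)) (gq_res ↥(A.comap (algebraMap ↥L1 Qb)) ↥L1
        ⟨((rC : ↥(lg_E ↥L1 (N₀ * q))) : LaurentSeries ↥L1), hC⟩) =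
      algebraMap (ResidueField ↥A) (LaurentSeries (ResidueField ↥A)) κb *
        ((hb : ↥(s44e_FF A M)) : LaurentSeries (ResidueField ↥A)) ^ p := by
    rw [← hg, hgb]
    rfl
  obtain ⟨c, h1, hc0, hh1F, hh10, hr⟩ := m59dlr_resDesc_abs
    (ssm_gb_kappa (algebraMap ↥L1 Qb) (A.comap (algebraMap ↥L1 Qb)) A (fun _ => Iff.rfl))
    (m59dlr_resField (O := ↥(A.comap (algebraMap ↥L1 Qb))) (lg_E ↥L1 (N₀ * q)))
    (divisorExpansionsC (ResidueField ↥(A.comap (algebraMap ↥L1 Qb))) M) hG p hpk _ hr0 κb _ hH hdec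
  obtain ⟨w, hwb, hwE, hwres⟩ := hh1F
  obtain ⟨a, rfl⟩ := residue_surjective c
  have ha : IsUnit a := by
    by_contra hna
    apply hc0
    rw [residue_eq_zero_iff]
    exact (mem_maximalIdeal a).2 hna
  -- the residue of `w` is nonzero: `w` is a unit of `V1`
  have hwnu : (⟨w, hwE⟩ : ↥(lg_E ↥L1 (N₀ * q))) ∉
      (ssm_gl_V1 (A.comap (algebraMap ↥L1 Qb)) hπ N₀ q).nonunits := by
    intro hnu
    apply hh10
    rw [← hwres]
    exact (gq_mem_nonunits_iff_res π hπ.ne_zero hπ.maximalIdeal_eq (lg_E ↥L1 (N₀ * q))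
      (ssm_ga_E_le_quotField (A.comap (algebraMap ↥L1 Qb)) (N₀ * q)) ⟨w, hwE⟩ hwb).1 hnu
  have hwmem : (⟨w, hwE⟩ : ↥(lg_E ↥L1 (N₀ * q))) ∈
      ssm_gl_V1 (A.comap (algebraMap ↥L1 Qb)) hπ N₀ q := hwb
  refine ⟨((a : ↥(A.comap (algebraMap ↥L1 Qb))) : ↥L1), ⟨w, hwE⟩, ?_, ?_, ?_⟩
  · exact (ValuationSubring.valuation_eq_one_iff (A.comap (algebraMap ↥L1 Qb)) a).1 ha
  · refine le_antisymm ((ValuationSubring.valuation_le_one_iff _ _).2 hwmem) (not_lt.1 fun hlt => ?_)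
    exact hwnu ((ValuationSubring.mem_nonunits_iff _).2 hlt)
  · -- the difference has residue zero
    set z : ↥(gq_bddSubring ↥(A.comap (algebraMap ↥L1 Qb)) ↥L1) :=
      ⟨((rC : ↥(lg_E ↥L1 (N₀ * q))) : LaurentSeries ↥L1), hC⟩ -
        gq_constHom ↥(A.comap (algebraMap ↥L1 Qb)) ↥L1 a * ⟨w, hwb⟩ ^ p with hz
    have hzres : gq_res ↥(A.comap (algebraMap ↥L1 Qb)) ↥L1 z = 0 := by
      rw [hz, map_sub, map_mul, map_pow, gq_res_constHom, hwres, ← hr, sub_self]
    have hzb : gq_IsBdd ↥(A.comap (algebraMap ↥L1 Qb)) ↥L1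
        (((rC - algebraMap ↥L1 ↥(lg_E ↥L1 (N₀ * q))
          ((a : ↥(A.comap (algebraMap ↥L1 Qb))) : ↥L1) * (⟨w, hwE⟩ : ↥(lg_E ↥L1 (N₀ * q))) ^ p :
            ↥(lg_E ↥L1 (N₀ * q))) : ↥(lg_E ↥L1 (N₀ * q))) : LaurentSeries ↥L1) := z.2
    refine (gq_mem_nonunits_iff_res π hπ.ne_zero hπ.maximalIdeal_eq (lg_E ↥L1 (N₀ * q))
      (ssm_ga_E_le_quotField (A.comap (algebraMap ↥L1 Qb)) (N₀ * q)) _ hzb).2 ?_
    exact hzres

end Fermat.Agent.M59
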