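/-
Project M59, Sink B (`m59t_Eq2_stmt`), cell (G2') [DELTA] (helper17; tag `m59dl_`), part 15:
GLUE FOR THE WRAP OF `m59sb_DeltaC2_stmt`, I: `T_ℓ` OVER A LEVEL `L1`.

* `m59dl_TL L1 N ℓ`    : `T_ℓ = N_α ∘ β` on `F_N(L1)`;
* `m59dl_T_bc`         : base change `L1 → ℚ̄` of `T_ℓ` (`ℓ ∤ N`);
* `m59dl_eigenRel`     : (C1) the eigen-relation over `L1` for every function `x ∈ F_N(L1)` whose
  base change represents (up to a constant and a `p`-th power) an eigenclass `z ∈ J₀(N)[p]`;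
* `m59dl_places_congr` : transport of `p ∣ w.ord x` along an equality of intermediate fields.
-/
import Mathlib
import Fermat.Agent.M59.SinkB.Delta.MainC2
import Fermat.Agent.M59.SinkB.Delta.CExQ
import Fermat.Agent.SS2.DescPhi.Root
import Fermat.Agent.S35.DescU.NormBC

set_option autoImplicit false
set_option linter.unusedSectionVars false
set_option linter.unusedVariables false
set_option linter.style.haveILetI false
set_option synthInstance.maxHeartbeats 400000
set_option maxHeartbeats 1000000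

noncomputable section

namespace Fermat.Agent.M59

open ModularCurve AlgebraicCurve IntermediateField IsLocalRing
open Fermat.Agent.JT3 Fermat.Agent.SS Fermat.Agent.S35 Fermat.Agent.S24 Fermat.Agent.S28
open Fermat.Agent.MZ Fermat.Agent.S44 Fermat.Agent.S36 Fermat.Agent.SS2

local notation "Qb" => AlgebraicClosure ℚ

section TL

variable (L1 : Type) [Field L1] [Algebra ℚ L1] [Algebra L1 Qb] [IsScalarTower ℚ L1 Qb]
  (N ℓ : ℕ) [NeZero N] [NeZero ℓ]

/-- `T_ℓ = N_α ∘ β` on the functions of level `N` over `L1`. -/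
def m59dl_TL : laurentBaseChange L1 (modularFunctionFieldFull N) →*
    laurentBaseChange L1 (modularFunctionFieldFull N) where
  toFun x := s35pe_normAlong (heckeAlphaBar L1 N ℓ) (heckeBetaBar L1 N ℓ x)
  map_one' := by rw [map_one, map_one]
  map_mul' x y := by rw [map_mul, map_mul]

theorem m59dl_TL_apply (x : laurentBaseChange L1 (modularFunctionFieldFull N)) :
    m59dl_TL L1 N ℓ x = s35pe_normAlong (heckeAlphaBar L1 N ℓ) (heckeBetaBar L1 N ℓ x) := rfl

/-- **base change of `T_ℓ`** (`ℓ ∤ N`). -/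
theorem m59dl_T_bc (hℓ : ℓ.Prime) (hℓN : ¬ ℓ ∣ N)
    (x : laurentBaseChange L1 (modularFunctionFieldFull N)) :
    s44hr_T N ℓ (dsc_bcHom L1 Qb (modularFunctionFieldFull N) x) =
      dsc_bcHom L1 Qb (modularFunctionFieldFull N) (m59dl_TL L1 N ℓ x) := by
  rw [s44hr_T_apply, ← s36d_bc_beta L1 Qb N ℓ x, s35d_norm_bc_alpha N ℓ hℓ hℓN L1, m59dl_TL_apply]

end TL

section EigenRel

variable (L1 : Type) [Field L1] [Algebra ℚ L1] [Algebra L1 Qb] [IsScalarTower ℚ L1 Qb]
  (N : ℕ) [NeZero N]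

/-- **(C1) the eigen-relation over `L1`**: `bc x` represents `z` up to a constant and a `p`-th power,
`T_ℓ z = a • z` ⟹ `T_ℓ x = C a' · x ^ k · s ^ p` over `L1` with `k ≡ a (mod p)`. -/
theorem m59dl_eigenRel {p : ℕ} (hp : p.Prime) (ℓ : Nat.Primes) (hℓN : ¬ (ℓ : ℕ) ∣ N)
    {z : JZero N} (hz : p • z = 0) (a : ℤ) (heig : heckeOperatorBar N ℓ z = a • z)
    (x : laurentBaseChange L1 (modularFunctionFieldFull N))
    (hrep : s44f_Rep N p z (dsc_bcHom L1 Qb (modularFunctionFieldFull N) x)) :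
    haveI : NeZero (ℓ : ℕ) := ⟨ℓ.2.ne_zero⟩
    ∃ (k : ℕ) (a' : L1) (s : laurentBaseChange L1 (modularFunctionFieldFull N)),
      ((k : ℤ) - a) % (p : ℤ) = 0 ∧
      m59dl_TL L1 N (ℓ : ℕ) x =
        algebraMap L1 (laurentBaseChange L1 (modularFunctionFieldFull N)) a' * x ^ k * s ^ p := by
  haveI : NeZero (ℓ : ℕ) := ⟨ℓ.2.ne_zero⟩
  have hp0 : p ≠ 0 := hp.ne_zero
  have hpos : (0 : ℤ) < p := by exact_mod_cast Nat.pos_of_ne_zero hp0
  set k : ℕ := (a % p).toNat with hk
  have hkz : (k : ℤ) = a % p := Int.toNat_of_nonneg (Int.emod_nonneg a hpos.ne')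
  have ha1 : a = (k : ℤ) + (p : ℤ) * (a / p) := by
    rw [hkz]
    exact (Int.emod_add_mul_ediv a p).symm
  have hak : a • z = k • z := by
    conv_lhs => rw [ha1]
    rw [add_zsmul, mul_zsmul, natCast_zsmul, natCast_zsmul, smul_comm, hz, smul_zero, add_zero]
  have hT := s44hr_rep_hecke N p ℓ z _ hrep
  rw [heig, hak] at hT
  have hK := s44b_rep_pow N hrep k
  obtain ⟨c, r, hc0, hr0, e⟩ := s44b_rep_unique N hK hT
  rw [m59dl_T_bc L1 N (ℓ : ℕ) ℓ.2 hℓN x] at e
  have hx0 : x ≠ 0 := by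
    rintro rfl
    exact hrep.1 (map_zero _)
  -- descend the root
  have hdesc : dsc_bcHom L1 Qb (modularFunctionFieldFull N)
      (m59dl_TL L1 N (ℓ : ℕ) x * (x ^ k)⁻¹) =
      algebraMap Qb (laurentBaseChange Qb (modularFunctionFieldFull N)) c * r ^ p := by
    rw [map_mul, map_inv₀, map_pow, e]
    have h1 : dsc_bcHom L1 Qb (modularFunctionFieldFull N) x ^ k ≠ 0 := pow_ne_zero _ hrep.1
    field_simp
  obtain ⟨a', s, hs⟩ := ss2_dp_root_descent L1 (rt_isSepGen_jBar N) hp0 _ c r hdesc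
  refine ⟨k, a', s, ?_, ?_⟩
  · rw [hkz, Int.sub_emod, Int.emod_emod_of_dvd _ (dvd_refl _), sub_self, Int.zero_emod]
  · have h1 : x ^ k ≠ 0 := pow_ne_zero _ hx0
    have : m59dl_TL L1 N (ℓ : ℕ) x = m59dl_TL L1 N (ℓ : ℕ) x * (x ^ k)⁻¹ * x ^ k := by
      rw [mul_assoc, inv_mul_cancel₀ h1, mul_one]
    rw [this, hs]
    ring

end EigenRel

section Places

/-- transport of the divisibility of all orders along an equality of intermediate fields. -/
theorem m59dl_places_congr {K Ω : Type*} [Field K] [Field Ω] [Algebra K Ω]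
    {F F' : IntermediateField K Ω} (h : F = F') (p : ℤ) (x : ↥F) (x' : ↥F')
    (hx : (x : Ω) = (x' : Ω)) (hd : ∀ w : Place K ↥F, p ∣ w.ord x) :
    ∀ w : Place K ↥F', p ∣ w.ord x' := by
  subst h
  have : x = x' := Subtype.ext hx
  subst this
  exact hd

end Places

end Fermat.Agent.M59
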