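/-
Project M59, Sink B (`m59t_Eq2_stmt`), cell (G2') [DELTA] (helper17; tag `m59dl_`), part 16:
GLUE FOR THE WRAP OF `m59sb_DeltaC2_stmt`, II: THE EIGEN-RELATION WITH A `C`-ROOTED ROOT.

* `m59dl_val_one_of_pow`   : `v(x)^p = 1 ⟹ v(x) = 1`;
* `m59dl_normalise_root`   : in `y = C a' · x ^ k · s ^ p` with `x`, `y` units at `VA`, `VC`, the root
  `s` can be normalised to a unit at `VA`, `VC` (and then `a'` is a unit of `O`);
* `m59dl_hrel_one`         : for a unit `x` at `VA`, `VC` whose base change represents an eigenclass: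
  an eigen-relation `T_ℓ (bc x) = C c · (bc x) ^ k · r ^ p` over `ℚ̄` whose root `r` has a `C`-root
  (input `hrel` of `m59dl_mainCQ2`), from [HECKE-UNIT].
-/
import Mathlib
import Fermat.Agent.M59.SinkB.Delta.WrapC1
import Fermat.Agent.M59.SinkB.Delta.SeamsC

set_option autoImplicit false
set_option linter.unusedSectionVars false
set_option linter.unusedVariables false
set_option linter.style.haveILetI false
set_option synthInstance.maxHeartbeats 400000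
set_option maxHeartbeats 1000000

noncomputable section

namespace Fermat.Agent.M59

open ModularCurve AlgebraicCurve IntermediateField IsLocalRing
open Fermat.Agent.JT3 Fermat.Agent.SS Fermat.Agent.S35 Fermat.Agent.S24 Fermat.Agent.S28
open Fermat.Agent.MZ Fermat.Agent.S44 Fermat.Agent.S36 Fermat.Agent.SS2

local notation "Qb" => AlgebraicClosure ℚ

section Abs

theorem m59dl_val_one_of_pow {E : Type*} [Field E] (V : ValuationSubring E) (x : E) {p : ℕ}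
    (hp : p ≠ 0) (h : V.valuation x ^ p = 1) : V.valuation x = 1 := by
  rcases lt_trichotomy (V.valuation x) 1 with h1 | h1 | h1
  · exact absurd h (pow_lt_one₀ zero_le h1 hp).ne
  · exact h1
  · exact absurd h (one_lt_pow₀ h1 hp).ne'

/-- normalisation of the root of an eigen-relation between units. -/
theorem m59dl_normalise_root {L E : Type*} [Field L] [Field E] [Algebra L E]
    {O : ValuationSubring L} {VA VC : ValuationSubring E} {ϖ : L}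
    (hVA : ∀ c : L, algebraMap L E c ∈ VA ↔ c ∈ O) (hVC : ∀ c : L, algebraMap L E c ∈ VC ↔ c ∈ O)
    (hdec : ∀ x : E, x ≠ 0 → ∃ j : ℤ, VA.valuation (x * algebraMap L E ϖ ^ j) = 1) (hϖ : ϖ ≠ 0)
    {p : ℕ} (hp : p ≠ 0) {x y s : E} {a' : L} {k : ℕ}
    (hxA : VA.valuation x = 1) (hxC : VC.valuation x = 1) (hyA : VA.valuation y = 1)
    (hyC : VC.valuation y = 1) (e : y = algebraMap L E a' * x ^ k * s ^ p) :
    ∃ (a'' : L) (s' : E), a'' ≠ 0 ∧ O.valuation a'' = 1 ∧ VA.valuation s' = 1 ∧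
      VC.valuation s' = 1 ∧ y = algebraMap L E a'' * x ^ k * s' ^ p := by
  have hy0 : y ≠ 0 := by
    rintro rfl
    rw [map_zero] at hyA
    exact zero_ne_one hyA
  have hs0 : s ≠ 0 := by
    rintro rfl
    rw [zero_pow hp, mul_zero] at e
    exact hy0 e
  have ha0 : a' ≠ 0 := by
    rintro rfl
    rw [map_zero, zero_mul, zero_mul] at e
    exact hy0 e
  obtain ⟨j, hj⟩ := hdec s hs0
  have hc0 : ϖ ^ j ≠ 0 := zpow_ne_zero _ hϖ
  have hCc0 : algebraMap L E (ϖ ^ j) ≠ 0 := (map_ne_zero _).2 hc0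
  have hCc : algebraMap L E ϖ ^ j = algebraMap L E (ϖ ^ j) := (map_zpow₀ _ _ _).symm
  set a'' : L := a' * ((ϖ ^ j) ^ p)⁻¹ with ha''
  set s' : E := s * algebraMap L E (ϖ ^ j) with hs'
  have ha''0 : a'' ≠ 0 := mul_ne_zero ha0 (inv_ne_zero (pow_ne_zero _ hc0))
  have e' : y = algebraMap L E a'' * x ^ k * s' ^ p := by
    rw [e, ha'', hs', map_mul, map_inv₀, map_pow, mul_pow]
    have h1 : (algebraMap L E (ϖ ^ j) ^ p)⁻¹ * algebraMap L E (ϖ ^ j) ^ p = 1 :=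
      inv_mul_cancel₀ (pow_ne_zero p hCc0)
    linear_combination (-(algebraMap L E a' * x ^ k * s ^ p)) * h1
  have hs'A : VA.valuation s' = 1 := by rw [hs', ← hCc]; exact hj
  -- `C a''` is a unit at `VA`
  have hCaA : VA.valuation (algebraMap L E a'') = 1 := by
    have h1 := congrArg VA.valuation e'
    rw [map_mul, map_mul, map_pow, map_pow, hyA, hxA, hs'A, one_pow, one_pow, mul_one,
      mul_one] at h1
    exact h1.symm
  have hmem : a'' ∈ O := (hVA a'').1 ((VA.valuation_le_one_iff _).1 hCaA.le)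
  have hmem' : a''⁻¹ ∈ O := by
    apply (hVA _).1
    rw [map_inv₀]
    apply (VA.valuation_le_one_iff _).1
    rw [map_inv₀, hCaA, inv_one]
  have hO : O.valuation a'' = 1 := s36at_val_one_of_inv_mem ha''0 hmem hmem'
  have hCaC : VC.valuation (algebraMap L E a'') = 1 := by
    refine s36at_val_one_of_inv_mem ((map_ne_zero _).2 ha''0) ((hVC _).2 hmem) ?_
    rw [← map_inv₀]
    exact (hVC _).2 hmem'
  have hs'C : VC.valuation s' = 1 := by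
    have h1 := congrArg VC.valuation e'
    rw [map_mul, map_mul, map_pow, map_pow, hyC, hxC, hCaC, one_pow, one_mul, one_mul] at h1
    exact m59dl_val_one_of_pow VC s' hp h1.symm
  exact ⟨a'', s', ha''0, hO, hs'A, hs'C, e'⟩

end Abs

section HRel

variable (A : ValuationSubring Qb) {q : ℕ} [hq : Fact q.Prime] (hA : A.LiesOverPrime q)
  (M : ℕ) [NeZero M] [NeZero q] (hqM : ¬ q ∣ M)
  (L1 : IntermediateField ℚ Qb)
  [IsDiscreteValuationRing ↥(A.comap (algebraMap ↥L1 Qb))]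
  [CharP (ResidueField ↥(A.comap (algebraMap ↥L1 Qb))) q]
  {π : ↥(A.comap (algebraMap ↥L1 Qb))} (hπ : Irreducible π)
  (u : ↥(A.comap (algebraMap ↥L1 Qb))) (hu : IsUnit u)
  (hqu : ((q : ℕ) : ↥(A.comap (algebraMap ↥L1 Qb))) = π * u)
  (N₀ : ℕ) [NeZero N₀] (hq2 : ¬ 2 ∣ q) (hqN₀ : ¬ q ∣ N₀)
  (hlev1 : Nat.lcm 4 (2 * (N₀ * q)) = M * q) (hlev2 : Nat.lcm 4 (2 * (N₀ * q * q)) = M * q * q)

include hA hqM hu hqu hlev1 in
set_option maxHeartbeats 4000000 in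
/-- **the eigen-relation with a `C`-rooted root.** -/
theorem m59dl_hrel_one (hU : m59dl_HeckeUnit_stmt)
    {VC : ValuationSubring ↥(lg_E ↥L1 (N₀ * q * q))}
    (T3 : s36asm_Third (A.comap (algebraMap ↥L1 Qb)) hπ N₀ q hq2 hqN₀ VC)
    {p : ℕ} (hp : p.Prime) (ℓ : Nat.Primes) (hℓ : ¬ (ℓ : ℕ) ∣ M * q * q)
    {z : JZero (M * q * q)} (hz : p • z = 0) (a : ℤ)
    (heig : heckeOperatorBar (M * q * q) ℓ z = a • z)
    (x : ↥(lg_E ↥L1 (N₀ * q * q)))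
    (hxA : (s36i_VA (A.comap (algebraMap ↥L1 Qb)) hπ (N₀ * q) q).valuation x = 1)
    (hxC : VC.valuation x = 1)
    (hrep : s44f_Rep (M * q * q) p z (m59dl_bc2 M ↥L1 N₀ hlev2 x)) :
    haveI : NeZero (ℓ : ℕ) := ⟨ℓ.2.ne_zero⟩
    ∃ (c : Qb) (r : Fbar (M * q * q)) (k : ℕ) (h : ↥(s44e_FF A M)), c ≠ 0 ∧
      ((k : ℤ) - a) % (p : ℤ) = 0 ∧
      s44hr_T (M * q * q) ℓ (m59dl_bc2 M ↥L1 N₀ hlev2 x) =
        algebraMap Qb (Fbar (M * q * q)) c * m59dl_bc2 M ↥L1 N₀ hlev2 x ^ k * r ^ p ∧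
      m59dl_CRootQ A hA M hqM r h := by
  haveI : NeZero (ℓ : ℕ) := ⟨ℓ.2.ne_zero⟩
  have hp0 : p ≠ 0 := hp.ne_zero
  have hE := m59dl_E_eq ↥L1 (N₀ * q * q) (M * q * q) hlev2
  set eqv := IntermediateField.equivOfEq hE with heqv
  set x' : laurentBaseChange ↥L1 (modularFunctionFieldFull (M * q * q)) := eqv x with hx'
  have hbcx : m59dl_bc2 M ↥L1 N₀ hlev2 x =
      dsc_bcHom ↥L1 Qb (modularFunctionFieldFull (M * q * q)) x' := rfl
  rw [hbcx] at hrep ⊢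
  obtain ⟨k, a', s, hk, erel⟩ := m59dl_eigenRel ↥L1 (M * q * q) hp ℓ hℓ hz a heig x' hrep
  set y : ↥(lg_E ↥L1 (N₀ * q * q)) := eqv.symm (m59dl_TL ↥L1 (M * q * q) (ℓ : ℕ) x') with hy
  set sE : ↥(lg_E ↥L1 (N₀ * q * q)) := eqv.symm s with hsE
  have hxc : ((x : ↥(lg_E ↥L1 (N₀ * q * q))) : LaurentSeries ↥L1) = (x' : LaurentSeries ↥L1) := rfl
  have hyc : ((y : ↥(lg_E ↥L1 (N₀ * q * q))) : LaurentSeries ↥L1) =
      ((s35pe_normAlong (heckeAlphaBar ↥L1 (M * q * q) (ℓ : ℕ))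
        (heckeBetaBar ↥L1 (M * q * q) (ℓ : ℕ) x') :
          laurentBaseChange ↥L1 (modularFunctionFieldFull (M * q * q))) : LaurentSeries ↥L1) := by
    rw [← m59dl_TL_apply]
    rfl
  obtain ⟨hyA, hyC⟩ := hU A q hA M hqM L1 π hπ u hu hqu N₀ hq2 hqN₀ hlev1 hlev2 VC T3 (ℓ : ℕ) ℓ.2 hℓ
    x y x' hxc hyc hxA hxC
  -- the relation inside `lg_E`
  have eE : y = algebraMap ↥L1 ↥(lg_E ↥L1 (N₀ * q * q)) a' * x ^ k * sE ^ p := by
    rw [hy, erel, map_mul, map_mul, map_pow, map_pow, AlgEquiv.commutes, hx',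
      AlgEquiv.symm_apply_apply]
  -- the tower
  have T := s36asm_tower_of_third (A.comap (algebraMap ↥L1 Qb)) hπ N₀ q hq2 hqN₀ u hu hqu T3
  letI := ssm_gi_algebra (ssm_al_E_le ↥L1 (N₀ * q) q)
  letI := ssm_gi_algebra (ssm_al_E_beta_le ↥L1 (N₀ * q) q hq2)
  letI := ssm_gi_algebraV (ssm_al_E_le ↥L1 (N₀ * q) q)
    (ssm_gl_V1 (A.comap (algebraMap ↥L1 Qb)) hπ N₀ q)
  letI := ssm_gi_algebraV (ssm_al_E_le ↥L1 (N₀ * q) q)
    (s36i_VV (A.comap (algebraMap ↥L1 Qb)) hπ N₀ q hq2 hqN₀)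
  letI := ssm_gi_algebraV (ssm_al_E_beta_le ↥L1 (N₀ * q) q hq2)
    (s36i_RU (A.comap (algebraMap ↥L1 Qb)) hπ N₀ q hq2 hqN₀)
  letI := ssm_gi_algebraV (ssm_al_E_beta_le ↥L1 (N₀ * q) q hq2)
    (s36i_RG (A.comap (algebraMap ↥L1 Qb)) hπ (N₀ * q) q hq2)
  haveI := ssm_gi_isScalarTower (ssm_al_E_le ↥L1 (N₀ * q) q)
    (ssm_gl_V1 (A.comap (algebraMap ↥L1 Qb)) hπ N₀ q)
  haveI := ssm_gi_isScalarTower (ssm_al_E_le ↥L1 (N₀ * q) q)
    (s36i_VV (A.comap (algebraMap ↥L1 Qb)) hπ N₀ q hq2 hqN₀)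
  haveI := ssm_gi_isScalarTower (ssm_al_E_beta_le ↥L1 (N₀ * q) q hq2)
    (s36i_RU (A.comap (algebraMap ↥L1 Qb)) hπ N₀ q hq2 hqN₀)
  haveI := ssm_gi_isScalarTower (ssm_al_E_beta_le ↥L1 (N₀ * q) q hq2)
    (s36i_RG (A.comap (algebraMap ↥L1 Qb)) hπ (N₀ * q) q hq2)
  haveI := ssm_gi_isScalarTower_base (ssm_al_E_le ↥L1 (N₀ * q) q)
  haveI := ssm_gi_isScalarTower_base (ssm_al_E_beta_le ↥L1 (N₀ * q) q hq2)
  have hT : s36at_Tower (K1 := ↥(lg_E ↥L1 (N₀ * q)))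
      (K2 := ↥((lg_E ↥L1 (N₀ * q)).map (qExpandAlgHomC ↥L1 q)))
      (A.comap (algebraMap ↥L1 Qb)) ((π : ↥(A.comap (algebraMap ↥L1 Qb))) : ↥L1) q
      (s36i_VA (A.comap (algebraMap ↥L1 Qb)) hπ (N₀ * q) q)
      (s36i_VB (A.comap (algebraMap ↥L1 Qb)) hπ N₀ q hq2 hqN₀) VC
      _ _ _ _ _ _ _ _ _ _ := T
  have hq1 : q - 1 + 1 = q := Nat.sub_add_cancel hq.out.one_le
  haveI : FiniteDimensional ↥(lg_E ↥L1 (N₀ * q)) ↥(lg_E ↥L1 (N₀ * q * q)) :=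
    ssm_gi_finiteDimensional (n := q - 1) (by rw [hq1]; exact hT.side1.finrank_eq)
  haveI : FiniteDimensional ↥((lg_E ↥L1 (N₀ * q)).map (qExpandAlgHomC ↥L1 q))
      ↥(lg_E ↥L1 (N₀ * q * q)) :=
    ssm_gi_finiteDimensional (n := q - 1) (by rw [hq1]; exact hT.side2.finrank_eq)
  obtain ⟨a'', s', ha''0, ha''O, hs'A, hs'C, e'⟩ :=
    m59dl_normalise_root hT.hVA hT.hVC (s36at_dec hT.unifA hT.archA) hT.hϖ0 hp0 hxA hxC hyA hyC eE
  -- the `C`-root of `s'`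
  obtain ⟨rC, hC, h, -, -, hCR⟩ :=
    m59dl_croot_exists A hA M hqM ↥L1 hπ N₀ hq2 hqN₀ hlev1 hlev2 T3 s' hs'A hs'C
  refine ⟨algebraMap ↥L1 Qb a'', m59dl_bc2 M ↥L1 N₀ hlev2 s', k, h,
    (map_ne_zero _).2 ha''0, hk, ?_, hCR⟩
  have hbcs : m59dl_bc2 M ↥L1 N₀ hlev2 s' =
      dsc_bcHom ↥L1 Qb (modularFunctionFieldFull (M * q * q)) (eqv s') := rfl
  have hfinal : m59dl_TL ↥L1 (M * q * q) (ℓ : ℕ) x' =
      algebraMap ↥L1 (laurentBaseChange ↥L1 (modularFunctionFieldFull (M * q * q))) a'' * x' ^ k *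
        eqv s' ^ p := by
    have h1 : m59dl_TL ↥L1 (M * q * q) (ℓ : ℕ) x' = eqv y := by
      rw [hy, AlgEquiv.apply_symm_apply]
    rw [h1, e', map_mul, map_mul, map_pow, map_pow, AlgEquiv.commutes]
  rw [m59dl_T_bc ↥L1 (M * q * q) (ℓ : ℕ) ℓ.2 hℓ x', hfinal, hbcs, map_mul, map_mul, map_pow, map_pow,
    dsc_bcHom_algebraMap]

end HRel

end Fermat.Agent.M59
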