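/-
Project M59, Sink B (`m59t_Eq2_stmt`), cell (G2') [DELTA] (helper17; tag `m59dl_`), part 17:
**THE WRAP**: `m59sb_DeltaC2_stmt` FROM ITS INNER SEAMS

  [RESTR] `m59dl_Restr_stmt` (helper1: `m59g12_restr_stmt`),
  (C3) [PDIV-C] `m59dlp_PDivCq_stmt` (helper8 + helper3: `m59dlp_pdivC`),
  (C5) [RES-DESC] `m59dl_ResDesc_stmt`, [HECKE-UNIT] `m59dl_HeckeUnit_stmt`.

`T := {ζ}`, `ζ` a primitive `N'/2`-th root of unity (needed by [PDIV-C]); the `C`-root of the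
normalised unit `u2` of base `N'/2` is `p`-divisible ([PDIV-C]) and, if the eigensystem does not occur
at level `N'`, a constant times a `p`-th power (`m59dl_mainCQ2` with `m59dl_hrel_one`); [RES-DESC]
descends this to the level `L1` and [RESTR] transfers it back to base `N'`.
-/
import Mathlib
import Fermat.Agent.M59.SinkB.Delta.WrapC2
import Fermat.Agent.M59.SinkB.Delta.PDivCMain

set_option autoImplicit false
set_option linter.unusedSectionVars false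
set_option linter.unusedVariables false
set_option linter.style.haveILetI false
set_option synthInstance.maxHeartbeats 400000
set_option maxHeartbeats 1000000

noncomputable section

namespace Fermat.Agent.M59

open ModularCurve AlgebraicCurve IntermediateField IsLocalRing
open Fermat.Agent.JT3 Fermat.Agent.SS Fermat.Agent.S35 Fermat.Agent.S24 Fermat.Agent.S28
open Fermat.Agent.MZ Fermat.Agent.S44 Fermat.Agent.S36 Fermat.Agent.SS2

local notation "Qb" => AlgebraicClosure ℚ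

section Core

variable (N' q p : ℕ) [NeZero N'] [NeZero q] [hqF : Fact q.Prime] [NeZero (N' * q)]
  [NeZero (N' * q * q)] [hpF : Fact p.Prime]

set_option maxHeartbeats 8000000 in
/-- **the core of the wrap**: over a level `L1 ∋ ζ_{N''}`, for a model `g1`. -/
theorem m59dl_resCPow1_core (hR : m59dl_Restr_stmt) (hP : m59dlp_PDivCq_stmt)
    (hD : m59dl_ResDesc_stmt) (hU : m59dl_HeckeUnit_stmt)
    (hp2 : p ≠ 2) (hqp : q ≠ p) (hq2 : ¬ 2 ∣ q) (hqN' : ¬ q ∣ N')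
    (N'' : ℕ) [NeZero N''] (hN : N' = 2 * N'') (h2N'' : 2 ∣ N'')
    (A : ValuationSubring Qb) (hA : A.LiesOverPrime q) (S : Finset ℕ) (a : ℕ → ℤ)
    (z : JZero (N' * q * q)) (hpz : p • z = 0)
    (heig : ∀ (ℓ : ℕ) (hℓ : ℓ.Prime), ¬ ℓ ∣ N' * q * q → ℓ ∉ S →
      heckeOperatorBar (N' * q * q) ⟨ℓ, hℓ⟩ z = a ℓ • z)
    (hLow : ¬ m59sb_LowChar N' q p S a)
    (L1 : IntermediateField ℚ Qb) (hfd : FiniteDimensional ℚ L1) (ζ : ↥L1)
    (hζ : IsPrimitiveRoot ζ N'')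
    (g1 : laurentBaseChange L1 (modularFunctionFieldFull (N' * q * q)))
    (hmod : m59sb_IsModel N' q p z L1 g1)
    [IsDiscreteValuationRing ↥(A.comap (algebraMap ↥L1 Qb))]
    [CharP (ResidueField ↥(A.comap (algebraMap ↥L1 Qb))) q]
    (hπ : Irreducible ((q : ℕ) : ↥(A.comap (algebraMap ↥L1 Qb)))) :
    m59sb_ResCPow1 (A.comap (algebraMap ↥L1 Qb)) hπ N' q hq2 hqN' p
      (ss2_dp_iota ↥L1 (N' * q * q) g1) := by
  intro VC hVC hex
  obtain ⟨j, h, hh0, hU3⟩ := hex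
  have hq : q.Prime := hqF.out
  have hp : p.Prime := hpF.out
  have hp0 : p ≠ 0 := hp.ne_zero
  have hqN'' : ¬ q ∣ N'' := fun hd => hqN' (hN ▸ Dvd.dvd.mul_left hd 2)
  have h4 : 4 ∣ N' := by
    obtain ⟨k, hk⟩ := h2N''
    exact ⟨k, by rw [hN, hk]; ring⟩
  have hlev1 : Nat.lcm 4 (2 * (N'' * q)) = N' * q := by
    have e : 2 * (N'' * q) = N' * q := by rw [hN]; ring
    rw [e]
    exact Nat.lcm_eq_right (Dvd.dvd.mul_right h4 q)
  have hlev2 : Nat.lcm 4 (2 * (N'' * q * q)) = N' * q * q := by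
    have e : 2 * (N'' * q * q) = N' * q * q := by rw [hN]; ring
    rw [e]
    exact Nat.lcm_eq_right (Dvd.dvd.mul_right (Dvd.dvd.mul_right h4 q) q)
  haveI : NumberField ↥L1 := { to_charZero := inferInstance, to_finiteDimensional := hfd }
  have hE := m59dl_E_eq ↥L1 (N'' * q * q) (N' * q * q) hlev2
  -- the model inside `lg_E L1 (N'' q q)`
  obtain ⟨g1', hg1'⟩ : ∃ g1' : ↥(lg_E ↥L1 (N'' * q * q)),
      IntermediateField.equivOfEq hE g1' = g1 :=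
    ⟨(IntermediateField.equivOfEq hE).symm g1, AlgEquiv.apply_symm_apply _ _⟩
  have hg1c : ((g1' : ↥(lg_E ↥L1 (N'' * q * q))) : LaurentSeries ↥L1) =
      ((g1 : laurentBaseChange ↥L1 (modularFunctionFieldFull (N' * q * q))) :
        LaurentSeries ↥L1) := by
    rw [← hg1']
    rfl
  have hg : ((ss2_dp_iota ↥L1 (N' * q * q) g1 : ↥(lg_E ↥L1 (N' * q * q))) : LaurentSeries ↥L1) =
      qExpand ↥L1 2 ((g1' : ↥(lg_E ↥L1 (N'' * q * q))) : LaurentSeries ↥L1) := by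
    rw [ss2_dp_iota_coe, hg1c]
  -- [RESTR]
  obtain ⟨VC2, hVC2, h2, h20, hU3', hback⟩ :=
    hR A q L1 ((q : ℕ) : ↥(A.comap (algebraMap ↥L1 Qb))) hπ 1 isUnit_one (mul_one _).symm N' N'' hN
      h2N'' hq2 hqN' hqN'' p hp hp2 hqp.symm VC hVC g1' (ss2_dp_iota ↥L1 (N' * q * q) g1) hg j h
      hh0 hU3
  set ϖ : ↥L1 := (((q : ℕ) : ↥(A.comap (algebraMap ↥L1 Qb))) : ↥L1) with hϖ
  set u2 : ↥(lg_E ↥L1 (N'' * q * q)) :=
    g1' * algebraMap ↥L1 ↥(lg_E ↥L1 (N'' * q * q)) ϖ ^ j * (h2 ^ p)⁻¹ with hu2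
  obtain ⟨hA2, hB2, hC2⟩ := hU3'
  -- the `C`-root
  obtain ⟨rC, hC, g, hcong, hgcoe, hCR⟩ :=
    m59dl_croot_exists A hA N' hqN' ↥L1 hπ N'' hq2 hqN'' hlev1 hlev2 hVC2 u2 hA2 hC2
  have hg0 : g ≠ 0 := hCR.1
  -- nonvanishing
  have hg1'0 : g1' ≠ 0 := by
    rintro rfl
    rw [map_zero] at hg1'
    exact hmod.1 hg1'.symm
  have hϖ0 : ϖ ≠ 0 := by
    rw [hϖ]
    intro h0
    exact hπ.ne_zero (Subtype.ext h0)
  have hCϖ0 : algebraMap ↥L1 ↥(lg_E ↥L1 (N'' * q * q)) ϖ ≠ 0 := (map_ne_zero _).2 hϖ0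
  -- the horizontal orders of `u2`
  have hord : ∀ w : Place ↥L1 ↥(lg_E ↥L1 (N'' * q * q)), (p : ℤ) ∣ w.ord u2 := by
    intro w
    have h1 : (p : ℤ) ∣ w.ord g1' :=
      m59dl_places_congr hE.symm (p : ℤ) g1 g1' hg1c.symm hmod.2.2.1 w
    rw [hu2, w.ord_mul (mul_ne_zero hg1'0 (zpow_ne_zero _ hCϖ0)) (inv_ne_zero (pow_ne_zero _ h20)),
      w.ord_mul hg1'0 (zpow_ne_zero _ hCϖ0), w.ord_zpow, hw_ord_algebraMap, mul_zero, add_zero,
      w.ord_inv, rt_ord_pow]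
    exact dvd_add h1 (Dvd.dvd.neg_right (dvd_mul_right _ _))
  have hpd : s44k2d_PDiv (K := s44e_kA A) p g :=
    ⟨hg0, hP A q hA N' hqN' L1 hπ N'' hq2 hqN'' ζ hζ hlev1 p VC2 hVC2 u2 ⟨hA2, hB2, hC2⟩ hord rC hC
      g hcong hgcoe⟩
  -- `bc u2` represents `z`
  have hrep : s44f_Rep (N' * q * q) p z (m59dl_bc2 N' ↥L1 N'' hlev2 u2) := by
    obtain ⟨c₀, r₀, hc₀, hr₀, hrep0⟩ := hmod.2.1
    set bc := dsc_bcHom ↥L1 Qb (modularFunctionFieldFull (N' * q * q)) with hbc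
    have hbcu : m59dl_bc2 N' ↥L1 N'' hlev2 u2 = bc (IntermediateField.equivOfEq hE u2) := rfl
    set h2' := IntermediateField.equivOfEq hE h2 with hh2'
    have hh2'0 : bc h2' ≠ 0 := by
      rw [Ne, map_eq_zero, hh2', map_eq_zero]
      exact h20
    have hbϖ : bc (algebraMap ↥L1 _ ϖ) ≠ 0 := by
      rw [Ne, map_eq_zero, map_eq_zero]
      exact hϖ0
    have hequ : IntermediateField.equivOfEq hE u2 =
        g1 * algebraMap ↥L1 _ ϖ ^ j * (h2' ^ p)⁻¹ := by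
      rw [hu2]
      simp only [map_mul, map_inv₀, map_pow, map_zpow₀, AlgEquiv.commutes]
      rw [hg1']
    have e1 : bc (IntermediateField.equivOfEq hE u2) =
        bc g1 * bc (algebraMap ↥L1 _ ϖ) ^ j * (bc h2' ^ p)⁻¹ := by
      rw [hequ]
      simp only [map_mul, map_inv₀, map_pow, map_zpow₀]
    rw [hbcu, e1]
    have hcz : bc (algebraMap ↥L1 _ ϖ) ^ j =
        algebraMap Qb (modularFunctionFieldBar (N' * q * q)) ((algebraMap ↥L1 Qb ϖ) ^ j) := by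
      rw [map_zpow₀, hbc, dsc_bcHom_algebraMap]
    have hc1 : c₀ * ((algebraMap ↥L1 Qb ϖ) ^ j)⁻¹ ≠ 0 :=
      mul_ne_zero hc₀ (inv_ne_zero (zpow_ne_zero _ ((map_ne_zero _).2 hϖ0)))
    have hr1 : r₀ * bc h2' ≠ 0 := mul_ne_zero hr₀ hh2'0
    refine (s44b_rep_pth (N' * q * q) hc1 hr1).1 ?_
    have e2 : algebraMap Qb (modularFunctionFieldBar (N' * q * q))
        (c₀ * ((algebraMap ↥L1 Qb ϖ) ^ j)⁻¹) *
          (bc g1 * bc (algebraMap ↥L1 _ ϖ) ^ j * (bc h2' ^ p)⁻¹) * (r₀ * bc h2') ^ p =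
        algebraMap Qb (modularFunctionFieldBar (N' * q * q)) c₀ * r₀ ^ p * bc g1 := by
      rw [hcz, map_mul, map_inv₀, mul_pow]
      have h3 : algebraMap Qb (modularFunctionFieldBar (N' * q * q))
          ((algebraMap ↥L1 Qb ϖ) ^ j) ≠ 0 :=
        (map_ne_zero _).2 (zpow_ne_zero _ ((map_ne_zero _).2 hϖ0))
      have h4 : (algebraMap Qb (modularFunctionFieldBar (N' * q * q))
          ((algebraMap ↥L1 Qb ϖ) ^ j))⁻¹ * algebraMap Qb (modularFunctionFieldBar (N' * q * q))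
          ((algebraMap ↥L1 Qb ϖ) ^ j) = 1 := inv_mul_cancel₀ h3
      have h5 : (bc h2' ^ p)⁻¹ * bc h2' ^ p = 1 := inv_mul_cancel₀ (pow_ne_zero _ hh2'0)
      linear_combination (algebraMap Qb (modularFunctionFieldBar (N' * q * q)) c₀ * bc g1 *
        r₀ ^ p * ((bc h2' ^ p)⁻¹ * bc h2' ^ p)) * h4 +
        (algebraMap Qb (modularFunctionFieldBar (N' * q * q)) c₀ * bc g1 * r₀ ^ p) * h5
    rw [e2]
    exact hrep0
  -- the `C`-root is a constant times a `p`-th power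
  have hpow : ∃ (κb : s44e_kA A) (hb : ↥(s44e_FF A N')),
      g = algebraMap (s44e_kA A) ↥(s44e_FF A N') κb * hb ^ p := by
    by_contra hnp
    apply hLow
    have hGN : ∀ ℓ ∈ {ℓ : ℕ | ℓ.Prime ∧ ℓ ∉ S ∧ ¬ ℓ ∣ N' * q}, ¬ ℓ ∣ N' * q * q := by
      rintro ℓ ⟨hℓ, -, hℓN⟩ hd
      rcases (Nat.Prime.dvd_mul hℓ).1 hd with h1 | h1
      · exact hℓN h1
      · have : ℓ = q := (Nat.prime_dvd_prime_iff_eq hℓ hq).1 h1
        exact hℓN (this ▸ Dvd.intro_left N' rfl)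
    obtain ⟨v, hv0, hv⟩ := m59dl_mainCQ2 hq hA hqN' hp {ℓ : ℕ | ℓ.Prime ∧ ℓ ∉ S ∧ ¬ ℓ ∣ N' * q}
      (fun hG => hG.2.2 (Dvd.intro_left N' rfl)) hGN a hCR hpd hnp (by
        intro ℓ hG hℓM
        exact m59dl_hrel_one A hA N' hqN' L1 hπ 1 isUnit_one (mul_one _).symm N'' hq2 hqN'' hlev1
          hlev2 hU hVC2 hp ℓ (hGN _ hG) hpz (a ℓ) (heig ℓ ℓ.2 (hGN _ hG) hG.2.1) u2 hA2 hC2 hrep)
    exact ⟨v, hv0, fun ℓ hℓ hℓN' hG => hv ℓ hℓ hℓN' ⟨hℓ, hG.1, hG.2⟩⟩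
  -- [RES-DESC]
  obtain ⟨κ, w1, hκ, hw1, hres⟩ :=
    hD A q hA N' hqN' L1 _ hπ N'' hlev1 p hp hqp.symm rC hC g hgcoe hg0 hpow
  -- transfer to `VC2`
  letI := ssm_gi_algebra (ssm_al_E_le ↥L1 (N'' * q) q)
  letI := ssm_gi_algebraV (ssm_al_E_le ↥L1 (N'' * q) q)
    (ssm_gl_V1 (A.comap (algebraMap ↥L1 Qb)) hπ N'' q)
  haveI := ssm_gi_isScalarTower (ssm_al_E_le ↥L1 (N'' * q) q)
    (ssm_gl_V1 (A.comap (algebraMap ↥L1 Qb)) hπ N'' q)
  have T3' : s36t3_Third ↥(lg_E ↥L1 (N'' * q))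
      ↥(ssm_gl_V1 (A.comap (algebraMap ↥L1 Qb)) hπ N'' q) q
      (s36at_leg_piF (A.comap (algebraMap ↥L1 Qb)) hπ N'' q) (s36asm_z (L := ↥L1) N'' q hq2 hqN'')
      (s36i_VA (A.comap (algebraMap ↥L1 Qb)) hπ (N'' * q) q) VC2 := hVC2
  set incl := IntermediateField.inclusion (ssm_al_E_le ↥L1 (N'' * q) q) with hincl
  have hw1V : w1 ∈ ssm_gl_V1 (A.comap (algebraMap ↥L1 Qb)) hπ N'' q :=
    ((ssm_gl_V1 (A.comap (algebraMap ↥L1 Qb)) hπ N'' q).valuation_le_one_iff w1).1 hw1.le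
  have hw10 : w1 ≠ 0 := by
    rintro rfl
    rw [map_zero] at hw1
    exact zero_ne_one hw1
  have hw1V' : w1⁻¹ ∈ ssm_gl_V1 (A.comap (algebraMap ↥L1 Qb)) hπ N'' q := by
    apply ((ssm_gl_V1 (A.comap (algebraMap ↥L1 Qb)) hπ N'' q).valuation_le_one_iff _).1
    rw [map_inv₀, hw1, inv_one]
  have hw2 : VC2.valuation (incl w1) = 1 := by
    refine s36at_val_one_of_inv_mem ((map_ne_zero _).2 hw10) ?_ ?_
    · exact ssm_tw_over_mem T3'.overC ⟨w1, hw1V⟩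
    · rw [← map_inv₀]
      exact ssm_tw_over_mem T3'.overC ⟨w1⁻¹, hw1V'⟩
  have hres' : incl (rC - algebraMap ↥L1 ↥(lg_E ↥L1 (N'' * q)) κ * w1 ^ p) ∈ VC2.nonunits :=
    (ssm_tw_over_nonunits T3'.overC
      ⟨rC - algebraMap ↥L1 ↥(lg_E ↥L1 (N'' * q)) κ * w1 ^ p,
        ValuationSubring.nonunits_subset hres⟩).2 (ValuationSubring.coe_mem_nonunits_iff.1 hres)
  have hcong2 : u2 - algebraMap ↥L1 ↥(lg_E ↥L1 (N'' * q * q)) κ * incl w1 ^ p ∈ VC2.nonunits := by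
    have := ssm_tw_nonunits_add VC2 hcong hres'
    have e3 : u2 - incl rC + incl (rC - algebraMap ↥L1 ↥(lg_E ↥L1 (N'' * q)) κ * w1 ^ p) =
        u2 - algebraMap ↥L1 ↥(lg_E ↥L1 (N'' * q * q)) κ * incl w1 ^ p := by
      rw [map_sub, map_mul, map_pow, hincl, AlgHom.commutes]
      ring
    rwa [e3] at this
  obtain ⟨w, hw, hw'⟩ := hback κ (incl w1) hκ hw2 hcong2
  exact ⟨j, h, κ, w, hh0, hU3, hκ, hw, hw'⟩

end Core

/-- **(G2') [DELTA-C], issue 2, from its inner seams.** -/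
theorem m59dl_deltaC2_of (hR : m59dl_Restr_stmt) (hP : m59dlp_PDivCq_stmt)
    (hD : m59dl_ResDesc_stmt) (hU : m59dl_HeckeUnit_stmt) : m59sb_DeltaC2_stmt := by
  intro N' q p _ _ hqF _ _ hpF hp2 hqp hpq1 hq2 hqN' h4 A hA S a hpS hnE z hz0 hpz hin heig hP1 hP2
  by_cases hLow : m59sb_LowChar N' q p S a
  · exact Or.inl hLow
  obtain ⟨N'', hN⟩ : ∃ N'', N' = 2 * N'' := dvd_trans (by norm_num) h4
  have hN''0 : N'' ≠ 0 := by
    rintro rfl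
    exact NeZero.ne N' (by rw [hN, mul_zero])
  haveI : NeZero N'' := ⟨hN''0⟩
  have h2N'' : 2 ∣ N'' := by
    obtain ⟨k, hk⟩ := h4
    exact ⟨k, by omega⟩
  have hqN'' : ¬ q ∣ N'' := fun hd => hqN' (hN ▸ Dvd.dvd.mul_left hd 2)
  obtain ⟨ζ0, hζ0⟩ : ∃ ζ : Qb, IsPrimitiveRoot ζ N'' :=
    HasEnoughRootsOfUnity.exists_primitiveRoot Qb N''
  refine Or.inr ⟨{ζ0}, ?_, ?_⟩
  · intro t ht s hs
    rw [Finset.mem_singleton] at ht
    subst ht
    exact s35d_root_fixed A q hA hqN'' hζ0.pow_eq_one hs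
  intro L1 hL1 hT g1 hmod _ _ hπ
  have hζL1 : ζ0 ∈ L1 := hT (Finset.mem_coe.2 (Finset.mem_singleton_self ζ0))
  exact m59dl_resCPow1_core N' q p hR hP hD hU hp2 hqp hq2 hqN' N'' hN h2N'' A hA S a z hpz heig hLow
    L1 hL1.fd ⟨ζ0, hζL1⟩
    (IsPrimitiveRoot.of_map_of_injective (f := algebraMap L1 Qb)
      (show IsPrimitiveRoot (algebraMap L1 Qb ⟨ζ0, hζL1⟩) N'' from hζ0)
      (algebraMap L1 Qb).injective) g1 hmod hπ

end Fermat.Agent.M59
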