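/-
Project M59, Sink B (`m59t_Eq2_stmt`), cell (G2') [DELTA-C] (helper18; tag `m59dlw_`):
**THE WRAP: `m59dlw_deltaC2 : m59sb_DeltaC2_stmt`** (M59/SinkB/G12/Seams.lean), from the four closed
seams of `Delta/SeamsC.lean`:
  [RESTR] `m59g12_restr_stmt` (helper1), (C3) [PDIV-C] `m59dlp_pdivC` (helper8 + helper3),
  (C5) [RES-DESC] `m59dlr_resDesc` (helper22), [HECKE-UNIT]/[HROOT] `m59dlh_hroot` (helper18),
and helper17's `m59dl_croot_exists` (Delta/CExQ.lean) + `m59dl_mainCQ` (Delta/InstC.lean).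

Proof.  If `m59sb_LowChar N' q p S a` holds we are done.  Otherwise `T := {ζ_{N''}}`, `N'' = N'/2`.
Over a level `L1 ∋ ζ_{N''}`, for a model `g1` and a vertical normalisation `(j, h)` of `ι g1` at base
`N'`: [RESTR] gives a third valuation `VC2` at base `N''` and `h2` with
`u2 = g1 · q^j · (h2^p)⁻¹` a unit at `VA''`, `VB''`, `VC2`; `m59dl_croot_exists` gives `rC ∈ E₁''` with
`u2 ≡ rC` mod `𝔪(VC2)` and the `C`-root `g = red rC` of `bc2 u2`; [PDIV-C] gives `p ∣ ord_Q g` for all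
`Q`.  If `g = C κ̄ · h̄^p`: [RES-DESC] + (W-RD) `m59dlw_resC_of_res1` + the transfer-back clause of [RESTR]
give `m59sb_ResCPow1`.  If not: `m59dl_mainCQ` (with `f := bc2 u2`, a representative of `z`;
`G := {ℓ prime, ℓ ∉ S, ℓ ∤ N' q}`; `hroot` by `m59dlh_hroot`) gives `m59sb_LowChar`: contradiction.
-/
import Mathlib
import Fermat.Agent.M59.SinkB.Delta.HeckeRoot
import Fermat.Agent.M59.SinkB.Delta.PDivCMain
import Fermat.Agent.M59.SinkB.Delta.ResDesc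
import Fermat.Agent.M59.SinkB.G12.RestrStmt

set_option autoImplicit false
set_option linter.unusedSectionVars false
set_option linter.unusedVariables false
set_option linter.style.haveILetI false
set_option synthInstance.maxHeartbeats 400000
set_option maxHeartbeats 1000000

noncomputable section

namespace Fermat.Agent.M59

open ModularCurve AlgebraicCurve IntermediateField IsLocalRing
open Fermat.Agent.JT3 Fermat.Agent.SS Fermat.Agent.S35 Fermat.Agent.S24 Fermat.Agent.S28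
open Fermat.Agent.MZ Fermat.Agent.S44 Fermat.Agent.S36 Fermat.Agent.SS2 Fermat.Agent.TW

local notation "Qb" => AlgebraicClosure ℚ

section Aux

/-- divisibility of all orders only depends on the subfield. -/
theorem m59dlw_ord_congr {K Ω : Type*} [Field K] [Field Ω] [Algebra K Ω]
    {S T : IntermediateField K Ω} (h : S = T) (x : ↥S) (y : ↥T) (hxy : (x : Ω) = (y : Ω)) (m : ℤ)
    (hord : ∀ w : Place K ↥T, m ∣ w.ord y) : ∀ w : Place K ↥S, m ∣ w.ord x := by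
  subst h
  obtain rfl : x = y := Subtype.ext hxy
  exact hord

/-- the two levels. -/
theorem m59dlw_lev (N' N'' q : ℕ) (hN : N' = 2 * N'') (h2N : 2 ∣ N'') :
    Nat.lcm 4 (2 * (N'' * q)) = N' * q ∧ Nat.lcm 4 (2 * (N'' * q * q)) = N' * q * q := by
  obtain ⟨t, rfl⟩ := h2N
  subst hN
  constructor
  · rw [show 2 * (2 * t * q) = 4 * (t * q) by ring, show 2 * (2 * t) * q = 4 * (t * q) by ring]
    exact Nat.lcm_eq_right (Dvd.intro _ rfl)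
  · rw [show 2 * (2 * t * q * q) = 4 * (t * q * q) by ring,
      show 2 * (2 * t) * q * q = 4 * (t * q * q) by ring]
    exact Nat.lcm_eq_right (Dvd.intro _ rfl)

end Aux

section RD

variable {L : Type*} [Field L] [CharZero L] [Algebra L (AlgebraicClosure ℚ)]
  (O : ValuationSubring L) [IsDiscreteValuationRing O] {π : O} (hπ : Irreducible π)
variable (N' q : ℕ) [NeZero N'] [NeZero q] [hq : Fact q.Prime] [CharP (ResidueField O) q]
  (hq2 : ¬ 2 ∣ q) (hqN' : ¬ q ∣ N')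

/-- **(W-RD)**: a congruence `rC ≡ C κ · w1^p` modulo `𝔪(V1)` in `E₁` gives the congruence
`x ≡ C κ · w1^p` modulo `𝔪(VC)` for every `x ≡ rC` modulo `𝔪(VC)`. -/
theorem m59dlw_resC_of_res1 {VC : ValuationSubring ↥(lg_E L (N' * q * q))}
    (T3 : s36asm_Third O hπ N' q hq2 hqN' VC) {p : ℕ}
    (x : ↥(lg_E L (N' * q * q))) (rC : ↥(lg_E L (N' * q)))
    (hrC : x - IntermediateField.inclusion (ssm_al_E_le L (N' * q) q) rC ∈ VC.nonunits)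
    (κ : L) (w1 : ↥(lg_E L (N' * q)))
    (hw1 : (ssm_gl_V1 O hπ N' q).valuation w1 = 1)
    (hres : rC - algebraMap L ↥(lg_E L (N' * q)) κ * w1 ^ p ∈ (ssm_gl_V1 O hπ N' q).nonunits) :
    VC.valuation (IntermediateField.inclusion (ssm_al_E_le L (N' * q) q) w1) = 1 ∧
      x - algebraMap L ↥(lg_E L (N' * q * q)) κ *
        (IntermediateField.inclusion (ssm_al_E_le L (N' * q) q) w1) ^ p ∈ VC.nonunits := by
  letI := ssm_gi_algebra (ssm_al_E_le L (N' * q) q)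
  letI := ssm_gi_algebraV (ssm_al_E_le L (N' * q) q) (ssm_gl_V1 O hπ N' q)
  haveI := ssm_gi_isScalarTower (ssm_al_E_le L (N' * q) q) (ssm_gl_V1 O hπ N' q)
  have T3' : s36t3_Third ↥(lg_E L (N' * q)) ↥(ssm_gl_V1 O hπ N' q) q
      (s36at_leg_piF O hπ N' q) (s36asm_z (L := L) N' q hq2 hqN')
      (s36i_VA O hπ (N' * q) q) VC := T3
  have hw10 : w1 ≠ 0 := by
    rintro rfl
    rw [map_zero] at hw1
    exact zero_ne_one hw1
  obtain ⟨hw1m, hw1i⟩ := (m59ei_val_eq_one_iff (ssm_gl_V1 O hπ N' q) hw10).1 hw1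
  have hover := T3'.overC
  have h1 : IntermediateField.inclusion (ssm_al_E_le L (N' * q) q) w1 ∈ VC :=
    (hover w1).2 ⟨⟨w1, hw1m⟩, rfl⟩
  have h2 : (IntermediateField.inclusion (ssm_al_E_le L (N' * q) q) w1)⁻¹ ∈ VC := by
    rw [← map_inv₀]
    exact (hover w1⁻¹).2 ⟨⟨w1⁻¹, hw1i⟩, rfl⟩
  have hi0 : IntermediateField.inclusion (ssm_al_E_le L (N' * q) q) w1 ≠ 0 :=
    (map_ne_zero _).2 hw10
  refine ⟨(m59ei_val_eq_one_iff VC hi0).2 ⟨h1, h2⟩, ?_⟩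
  have ht : (⟨rC - algebraMap L ↥(lg_E L (N' * q)) κ * w1 ^ p,
      (ssm_gl_V1 O hπ N' q).nonunits_le hres⟩ : ↥(ssm_gl_V1 O hπ N' q)) ∈
      maximalIdeal ↥(ssm_gl_V1 O hπ N' q) :=
    ValuationSubring.coe_mem_nonunits_iff.1 hres
  have h3 : IntermediateField.inclusion (ssm_al_E_le L (N' * q) q)
      (rC - algebraMap L ↥(lg_E L (N' * q)) κ * w1 ^ p) ∈ VC.nonunits :=
    (ssm_tw_over_nonunits T3'.overC _).2 ht
  have h4 := ssm_tw_nonunits_add VC hrC h3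
  rw [map_sub, map_mul, map_pow, AlgHom.commutes, sub_add_sub_cancel] at h4
  exact h4

end RD

section Core

set_option maxHeartbeats 4000000 in
/-- **the core of [DELTA-C]**, over one level `L1 ∋ ζ_{N''}`. -/
theorem m59dlw_core (N' N'' q p : ℕ) [NeZero N'] [NeZero N''] [NeZero q] [hqF : Fact q.Prime]
    [NeZero (N' * q)] [NeZero (N' * q * q)]
    (hp : p.Prime) (hp2 : p ≠ 2) (hqp : q ≠ p) (hN : N' = 2 * N'') (h2N : 2 ∣ N'')
    (hq2 : ¬ 2 ∣ q) (hqN' : ¬ q ∣ N') (hqN'' : ¬ q ∣ N'')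
    (A : ValuationSubring Qb) (hA : A.LiesOverPrime q) (S : Finset ℕ) (a : ℕ → ℤ)
    (z : JZero (N' * q * q)) (hpz : p • z = 0)
    (heig : ∀ (ℓ : ℕ) (hℓ : ℓ.Prime), ¬ ℓ ∣ N' * q * q → ℓ ∉ S →
      heckeOperatorBar (N' * q * q) ⟨ℓ, hℓ⟩ z = a ℓ • z)
    (hLow : ¬ m59sb_LowChar N' q p S a)
    (L1 : IntermediateField ℚ Qb) [NumberField ↥L1]
    [IsDiscreteValuationRing ↥(A.comap (algebraMap ↥L1 Qb))]
    [CharP (ResidueField ↥(A.comap (algebraMap ↥L1 Qb))) q]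
    (hπ : Irreducible ((q : ℕ) : ↥(A.comap (algebraMap ↥L1 Qb))))
    (ζ : ↥L1) (hζ : IsPrimitiveRoot ζ N'')
    (g1 : laurentBaseChange L1 (modularFunctionFieldFull (N' * q * q)))
    (hmod : m59sb_IsModel N' q p z L1 g1) :
    m59sb_ResCPow1 (A.comap (algebraMap ↥L1 Qb)) hπ N' q hq2 hqN' p
      (ss2_dp_iota ↥L1 (N' * q * q) g1) := by
  classical
  intro VC T3 hex
  obtain ⟨j, h, hh, hU3⟩ := hex
  obtain ⟨hlev1, hlev2⟩ := m59dlw_lev N' N'' q hN h2N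
  obtain ⟨hg1, ⟨c₀, r₀, hc₀, hr₀, hRep⟩, hord, hα, hβ⟩ := hmod
  set φ := m59dlh_phi N' ↥L1 N'' hlev2 with hφ
  set g1E := φ g1 with hg1E
  have hgE : ((ss2_dp_iota ↥L1 (N' * q * q) g1 : ↥(lg_E ↥L1 (N' * q * q))) : LaurentSeries ↥L1) =
      qExpand ↥L1 2 ((g1E : ↥(lg_E ↥L1 (N'' * q * q))) : LaurentSeries ↥L1) := by
    rw [ss2_dp_iota_coe, hg1E, m59dlh_phi_coe]
  obtain ⟨VC2, T3'', h2, hh2, hU2, hback⟩ := m59g12_restr_stmt A q L1
    ((q : ℕ) : ↥(A.comap (algebraMap ↥L1 Qb))) hπ 1 isUnit_one (mul_one _).symm N' N'' hN h2N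
    hq2 hqN' hqN'' p hp hp2 hqp.symm VC T3 g1E (ss2_dp_iota ↥L1 (N' * q * q) g1) hgE j h hh hU3
  set ϖE : ↥(lg_E ↥L1 (N'' * q * q)) := algebraMap ↥L1 ↥(lg_E ↥L1 (N'' * q * q))
    ((((q : ℕ) : ↥(A.comap (algebraMap ↥L1 Qb))) : ↥(A.comap (algebraMap ↥L1 Qb))) : ↥L1) with hϖE
  set u2 : ↥(lg_E ↥L1 (N'' * q * q)) := g1E * ϖE ^ j * (h2 ^ p)⁻¹ with hu2
  obtain ⟨hu2A, hu2B, hu2C⟩ := hU2
  obtain ⟨rC, hC, g, hrC, hgcoe, hCR⟩ := m59dl_croot_exists A hA N' hqN' ↥L1 hπ N'' hq2 hqN''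
    hlev1 hlev2 T3'' u2 hu2A hu2C
  -- the horizontal orders of `u2`
  have hg1E0 : g1E ≠ 0 := (EmbeddingLike.map_ne_zero_iff).2 hg1
  have hordE : ∀ w : Place ↥L1 ↥(lg_E ↥L1 (N'' * q * q)), (p : ℤ) ∣ w.ord g1E :=
    m59dlw_ord_congr (m59dl_E_eq ↥L1 (N'' * q * q) (N' * q * q) hlev2) g1E g1
      (m59dlh_phi_coe N' ↥L1 N'' hlev2 g1) (p : ℤ) hord
  have hq0 : ((((q : ℕ) : ↥(A.comap (algebraMap ↥L1 Qb))) : ↥(A.comap (algebraMap ↥L1 Qb))) : ↥L1)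
      ≠ 0 := by
    have := hπ.ne_zero
    exact fun h0 => this (Subtype.ext h0)
  have hϖE0 : ϖE ≠ 0 := (map_ne_zero _).2 hq0
  have hord2 : ∀ w : Place ↥L1 ↥(lg_E ↥L1 (N'' * q * q)), (p : ℤ) ∣ w.ord u2 := by
    intro w
    have hz : ϖE ^ j ≠ 0 := zpow_ne_zero _ hϖE0
    have hh2p : (h2 ^ p)⁻¹ ≠ 0 := inv_ne_zero (pow_ne_zero p hh2)
    rw [hu2, w.ord_mul (mul_ne_zero hg1E0 hz) hh2p, w.ord_mul hg1E0 hz, w.ord_zpow, w.ord_inv,
      ← zpow_natCast, w.ord_zpow, hϖE, hw_ord_algebraMap, mul_zero, add_zero]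
    exact dvd_add (hordE w) (Dvd.dvd.neg_right (Dvd.intro _ rfl))
  have hpd : ∀ Q : Place (s44e_kA A) ↥(s44e_FF A N'), (p : ℤ) ∣ Q.ord g :=
    m59dlp_pdivC A q hA N' hqN' L1 hπ N'' hq2 hqN'' ζ hζ hlev1 p VC2 T3'' u2
      ⟨hu2A, hu2B, hu2C⟩ hord2 rC hC g hrC hgcoe
  by_cases hnp : ∃ (κb : s44e_kA A) (hb : ↥(s44e_FF A N')),
      g = algebraMap (s44e_kA A) ↥(s44e_FF A N') κb * hb ^ p
  · -- the `C`-root is a constant times a `p`-th power: descend and lift the congruence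
    obtain ⟨κ, w1, hκ, hw1, hres⟩ := m59dlr_resDesc A q hA N' hqN' L1
      ((q : ℕ) : ↥(A.comap (algebraMap ↥L1 Qb))) hπ N'' hlev1 p hp hqp.symm rC hC g hgcoe hCR.1 hnp
    obtain ⟨hval, hnon⟩ := m59dlw_resC_of_res1 (A.comap (algebraMap ↥L1 Qb)) hπ N'' q hq2 hqN''
      T3'' u2 rC hrC κ w1 hw1 hres
    obtain ⟨w, hw, hfin⟩ := hback κ _ hκ hval hnon
    exact ⟨j, h, κ, w, hh, hU3, hκ, hw, hfin⟩
  · -- otherwise the eigensystem occurs at level `N'`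
    exfalso
    apply hLow
    set G : Set ℕ := {ℓ | ℓ.Prime ∧ ℓ ∉ S ∧ ¬ ℓ ∣ N' * q} with hG
    have hqG : q ∉ G := fun h => h.2.2 (Dvd.intro_left N' rfl)
    have hGN : ∀ ℓ ∈ G, ¬ ℓ ∣ N' * q * q := by
      intro ℓ hℓ hd
      rcases (Nat.Prime.dvd_mul hℓ.1).1 hd with h1 | h1
      · exact hℓ.2.2 h1
      · exact hℓ.2.2 (h1.mul_left N')
    -- `bc2 u2` represents `z`
    set B := dsc_bcHom ↥L1 Qb (modularFunctionFieldFull (N' * q * q)) with hB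
    set h2' := φ.symm h2 with hh2'
    have hh2'0 : h2' ≠ 0 := (EmbeddingLike.map_ne_zero_iff).2 hh2
    set t : ↥(laurentBaseChange ↥L1 (modularFunctionFieldFull (N' * q * q))) :=
      g1 * algebraMap ↥L1 ↥(laurentBaseChange ↥L1 (modularFunctionFieldFull (N' * q * q)))
        ((((q : ℕ) : ↥(A.comap (algebraMap ↥L1 Qb))) : ↥(A.comap (algebraMap ↥L1 Qb))) : ↥L1) ^ j *
        (h2' ^ p)⁻¹ with ht
    have hu2t : u2 = φ t := by
      rw [ht, map_mul, map_mul, map_zpow₀, map_inv₀, map_pow, AlgEquiv.commutes, hh2',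
        φ.apply_symm_apply]
    have hbu2 : m59dl_bc2 N' ↥L1 N'' hlev2 u2 = B t := by
      rw [hu2t]
      exact m59dlh_bc2_eq N' ↥L1 N'' hlev2 (φ t) t (m59dlh_phi_coe N' ↥L1 N'' hlev2 t)
    have hBh0 : B h2' ≠ 0 := (map_ne_zero _).2 hh2'0
    have hqQ : algebraMap ↥L1 Qb
        ((((q : ℕ) : ↥(A.comap (algebraMap ↥L1 Qb))) : ↥(A.comap (algebraMap ↥L1 Qb))) : ↥L1) ≠ 0 :=
      (map_ne_zero _).2 hq0
    have hBt : B t = algebraMap Qb (Fbar (N' * q * q)) (algebraMap ↥L1 Qb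
        ((((q : ℕ) : ↥(A.comap (algebraMap ↥L1 Qb))) : ↥(A.comap (algebraMap ↥L1 Qb))) : ↥L1) ^ j) *
        B g1 * ((B h2')⁻¹) ^ p := by
      rw [ht, map_mul, map_mul, map_zpow₀, map_inv₀, map_pow, dsc_bcHom_algebraMap, map_zpow₀,
        inv_pow]
      rw [mul_comm (B g1)]
    have hf : s44f_Rep (N' * q * q) p z (m59dl_bc2 N' ↥L1 N'' hlev2 u2) := by
      rw [hbu2, hBt, s44b_rep_pth (N' * q * q) (zpow_ne_zero _ hqQ) (inv_ne_zero hBh0)]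
      have hRep' : s44f_Rep (N' * q * q) p z
          (algebraMap Qb (Fbar (N' * q * q)) c₀ * B g1 * r₀ ^ p) := by
        rw [mul_right_comm (algebraMap Qb (Fbar (N' * q * q)) c₀) (B g1) (r₀ ^ p)]
        exact hRep
      exact (s44b_rep_pth (N' * q * q) hc₀ hr₀).1 hRep'
    have hroot : ∀ ℓ : Nat.Primes, (ℓ : ℕ) ∈ G → ¬ (ℓ : ℕ) ∣ N' →
        haveI : NeZero (ℓ : ℕ) := ⟨ℓ.2.ne_zero⟩
        ∀ (c : Qb) (r : Fbar (N' * q * q)) (k : ℕ), c ≠ 0 → r ≠ 0 →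
          s44hr_T (N' * q * q) ℓ (m59dl_bc2 N' ↥L1 N'' hlev2 u2) =
            algebraMap Qb (Fbar (N' * q * q)) c * (m59dl_bc2 N' ↥L1 N'' hlev2 u2) ^ k * r ^ p →
          ∃ h : ↥(s44e_FF A N'), m59dl_CRootQ A hA N' hqN' r h := by
      intro ℓ hℓG hℓM
      haveI : NeZero (ℓ : ℕ) := ⟨ℓ.2.ne_zero⟩
      intro c r k hc hr e
      exact m59dlh_hroot A hA N' hqN' ↥L1 hπ N'' hq2 hqN'' hlev1 hlev2 1 isUnit_one
        (mul_one _).symm T3'' hp.ne_zero u2 hu2A hu2C (ℓ : ℕ) ℓ.2 (hGN _ hℓG) c r k hc hr e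
    obtain ⟨v, hv0, hv⟩ := m59dl_mainCQ hqF.out hA hqN' hp G hqG hGN a hpz
      (fun ℓ hℓG => heig (ℓ : ℕ) ℓ.2 (hGN _ hℓG) hℓG.2.1) hf hCR ⟨hCR.1, hpd⟩ hnp hroot
    exact ⟨v, hv0, fun ℓ hℓ hℓN' hℓG => hv ℓ hℓ hℓN' ⟨hℓ, hℓG.1, hℓG.2⟩⟩

end Core

/-- **(G2') [DELTA-C], issue 2**: `m59sb_DeltaC2_stmt` of `M59/SinkB/G12/Seams.lean`, with
`T := {ζ_{N'/2}}`. -/
theorem m59dlw_deltaC2 : m59sb_DeltaC2_stmt := by
  intro N' q p _ _ hqF _ _ hpF hp2 hqp hpq1 hq2 hqN' h4 A hA S a hpS hℓ₀ z hz0 hpz hIz heig hP1 hP2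
  by_cases hLow : m59sb_LowChar N' q p S a
  · exact Or.inl hLow
  right
  obtain ⟨N'', hN⟩ : 2 ∣ N' := dvd_trans (by norm_num : 2 ∣ 4) h4
  have h2N : 2 ∣ N'' := by
    have h4' : 2 * 2 ∣ 2 * N'' := by
      rw [← hN]
      exact h4
    exact (Nat.mul_dvd_mul_iff_left (by norm_num)).1 h4'
  haveI : NeZero N'' := ⟨by
    rintro rfl
    exact (NeZero.ne N') (by rw [hN, mul_zero])⟩
  have hqN'' : ¬ q ∣ N'' := fun h => hqN' (by rw [hN]; exact h.mul_left 2)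
  obtain ⟨ζ0, hζ0⟩ := HasEnoughRootsOfUnity.exists_primitiveRoot Qb N''
  refine ⟨{ζ0}, ?_, ?_⟩
  · intro t ht s hs
    rw [Finset.mem_singleton] at ht
    subst ht
    exact s35d_root_fixed A q hA hqN'' hζ0.pow_eq_one hs
  · intro L1 hL1 hT g1 hmod _ _ hπ
    haveI : NumberField ↥L1 :=
      { to_charZero := inferInstance, to_finiteDimensional := hL1.fd }
    have hζL : ζ0 ∈ L1 := hT (by simp)
    have hζ1 : IsPrimitiveRoot (⟨ζ0, hζL⟩ : ↥L1) N'' :=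
      IsPrimitiveRoot.of_map_of_injective (f := algebraMap ↥L1 Qb) hζ0
        (algebraMap ↥L1 Qb).injective
    exact m59dlw_core N' N'' q p hpF.out hp2 hqp hN h2N hq2 hqN' hqN'' A hA S a z hpz heig hLow
      L1 hπ ⟨ζ0, hζL⟩ hζ1 g1 hmod

end Fermat.Agent.M59
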