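/-
Project M59, Sink B, cell (G2') [DELTA-C], the wrap `m59sb_DeltaC2_stmt` (helper17 / helper18),
piece (W-RD) (helper22; tag `m59dlr_`):
THE BRANCH `g = C κ̄ · h̄ ^ p` OF THE WRAP.

Context of `Delta/CExQ.lean` `section Main` with `L1 : IntermediateField ℚ ℚ̄`: `O1 := A ∩ L1`,
`E₁ := lg_E L1 (N₀ q) ≤ E₂ := lg_E L1 (N₀ q q)`, `V1 := ssm_gl_V1 O1 hπ N₀ q`, `VC` a third valuation
of base `N₀` (`T3 : s36asm_Third O1 hπ N₀ q hq2 hqN₀ VC`).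

* `m59dlr_third_incl_mem`, `m59dlr_third_incl_nonunits`, `m59dlr_third_incl_unit` : the restriction
  facts `VC ∩ E₁ = V1` of the third-valuation package, element form along
  `IntermediateField.inclusion (ssm_al_E_le L1 (N₀ q) q)`;
* **`m59dlr_wrapRD`** : `x ≡ incl rC mod 𝔪(VC)`, `g = κ ∘ red rC ≠ 0`, `g = C κb · hb ^ p` over `kA`
  ⟹ `∃ κ w, O1.valuation κ = 1 ∧ VC.valuation w = 1 ∧ x − C κ · w ^ p ∈ 𝔪(VC)` (`w = incl w1`,
  `(κ, w1)` from `m59dlr_resDesc`).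
-/
import Mathlib
import Fermat.Agent.M59.SinkB.Delta.ResDesc

set_option autoImplicit false
set_option linter.unusedSectionVars false
set_option linter.unusedVariables false
set_option linter.style.haveILetI false
set_option synthInstance.maxHeartbeats 400000
set_option maxHeartbeats 1000000

noncomputable section

namespace Fermat.Agent.M59

open ModularCurve AlgebraicCurve IntermediateField IsLocalRing
open Fermat.Agent.JT3 Fermat.Agent.SS Fermat.Agent.S35 Fermat.Agent.S24 Fermat.Agent.S28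
open Fermat.Agent.MZ Fermat.Agent.S44 Fermat.Agent.S36 Fermat.Agent.SS2

local notation "Qb" => AlgebraicClosure ℚ

section Third

variable {L : Type*} [Field L] [CharZero L] [Algebra L (AlgebraicClosure ℚ)]
  (O : ValuationSubring L) [IsDiscreteValuationRing O] {π : O} (hπ : Irreducible π)
variable (N₀ q : ℕ) [NeZero N₀] [NeZero q] [hq : Fact q.Prime] [CharP (ResidueField O) q]
  (hq2 : ¬ 2 ∣ q) (hqN₀ : ¬ q ∣ N₀)
  {VC : ValuationSubring ↥(lg_E L (N₀ * q * q))}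
  (T3 : s36asm_Third O hπ N₀ q hq2 hqN₀ VC)

include T3 in
/-- `VC ∩ E₁ = V1`, membership. -/
theorem m59dlr_third_incl_mem (y : ↥(lg_E L (N₀ * q))) :
    IntermediateField.inclusion (ssm_al_E_le L (N₀ * q) q) y ∈ VC ↔
      y ∈ ssm_gl_V1 O hπ N₀ q := by
  letI := ssm_gi_algebra (ssm_al_E_le L (N₀ * q) q)
  letI := ssm_gi_algebraV (ssm_al_E_le L (N₀ * q) q) (ssm_gl_V1 O hπ N₀ q)
  haveI := ssm_gi_isScalarTower (ssm_al_E_le L (N₀ * q) q) (ssm_gl_V1 O hπ N₀ q)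
  have T3' : s36t3_Third ↥(lg_E L (N₀ * q)) ↥(ssm_gl_V1 O hπ N₀ q) q
      (s36at_leg_piF O hπ N₀ q) (s36asm_z (L := L) N₀ q hq2 hqN₀)
      (s36i_VA O hπ (N₀ * q) q) VC := T3
  have h := T3'.overC y
  constructor
  · intro hy
    obtain ⟨r, hr⟩ := h.1 hy
    rw [← hr]
    exact r.2
  · intro hy
    exact h.2 ⟨⟨y, hy⟩, rfl⟩

include T3 in
/-- `𝔪(VC) ∩ E₁ = 𝔪(V1)`. -/
theorem m59dlr_third_incl_nonunits (y : ↥(lg_E L (N₀ * q)))
    (hy : y ∈ (ssm_gl_V1 O hπ N₀ q).nonunits) :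
    IntermediateField.inclusion (ssm_al_E_le L (N₀ * q) q) y ∈ VC.nonunits := by
  letI := ssm_gi_algebra (ssm_al_E_le L (N₀ * q) q)
  letI := ssm_gi_algebraV (ssm_al_E_le L (N₀ * q) q) (ssm_gl_V1 O hπ N₀ q)
  haveI := ssm_gi_isScalarTower (ssm_al_E_le L (N₀ * q) q) (ssm_gl_V1 O hπ N₀ q)
  have T3' : s36t3_Third ↥(lg_E L (N₀ * q)) ↥(ssm_gl_V1 O hπ N₀ q) q
      (s36at_leg_piF O hπ N₀ q) (s36asm_z (L := L) N₀ q hq2 hqN₀)
      (s36i_VA O hπ (N₀ * q) q) VC := T3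
  have hmem : y ∈ ssm_gl_V1 O hπ N₀ q := (ssm_gl_V1 O hπ N₀ q).nonunits_le hy
  have hn' : (⟨y, hmem⟩ : ↥(ssm_gl_V1 O hπ N₀ q)) ∈ maximalIdeal ↥(ssm_gl_V1 O hπ N₀ q) :=
    ValuationSubring.coe_mem_nonunits_iff.1 hy
  exact (ssm_tw_over_nonunits T3'.overC _).2 hn'

include T3 in
/-- a unit of `V1` is a unit of `VC`. -/
theorem m59dlr_third_incl_unit (y : ↥(lg_E L (N₀ * q)))
    (hy : (ssm_gl_V1 O hπ N₀ q).valuation y = 1) :
    VC.valuation (IntermediateField.inclusion (ssm_al_E_le L (N₀ * q) q) y) = 1 := by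
  have h1 : y ∈ ssm_gl_V1 O hπ N₀ q :=
    ((ssm_gl_V1 O hπ N₀ q).valuation_le_one_iff y).1 hy.le
  have h2 : y⁻¹ ∈ ssm_gl_V1 O hπ N₀ q := by
    rw [← (ssm_gl_V1 O hπ N₀ q).valuation_le_one_iff, map_inv₀, hy, inv_one]
  have h3 := (m59dlr_third_incl_mem O hπ N₀ q hq2 hqN₀ T3 y).2 h1
  have h4 := (m59dlr_third_incl_mem O hπ N₀ q hq2 hqN₀ T3 y⁻¹).2 h2
  rw [map_inv₀] at h4
  have h5 := (VC.valuation_le_one_iff _).2 h3
  have h6 := (VC.valuation_le_one_iff _).2 h4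
  rw [map_inv₀] at h6
  have hy0 : y ≠ 0 := by
    rintro rfl
    rw [map_zero] at hy
    exact zero_ne_one hy
  have hw0 : IntermediateField.inclusion (ssm_al_E_le L (N₀ * q) q) y ≠ 0 :=
    (map_ne_zero _).2 hy0
  have hpos : 0 < VC.valuation (IntermediateField.inclusion (ssm_al_E_le L (N₀ * q) q) y) :=
    zero_lt_iff.2 ((Valuation.ne_zero_iff _).2 hw0)
  exact le_antisymm h5 ((inv_le_one₀ hpos).1 h6)

end Third

section Wrap

/-- **(W-RD)**: the branch `g = C κ̄ · h̄ ^ p` of the wrap. -/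
theorem m59dlr_wrapRD (A : ValuationSubring Qb) {q : ℕ} [Fact q.Prime] [NeZero q]
    (hA : A.LiesOverPrime q) (M : ℕ) [NeZero M] (hqM : ¬ q ∣ M)
    (L1 : IntermediateField ℚ Qb)
    [IsDiscreteValuationRing ↥(A.comap (algebraMap ↥L1 Qb))]
    [CharP (ResidueField ↥(A.comap (algebraMap ↥L1 Qb))) q]
    {π : ↥(A.comap (algebraMap ↥L1 Qb))} (hπ : Irreducible π)
    (N₀ : ℕ) [NeZero N₀] (hq2 : ¬ 2 ∣ q) (hqN₀ : ¬ q ∣ N₀)
    (hlev1 : Nat.lcm 4 (2 * (N₀ * q)) = M * q)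
    {VC : ValuationSubring ↥(lg_E ↥L1 (N₀ * q * q))}
    (T3 : s36asm_Third (A.comap (algebraMap ↥L1 Qb)) hπ N₀ q hq2 hqN₀ VC)
    {p : ℕ} (hp : p.Prime) (hpq : p ≠ q)
    (x : ↥(lg_E ↥L1 (N₀ * q * q))) (rC : ↥(lg_E ↥L1 (N₀ * q)))
    (hC : gq_IsBdd ↥(A.comap (algebraMap ↥L1 Qb)) ↥L1
      ((rC : ↥(lg_E ↥L1 (N₀ * q))) : LaurentSeries ↥L1))
    (g : ↥(s44e_FF A M))
    (hx : x - IntermediateField.inclusion (ssm_al_E_le ↥L1 (N₀ * q) q) rC ∈ VC.nonunits)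
    (hg : ((g : ↥(s44e_FF A M)) : LaurentSeries (ResidueField ↥A)) =
      coeffMap (ssm_gb_kappa (algebraMap ↥L1 Qb) (A.comap (algebraMap ↥L1 Qb)) A
        (fun _ => Iff.rfl))
        (gq_res ↥(A.comap (algebraMap ↥L1 Qb)) ↥L1
          ⟨((rC : ↥(lg_E ↥L1 (N₀ * q))) : LaurentSeries ↥L1), hC⟩))
    (hg0 : g ≠ 0)
    (hpow : ∃ (κb : s44e_kA A) (hb : ↥(s44e_FF A M)),
      g = algebraMap (s44e_kA A) ↥(s44e_FF A M) κb * hb ^ p) :
    ∃ (κ : ↥L1) (w : ↥(lg_E ↥L1 (N₀ * q * q))),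
      (A.comap (algebraMap ↥L1 Qb)).valuation κ = 1 ∧ VC.valuation w = 1 ∧
      x - algebraMap ↥L1 ↥(lg_E ↥L1 (N₀ * q * q)) κ * w ^ p ∈ VC.nonunits := by
  obtain ⟨κ, w1, hκ, hw1, hd⟩ := m59dlr_resDesc A q hA M hqM L1 π hπ N₀ hlev1 p hp hpq rC hC g hg
    hg0 hpow
  refine ⟨κ, IntermediateField.inclusion (ssm_al_E_le ↥L1 (N₀ * q) q) w1, hκ,
    m59dlr_third_incl_unit (A.comap (algebraMap ↥L1 Qb)) hπ N₀ q hq2 hqN₀ T3 w1 hw1, ?_⟩
  have h1 := m59dlr_third_incl_nonunits (A.comap (algebraMap ↥L1 Qb)) hπ N₀ q hq2 hqN₀ T3 _ hd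
  have h2 := ssm_tw_nonunits_add VC hx h1
  have e : x - IntermediateField.inclusion (ssm_al_E_le ↥L1 (N₀ * q) q) rC +
      IntermediateField.inclusion (ssm_al_E_le ↥L1 (N₀ * q) q)
        (rC - algebraMap ↥L1 ↥(lg_E ↥L1 (N₀ * q)) κ * w1 ^ p) =
      x - algebraMap ↥L1 ↥(lg_E ↥L1 (N₀ * q * q)) κ *
        IntermediateField.inclusion (ssm_al_E_le ↥L1 (N₀ * q) q) w1 ^ p := by
    rw [map_sub, map_mul, map_pow, AlgHom.commutes]
    ring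
  rwa [e] at h2

end Wrap

end Fermat.Agent.M59
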